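import Fermat.Agent.RT.Lift.Frame

/-!
# The Hecke input of lifting

`LiftLevel` is the module of one level `level j` at one Taylor–Wiles tuple, with its algebra and
Galois representation.  `LiftBottom` is the family of these modules at the empty tuple, with the
facts that are only needed there.  `LiftStage` is the family at one tuple, with the maps between
consecutive levels and the reductions to the bottom.
-/

set_option autoImplicit false

noncomputable section

open IsLocalRing WeierstrassCurve ModularFormClass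

namespace FLTA.RT

local notation "Γℚ" => AlgebraicClosure ℚ ≃ₐ[ℚ] AlgebraicClosure ℚ

namespace LiftFrame

variable {W : WeierstrassCurve ℤ} {hΔ : W.Δ ≠ 0} {p : ℕ} [Fact p.Prime] {M : ℕ}
  (F : LiftFrame W hΔ p M)

/-- The empty tuple. -/
def noPrimes : Fin 0 → ℕ := Fin.elim0

/-- The module of the level `level j` at the tuple `qv`. -/
structure LiftLevel (d n j : ℕ) {r : ℕ} (qv : Fin r → ℕ) : Type 1 where
  M : Type
  [instAddCommGroup : AddCommGroup M]
  [instModule : Module (F.Diamond r n) M]
  basis : Module.Basis (Fin d) (F.Diamond r n) M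
  A : Type
  [instCommRing : CommRing A]
  [instIsLocalRing : IsLocalRing A]
  [instIsNoetherianRing : IsNoetherianRing A]
  [instIsAdicComplete : IsAdicComplete (maximalIdeal A) A]
  [instAlgebra : Algebra F.E.R A]
  [instIsLocalHom : IsLocalHom (algebraMap F.E.R A)]
  [instModuleFinite : Module.Finite F.E.R A]
  residue_surjective : Function.Surjective (residue A ∘ algebraMap F.E.R A)
  diamond : MvPowerSeries (Fin r) F.E.R →ₐ[F.E.R] A
  α : A →+* Module.End (F.Diamond r n) M
  α_diamond : ∀ s (x : M),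
    α (diamond s) x = Ideal.Quotient.mk (F.diamondRel r n) s • x
  ρ : GaloisRepAdic A
  isOfType : F.cond qv ρ
  residual_isEquiv : ρ.residual.IsEquiv
    (F.rhobar.baseChangeAlong (ResidueField.map (algebraMap F.E.R A)))
  /-- the algebra is generated by the traces and the diamonds -/
  generated : Algebra.adjoin F.E.R (Set.range ρ.trace ∪ Set.range diamond) = ⊤
  /-- the points separate -/
  separated : ∀ a : A, a ≠ 0 →
    ∃ (E' : RepTheory.FiniteDVRExt F.E.R) (ψ : A →ₐ[F.E.R] E'.R), ψ a ≠ 0
  /-- sites not yet in the level are unramified -/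
  unramified_site : ∀ i : Fin F.k, j ≤ (i : ℕ) → ρ.IsUnramifiedAt (F.site i)
  /-- sites in the level have unipotent inertia -/
  unipotent_site : ∀ i : Fin F.k, (i : ℕ) < j → ρ.IsUnipotentOnInertiaAt (F.site i)
  /-- at a multiplicative prime `p` every point is flat or strictly ordinary -/
  flat_or_strict : F.Mult → ∀ (E' : RepTheory.FiniteDVRExt F.E.R) (ψ : A →ₐ[F.E.R] E'.R)
    (hψ : IsLocalHom (ψ : A →+* E'.R)),
    (ρ.baseChangeAlong (ψ : A →+* E'.R) hψ).IsFlatAt p ∨ ψ (F.strictDefect ρ) = 0

attribute [instance] LiftLevel.instAddCommGroup LiftLevel.instModule LiftLevel.instCommRing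
  LiftLevel.instIsLocalRing LiftLevel.instIsNoetherianRing LiftLevel.instIsAdicComplete
  LiftLevel.instAlgebra LiftLevel.instIsLocalHom LiftLevel.instModuleFinite

/-- The composite `down ∘ up` at the site `q`, as a matrix over an algebra with a representation. -/
def raiseMatrix {R : Type} [CommRing R] [IsLocalRing R] (ρ : GaloisRepAdic R) (q : ℕ) :
    Matrix (Fin 2) (Fin 2) R :=
  !![(q : R) + 1, ρ.trace (F.frob q); ρ.trace (F.frob q), (q : R) + 1]

/-- The modules at the empty tuple. -/
structure LiftBottom : Type 1 where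
  /-- the ranks -/
  rank : ℕ → ℕ
  rank_pos : 0 < rank 0
  level : ∀ j : ℕ, j ≤ F.k → F.LiftLevel (rank j) 0 j noPrimes
  α_injective : ∀ (j : ℕ) (hj : j ≤ F.k), Function.Injective (level j hj).α
  /-- the Hecke bound: the raising determinant is injective -/
  det_injective : ∀ i : Fin F.k, Function.Injective ((level i i.2.le).α
    ((F.raiseMatrix (level i i.2.le).ρ (F.site i)).det))
  /-- a point of the top algebra with the eigenvalues of the curve comes from an eigenform -/
  modular : ∀ (ψ : (level F.k le_rfl).A →ₐ[F.E.R] F.E.R) (S : Finset ℕ),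
    (∀ ℓ : ℕ, ℓ.Prime → ℓ ∉ S →
      ψ ((level F.k le_rfl).ρ.trace (F.frob ℓ)) = (W.apOfModel ℓ : F.E.R)) →
    ∃ f : CuspForm (CongruenceSubgroup.Gamma0 (F.level F.k)) 2, f.IsNormalizedEigenform ∧
      ∃ T : Finset ℕ, ∀ ℓ : ℕ, ℓ.Prime → ℓ ∉ T → qCoeff f ℓ = (W.apOfModel ℓ : ℂ)
  /-- the rank of the old part at `p` of the first level -/
  oldRank : ℕ
  oldRank_lt : oldRank < rank 0

variable {F}

/-- The modules at one tuple, over a given bottom. -/
structure LiftStage (B : F.LiftBottom) (n : ℕ) {r : ℕ} (qv : Fin r → ℕ) : Type 1 where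
  level : ∀ j : ℕ, j ≤ F.k → F.LiftLevel (B.rank j) n j qv
  /-- elements of inertia at the Taylor–Wiles primes, the same for every level -/
  inertia : Fin r → Γℚ
  inertia_mem : ∀ i, inertia i ∈ (F.place (qv i)).inertiaSubgroupIn ℚ
  /-- local–global compatibility at the Taylor–Wiles primes: inertia has eigenvalue `1 + X i` -/
  diamond_trace : ∀ (j : ℕ) (hj : j ≤ F.k) i,
    (level j hj).diamond (MvPowerSeries.X i) ^ 2 =
      ((level j hj).ρ.trace (inertia i) - 2) * (level j hj).diamond (1 + MvPowerSeries.X i)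
  /-- the degeneracy maps -/
  up : ∀ i : Fin F.k, Fin 2 →
    (level i i.2.le).M →ₗ[F.Diamond r n] (level ((i : ℕ) + 1) i.2).M
  /-- the adjoint degeneracy maps -/
  down : ∀ i : Fin F.k, Fin 2 →
    (level ((i : ℕ) + 1) i.2).M →ₗ[F.Diamond r n] (level i i.2.le).M
  up_trace : ∀ (i : Fin F.k) l (σ : Γℚ) x,
    up i l ((level i i.2.le).α ((level i i.2.le).ρ.trace σ) x) =
      (level ((i : ℕ) + 1) i.2).α ((level ((i : ℕ) + 1) i.2).ρ.trace σ) (up i l x)
  down_trace : ∀ (i : Fin F.k) l (σ : Γℚ) y,
    down i l ((level ((i : ℕ) + 1) i.2).α ((level ((i : ℕ) + 1) i.2).ρ.trace σ) y) =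
      (level i i.2.le).α ((level i i.2.le).ρ.trace σ) (down i l y)
  down_up : ∀ (i : Fin F.k) l l' x, down i l (up i l' x) =
    (level i i.2.le).α (F.raiseMatrix (level i i.2.le).ρ (F.site i) l l') x
  up_injective : ∀ (i : Fin F.k) (x : Fin 2 → (level i i.2.le).M),
    ∑ l, up i l (x l) ∈ (maximalIdeal (MvPowerSeries (Fin r) F.E.R)).map
      (Ideal.Quotient.mk (F.diamondRel r n)) •
        (⊤ : Submodule (F.Diamond r n) (level ((i : ℕ) + 1) i.2).M) →
    ∀ l, x l ∈ (maximalIdeal (MvPowerSeries (Fin r) F.E.R)).map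
      (Ideal.Quotient.mk (F.diamondRel r n)) •
        (⊤ : Submodule (F.Diamond r n) (level i i.2.le).M)
  down_surjective : ∀ (i : Fin F.k) (c : Fin 2 → (level i i.2.le).M),
    ∃ y, ∀ l, down i l y = c l
  /-- the new part at a site -/
  new_trace : ∀ (i : Fin F.k) y, (∀ l, down i l y = 0) →
    (level ((i : ℕ) + 1) i.2).α ((level ((i : ℕ) + 1) i.2).ρ.trace (F.frob (F.site i)) ^ 2 -
      ((F.site i : (level ((i : ℕ) + 1) i.2).A) + 1) ^ 2) y = 0
  /-- the map to the old part at `p` of the first level -/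
  oldMap : (level 0 (Nat.zero_le _)).M →ₗ[F.Diamond r n] (Fin B.oldRank → F.Diamond r n)
  oldMap_surjective : F.Mult → Function.Surjective oldMap
  oldMap_stable : ∀ a x, oldMap x = 0 → oldMap ((level 0 (Nat.zero_le _)).α a x) = 0
  /-- the new part at `p` is strictly ordinary -/
  new_strict : F.Mult → ∀ x, oldMap x = 0 →
    (level 0 (Nat.zero_le _)).α (F.strictDefect (level 0 (Nat.zero_le _)).ρ) x = 0
  /-- reduction to the bottom -/
  red : ∀ (j : ℕ) (hj : j ≤ F.k), (level j hj).M →+ (B.level j hj).M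
  red_smul : ∀ (j : ℕ) (hj : j ≤ F.k) (s : MvPowerSeries (Fin r) F.E.R) x,
    red j hj (Ideal.Quotient.mk (F.diamondRel r n) s • x) =
      Ideal.Quotient.mk (F.diamondRel 0 0) (MvPowerSeries.C (MvPowerSeries.constantCoeff s)) •
        red j hj x
  red_surjective : ∀ (j : ℕ) (hj : j ≤ F.k), Function.Surjective (red j hj)
  red_eq_zero : ∀ (j : ℕ) (hj : j ≤ F.k) x, red j hj x = 0 →
    x ∈ (Ideal.span (Set.range (MvPowerSeries.X : Fin r → MvPowerSeries (Fin r) F.E.R))).map
      (Ideal.Quotient.mk (F.diamondRel r n)) • (⊤ : Submodule (F.Diamond r n) (level j hj).M)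
  red_trace : ∀ (j : ℕ) (hj : j ≤ F.k) (σ : Γℚ) x,
    red j hj ((level j hj).α ((level j hj).ρ.trace σ) x) =
      (B.level j hj).α ((B.level j hj).ρ.trace σ) (red j hj x)

variable (F)

/-- **The Hecke input**: one bottom, and stages over it at every Taylor–Wiles tuple. -/
def HasModules : Prop :=
  ∃ B : F.LiftBottom, ∀ (n r : ℕ) (qv : Fin r → ℕ),
    F.IsTWTuple n qv → Nonempty (LiftStage B n qv)

end LiftFrame

end FLTA.RT

end
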