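import Fermat.Agent.RT.Lift.ModulesClassical
import Fermat.Agent.RT.Lift.Inputs
import Fermat.Agent.BadRed.Endgame.Eigenform
import Fermat.Agent.HeckeDatum.Relation

/-!
# A point of the top bottom algebra with the eigenvalues of the curve is an eigenform

A point of the algebra of level `level k` restricts to an integral eigensystem of the classical
Hecke algebra, and an eigensystem comes from a normalised eigenform.
-/

set_option autoImplicit false

noncomputable section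

open IsLocalRing ModularFormClass

namespace FLTA.RT

set_option synthInstance.maxHeartbeats 400000
set_option maxHeartbeats 2000000

/-- A point of a Hecke algebra with integral eigenvalues at almost all primes comes from a
normalised eigenform with those eigenvalues. -/
theorem exists_eigenform_of_intPoint {R : Type} [CommRing R] [CharZero R] {N : ℕ} [NeZero N]
    (S₀ : Finset ℕ) (hN : ∀ q : ℕ, q.Prime → q ∣ N → q ∈ S₀)
    (χ : CuspForm.heckeAlgebra N 2 (↑S₀ : Set ℕ) →+* R) (a : ℕ → ℤ) (S : Finset ℕ)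
    (h : ∀ (l : ℕ) (hl : l.Prime) (hlN : ¬ l ∣ N) (hlS₀ : l ∉ (↑S₀ : Set ℕ)), l ∉ S →
      χ (CuspForm.heckeAlgebra.T hl hlN hlS₀) = (a l : R)) :
    ∃ f : CuspForm (CongruenceSubgroup.Gamma0 N) 2, f.IsNormalizedEigenform ∧
      ∃ T : Finset ℕ, ∀ ℓ : ℕ, ℓ.Prime → ℓ ∉ T → qCoeff f ℓ = (a ℓ : ℂ) := by
  classical
  set S₁ : Finset ℕ := S₀ ∪ S with hS₁
  have hsub : (↑S₀ : Set ℕ) ⊆ ↑S₁ := Finset.coe_subset.mpr Finset.subset_union_left
  let χ₁ : CuspForm.heckeAlgebra N 2 (↑S₁ : Set ℕ) →+* R :=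
    χ.comp (Subalgebra.inclusion (CuspForm.heckeAlgebra_mono hsub)).toRingHom
  have hgood : ∀ ℓ : Avoid.GoodPrime N (↑S₁ : Set ℕ), χ₁ (Avoid.goodT ℓ) = (a ℓ.1 : R) :=
    fun ℓ => h ℓ.1 ℓ.2.1 ℓ.2.2.1 (fun hm => ℓ.2.2.2 (hsub hm))
      fun hm => ℓ.2.2.2 (Finset.mem_coe.mpr (Finset.mem_union_right _ hm))
  have hrange : ∀ t, χ₁ t ∈ (Int.castRingHom R).range := by
    intro t
    have ht : t ∈ Algebra.adjoin ℤ (Set.range (Avoid.goodT (N := N) (S := (↑S₁ : Set ℕ)))) := by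
      rw [Avoid.adjoin_range_goodT fun q hq hd => hsub (Finset.mem_coe.mpr (hN q hq hd))]
      trivial
    induction ht using Algebra.adjoin_induction with
    | mem x hx =>
      obtain ⟨ℓ, rfl⟩ := hx
      exact ⟨a ℓ.1, (hgood ℓ).symm⟩
    | algebraMap c => exact ⟨c, by rw [eq_intCast, eq_intCast, map_intCast]⟩
    | add x y _ _ hx hy => rw [map_add]; exact add_mem hx hy
    | mul x y _ _ hx hy => rw [map_mul]; exact mul_mem hx hy
  let e : ℤ ≃+* (Int.castRingHom R).range :=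
    RingEquiv.ofBijective (Int.castRingHom R).rangeRestrict
      ⟨fun m n hmn => Int.cast_injective (α := R) (congrArg Subtype.val hmn),
        (Int.castRingHom R).rangeRestrict_surjective⟩
  let c : CuspForm.heckeAlgebra N 2 (↑S₁ : Set ℕ) →+* ℂ :=
    (Int.castRingHom ℂ).comp (e.symm.toRingHom.comp (χ₁.codRestrict _ hrange))
  haveI := GaloisReps.module_finite_fullHecke N
  obtain ⟨c', hc'⟩ := BadRed.exists_extend_char (HeckeDatum.toFullHecke N (↑S₁ : Set ℕ))
    (HeckeDatum.toFullHecke_injective _) c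
  obtain ⟨f, hf, hqc⟩ := BadRed.exists_normalized_of_char c'
  refine ⟨f, hf, S₁, fun ℓ hℓ hℓS => ?_⟩
  have hℓN : ¬ ℓ ∣ N := fun hd => hℓS (Finset.mem_union_left _ (hN ℓ hℓ hd))
  have hℓS' : ℓ ∉ (↑S₁ : Set ℕ) := fun hm => hℓS (Finset.mem_coe.mp hm)
  rw [hqc ℓ hℓ hℓN]
  have key := RingHom.congr_fun hc' (CuspForm.heckeAlgebra.T hℓ hℓN hℓS')
  refine Eq.trans key ?_
  show ((e.symm (χ₁.codRestrict _ hrange (CuspForm.heckeAlgebra.T hℓ hℓN hℓS')) : ℤ) : ℂ) = _
  have he : χ₁.codRestrict _ hrange (CuspForm.heckeAlgebra.T hℓ hℓN hℓS') = e (a ℓ) :=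
    Subtype.ext (hgood ⟨ℓ, hℓ, hℓN, hℓS'⟩)
  rw [he, RingEquiv.symm_apply_apply]

variable {W : WeierstrassCurve ℤ} {hΔ : W.Δ ≠ 0} {p : ℕ} [Fact p.Prime] {M : ℕ}

namespace LiftData

/-- A point of the algebra of the top level with the eigenvalues of the curve comes from an
eigenform. -/
theorem modular_of_point (D : LiftData W p M) (F : LiftFrame W hΔ p M)
    [NeZero (F.levelAt F.k LiftFrame.noPrimes)]
    (ψ : F.Alg 0 F.k LiftFrame.noPrimes →ₐ[F.E.R] F.E.R) (S : Finset ℕ)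
    (h : ∀ l : {l : ℕ // l.Prime ∧ l ∉ F.badSet LiftFrame.noPrimes}, l.1 ∉ S →
      ψ (F.algT 0 F.k LiftFrame.noPrimes l) = (W.apOfModel l.1 : F.E.R)) :
    ∃ f : CuspForm (CongruenceSubgroup.Gamma0 (F.level F.k)) 2, f.IsNormalizedEigenform ∧
      ∃ T : Finset ℕ, ∀ ℓ : ℕ, ℓ.Prime → ℓ ∉ T → qCoeff f ℓ = (W.apOfModel ℓ : ℂ) := by
  classical
  have htw : F.IsTWTuple 0 LiftFrame.noPrimes :=
    { injective := fun i => i.elim0
      prime := fun i => i.elim0
      notMem := fun i => i.elim0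
      pow_dvd := fun i => i.elim0
      distinct := fun i => i.elim0 }
  have hC : F.classicalAt F.k LiftFrame.noPrimes = F.level F.k := by
    simp [LiftFrame.classicalAt, LiftFrame.levelAt, LiftFrame.twistSet]
  haveI : NeZero (F.classicalAt F.k LiftFrame.noPrimes) :=
    ⟨D.classicalAt_ne_zero F.k htw.prime⟩
  obtain ⟨θ, hθ, hmem, -⟩ := D.exists_classical F (n := 0) (j := F.k) htw
  letI := LiftFrame.ringAlg F 0 F.k LiftFrame.noPrimes
  let χ : CuspForm.heckeAlgebra (F.classicalAt F.k LiftFrame.noPrimes) 2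
      (↑(F.badSet LiftFrame.noPrimes) : Set ℕ) →+* F.E.R :=
    (ψ : F.Alg 0 F.k LiftFrame.noPrimes →+* F.E.R).comp (θ.codRestrict _ hmem)
  obtain ⟨f, hf⟩ := exists_eigenform_of_intPoint (F.badSet LiftFrame.noPrimes)
    (fun q hq hd => D.mem_badSet_of_dvd_classicalAt F htw.prime hq hd) χ W.apOfModel S
    (fun l hl hlN hlS₀ hlS => by
      have hl' : l ∉ F.badSet LiftFrame.noPrimes := fun hm => hlS₀ (Finset.mem_coe.mpr hm)
      refine Eq.trans (congrArg ψ ?_) (h ⟨l, hl, hl'⟩ hlS)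
      exact Subtype.ext (hθ l hl hlN hlS₀))
  revert f
  rw [hC]
  exact fun f hf => ⟨f, hf⟩

end LiftData

end FLTA.RT

end
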