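import Fermat.Agent.RT.Lift.RankOps
import Fermat.Agent.RT.CoeffPoints
import Fermat.Agent.RT.Main.AvoidRingHom
import Fermat.Agent.RT.Main.DiamondRing
import Fermat.Agent.RepTheory.DVRExtension

/-!
# The level algebras of lifting are classical

The normalised operators come from the Hecke algebra of the classical level, so the algebra they
generate is commutative, finite and torsion-free over the coefficients, and its points separate.
-/

set_option autoImplicit false
set_option linter.style.haveILetI false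

noncomputable section

open IsLocalRing WeierstrassCurve CongruenceSubgroup

namespace FLTA.RT

open FLTA.Periods

variable {W : WeierstrassCurve ℤ} {hΔ : W.Δ ≠ 0} {p : ℕ} [Fact p.Prime] {M : ℕ}

set_option synthInstance.maxHeartbeats 400000
set_option maxHeartbeats 6000000

section Generic

/-- A ring homomorphism from a classical Hecke algebra hitting the operators, whose points
separate: its values lie in the algebra of the operators and the points separate that algebra. -/
theorem mem_adjoin_and_points {R : Type} [CommRing R] {U : Type} [AddCommGroup U] [Module R U]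
    {N : ℕ} [NeZero N] {S : Set ℕ} (hS : ∀ q : ℕ, q.Prime → q ∣ N → q ∈ S)
    (θ : CuspForm.heckeAlgebra N 2 S →+* Module.End R U) {σ : Type} (op : σ → Module.End R U)
    (hmap : ∀ ℓ : Avoid.GoodPrime N S, ∃ s, θ (Avoid.goodT ℓ) = op s)
    (hhit : ∀ s, ∃ ℓ : Avoid.GoodPrime N S, θ (Avoid.goodT ℓ) = op s) {K : Type} [CommRing K]
    {ι : Type} (pt : ι → R →+* K)
    (hsep : ∀ a : Algebra.adjoin R (Set.range θ), a ≠ 0 →
      ∃ (i : ι) (ψ : Algebra.adjoin R (Set.range θ) →+* K),
        (∀ r, ψ (algebraMap R _ r) = pt i r) ∧ ψ a ≠ 0) :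
    (∀ t, θ t ∈ Algebra.adjoin R (Set.range op)) ∧
      ∀ a : Algebra.adjoin R (Set.range op), a ≠ 0 →
        ∃ (i : ι) (ψ : Algebra.adjoin R (Set.range op) →+* K),
          (∀ r, ψ (algebraMap R _ r) = pt i r) ∧ ψ a ≠ 0 := by
  refine ⟨fun t => ?_, fun a ha => ?_⟩
  · have ht : t ∈ Algebra.adjoin ℤ (Set.range (Avoid.goodT (N := N) (S := S))) := by
      rw [Avoid.adjoin_range_goodT hS]; trivial
    induction ht using Algebra.adjoin_induction with
    | mem w hw =>
      obtain ⟨ℓ, rfl⟩ := hw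
      obtain ⟨s, hs⟩ := hmap ℓ
      rw [hs]
      exact Algebra.subset_adjoin ⟨s, rfl⟩
    | algebraMap c => rw [eq_intCast, map_intCast]; exact intCast_mem _ c
    | add u v _ _ hu hv => rw [map_add]; exact add_mem hu hv
    | mul u v _ _ hu hv => rw [map_mul]; exact mul_mem hu hv
  · have hle : Algebra.adjoin R (Set.range op) ≤ Algebra.adjoin R (Set.range θ) :=
      Algebra.adjoin_le (by
        rintro _ ⟨s, rfl⟩
        obtain ⟨ℓ, hℓ⟩ := hhit s
        exact Algebra.subset_adjoin ⟨_, hℓ⟩)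
    obtain ⟨i, ψ, hψ, hψa⟩ := hsep (Subalgebra.inclusion hle a) fun e =>
      ha (Subalgebra.inclusion_injective hle (e.trans (map_zero _).symm))
    refine ⟨i, ψ.comp (Subalgebra.inclusion hle).toRingHom, fun c => ?_, hψa⟩
    show ψ (Subalgebra.inclusion hle (algebraMap R _ c)) = _
    rw [AlgHom.commutes, hψ]

/-- A finite algebra separated by its points into the algebraic closure is separated by its
points into finite extensions. -/
theorem exists_point_of_separated {O : Type} [CommRing O] [IsDomain O] [IsDiscreteValuationRing O]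
    [IsAdicComplete (maximalIdeal O) O] [Finite (ResidueField O)] [CharZero O] {A : Type}
    [CommRing A] [Algebra O A] [Module.Finite O A]
    (hsep : ∀ a : A, a ≠ 0 → ∃ ψ : A →ₐ[O] AlgebraicClosure (FractionRing O), ψ a ≠ 0)
    (a : A) (ha : a ≠ 0) :
    ∃ (E' : RepTheory.FiniteDVRExt O) (ψ : A →ₐ[O] E'.R), ψ a ≠ 0 := by
  have hsep0 : ∀ x : A, (∀ ψ : A →ₐ[O] AlgebraicClosure (FractionRing O), ψ x = 0) → x = 0 :=
    fun x hx => by_contra fun hne => by
      obtain ⟨ψ, hψ⟩ := hsep x hne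
      exact hψ (hx ψ)
  haveI : IsReduced A := ⟨fun x hx => hsep0 x fun ψ => IsNilpotent.eq_zero (hx.map ψ)⟩
  haveI := RepTheory.isTorsionFree_algClosure O
  haveI : Module.IsTorsionFree O A := ⟨fun c hc x y hxy =>
    sub_eq_zero.mp <| hsep0 _ fun ψ => by
      refine (smul_eq_zero.mp ?_).resolve_left hc.ne_zero
      rw [← map_smul, smul_sub, show c • x = c • y from hxy, sub_self, map_zero]⟩
  obtain ⟨E', hE'⟩ := RepTheory.exists_points_of_isReduced (O := O) A
  exact ⟨E', hE' a ha⟩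

/-- A point over an intermediate ring is a point over the base. -/
theorem exists_algHom_of_point {O R A K : Type} [CommRing O] [CommRing R] [Ring A] [CommRing K]
    [Algebra O R] [Algebra R A] [Algebra O A] [Algebra O K]
    (h : ∀ c, algebraMap O A c = algebraMap R A (algebraMap O R c)) (i : R →ₐ[O] K) (ψ : A →+* K)
    (hψ : ∀ r, ψ (algebraMap R A r) = i r) : ∃ f : A →ₐ[O] K, ∀ a, f a = ψ a :=
  ⟨AlgHom.mk ψ fun c => show ψ (algebraMap O A c) = algebraMap O K c by
    rw [h, hψ, AlgHom.commutes], fun _ => rfl⟩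

end Generic

/-- The ring structure on the algebra of a level. -/
instance LiftFrame.ringAlg (F : LiftFrame W hΔ p M) (n j : ℕ) {r : ℕ} (qv : Fin r → ℕ)
    [NeZero (F.levelAt j qv)] : Ring (F.Alg n j qv) :=
  Subalgebra.toRing (R := F.Diamond r n) (A := Module.End (F.Diamond r n) (F.Mod n j qv))
    (F.Alg n j qv)

/-- The algebra of a level is commutative. -/
abbrev LiftFrame.algCommRing (F : LiftFrame W hΔ p M) (n j : ℕ) {r : ℕ} (qv : Fin r → ℕ)
    [NeZero (F.levelAt j qv)] (hqv : ∀ i, (qv i).Prime) : CommRing (F.Alg n j qv) :=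
  { LiftFrame.ringAlg F n j qv with
    mul_comm := by
      have h : IsMulCommutative (F.Alg n j qv) := Algebra.isMulCommutative_adjoin (F.Diamond r n)
        (s := Set.range fun l : {l : ℕ // l.Prime ∧ l ∉ F.badSet qv} => F.opAt n j qv l.1) (by
          rintro _ ⟨l, rfl⟩ _ ⟨l', rfl⟩
          exact (F.commute_opAt n j qv hqv l.2.1 l'.2.1).eq)
      exact h.is_comm.comm }

/-- The algebra is finite over the coefficients. -/
theorem LiftFrame.finite_alg (F : LiftFrame W hΔ p M) {n j r : ℕ} {qv : Fin r → ℕ}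
    [NeZero (F.levelAt j qv)] {d : ℕ}
    (b : Module.Basis (Fin d) (F.Diamond r n) (F.Mod n j qv)) :
    Module.Finite F.E.R (F.Alg n j qv) := by
  haveI := F.moduleFinite_diamond n (r := r)
  haveI := F.isNoetherianRing_diamond n (r := r)
  haveI : Module.Finite (F.Diamond r n) (F.Mod n j qv) := Module.Finite.of_basis b
  haveI : Module.Free (F.Diamond r n) (F.Mod n j qv) := Module.Free.of_basis b
  haveI : Module.Finite (F.Diamond r n) (F.Alg n j qv) :=
    Module.Finite.of_injective (F.Alg n j qv).val.toLinearMap Subtype.val_injective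
  haveI : IsScalarTower F.E.R (F.Diamond r n) (F.Alg n j qv) :=
    IsScalarTower.of_algebraMap_eq (R := F.E.R) (S := F.Diamond r n) (A := F.Alg n j qv)
      fun _ => rfl
  exact Module.Finite.trans (F.Diamond r n) (F.Alg n j qv)

namespace LiftData

variable (D : LiftData W p M) (F : LiftFrame W hΔ p M)
include D

omit [Fact p.Prime] in
theorem odd : Odd p := by rcases D.curve.hp with h | h <;> subst h <;> decide

theorem twistSet_props {n r : ℕ} {qv : Fin r → ℕ} (h : F.IsTWTuple n qv) (j : ℕ) :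
    ∀ q ∈ F.twistSet qv, q.Prime ∧ q ∣ F.levelAt j qv ∧ ¬ q * q ∣ F.levelAt j qv := by
  classical
  intro q hq
  obtain ⟨i, -, rfl⟩ := Finset.mem_image.mp hq
  refine ⟨h.prime i, dvd_mul_of_dvd_right (Finset.dvd_prod_of_mem qv (Finset.mem_univ i)) _,
    fun hd => ?_⟩
  rw [LiftFrame.levelAt, ← Finset.mul_prod_erase _ qv (Finset.mem_univ i), mul_left_comm] at hd
  have h1 := Nat.dvd_of_mul_dvd_mul_left (h.prime i).pos hd
  rcases (h.prime i).dvd_mul.mp h1 with h2 | h2
  · exact (D.avoided_props (F := F) (h.prime i) (h.notMem i)).2.2.2.2.2 j h2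
  · obtain ⟨k, hk, hd'⟩ := ((h.prime i).prime.dvd_finsetProd_iff _).mp h2
    exact (Finset.mem_erase.mp hk).1
      (h.injective ((Nat.prime_dvd_prime_iff_eq (h.prime i) (h.prime k)).mp hd')).symm

theorem mem_badSet_of_dvd_levelAt {r : ℕ} {qv : Fin r → ℕ} (hqv : ∀ i, (qv i).Prime) {j l : ℕ}
    (hl : l.Prime) (hd : l ∣ F.levelAt j qv) : l ∈ F.badSet qv := by
  by_contra h
  exact ((D.badSet_props F hqv hl h).2.2.2.2 j).1 hd

theorem mem_badSet_of_dvd_classicalAt {r : ℕ} {qv : Fin r → ℕ} (hqv : ∀ i, (qv i).Prime)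
    {j l : ℕ} (hl : l.Prime) (hd : l ∣ F.classicalAt j qv) : l ∈ F.badSet qv := by
  by_contra h
  exact ((D.badSet_props F hqv hl h).2.2.2.2 j).2 hd

/-- **The classical level.**  The normalised operators come from the Hecke algebra of the
classical level; the algebra they generate is reduced and separated by its points. -/
theorem exists_classical {n j r : ℕ} {qv : Fin r → ℕ} [NeZero (F.levelAt j qv)]
    [NeZero (F.classicalAt j qv)] (h : F.IsTWTuple n qv) :
    ∃ θ : CuspForm.heckeAlgebra (F.classicalAt j qv) 2 (↑(F.badSet qv) : Set ℕ) →+*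
        Module.End (F.Diamond r n) (F.Mod n j qv),
      (∀ (l : ℕ) (hl : l.Prime) (hlM : ¬ l ∣ F.classicalAt j qv)
        (hlS : l ∉ (↑(F.badSet qv) : Set ℕ)),
        θ (CuspForm.heckeAlgebra.T hl hlM hlS) = F.opAt n j qv l) ∧
      (∀ t, θ t ∈ F.Alg n j qv) ∧
      ∀ a : F.Alg n j qv, a ≠ 0 →
        ∃ ψ : F.Alg n j qv →ₐ[F.E.R] AlgebraicClosure (FractionRing F.E.R), ψ a ≠ 0 := by
  classical
  let K := AlgebraicClosure (FractionRing F.E.R)
  have hqv := h.prime
  haveI := group_fg_Gamma0 (F.levelAt j qv)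
  haveI := F.isNoetherianRing_diamond n (r := r)
  haveI := F.isAdicComplete_diamond n (r := r)
  haveI := finite_tH1 (χ := gamChar (F.chi n j qv)) (F.Diamond r n)
  have hcomm := F.commAtRing_ops n j hqv
  have hS : ∀ q : ℕ, q.Prime → q ∣ F.levelAt j qv → q ∈ (↑(F.badSet qv) : Set ℕ) :=
    fun q hq hd => Finset.mem_coe.mpr (D.mem_badSet_of_dvd_levelAt F hqv hq hd)
  have hodd : ∀ q ∈ F.twistSet qv, ∀ u, ∃ k, Odd k ∧ F.eps n qv q u ^ k = 1 :=
    fun q _ u => ⟨_, D.odd.pow, F.eps_pow n qv q u⟩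
  obtain ⟨l₀, hl₀, hl₀S, hl₀1, hu⟩ :=
    D.exists_nonEisenstein F (NeZero.ne (F.classicalAt j qv)) (F.twistSet qv)
  have hl₀bad : l₀ ∉ F.badSet qv := by rwa [LiftFrame.badSet, Finset.union_comm]
  have hl₀L : (l₀ : ZMod (F.levelAt j qv)) = 1 := by
    have hd : F.levelAt j qv ∣ F.classicalAt j qv := dvd_mul_right _ _
    have h1 := congrArg (ZMod.castHom hd (ZMod (F.levelAt j qv))) hl₀1
    rwa [map_natCast, map_one] at h1
  have hkap : kap (F.twistSet qv) (F.eps n qv) l₀ = 1 :=
    kap_eq_one _ (fun s hs => (D.twistSet_props F h j s hs).2.1) hl₀L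
  have hunit : IsUnit (F.sys n qv (.inl ⟨l₀, hl₀, hl₀bad⟩) - ((l₀ : F.Diamond r n) + 1)) := by
    haveI : IsLocalHom (F.diamondToRes n r) :=
      IsLocalHom.of_surjective _ (F.diamondToRes_surjective n)
    refine isUnit_of_map_unit (F.diamondToRes n r) _ ?_
    rw [map_sub, map_add, map_one, map_natCast, F.diamondToRes_sys]
    exact hu
  have hfac : ∀ x, ∃ y, (F.idem n j qv).app (F.Diamond r n) x =
      (natHecke (F.chi n j qv) l₀).app (F.Diamond r n) y - ((l₀ : F.Diamond r n) + 1) • y := by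
    intro x
    obtain ⟨z, hz, he⟩ := exists_mul_sub_eq_localIdem hcomm (F.sys n qv) (.inl ⟨l₀, hl₀, hl₀bad⟩)
      hunit
    have hzc : Commute (opsAt (F.ops n j qv) (F.Diamond r n) (.inl ⟨l₀, hl₀, hl₀bad⟩)) z :=
      Algebra.commute_of_mem_adjoin_of_forall_mem_commute hz fun b hb => by
        obtain ⟨t, rfl⟩ := hb; exact hcomm _ t
    refine ⟨z x, ?_⟩
    rw [F.idem_app n j qv hqv, he]
    simp only [Module.End.mul_apply, LinearMap.sub_apply, Module.algebraMap_end_apply, map_sub,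
      map_smul]
    rw [← Module.End.mul_apply z, ← hzc.eq, Module.End.mul_apply]
    show (kap (F.twistSet qv) (F.eps n qv) l₀ : F.Diamond r n) •
      (natHecke (F.chi n j qv) l₀).app (F.Diamond r n) (z x) - _ = _
    rw [hkap, Units.val_one, one_smul]
  have hcomm' : ∀ l : ℕ, l.Prime → l ∉ (↑(F.badSet qv) : Set ℕ) → ∀ x,
      (F.idem n j qv).app (F.Diamond r n) ((natHecke (F.chi n j qv) l).app (F.Diamond r n) x) =
        (natHecke (F.chi n j qv) l).app (F.Diamond r n)
          ((F.idem n j qv).app (F.Diamond r n) x) := by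
    intro l hl _ x
    rw [F.idem_app n j qv hqv]
    have hc : Commute ((natHecke (F.chi n j qv) l).app (F.Diamond r n))
        (localIdem (opsAt (F.ops n j qv) (F.Diamond r n)) (F.sys n qv)) :=
      commute_localIdem hcomm (F.sys n qv) fun s => LinearMap.ext fun z => by
        have hs := F.idx_prime hqv s
        show (natHecke (F.chi n j qv) l).app (F.Diamond r n)
            ((F.ops n j qv s).app (F.Diamond r n) z) =
          (F.ops n j qv s).app (F.Diamond r n) ((natHecke (F.chi n j qv) l).app (F.Diamond r n) z)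
        rcases s with m | m <;>
          simp only [LiftFrame.ops, LiftFrame.natT, Sum.elim_inl, Sum.elim_inr, NatEnd.smul_app,
            map_smul] at hs ⊢ <;>
          rw [natHecke_comm _ hl hs]
    exact (LinearMap.congr_fun hc.eq x).symm
  have hl₀M : ¬ l₀ ∣ F.classicalAt j qv := fun hd =>
    hl₀bad (D.mem_badSet_of_dvd_classicalAt F hqv hl₀ hd)
  have hsepR : ∀ x : F.Diamond r n, (∀ ψ : F.Diamond r n →ₐ[F.E.R] K, ψ.toRingHom x = 0) → x = 0 :=
    fun x hx => Avoid.eq_zero_of_forall_point (O := F.E.R) (k := n + 1) F.natCast_mem x hx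
  have h0 := @exists_ringHom_eImage (F.classicalAt j qv) _ (↑(F.badSet qv) : Set ℕ)
    (F.Diamond r n) _ K _ (F.levelAt j qv) _ _ (F.chi n j qv) (F.idem n j qv) (F.twistSet qv)
    (F.eps n qv) (D.twistSet_props F h j) hodd rfl rfl hS l₀ hl₀ hl₀M hl₀1 hfac
    (F.hasLifts n j qv) (eqAtRing_localEnd_sq hcomm _) (D.killsObstruction_idem F n j hqv)
  have h1 := h0 (fun ψ : F.Diamond r n →ₐ[F.E.R] K => ψ.toRingHom) hsepR hcomm'
  obtain ⟨θ, hθ, h2⟩ := h1
  have hsep := h2.1
  clear h2 h0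
  have hθT : ∀ (l : ℕ) (hl : l.Prime) (hlM : ¬ l ∣ F.classicalAt j qv)
      (hlS : l ∉ (↑(F.badSet qv) : Set ℕ)),
      θ (CuspForm.heckeAlgebra.T hl hlM hlS) = F.opAt n j qv l := fun l hl hlM hlS =>
    LinearMap.ext fun x => Subtype.ext (by
      rw [hθ l hl hlM hlS x, F.coe_opAt n j qv hqv hl]
      rfl)
  have hS' : ∀ q : ℕ, q.Prime → q ∣ F.classicalAt j qv → q ∈ (↑(F.badSet qv) : Set ℕ) :=
    fun q hq hd => Finset.mem_coe.mpr (D.mem_badSet_of_dvd_classicalAt F hqv hq hd)
  have hmem := mem_adjoin_and_points hS' θ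
    (fun l : {l : ℕ // l.Prime ∧ l ∉ F.badSet qv} => F.opAt n j qv l.1)
    (fun ℓ => ⟨⟨ℓ.1, ℓ.2.1, fun hh => ℓ.2.2.2 (Finset.mem_coe.mpr hh)⟩,
      hθT ℓ.1 ℓ.2.1 ℓ.2.2.1 ℓ.2.2.2⟩)
    (fun l => ⟨⟨l.1, l.2.1, fun hd => l.2.2 (D.mem_badSet_of_dvd_classicalAt F hqv l.2.1 hd),
      fun hh => l.2.2 (Finset.mem_coe.mp hh)⟩, hθT _ _ _ _⟩)
    (fun ψ : F.Diamond r n →ₐ[F.E.R] K => ψ.toRingHom) hsep
  refine ⟨θ, hθT, hmem.1, fun a ha => ?_⟩
  obtain ⟨i, ψ, hψ, hψa⟩ := hmem.2 a ha
  obtain ⟨f, hf⟩ := exists_algHom_of_point (O := F.E.R) (R := F.Diamond r n) (A := F.Alg n j qv)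
    (K := K) (fun _ => rfl) i ψ hψ
  exact ⟨f, by rw [hf]; exact hψa⟩

/-- **Points separate.** -/
theorem exists_point_ne_zero {n j r : ℕ} {qv : Fin r → ℕ} [NeZero (F.levelAt j qv)]
    (h : F.IsTWTuple n qv) {d : ℕ} (b : Module.Basis (Fin d) (F.Diamond r n) (F.Mod n j qv))
    (a : F.Alg n j qv) (ha : a ≠ 0) :
    ∃ (E' : RepTheory.FiniteDVRExt F.E.R) (ψ : F.Alg n j qv →ₐ[F.E.R] E'.R), ψ a ≠ 0 := by
  haveI : NeZero (F.classicalAt j qv) := ⟨D.classicalAt_ne_zero j h.prime⟩
  obtain ⟨θ, -, -, hsep⟩ := D.exists_classical F (j := j) h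
  haveI := F.finite_alg b
  letI := F.algCommRing n j qv h.prime
  exact exists_point_of_separated hsep a ha

end LiftData

end FLTA.RT

end
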