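import Fermat.Agent.RT.Lift.SetupRoots
import Fermat.Agent.RT.Main.ModulesRankBottom
import Fermat.Agent.RT.Main.SystemEigen
import Fermat.Agent.LevelRaising.AssemblyLattice

/-!
# A residual eigenclass at the bottom level

The eigenclass of level `M` is pulled back to `lcm M p` in the multiplicative case and stabilised
at the auxiliary prime; Ihara's lemma keeps it nonzero.
-/

set_option autoImplicit false
set_option linter.style.haveILetI false

noncomputable section

open IsLocalRing WeierstrassCurve CongruenceSubgroup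

namespace FLTA.RT

open FLTA.Periods FLTA.LevelRaising FLTA.Gamma0

section Generic

variable {k : Type} [Field k] {p : ℕ} [CharP k p] {N q : ℕ} [NeZero N] [NeZero q]

/-- A refined parabolic eigenclass with non-Eisenstein value stays nonzero in the combination
`c • incl v + d • conj v`. -/
theorem degPull_eigen_ne_zero (hp : p.Prime) (hp2 : p ≠ 2) (hq : q.Prime) (hqN : ¬ q ∣ N)
    {ℓ : ℕ} (hℓ : ℓ.Prime) (hℓ1 : (ℓ : ZMod (N * q)) = 1) {v : Additive (Gamma0 N) →+ k}
    (hv : IsParHom0 (Gamma0 N) v) (hv0 : v ≠ 0) {a : k} (ha : heckeHom k N ℓ v = a • v)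
    (hne : a - ((ℓ : k) + 1) ≠ 0) {c d : k} (hcd : c ≠ 0 ∨ d ≠ 0) :
    c • inclRes N q v + d • conjRes N q v ≠ 0 := by
  intro h0
  let P : ParH k N := ⟨v, hv⟩
  have hw : degPull k N q (c • P, d • P) = 0 := Subtype.ext h0
  obtain ⟨e1, e2⟩ := eis0_sq_of_degPull hp hp2 hq hqN hℓ hℓ1 hw
  have he : eis0 k N ℓ P = (a - ((ℓ : k) + 1)) • P := by
    refine Subtype.ext ?_
    rw [coe_eis0, eisOp_apply, Submodule.coe_smul]
    show heckeHom k N ℓ v - _ = _
    rw [ha, sub_smul]
  have hP : P ≠ 0 := fun e => hv0 (congrArg Subtype.val e)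
  rcases hcd with h | h
  · simp only [map_smul, he, smul_smul, smul_eq_zero, mul_eq_zero, hne, h, hP, or_self] at e1
  · simp only [map_smul, he, smul_smul, smul_eq_zero, mul_eq_zero, hne, h, hP, or_self] at e2

/-- The stabilised class `α incl v - conj v` is an eigenclass of `U_q` with value `α`. -/
theorem heckeHom_stabilised (hq : q.Prime) (hqN : ¬ q ∣ N) {v : Additive (Gamma0 N) →+ k}
    (hv : IsParHom0 (Gamma0 N) v) {a α : k} (ha : heckeHom k N q v = a • v)
    (hα : α * α - a * α + (q : k) = 0) :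
    heckeHom k (N * q) q (α • inclRes N q v + (-1 : k) • conjRes N q v) =
      α • (α • inclRes N q v + (-1 : k) • conjRes N q v) := by
  haveI := Fact.mk hq
  haveI : NeZero (N * q) := ⟨mul_ne_zero (NeZero.ne N) (NeZero.ne q)⟩
  haveI : ((Gamma0 (N * q)).subgroupOf (Gamma0 N)).FiniteIndex := inferInstance
  have hcop : Nat.Coprime q N := hq.coprime_iff_not_dvd.mpr hqN
  have hi := inclRes_corRes_alRes k hqN hcop
    (isParabolicHom_of_isParHom0 (isParHom0_inclRes (q := q) hv))
  rw [alRes_inclRes hcop, corRes_conjRes k hqN (isParabolicHom_of_isParHom0 hv), ha] at hi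
  have hc := inclRes_corRes_alRes k hqN hcop
    (isParabolicHom_of_isParHom0 (isParHom0_conjRes (q := q) hv))
  rw [alRes_conjRes hcop, corRes_inclRes hqN] at hc
  have e1 : heckeHom k (N * q) q (inclRes N q v) = a • inclRes N q v - conjRes N q v :=
    eq_sub_iff_add_eq.mpr hi.symm
  have e2 : heckeHom k (N * q) q (conjRes N q v) = (q : k) • inclRes N q v := by
    refine add_right_cancel (b := inclRes N q v) ?_
    rw [← hc]
    refine AddMonoidHom.ext fun z => ?_
    show ((q + 1) • v) (MonoidHom.toAdditive (inclHom N q) z) =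
      (q : k) • inclRes N q v z + inclRes N q v z
    rw [AddMonoidHom.nsmul_apply, nsmul_eq_mul, Nat.cast_succ, add_mul, one_mul, smul_eq_mul]
    rfl
  rw [map_add, map_smul, map_smul, e1, e2]
  refine AddMonoidHom.ext fun z => ?_
  simp only [AddMonoidHom.add_apply, AddMonoidHom.sub_apply, AddMonoidHom.smul_apply, smul_eq_mul]
  linear_combination (-(inclRes N q v z)) * hα

end Generic

variable {W : WeierstrassCurve ℤ} {hΔ : W.Δ ≠ 0} {p : ℕ} [Fact p.Prime] {M : ℕ}

open Classical in
/-- The bottom level without the auxiliary prime. -/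
def LiftFrame.base₀ (F : LiftFrame W hΔ p M) : ℕ := if F.Mult then Nat.lcm M p else M

theorem LiftFrame.base_eq (F : LiftFrame W hΔ p M) : F.base = F.base₀ * F.aux := rfl

/-- The refined parabolic residual eigenclass at the bottom level without the auxiliary prime. -/
theorem LiftData.exists_base₀_eigen (D : LiftData W p M) (F : LiftFrame W hΔ p M)
    [NeZero F.base₀] :
    ∃ v : Additive (Gamma0 F.base₀) →+ ResidueField F.E.R, IsParHom0 (Gamma0 F.base₀) v ∧ v ≠ 0 ∧
      ∀ l : ℕ, l.Prime → W.IsGoodPrimeFor l → ¬ l ∣ M → l ≠ p →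
        heckeHom (ResidueField F.E.R) F.base₀ l v =
          (W.apOfModel l : ResidueField F.E.R) • v := by
  classical
  haveI : NeZero M := ⟨D.ne_zero⟩
  have hp : p.Prime := Fact.out
  have := F.charP_res
  obtain ⟨u, hpar, hu0, hu⟩ := exists_eigenclass_par D.res
  let v : Additive (Gamma0 M) →+ ResidueField F.E.R := F.φ.toAddMonoidHom.comp u
  have hvpar : IsParHom0 (Gamma0 M) v := hpar.comp _
  have hv0 : v ≠ 0 := fun h => hu0 (AddMonoidHom.ext fun x => F.φ.injective (by
    rw [AddMonoidHom.zero_apply, map_zero]; exact DFunLike.congr_fun h x))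
  have hv : ∀ l : ℕ, l.Prime → W.IsGoodPrimeFor l → ¬ l ∣ M → l ≠ p →
      heckeHom (ResidueField F.E.R) M l v = (W.apOfModel l : ResidueField F.E.R) • v := by
    intro l hl hg hlM hlp
    rw [heckeHom_eq_int, heckeHom_comp, ← heckeHom_eq_int (𝕜 := ZMod p), hu l hl hg hlM hlp]
    ext x
    simp [v]
  by_cases hcase : F.base₀ = M
  · suffices key : ∀ (B : ℕ) [NeZero B], B = M →
        ∃ v : Additive (Gamma0 B) →+ ResidueField F.E.R, IsParHom0 (Gamma0 B) v ∧ v ≠ 0 ∧
          ∀ l : ℕ, l.Prime → W.IsGoodPrimeFor l → ¬ l ∣ M → l ≠ p →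
            heckeHom (ResidueField F.E.R) B l v = (W.apOfModel l : ResidueField F.E.R) • v from
      key _ hcase
    intro B _ e
    subst e
    exact ⟨v, hvpar, hv0, hv⟩
  · have hMu : F.Mult := by
      by_contra h
      exact hcase (if_neg h)
    have hpM : ¬ p ∣ M := fun h =>
      hcase ((if_pos hMu).trans (by rw [Nat.lcm_comm, Nat.lcm_eq_right h]))
    have hB : F.base₀ = M * p :=
      (if_pos hMu).trans ((hp.coprime_iff_not_dvd.mpr hpM).symm).lcm_eq_mul
    suffices key : ∀ (B : ℕ) [NeZero B], B = M * p →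
        ∃ v : Additive (Gamma0 B) →+ ResidueField F.E.R, IsParHom0 (Gamma0 B) v ∧ v ≠ 0 ∧
          ∀ l : ℕ, l.Prime → W.IsGoodPrimeFor l → ¬ l ∣ M → l ≠ p →
            heckeHom (ResidueField F.E.R) B l v = (W.apOfModel l : ResidueField F.E.R) • v from
      key _ hB
    intro B _ e
    subst e
    haveI : NeZero p := ⟨hp.ne_zero⟩
    obtain ⟨ℓ, hℓ, hℓS, hℓ1, hu1⟩ := D.exists_nonEisenstein F (NeZero.ne (M * p)) ∅
    obtain ⟨hℓp, -, hℓM, -, hℓg, -⟩ := D.avoided_props (F := F) hℓ
      (fun h => hℓS (Finset.mem_union_right _ h))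
    refine ⟨inclRes M p v, isParHom0_inclRes hvpar, ?_, fun l hl hg hlM hlp => ?_⟩
    · have h := degPull_eigen_ne_zero hp D.ne_two hp hpM hℓ hℓ1 hvpar hv0 (hv ℓ hℓ hℓg hℓM hℓp)
        hu1.ne_zero (c := (1 : ResidueField F.E.R)) (d := 0) (Or.inl one_ne_zero)
      simpa only [one_smul, zero_smul, add_zero] using h
    · rw [heckeHom_inclRes _ hl (fun h => (hl.dvd_mul.mp h).elim hlM fun h =>
        hlp ((Nat.prime_dvd_prime_iff_eq hl hp).mp h)) (isParabolicHom_of_isParHom0 hvpar),
        hv l hl hg hlM hlp]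
      rfl

/-- A nonzero residual eigenclass at the bottom level with `α` at the auxiliary prime. -/
theorem LiftData.exists_base_eigen (D : LiftData W p M) (F : LiftFrame W hΔ p M)
    [NeZero F.base] :
    ∃ v : Additive (Gamma0 F.base) →+ ResidueField F.E.R, IsParHom0 (Gamma0 F.base) v ∧ v ≠ 0 ∧
      (∀ l : ℕ, l.Prime → l ∉ F.avoided →
        heckeHom (ResidueField F.E.R) F.base l v = (W.apOfModel l : ResidueField F.E.R) • v) ∧
      ∀ l : ℕ, l ∈ F.aux.primeFactors →
        heckeHom (ResidueField F.E.R) F.base l v = residue F.E.R (F.alphaAt l) • v := by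
  have hb0 : F.base₀ ≠ 0 := left_ne_zero_of_mul (F.base_eq ▸ NeZero.ne F.base)
  haveI : NeZero F.base₀ := ⟨hb0⟩
  haveI := F.charP_res
  obtain ⟨v, hvpar, hv0, hv⟩ := D.exists_base₀_eigen F
  have hbase := F.base_eq
  by_cases ha : F.aux = 1
  · rw [ha, mul_one] at hbase
    suffices key : ∀ (B : ℕ) [NeZero B], B = F.base₀ →
        ∃ v : Additive (Gamma0 B) →+ ResidueField F.E.R, IsParHom0 (Gamma0 B) v ∧ v ≠ 0 ∧
          (∀ l : ℕ, l.Prime → l ∉ F.avoided → heckeHom (ResidueField F.E.R) B l v =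
            (W.apOfModel l : ResidueField F.E.R) • v) ∧
          ∀ l : ℕ, l ∈ F.aux.primeFactors →
            heckeHom (ResidueField F.E.R) B l v = residue F.E.R (F.alphaAt l) • v from
      key _ hbase
    intro B _ e
    subst e
    refine ⟨v, hvpar, hv0, fun l hl hlA => ?_, fun l hl => ?_⟩
    · obtain ⟨hlp, -, hlM, -, hg, -⟩ := D.avoided_props (F := F) hl hlA
      exact hv l hl hg hlM hlp
    · rw [ha, Nat.primeFactors_one] at hl
      exact absurd hl (Finset.notMem_empty l)
  · obtain ⟨hq, haM, hgood, haN⟩ : F.aux.Prime ∧ ¬ F.aux ∣ M ∧ W.IsGoodPrimeFor F.aux ∧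
        ¬ F.aux ∣ F.base₀ := by
      rcases F.aux_spec with ⟨-, h⟩ | ⟨h3, h, -, hm, hM, hg, -⟩
      · exact absurd h ha
      · refine ⟨h, hM, hg, fun hd => ?_⟩
        rw [LiftFrame.base₀] at hd
        split at hd
        · rcases h.dvd_mul.mp (hd.trans (Nat.lcm_dvd_mul M p)) with h' | h'
          · exact hM h'
          · rw [(Nat.prime_dvd_prime_iff_eq h Fact.out).mp h', h3] at hm
            simp at hm
        · exact hM hd
    have hmem : F.aux ∈ F.stabSet (LiftFrame.noPrimes) :=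
      Finset.mem_union_right _ (Nat.mem_primeFactors.mpr ⟨hq, dvd_rfl, hq.ne_zero⟩)
    have htw : F.IsTWTuple 0 LiftFrame.noPrimes :=
      ⟨fun i => i.elim0, fun i => i.elim0, fun i => i.elim0, fun i => i.elim0, fun i => i.elim0⟩
    obtain ⟨hqp, -, -, hroot, -⟩ := D.stab_root htw hmem
    haveI : NeZero F.aux := ⟨hq.ne_zero⟩
    haveI : NeZero (F.base₀ * F.aux) := ⟨F.base_eq ▸ NeZero.ne F.base⟩
    obtain ⟨ℓ, hℓ, hℓS, hℓ1, hu1⟩ := D.exists_nonEisenstein F (NeZero.ne (F.base₀ * F.aux)) ∅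
    obtain ⟨hℓp, -, hℓM, -, hℓg, -⟩ := D.avoided_props (F := F) hℓ
      (fun h => hℓS (Finset.mem_union_right _ h))
    set α := residue F.E.R (F.alphaAt F.aux) with hαdef
    have hne := degPull_eigen_ne_zero Fact.out D.ne_two hq haN hℓ hℓ1 hvpar hv0
      (hv ℓ hℓ hℓg hℓM hℓp) hu1.ne_zero (c := α) (d := (-1 : ResidueField F.E.R))
      (Or.inr (neg_ne_zero.mpr one_ne_zero))
    have hU := heckeHom_stabilised hq haN hvpar (hv _ hq hgood haM hqp) hroot
    have hT : ∀ l : ℕ, l.Prime → l ∉ F.avoided →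
        heckeHom (ResidueField F.E.R) (F.base₀ * F.aux) l
            (α • inclRes F.base₀ F.aux v + (-1 : ResidueField F.E.R) • conjRes F.base₀ F.aux v) =
          (W.apOfModel l : ResidueField F.E.R) •
            (α • inclRes F.base₀ F.aux v + (-1 : ResidueField F.E.R) • conjRes F.base₀ F.aux v) := by
      intro l hl hlA
      obtain ⟨hlp, -, hlM, -, hg, hlev⟩ := D.avoided_props (F := F) hl hlA
      have hl0 : ¬ l ∣ F.base₀ * F.aux := fun hd => hlev 0 (dvd_mul_of_dvd_left (F.base_eq ▸ hd) _)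
      rw [map_add, map_smul, map_smul,
        heckeHom_inclRes _ hl hl0 (isParabolicHom_of_isParHom0 hvpar),
        heckeHom_conjRes _ hl hl0 (isParabolicHom_of_isParHom0 hvpar), hv l hl hg hlM hlp]
      refine AddMonoidHom.ext fun z => ?_
      simp only [AddMonoidHom.add_apply, AddMonoidHom.smul_apply, smul_eq_mul]
      show α * ((W.apOfModel l : ResidueField F.E.R) * _) + -1 *
        ((W.apOfModel l : ResidueField F.E.R) * _) = _
      rw [mul_add]
      ring!
    have hwpar : IsParHom0 (Gamma0 (F.base₀ * F.aux))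
        (α • inclRes F.base₀ F.aux v + (-1 : ResidueField F.E.R) • conjRes F.base₀ F.aux v) := by
      intro γ hγ
      rw [AddMonoidHom.add_apply, AddMonoidHom.smul_apply, AddMonoidHom.smul_apply,
        isParHom0_inclRes hvpar γ hγ, isParHom0_conjRes hvpar γ hγ, smul_zero, smul_zero, add_zero]
    obtain ⟨w, hwpar, hw0, hwT, hwU⟩ :
        ∃ w : Additive (Gamma0 (F.base₀ * F.aux)) →+ ResidueField F.E.R,
        IsParHom0 (Gamma0 (F.base₀ * F.aux)) w ∧ w ≠ 0 ∧ (∀ l : ℕ, l.Prime → l ∉ F.avoided →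
          heckeHom (ResidueField F.E.R) (F.base₀ * F.aux) l w =
            (W.apOfModel l : ResidueField F.E.R) • w) ∧
          heckeHom (ResidueField F.E.R) (F.base₀ * F.aux) F.aux w = α • w :=
      ⟨_, hwpar, hne, hT, hU⟩
    suffices key : ∀ (B : ℕ) [NeZero B], B = F.base₀ * F.aux →
        ∃ v : Additive (Gamma0 B) →+ ResidueField F.E.R, IsParHom0 (Gamma0 B) v ∧ v ≠ 0 ∧
          (∀ l : ℕ, l.Prime → l ∉ F.avoided → heckeHom (ResidueField F.E.R) B l v =
            (W.apOfModel l : ResidueField F.E.R) • v) ∧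
          ∀ l : ℕ, l ∈ F.aux.primeFactors →
            heckeHom (ResidueField F.E.R) B l v = residue F.E.R (F.alphaAt l) • v from
      key _ hbase
    intro B _ e
    subst e
    refine ⟨w, hwpar, hw0, hwT, fun l hl => ?_⟩
    rw [hq.primeFactors, Finset.mem_singleton] at hl
    subst hl
    exact hwU

end FLTA.RT

end
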