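import Fermat.Agent.RT.Lift.RankOps
import Fermat.Agent.RT.Lift.RankBottom

/-!
# The rank of the level modules does not depend on the tuple

Adding the primes of a tuple one at a time does not change the residual factor, and the factor at
the bottom level is nonzero.
-/

set_option autoImplicit false
set_option linter.style.haveILetI false

noncomputable section

open IsLocalRing WeierstrassCurve CongruenceSubgroup

namespace FLTA.RT

open FLTA.Periods

variable {W : WeierstrassCurve ℤ} {hΔ : W.Δ ≠ 0} {p : ℕ} [Fact p.Prime] {M : ℕ}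

namespace LiftFrame

variable (F : LiftFrame W hΔ p M)

/-- The primes of the residual systems: good primes and the auxiliary prime. -/
abbrev RIdx : Type := {l : ℕ // l.Prime ∧ (l ∉ F.avoided ∨ l ∣ F.aux)}

open Classical in
/-- The residual system with roots at `Q` and at the auxiliary prime. -/
def rootSys (Q : Finset ℕ) (l : F.RIdx) : ResidueField F.E.R :=
  if l.1 ∈ Q ∨ l.1 ∣ F.aux then residue F.E.R (F.alphaAt l.1) else (W.apOfModel l.1 : _)

open Classical in
/-- The dimension of the residual factor of the level `L` with roots at `Q` (`0` if `L = 0`). -/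
def factorRank (L : ℕ) (Q : Finset ℕ) : ℕ :=
  if h : L = 0 then 0 else
    haveI : NeZero L := ⟨h⟩
    Module.finrank (ResidueField F.E.R) (LinearMap.range
      (localIdem (gamHecke (ResidueField F.E.R) L (Subtype.val : F.RIdx → ℕ)) (F.rootSys Q)))

/-- The rank at the raising index `j`. -/
def liftRank (j : ℕ) : ℕ := F.factorRank (F.level j) ∅

theorem factorRank_eq (L : ℕ) [NeZero L] (Q : Finset ℕ) :
    F.factorRank L Q = Module.finrank (ResidueField F.E.R) (LinearMap.range
      (localIdem (gamHecke (ResidueField F.E.R) L (Subtype.val : F.RIdx → ℕ)) (F.rootSys Q))) := by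
  rw [factorRank, dif_neg (NeZero.ne L)]

end LiftFrame

namespace LiftData

variable (D : LiftData W p M) (F : LiftFrame W hΔ p M)
include D

/-- Adding one prime of the tuple does not change the residual factor. -/
theorem factorRank_insert {n r : ℕ} {qv : Fin r → ℕ} (h : F.IsTWTuple n qv) {L : ℕ}
    (hL0 : L ≠ 0) (hauxL : F.aux ∣ L) {Q : Finset ℕ} {q : ℕ} (hq : q ∈ F.twistSet qv)
    (hqQ : q ∉ Q) (hqL : ¬ q ∣ L) :
    F.factorRank (L * q) (insert q Q) = F.factorRank L Q := by
  classical
  obtain ⟨i, -, rfl⟩ := Finset.mem_image.mp hq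
  obtain ⟨hqp, hq2, -, hqa, hg, -⟩ := D.avoided_props (F := F) (h.prime i) (h.notMem i)
  haveI : NeZero L := ⟨hL0⟩
  haveI : NeZero (qv i) := ⟨(h.prime i).ne_zero⟩
  haveI : NeZero (L * qv i) := ⟨mul_ne_zero hL0 (h.prime i).ne_zero⟩
  haveI := F.charP_res
  obtain ⟨l, hl, hlS, hl1, hu⟩ := D.exists_nonEisenstein F (NeZero.ne (L * qv i))
    (insert (qv i) Q)
  have hlA : l ∉ F.avoided := fun hh => hlS (Finset.mem_union_right _ hh)
  obtain ⟨-, -, -, hla, -, -⟩ := D.avoided_props (F := F) hl hlA
  have hlQ : l ∉ Q := fun hh =>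
    hlS (Finset.mem_union_left _ (Finset.mem_insert_of_mem hh))
  let s₀ : F.RIdx := ⟨l, hl, Or.inl hlA⟩
  let sq : F.RIdx := ⟨qv i, h.prime i, Or.inl (h.notMem i)⟩
  have hs₀ : F.rootSys Q s₀ = (W.apOfModel l : ResidueField F.E.R) :=
    if_neg fun hh => hh.elim hlQ hla
  have hsq : F.rootSys Q sq = (W.apOfModel (qv i) : ResidueField F.E.R) :=
    if_neg fun hh => hh.elim hqQ hqa
  obtain ⟨-, -, -, hroot, hsimple, hα1, hdist⟩ := D.stab_root h
    (Finset.mem_union_left F.aux.primeFactors hq)
  have hzero : ∀ x : ResidueField F.E.R, x + x = 0 → x = 0 := fun x hx => by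
    rw [← two_mul] at hx
    refine (mul_eq_zero.mp hx).resolve_left ?_
    exact_mod_cast F.natCast_res_ne_zero (m := 2) fun hd =>
      D.ne_two ((Nat.prime_dvd_prime_iff_eq Fact.out Nat.prime_two).mp hd)
  obtain ⟨Φ, -⟩ := exists_equiv_addPrime (O := ResidueField F.E.R) (N := L) (q := qv i)
    (Subtype.val : F.RIdx → ℕ) (fun s => s.2.1) (F.rootSys Q) sq
    (fun s => ⟨fun e => Subtype.ext e, fun e => e ▸ rfl⟩) hqL
    (residue F.E.R (F.alphaAt (qv i))) s₀ hl1 (by rw [hs₀]; exact hu) hzero
    (IsUnit.mk0 _ (F.natCast_res_ne_zero fun hd =>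
      hqp ((Nat.prime_dvd_prime_iff_eq Fact.out (h.prime i)).mp hd).symm))
    (fun M' hM' φ hφ => F.isParHom0_of_parabolic
      (hM'.elim (fun e => e ▸ hauxL) (fun e => e ▸ hauxL.mul_right _))
      (fun m hm => F.natCast_res_ne_zero hm) φ hφ)
    (by rw [hsq, hroot]; exact zero_mem _) (IsUnit.mk0 _ (by rw [hsq]; exact hsimple))
    (IsUnit.mk0 _ hα1) (IsUnit.mk0 _ (by rw [hsq]; exact hdist))
  have hupd : @Function.update F.RIdx (fun _ => ResidueField F.E.R)
      (fun a b => Classical.propDecidable (a = b)) (F.rootSys Q) sq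
      (residue F.E.R (F.alphaAt (qv i))) =
      F.rootSys (insert (qv i) Q) := funext fun s => by
    by_cases hs : s = sq
    · subst hs
      rw [@Function.update_self]
      exact (if_pos (Or.inl (Finset.mem_insert_self _ _))).symm
    · rw [@Function.update_of_ne _ _ (fun a b => Classical.propDecidable (a = b)) _ _ hs]
      have hne : s.1 ≠ qv i := fun e => hs (Subtype.ext e)
      simp only [LiftFrame.rootSys, Finset.mem_insert, hne, false_or]
  rw [F.factorRank_eq, F.factorRank_eq, ← hupd]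
  exact Φ.finrank_eq.symm

/-- The residual factor at a level raised by primes of the tuple. -/
theorem factorRank_prod {n r : ℕ} {qv : Fin r → ℕ} (h : F.IsTWTuple n qv) (j : ℕ)
    (S : Finset ℕ) (hS : S ⊆ F.twistSet qv) :
    F.factorRank (F.level j * ∏ l ∈ S, l) S = F.liftRank j := by
  classical
  induction S using Finset.induction with
  | empty => rw [Finset.prod_empty, mul_one]; rfl
  | insert q S hqS ih =>
    have hq : q ∈ F.twistSet qv := hS (Finset.mem_insert_self _ _)
    have hS' : S ⊆ F.twistSet qv := fun x hx => hS (Finset.mem_insert_of_mem hx)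
    have hprime : ∀ x ∈ F.twistSet qv, x.Prime ∧ ¬ x ∣ F.level j := by
      intro x hx
      obtain ⟨i, -, rfl⟩ := Finset.mem_image.mp hx
      exact ⟨h.prime i, (D.avoided_props (F := F) (h.prime i) (h.notMem i)).2.2.2.2.2 j⟩
    rw [Finset.prod_insert hqS, mul_comm q, ← mul_assoc,
      D.factorRank_insert F h ?_ ?_ hq hqS ?_, ih hS']
    · exact mul_ne_zero (D.level_ne_zero j)
        (Finset.prod_ne_zero_iff.mpr fun x hx => (hprime x (hS' hx)).1.ne_zero)
    · exact (F.aux_dvd_level j).mul_right _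
    · intro hd
      rcases (hprime q hq).1.dvd_mul.mp hd with hd | hd
      · exact (hprime q hq).2 hd
      · obtain ⟨x, hx, hxd⟩ := ((hprime q hq).1.prime.dvd_finsetProd_iff _).mp hd
        exact hqS ((Nat.prime_dvd_prime_iff_eq (hprime q hq).1 (hprime x (hS' hx)).1).mp hxd ▸ hx)

/-- **The rank of the level modules.** -/
theorem exists_basis_liftRank (n j : ℕ) {r : ℕ} {qv : Fin r → ℕ} [NeZero (F.levelAt j qv)]
    (h : F.IsTWTuple n qv) :
    Nonempty (Module.Basis (Fin (F.liftRank j)) (F.Diamond r n) (F.Mod n j qv)) := by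
  classical
  refine D.exists_basis_mod F n j h.prime ?_
  have hlev : F.levelAt j qv = F.level j * ∏ l ∈ F.twistSet qv, l := by
    rw [LiftFrame.levelAt, LiftFrame.twistSet, Finset.prod_image fun a _ b _ e => h.injective e]
  rw [← D.factorRank_prod F h j _ (Finset.Subset.refl _), ← hlev, F.factorRank_eq]
  haveI := finite_addHom (L := F.levelAt j qv) (O := ResidueField F.E.R) (ResidueField F.E.R)
  have hmem : ∀ l : F.Idx qv, (F.primeOf qv l).Prime ∧
      (F.primeOf qv l ∉ F.avoided ∨ F.primeOf qv l ∣ F.aux) := by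
    rintro (l | l)
    · exact ⟨l.2.1, Or.inl fun hh => l.2.2 (Finset.mem_union_left _ hh)⟩
    · refine ⟨(F.stabSet_props j h.prime l.2).1, ?_⟩
      rcases Finset.mem_union.mp l.2 with hl | hl
      · obtain ⟨i, -, hi⟩ := Finset.mem_image.mp hl
        exact Or.inl fun hh => h.notMem i (hi ▸ hh)
      · exact Or.inr (Nat.mem_primeFactors.mp hl).2.1
  let f : F.Idx qv → F.RIdx := fun l => ⟨F.primeOf qv l, hmem l⟩
  have hf : Function.Surjective f := by
    rintro ⟨l, hl, hl'⟩
    by_cases hs : l ∈ F.stabSet qv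
    · exact ⟨.inr ⟨l, hs⟩, rfl⟩
    · refine ⟨.inl ⟨l, hl, fun hh => ?_⟩, rfl⟩
      rcases Finset.mem_union.mp hh with hh | hh
      · refine hs (Finset.mem_union_right _ (Nat.mem_primeFactors.mpr ⟨hl, ?_, ?_⟩))
        · exact hl'.resolve_left fun h' => h' hh
        · rcases F.aux_spec with ⟨-, e⟩ | ⟨-, e, -⟩
          · omega
          · exact e.ne_zero
      · exact hs (Finset.mem_union_left _ hh)
  have hsys : F.rootSys (F.twistSet qv) ∘ f = F.resSys qv := funext fun l => by
    rcases l with l | l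
    · refine if_neg fun hh => hh.elim (fun h' => l.2.2 (Finset.mem_union_right _ h')) fun h' => ?_
      exact (D.avoided_props (F := F) l.2.1 fun hh => l.2.2 (Finset.mem_union_left _ hh)).2.2.2.1 h'
    · exact if_pos ((Finset.mem_union.mp l.2).imp id fun h' => (Nat.mem_primeFactors.mp h').2.1)
  have hT : ∀ s t : F.RIdx, Commute
      (gamHecke (ResidueField F.E.R) (F.levelAt j qv) (Subtype.val : F.RIdx → ℕ) s)
      (gamHecke (ResidueField F.E.R) (F.levelAt j qv) (Subtype.val : F.RIdx → ℕ) t) :=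
    fun s t => commute_heckeHom s.2.1 t.2.1
  have e := localIdem_reindex (O := ResidueField F.E.R)
    (A := Module.End (ResidueField F.E.R) (Additive (Gamma0 (F.levelAt j qv)) →+ ResidueField F.E.R))
    (T := gamHecke (ResidueField F.E.R) (F.levelAt j qv) (Subtype.val : F.RIdx → ℕ)) hT
    (F.rootSys (F.twistSet qv)) f hf
  rw [hsys] at e
  exact congrArg (fun z => Module.finrank (ResidueField F.E.R) (LinearMap.range z)) e

/-- A residual eigenclass at every level obtained from the bottom by adding sites. -/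
theorem exists_level_eigen (S : Finset (Fin F.k)) (L : ℕ) [NeZero L]
    (hL : L = F.base * ∏ i ∈ S, F.site i) :
    ∃ v : Additive (Gamma0 L) →+ ResidueField F.E.R, FLTA.Gamma0.IsParHom0 (Gamma0 L) v ∧ v ≠ 0 ∧
      (∀ l : ℕ, l.Prime → l ∉ F.avoided →
        heckeHom (ResidueField F.E.R) L l v = (W.apOfModel l : ResidueField F.E.R) • v) ∧
      ∀ l : ℕ, l ∈ F.aux.primeFactors →
        heckeHom (ResidueField F.E.R) L l v = residue F.E.R (F.alphaAt l) • v := by
  classical
  induction S using Finset.induction generalizing L with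
  | empty =>
    rw [Finset.prod_empty, mul_one] at hL
    subst hL
    exact D.exists_base_eigen F
  | insert s S hsS ih =>
    obtain ⟨hq, hqp, hqΔ, hqM⟩ := (F.site_iff _).mp ⟨s, rfl⟩
    rw [Finset.prod_insert hsS, mul_comm (F.site s), ← mul_assoc] at hL
    subst hL
    have hL0 : F.base * ∏ i ∈ S, F.site i ≠ 0 := left_ne_zero_of_mul (NeZero.ne ((F.base * ∏ i ∈ S, F.site i) * F.site s))
    haveI : NeZero (F.base * ∏ i ∈ S, F.site i) := ⟨hL0⟩
    haveI : NeZero (F.site s) := ⟨hq.ne_zero⟩
    obtain ⟨v, hvpar, hv0, hv, hv'⟩ := ih (F.base * ∏ i ∈ S, F.site i) rfl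
    have hqa : ¬ F.site s ∣ F.aux := fun hd => by
      rcases F.aux_spec with ⟨-, e⟩ | ⟨-, ha, -, -, -, hg, -⟩
      · exact hq.ne_one (Nat.dvd_one.mp (e ▸ hd))
      · exact hg ((Nat.prime_dvd_prime_iff_eq hq ha).mp hd ▸ hqΔ)
    have hqL : ¬ F.site s ∣ F.base * ∏ i ∈ S, F.site i := by
      intro hd
      rcases hq.dvd_mul.mp hd with hd | hd
      · rcases hq.dvd_mul.mp hd with hd | hd
        · split at hd
          · rcases hq.dvd_mul.mp (hd.trans (Nat.lcm_dvd_mul M p)) with h | h
            · exact hqM h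
            · exact hqp ((Nat.prime_dvd_prime_iff_eq hq Fact.out).mp h)
          · exact hqM hd
        · exact hqa hd
      · obtain ⟨x, hx, hxd⟩ := (hq.prime.dvd_finsetProd_iff _).mp hd
        exact hsS (F.site_injective ((Nat.prime_dvd_prime_iff_eq hq
          ((F.site_iff _).mp ⟨x, rfl⟩).1).mp hxd) ▸ hx)
    haveI := F.charP_res
    obtain ⟨ℓ, hℓ, hℓS, hℓ1, hu1⟩ := D.exists_nonEisenstein F
      (NeZero.ne ((F.base * ∏ i ∈ S, F.site i) * F.site s)) ∅
    have hℓA : ℓ ∉ F.avoided := fun h => hℓS (Finset.mem_union_right _ h)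
    have hne : ∀ l : ℕ, l.Prime → (l ∉ F.avoided ∨ l ∣ F.aux) → l ≠ F.site s := by
      rintro l - (hl | hl) rfl
      · refine hl (Finset.mem_insert_of_mem (Finset.mem_insert_of_mem
          (Finset.mem_union_left _ (Finset.mem_union_right _ ?_))))
        exact Finset.mem_image.mpr ⟨s, Finset.mem_univ _, rfl⟩
      · exact hqa hl
    refine ⟨LevelRaising.inclRes _ (F.site s) v, LevelRaising.isParHom0_inclRes hvpar, ?_,
      fun l hl hlA => ?_, fun l hl => ?_⟩
    · have h := degPull_eigen_ne_zero Fact.out D.ne_two hq hqL hℓ hℓ1 hvpar hv0 (hv ℓ hℓ hℓA)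
        hu1.ne_zero (c := (1 : ResidueField F.E.R)) (d := 0) (Or.inl one_ne_zero)
      simpa only [one_smul, zero_smul, add_zero] using h
    · rw [(heckeHom_restrictions (q := F.site s) hq hl (hne l hl (Or.inl hlA)) v).1, hv l hl hlA]
      rfl
    · obtain ⟨hlp, hd, -⟩ := Nat.mem_primeFactors.mp hl
      rw [(heckeHom_restrictions (q := F.site s) hq hlp (hne l hlp (Or.inr hd)) v).1, hv' l hl]
      rfl

/-- **The ranks are positive.** -/
theorem liftRank_pos (j : ℕ) : 0 < F.liftRank j := by
  haveI : NeZero (F.level j) := ⟨D.level_ne_zero j⟩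
  rw [LiftFrame.liftRank, F.factorRank_eq, Nat.pos_iff_ne_zero]
  haveI := finite_addHom (L := F.level j) (O := ResidueField F.E.R) (ResidueField F.E.R)
  obtain ⟨v, -, hv0, hv, hv'⟩ := D.exists_level_eigen F
    (Finset.univ.filter fun i : Fin F.k => (i : ℕ) < j) (F.level j) rfl
  have hT : ∀ s t : F.RIdx, Commute
      (gamHecke (ResidueField F.E.R) (F.level j) (Subtype.val : F.RIdx → ℕ) s)
      (gamHecke (ResidueField F.E.R) (F.level j) (Subtype.val : F.RIdx → ℕ) t) :=
    fun s t => commute_heckeHom s.2.1 t.2.1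
  have hfix := localIdem_apply_eigen hT (F.rootSys ∅) v (fun s => by
      by_cases hs : s.1 ∣ F.aux
      · rw [LiftFrame.rootSys, if_pos (Or.inr hs)]
        refine hv' _ (Nat.mem_primeFactors.mpr ⟨s.2.1, hs, ?_⟩)
        rcases F.aux_spec with ⟨-, e⟩ | ⟨-, e, -⟩
        · omega
        · exact e.ne_zero
      · rw [LiftFrame.rootSys, if_neg (by simpa using hs)]
        exact hv _ s.2.1 (s.2.2.resolve_right hs))
    fun x hx => by
      rw [show x = 0 by
        by_contra h
        exact (mem_nonunits_iff.mp ((mem_maximalIdeal x).mp hx)) (IsUnit.mk0 x h), zero_smul]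
  intro h0
  have hbot := Submodule.finrank_eq_zero.mp h0
  apply hv0
  rw [← Submodule.mem_bot (ResidueField F.E.R), ← hbot]
  exact ⟨v, hfix⟩

end LiftData

end FLTA.RT

end
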