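import Fermat.Agent.RT.Lift.ModulesLevelCore
import Fermat.Agent.RT.Lift.ModulesClassical
import Fermat.Agent.RT.Lift.RankChain

/-!
# The levels of lifting

The level at the index `j` and a tuple: the twisted module `F.Mod` with its algebra `F.Alg`.
-/

set_option autoImplicit false
set_option linter.style.haveILetI false

noncomputable section

open IsLocalRing WeierstrassCurve

namespace FLTA.RT

set_option synthInstance.maxHeartbeats 400000
set_option maxHeartbeats 2000000

local notation "Γℚ" => AlgebraicClosure ℚ ≃ₐ[ℚ] AlgebraicClosure ℚ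

variable {W : WeierstrassCurve ℤ} {hΔ : W.Δ ≠ 0} {p : ℕ} [Fact p.Prime] {M : ℕ}

namespace LiftFrame

variable (F : LiftFrame W hΔ p M) (n j : ℕ) {r : ℕ} (qv : Fin r → ℕ) [NeZero (F.levelAt j qv)]

instance isScalarTowerAlg : IsScalarTower F.E.R (F.Diamond r n) (F.Alg n j qv) :=
  IsScalarTower.of_algebraMap_eq (R := F.E.R) (S := F.Diamond r n) (A := F.Alg n j qv) fun _ => rfl

/-- The diamonds in the algebra. -/
def diaAlg : MvPowerSeries (Fin r) F.E.R →ₐ[F.E.R] F.Alg n j qv :=
  (IsScalarTower.toAlgHom F.E.R (F.Diamond r n) (F.Alg n j qv)).comp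
    (Ideal.Quotient.mkₐ F.E.R (F.diamondRel r n))

/-- The action of the algebra. -/
def actAlg : F.Alg n j qv →+* Module.End (F.Diamond r n) (F.Mod n j qv) :=
  (F.Alg n j qv).val.toRingHom

theorem actAlg_apply (a : F.Alg n j qv) :
    F.actAlg n j qv a = (a : Module.End (F.Diamond r n) (F.Mod n j qv)) := rfl

theorem actAlg_algT (l : {l : ℕ // l.Prime ∧ l ∉ F.badSet qv}) :
    F.actAlg n j qv (F.algT n j qv l) = F.opAt n j qv l.1 := rfl

theorem actAlg_diaAlg (s : MvPowerSeries (Fin r) F.E.R) (x : F.Mod n j qv) :
    F.actAlg n j qv (F.diaAlg n j qv s) x = Ideal.Quotient.mk (F.diamondRel r n) s • x :=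
  Module.algebraMap_end_apply (R := F.Diamond r n) (S := F.Diamond r n) (M := F.Mod n j qv) _ x

theorem actAlg_injective : Function.Injective (F.actAlg n j qv) := Subtype.val_injective

end LiftFrame

namespace LiftData

variable (D : LiftData W p M) (F : LiftFrame W hΔ p M) (n j : ℕ) {r : ℕ} (qv : Fin r → ℕ)
  [NeZero (F.levelAt j qv)] (h : F.IsTWTuple n qv)
include D h

/-- The Galois data of the level. -/
theorem nonempty_levelAlgData :
    letI := F.algCommRing n j qv h.prime
    Nonempty (F.AlgData j qv (F.Alg n j qv) (F.algT n j qv) (F.diaAlg n j qv)) := by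
  letI := F.algCommRing n j qv h.prime
  haveI : NeZero (F.classicalAt j qv) := ⟨D.classicalAt_ne_zero j h.prime⟩
  obtain ⟨b⟩ := D.exists_basis_liftRank F n j h
  obtain ⟨θ, hθT, hmem, -⟩ := D.exists_classical F (j := j) h
  let φ : F.Alg n j qv →ₐ[F.Diamond r n] Module.End (F.Diamond r n) (F.Mod n j qv) :=
    (F.Alg n j qv).val
  let Ψ : CuspForm.heckeAlgebra (F.classicalAt j qv) 2 (↑(F.badSet qv) : Set ℕ) →+*
      F.Alg n j qv :=
    { toFun := fun t => ⟨θ t, hmem t⟩
      map_one' := Subtype.ext (map_one θ)
      map_mul' := fun x y => Subtype.ext (map_mul θ x y)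
      map_zero' := Subtype.ext (map_zero θ)
      map_add' := fun x y => Subtype.ext (map_add θ x y) }
  refine D.nonempty_algData F (D.liftRank_pos F j) h b (F.Alg n j qv) φ Subtype.val_injective
    (F.algT n j qv) ?_ (fun l => F.exists_pow_opAt_sub n j qv h.prime l) Ψ
    fun l hl hlM hlS => Subtype.ext (hθT l hl hlM hlS)
  refine Subalgebra.map_injective (f := φ) Subtype.val_injective ?_
  rw [AlgHom.map_adjoin, Algebra.map_top, ← Set.range_comp]
  exact (Subalgebra.range_val _).symm

/-- The chosen Galois data. -/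
def levelAlgData :
    letI := F.algCommRing n j qv h.prime
    F.AlgData j qv (F.Alg n j qv) (F.algT n j qv) (F.diaAlg n j qv) :=
  Classical.choice (D.nonempty_levelAlgData F n j qv h)

/-- **The level.** -/
def liftLevel : F.LiftLevel (F.liftRank j) n j qv :=
  letI := F.algCommRing n j qv h.prime
  let X := D.levelAlgData F n j qv h
  letI := X.isLocalRing
  letI := X.isNoetherianRing
  letI := X.isAdicComplete
  letI := X.isLocalHom
  letI := X.moduleFinite
  { M := F.Mod n j qv
    basis := (D.exists_basis_liftRank F n j h).some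
    A := F.Alg n j qv
    residue_surjective := X.residue_surjective
    diamond := F.diaAlg n j qv
    α := F.actAlg n j qv
    α_diamond := F.actAlg_diaAlg n j qv
    ρ := X.ρ
    isOfType := X.isOfType
    residual_isEquiv := X.residual_isEquiv
    generated := X.generated
    separated := fun a ha =>
      D.exists_point_ne_zero F h (D.exists_basis_liftRank F n j h).some a ha
    unramified_site := X.unramified_site
    unipotent_site := X.unipotent_site
    flat_or_strict := X.flat_or_strict }

/-- The traces act by the normalised operators. -/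
theorem liftLevel_trace_frob (l : {l : ℕ // l.Prime ∧ l ∉ F.badSet qv})
    (P : ValuationSubring (AlgebraicClosure ℚ)) (hP : P.LiesOverPrime l.1) (σ : Γℚ)
    (hσ : P.IsFrobeniusAt σ l.1) (x : F.Mod n j qv) :
    (D.liftLevel F n j qv h).α ((D.liftLevel F n j qv h).ρ.trace σ) x =
      F.opAt n j qv l.1 x := by
  letI := F.algCommRing n j qv h.prime
  letI := (D.levelAlgData F n j qv h).isLocalRing
  show F.actAlg n j qv ((D.levelAlgData F n j qv h).ρ.trace σ) x = _
  rw [(D.levelAlgData F n j qv h).trace_frob l P hP σ hσ]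
  rfl

theorem liftLevel_α_injective : Function.Injective (D.liftLevel F n j qv h).α :=
  F.actAlg_injective n j qv

end LiftData

end FLTA.RT

end
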