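import Fermat.Agent.RT.Lift.ModulesNewStrict
import Fermat.Agent.RT.Lift.ModulesLevelDef

/-!
# Strictness of the new part at the levels of lifting

At a multiplicative `p` a class of a level killed by both corestrictions at `p` is killed by the
defect of strictness of the representation of the level.
-/

set_option autoImplicit false
set_option linter.style.haveILetI false
set_option synthInstance.maxHeartbeats 400000
set_option maxHeartbeats 2000000

noncomputable section

open IsLocalRing WeierstrassCurve CongruenceSubgroup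

namespace FLTA.RT

open FLTA.Periods

variable {W : WeierstrassCurve ℤ} {hΔ : W.Δ ≠ 0} {p : ℕ} [Fact p.Prime] {M : ℕ}

/-- **The new part at `p` of a level is strictly ordinary.** -/
theorem LiftData.liftLevel_new_strict (D : LiftData W p M) (F : LiftFrame W hΔ p M) (hm : F.Mult)
    (n j : ℕ) {r : ℕ} (qv : Fin r → ℕ) [NeZero (F.levelAt j qv)] (h : F.IsTWTuple n qv)
    {L : ℕ} [NeZero L] [NeZero (L * p)] [NeZero p]
    [((Gamma0 (L * p)).subgroupOf (Gamma0 L)).FiniteIndex] (hL : F.levelAt j qv = L * p)
    (hpL : Nat.Coprime p L) (y : F.Mod n j qv)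
    (hy : ∀ y' : tH1 (gamChar (chiUp (sigProd L (F.twistSet qv) (F.eps n qv)) p)) (F.Diamond r n),
      HEq y' (y : tH1 (gamChar (F.chi n j qv)) (F.Diamond r n)) →
      ∀ i, degDown hpL (sigProd L (F.twistSet qv) (F.eps n qv)) (F.Diamond r n) i y' = 0) :
    (D.liftLevel F n j qv h).α (F.strictDefect (D.liftLevel F n j qv h).ρ) y = 0 := by
  letI := F.algCommRing n j qv h.prime
  let X := D.levelAlgData F n j qv h
  letI := X.isLocalRing
  letI := X.moduleFinite
  show F.actAlg n j qv (F.strictDefect X.ρ) y = 0
  refine D.strictDefect_apply_eq_zero F h (A := F.Alg n j qv) (fun _ => rfl) (F.Alg n j qv).val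
    Subtype.val_injective
    (fun a ha => D.exists_point_ne_zero F h (D.exists_basis_liftRank F n j h).some a ha) X.ρ
    (F.detIsCyclotomic_of_cond X.isOfType) ((F.cond_iff_of_mult hm qv X.ρ).mp X.isOfType).1.2.1
    (fun l P hP τ hτ => ?_) hL hpL (fun a => a.2) y hy
  rw [X.trace_frob l P hP τ hτ]
  rfl

end FLTA.RT

end
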