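import Fermat.Agent.RT.Lift.ModulesOldRank

/-!
# The map to the old part at `p` of the first level

At a multiplicative `p` the first level is `L p` with `p ∤ L`; the map to the old part is the pair of
corestrictions to `L` in coordinates.  It is surjective, its kernel is stable under the algebra of
the good operators, and an element of the kernel is killed by both corestrictions.
-/

set_option autoImplicit false
set_option linter.style.haveILetI false

noncomputable section

open IsLocalRing WeierstrassCurve CongruenceSubgroup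

namespace FLTA.RT

open FLTA.Periods

variable {W : WeierstrassCurve ℤ} {hΔ : W.Δ ≠ 0} {p : ℕ} [Fact p.Prime] {M : ℕ}

namespace LiftData

variable (D : LiftData W p M) (F : LiftFrame W hΔ p M) {n r : ℕ} {qv : Fin r → ℕ}
include D

set_option maxHeartbeats 1000000 in
/-- **The map to the old part at `p`.** -/
theorem exists_oldMap (h : F.IsTWTuple n qv) [NeZero (F.levelAt 0 qv)] :
    ∃ oldMap : F.Mod n 0 qv →ₗ[F.Diamond r n] (Fin F.oldRank → F.Diamond r n),
      (F.Mult → Function.Surjective oldMap) ∧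
      (∀ f ∈ F.Alg n 0 qv, ∀ x, oldMap x = 0 → oldMap (f x) = 0) ∧
      (F.Mult → ∀ x, oldMap x = 0 → ∀ [NeZero p] [NeZero (F.oldBase * ∏ i, qv i)]
        [((Gamma0 ((F.oldBase * ∏ i, qv i) * p)).subgroupOf
          (Gamma0 (F.oldBase * ∏ i, qv i))).FiniteIndex]
        (hc : Nat.Coprime p (F.oldBase * ∏ i, qv i))
        (y' : tH1 (gamChar (chiUp (F.chiLev n qv (F.oldBase * ∏ i, qv i)) p)) (F.Diamond r n)),
          HEq y' x.1 →
            ∀ i, degDown hc (F.chiLev n qv (F.oldBase * ∏ i, qv i)) (F.Diamond r n) i y' = 0) := by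
  classical
  by_cases hm : F.Mult
  swap
  · exact ⟨0, fun h => absurd h hm, fun f _ x _ => rfl, fun h => absurd h hm⟩
  obtain ⟨hlev, hpL, hauxL, hL0⟩ := D.oldBase_spec F hm
  have hp : p.Prime := Fact.out
  have hlevAt : F.levelAt 0 qv = F.oldBase * (∏ i, qv i) * p := by
    rw [LiftFrame.levelAt, hlev]; ring
  haveI hLne : NeZero (F.oldBase * ∏ i, qv i) :=
    ⟨mul_ne_zero hL0 (Finset.prod_ne_zero_iff.mpr fun i _ => (h.prime i).ne_zero)⟩
  have hpq : ∀ i, qv i ≠ p := fun i =>
    (D.avoided_props (F := F) (h.prime i) (h.notMem i)).1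
  have hpL' : ¬ p ∣ F.oldBase * ∏ i, qv i := fun hd => by
    rcases hp.dvd_mul.mp hd with hd | hd
    · exact hpL hd
    · obtain ⟨i, -, hi⟩ := (hp.prime.dvd_finsetProd_iff _).mp hd
      exact hpq i ((Nat.prime_dvd_prime_iff_eq hp (h.prime i)).mp hi).symm
  obtain ⟨up, down, -, h2, -, -, h5, -, h7⟩ := F.exists_raise_maps n qv D h hp hpL' hlevAt
    (hauxL.mul_right _)
    (fun s hs => by
      obtain ⟨i, -, rfl⟩ := Finset.mem_image.mp hs
      exact ⟨h.prime i, dvd_mul_of_dvd_right (Finset.dvd_prod_of_mem qv (Finset.mem_univ i)) _⟩)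
    (Finset.mem_union_left _ (Finset.mem_insert_self _ _))
    (fun hs => by
      rcases Finset.mem_union.mp hs with h' | h'
      · obtain ⟨i, -, hi⟩ := Finset.mem_image.mp h'
        exact hpq i hi
      · exact hpL ((Nat.mem_primeFactors.mp h').2.1.trans hauxL))
    (F.chiLev n qv (F.oldBase * ∏ i, qv i)) rfl (F.chi n 0 qv) rfl
    (F.commAtRing_lev n qv h.prime) (F.commAtRing_ops n 0 h.prime)
    (F.hasLifts_lev n qv (hauxL.mul_right _)) (F.hasLifts n 0 qv)
  obtain ⟨b⟩ := D.exists_basis_levProd F n h hauxL (D.not_dvd_oldBase F hm h)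
    (L' := F.oldBase * ∏ i, qv i) rfl
  let bb := (Pi.basis fun _ : Fin 2 => b).reindex
    ((Equiv.sigmaEquivProd (Fin 2) (Fin (F.factorRank F.oldBase ∅))).trans
      (finProdFinEquiv.trans (finCongr (show 2 * F.factorRank F.oldBase ∅ = F.oldRank from (if_pos hm).symm))))
  let oldMap : F.Mod n 0 qv →ₗ[F.Diamond r n] (Fin F.oldRank → F.Diamond r n) :=
    bb.equivFun.toLinearMap ∘ₗ LinearMap.pi down
  have hker : ∀ x, oldMap x = 0 ↔ ∀ s, down s x = 0 := fun x => by
    simp only [oldMap, LinearMap.comp_apply, LinearEquiv.coe_coe, LinearEquiv.map_eq_zero_iff]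
    exact ⟨fun e s => congrFun e s, fun e => funext e⟩
  refine ⟨oldMap, fun _ c => ?_, fun f hf => ?_, fun _ x hx => h7 x ((hker x).mp hx)⟩
  · obtain ⟨y, hy⟩ := h5 (bb.equivFun.symm c)
    refine ⟨y, ?_⟩
    show bb.equivFun (LinearMap.pi down y) = c
    rw [show LinearMap.pi down y = bb.equivFun.symm c from funext hy, LinearEquiv.apply_symm_apply]
  · induction hf using Algebra.adjoin_induction with
    | mem g hg =>
      obtain ⟨l, rfl⟩ := hg
      refine fun x hx => (hker _).mpr fun s => Subtype.ext ?_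
      rw [h2 s (.inl l) x _ (F.coe_opAt n 0 qv h.prime l.2.1 x), (hker x).mp hx s,
        ZeroMemClass.coe_zero, map_zero]
    | algebraMap c =>
      intro x hx
      rw [Module.algebraMap_end_apply, map_smul, hx, smul_zero]
    | add g g' _ _ hg hg' =>
      intro x hx
      rw [LinearMap.add_apply, map_add, hg x hx, hg' x hx, add_zero]
    | mul g g' _ _ hg hg' =>
      intro x hx
      rw [Module.End.mul_apply]
      exact hg _ (hg' x hx)

end LiftData

end FLTA.RT

end
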