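import Fermat.Agent.RT.Lift.ModulesRaiseTrace
import Fermat.Agent.RT.Lift.Inputs

/-!
# Level raising on the level modules of lifting

At a site: degeneracy maps between consecutive level modules intertwining all traces, with the
composites `[[q + 1, t], [t, q + 1]]`, injective modulo the maximal ideal resp. surjective, and with
`t ^ 2 = (q + 1) ^ 2` on the common kernel of the corestrictions; the raising determinant is
injective.
-/

set_option autoImplicit false
set_option linter.style.haveILetI false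

noncomputable section

open IsLocalRing WeierstrassCurve CongruenceSubgroup

namespace FLTA.RT

open FLTA.Periods

local notation "Γℚ" => AlgebraicClosure ℚ ≃ₐ[ℚ] AlgebraicClosure ℚ

namespace LiftFrame

variable {W : WeierstrassCurve ℤ} {hΔ : W.Δ ≠ 0} {p : ℕ} [Fact p.Prime] {M : ℕ}
  (F : LiftFrame W hΔ p M) {n : ℕ} {r : ℕ} {qv : Fin r → ℕ}

theorem map_maximalIdeal_diamond :
    (maximalIdeal (MvPowerSeries (Fin r) F.E.R)).map (Ideal.Quotient.mk (F.diamondRel r n)) =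
      maximalIdeal (F.Diamond r n) := by
  have : IsLocalHom (Ideal.Quotient.mk (F.diamondRel r n)) :=
    IsLocalHom.of_surjective _ Ideal.Quotient.mk_surjective
  refine le_antisymm (Ideal.map_le_iff_le_comap.mpr fun b hb =>
    map_nonunit (Ideal.Quotient.mk (F.diamondRel r n)) b hb) fun x hx => ?_
  obtain ⟨b, rfl⟩ := Ideal.Quotient.mk_surjective x
  exact Ideal.mem_map_of_mem _ ((mem_maximalIdeal b).mpr fun hu =>
    (mem_maximalIdeal _).mp hx (hu.map _))

/-- The level modules are `p`-adically separated. -/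
theorem eq_zero_of_forall_nsmul (j : ℕ) [NeZero (F.levelAt j qv)] (y : F.Mod n j qv)
    (h : ∀ k : ℕ, ∃ z, y = p ^ k • z) : y = 0 := by
  haveI := F.isNoetherianRing_diamond n (r := r)
  haveI := F.finite_mod n j qv
  have hy : y ∈ ⨅ k : ℕ, maximalIdeal (F.Diamond r n) ^ k •
      (⊤ : Submodule (F.Diamond r n) (F.Mod n j qv)) := by
    refine (Submodule.mem_iInf _).mpr fun k => ?_
    obtain ⟨z, rfl⟩ := h k
    rw [← Nat.cast_smul_eq_nsmul (F.Diamond r n), Nat.cast_pow]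
    exact Submodule.smul_mem_smul (Ideal.pow_mem_pow (F.natCast_mem_diamond n) k) Submodule.mem_top
  rwa [Ideal.iInf_pow_smul_eq_bot_of_isLocalRing (maximalIdeal (F.Diamond r n))
    (maximalIdeal.isMaximal _).ne_top, Submodule.mem_bot] at hy

variable (D : LiftData W p M) (hqv : F.IsTWTuple n qv) (i : Fin F.k)
  [NeZero (F.levelAt i qv)] [NeZero (F.levelAt ((i : ℕ) + 1) qv)]
  {A : Type} [CommRing A] [IsLocalRing A] [IsNoetherianRing A] [Algebra F.E.R A]
  [Module.Finite F.E.R A] {α : A →+* Module.End (F.Diamond r n) (F.Mod n i qv)}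
  {ρ : GaloisRepAdic A} (hρ : F.ActsByTraces n i qv α ρ)
  {A' : Type} [CommRing A'] [IsLocalRing A'] [IsNoetherianRing A'] [Algebra F.E.R A']
  [Module.Finite F.E.R A']
  {α' : A' →+* Module.End (F.Diamond r n) (F.Mod n ((i : ℕ) + 1) qv)}
  {ρ' : GaloisRepAdic A'} (hρ' : F.ActsByTraces n ((i : ℕ) + 1) qv α' ρ')

set_option maxHeartbeats 800000 in
include D hqv hρ hρ' in
/-- **The degeneracy maps at a site.** -/
theorem exists_raise :
    ∃ (up : Fin 2 → F.Mod n i qv →ₗ[F.Diamond r n] F.Mod n ((i : ℕ) + 1) qv)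
      (down : Fin 2 → F.Mod n ((i : ℕ) + 1) qv →ₗ[F.Diamond r n] F.Mod n i qv),
      (∀ l (σ : Γℚ) x, up l (α (ρ.trace σ) x) = α' (ρ'.trace σ) (up l x)) ∧
      (∀ l (σ : Γℚ) y, down l (α' (ρ'.trace σ) y) = α (ρ.trace σ) (down l y)) ∧
      (∀ l l' x, down l (up l' x) = α (F.raiseMatrix ρ (F.site i) l l') x) ∧
      (∀ x : Fin 2 → F.Mod n i qv,
        ∑ l, up l (x l) ∈ (maximalIdeal (MvPowerSeries (Fin r) F.E.R)).map
          (Ideal.Quotient.mk (F.diamondRel r n)) •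
            (⊤ : Submodule (F.Diamond r n) (F.Mod n ((i : ℕ) + 1) qv)) →
        ∀ l, x l ∈ (maximalIdeal (MvPowerSeries (Fin r) F.E.R)).map
          (Ideal.Quotient.mk (F.diamondRel r n)) •
            (⊤ : Submodule (F.Diamond r n) (F.Mod n i qv))) ∧
      (∀ c : Fin 2 → F.Mod n i qv, ∃ y, ∀ l, down l y = c l) ∧
      ∀ y, (∀ l, down l y = 0) →
        α' (ρ'.trace (F.frob (F.site i)) ^ 2 - ((F.site i : A') + 1) ^ 2) y = 0 := by
  classical
  obtain ⟨S⟩ := F.nonempty_raiseStep n qv D hqv i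
  have hq := F.site_isPrime i
  have hqL := F.site_not_dvd_levelAt n qv hqv i
  have hqp := F.site_ne i
  have hP := F.liesOver _ hq
  have hτ := F.isFrobenius _ hq
  have hdet : ∀ (l : {l : ℕ // l.Prime ∧ l ∉ F.badSet qv}) (P : ValuationSubring (AlgebraicClosure ℚ)),
      P.LiesOverPrime l.1 → ∀ τ : Γℚ, P.IsFrobeniusAt τ l.1 →
        LinearMap.det (ρ.ρ τ) = (l.1 : A) ∧ LinearMap.det (ρ'.ρ τ) = (l.1 : A') := fun l P hP τ hτ =>
    ⟨(F.good_hyps D hqv hρ l.1 l.2.1 l.2.2 P hP τ hτ).1,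
      (F.good_hyps D hqv hρ' l.1 l.2.1 l.2.2 P hP τ hτ).1⟩
  refine ⟨S.up, S.down, fun l σ x => ?_, fun l σ y => ?_, fun l l' x => ?_, fun x hx => ?_,
    S.down_surjective, fun y hy => ?_⟩
  · refine (trace_intertwines_of_frobenius α α' (F.exists_pow_le_span A) (F.exists_pow_le_span A')
      (F.eq_zero_of_forall_nsmul _) ρ ρ' (S.up l).toAddMonoidHom (F.badSet qv)
      (fun ℓ hℓ hℓS P hP τ hτ x => ?_) σ x).1
    obtain ⟨h1, h2⟩ := hdet ⟨ℓ, hℓ, hℓS⟩ P hP τ hτ
    refine ⟨?_, ?_⟩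
    · show S.up l (α (ρ.trace τ) x) = α' (ρ'.trace τ) (S.up l x)
      rw [hρ.2 ⟨ℓ, hℓ, hℓS⟩ P hP τ hτ, hρ'.2 ⟨ℓ, hℓ, hℓS⟩ P hP τ hτ]
      exact S.up_op ⟨ℓ, hℓ, hℓS⟩ l x
    · show S.up l (α (LinearMap.det (ρ.ρ τ)) x) = α' (LinearMap.det (ρ'.ρ τ)) (S.up l x)
      simp only [h1, h2, map_natCast, Module.End.natCast_apply]
      exact map_nsmul (S.up l) ℓ x
  · refine (trace_intertwines_of_frobenius α' α (F.exists_pow_le_span A') (F.exists_pow_le_span A)
      (F.eq_zero_of_forall_nsmul _) ρ' ρ (S.down l).toAddMonoidHom (F.badSet qv)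
      (fun ℓ hℓ hℓS P hP τ hτ x => ?_) σ y).1
    obtain ⟨h1, h2⟩ := hdet ⟨ℓ, hℓ, hℓS⟩ P hP τ hτ
    refine ⟨?_, ?_⟩
    · show S.down l (α' (ρ'.trace τ) x) = α (ρ.trace τ) (S.down l x)
      rw [hρ.2 ⟨ℓ, hℓ, hℓS⟩ P hP τ hτ, hρ'.2 ⟨ℓ, hℓ, hℓS⟩ P hP τ hτ]
      exact S.down_op ⟨ℓ, hℓ, hℓS⟩ l x
    · show S.down l (α' (LinearMap.det (ρ'.ρ τ)) x) = α (LinearMap.det (ρ.ρ τ)) (S.down l x)
      simp only [h1, h2, map_natCast, Module.End.natCast_apply]
      exact map_nsmul (S.down l) ℓ x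
  · have hdiag : α (((F.site i : ℕ) : A) + 1) x = ((F.site i : F.Diamond r n) + 1) • x := by
      rw [← Nat.cast_succ, map_natCast, Module.End.natCast_apply, ← Nat.cast_succ,
        Nat.cast_smul_eq_nsmul]
    rw [S.down_up]
    fin_cases l <;> fin_cases l' <;>
      simp [raiseMatrix, add_smul, Nat.cast_smul_eq_nsmul, ← F.opAt_eq_trace D hqv hρ hq hqL hqp hP hτ]
  · rw [F.map_maximalIdeal_diamond] at hx ⊢
    exact S.up_injective x hx
  · refine F.trace_sq_apply_eq_zero D hqv hρ' hq ?_ ?_ ?_ hqp hP hτ y (S.involution y hy)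
    · exact fun h => hqL (F.twistSet_props D hqv i h).2.1
    · rw [F.levelAt_succ qv i]
      exact dvd_mul_left _ _
    · rw [F.levelAt_succ qv i]
      exact fun h => hqL ((Nat.mul_dvd_mul_iff_right hq.pos).mp h)

omit [NeZero (F.levelAt ((i : ℕ) + 1) qv)] in
include D hqv hρ in
/-- **The raising determinant is injective.** -/
theorem raiseMatrix_det_injective :
    Function.Injective (α (F.raiseMatrix ρ (F.site i)).det) := by
  refine (injective_iff_map_eq_zero _).mpr fun x hx => ?_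
  refine F.eq_zero_of_trace_sq D hqv hρ (F.site_isPrime i) (F.site_not_dvd_levelAt n qv hqv i)
    (F.site_ne i) (F.liesOver _ (F.site_isPrime i)) (F.isFrobenius _ (F.site_isPrime i)) x ?_
  rw [raiseMatrix, Matrix.det_fin_two_of] at hx
  rw [show ρ.trace (F.frob (F.site i)) ^ 2 - ((F.site i : A) + 1) ^ 2 =
    -(((F.site i : A) + 1) * ((F.site i : A) + 1) -
      ρ.trace (F.frob (F.site i)) * ρ.trace (F.frob (F.site i))) by ring, map_neg,
    LinearMap.neg_apply, hx, neg_zero]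

end LiftFrame

end FLTA.RT

end
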