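import Fermat.Agent.RT.Lift.RankChain
import Fermat.Agent.RT.SupportDiamond

/-!
# Reduction of the level modules to the bottom

Specialising the diamond variables to `0` maps the level module at a tuple onto the factor of
homomorphisms over the coefficient ring, and removing the primes of the tuple identifies it with
the module at the empty tuple.
-/

set_option autoImplicit false
set_option linter.style.haveILetI false

noncomputable section

open IsLocalRing WeierstrassCurve CongruenceSubgroup

namespace FLTA.RT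

open FLTA.Periods

/-- A ring map sending the root to `1` kills the character. -/
theorem map_charOfRoot_eq_one {R R' : Type} [CommRing R] [CommRing R'] (f : R →+* R') {l : ℕ}
    {x : R} (hx : f x = 1) (u : (ZMod l)ˣ) : f (charOfRoot l x u : R) = 1 := by
  classical
  rw [charOfRoot]
  split_ifs with h
  · obtain ⟨hg, hf⟩ := h.choose_spec.choose_spec
    obtain ⟨i, rfl⟩ := Subgroup.mem_zpowers_iff.mp (hg u)
    have h1 : Units.map f.toMonoidHom (h.choose_spec.choose h.choose) = 1 :=
      Units.ext ((congrArg f hf).trans hx)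
    have h2 : Units.map f.toMonoidHom (h.choose_spec.choose (h.choose ^ i)) = 1 := by
      rw [map_zpow, map_zpow, h1, one_zpow]
    exact congrArg Units.val h2
  · simp

section control

variable {Γ : Type} [Group Γ] {R : Type} [CommRing R] {χ : Γ →* Rˣ}
  {O : Type} [CommRing O] [Algebra R O]

/-- The reduction of classes to homomorphisms over a quotient killing the character. -/
def redHom (e : NatEnd χ) (hO : Function.Surjective (algebraMap R O))
    (htriv : ∀ γ (v : O), (χ γ : R) • v = v) : eImage e R →ₗ[R] homImage e hO htriv where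
  toFun x := ⟨tH1EquivHom htriv (tH1Map χ (Algebra.linearMap R O) x.1),
    mem_homImage.mpr ⟨_, tH1Map_mem_eImage _ x.2, rfl⟩⟩
  map_add' x y := Subtype.ext (by simp only [Submodule.coe_add, map_add])
  map_smul' c x := Subtype.ext (by
    simp only [map_smul, RingHom.id_apply, SetLike.val_smul_of_tower])

variable {e : NatEnd χ} (hlift : HasLifts χ) (hidem : EqAtRing (e * e) e) [IsNoetherianRing R]
  (hO : Function.Surjective (algebraMap R O)) (htriv : ∀ γ (v : O), (χ γ : R) • v = v)

omit [IsNoetherianRing R] in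
include hlift in
theorem redHom_surjective : Function.Surjective (redHom e hO htriv) := fun w => by
  obtain ⟨y, hy, hyw⟩ := mem_homImage.mp w.2
  obtain ⟨x, hx, rfl⟩ := eImage_surjective hlift (Algebra.linearMap R O) hO hy
  exact ⟨⟨x, hx⟩, Subtype.ext hyw⟩

include hlift hidem in
/-- Its kernel is the kernel of the coefficient map times the module. -/
theorem mem_smul_of_redHom_eq_zero [Module.Finite R (eImage e R)] {ι : Type} [Fintype ι]
    (b : Module.Basis ι R (eImage e R)) {x : eImage e R} (hx : redHom e hO htriv x = 0) :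
    x ∈ RingHom.ker (algebraMap R O) • (⊤ : Submodule R (eImage e R)) := by
  obtain ⟨c, hc⟩ := exists_basis_homImage hlift hidem hO htriv b
  have hcb : ∀ i, c i = redHom e hO htriv (b i) := fun i => Subtype.ext (hc i)
  have h0 : ∑ i, algebraMap R O (b.repr x i) • c i = 0 := by
    have hsum : redHom e hO htriv x = ∑ i, redHom e hO htriv (b.repr x i • b i) := by
      rw [← map_sum, b.sum_repr]
    rw [← hx, hsum]
    refine Finset.sum_congr rfl fun i _ => ?_
    rw [map_smul, hcb, algebraMap_smul]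
  have h1 : c.equivFun.symm (fun i => algebraMap R O (b.repr x i)) = 0 := by
    rw [c.equivFun_symm_apply]
    exact h0
  have h2 : ∀ i, algebraMap R O (b.repr x i) = 0 := congrFun
    (c.equivFun.symm.injective (h1.trans (map_zero c.equivFun.symm).symm))
  have h3 : ∑ i, b.repr x i • b i ∈
      (RingHom.ker (algebraMap R O) • ⊤ : Submodule R (eImage e R)) :=
    Submodule.sum_mem _ fun i _ => Submodule.smul_mem_smul (h2 i) Submodule.mem_top
  exact (b.sum_repr x) ▸ h3

end control

variable {W : WeierstrassCurve ℤ} {hΔ : W.Δ ≠ 0} {p : ℕ} [Fact p.Prime] {M : ℕ}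

namespace LiftFrame

variable (F : LiftFrame W hΔ p M) (n j : ℕ) {r : ℕ} (qv : Fin r → ℕ)

/-- The augmentation of the diamond ring. -/
def diamondAug (n r : ℕ) : F.Diamond r n →+* F.E.R :=
  Ideal.Quotient.lift (F.diamondRel r n) MvPowerSeries.constantCoeff
    fun x hx => by
      rw [← RingHom.mem_ker]
      refine (Ideal.span_le.mpr ?_) hx
      rintro _ ⟨i, rfl⟩
      simp [RingHom.mem_ker]

theorem diamondAug_mk (x : MvPowerSeries (Fin r) F.E.R) :
    F.diamondAug n r (Ideal.Quotient.mk _ x) = MvPowerSeries.constantCoeff x := rfl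

theorem diamondAug_surjective : Function.Surjective (F.diamondAug n r) := fun x =>
  ⟨Ideal.Quotient.mk _ (MvPowerSeries.C x), by
    rw [diamondAug_mk, MvPowerSeries.constantCoeff_C]⟩

theorem diamondAug_algebraMap (c : F.E.R) :
    F.diamondAug n r (algebraMap F.E.R (F.Diamond r n) c) = c := by
  rw [show algebraMap F.E.R (F.Diamond r n) c =
    Ideal.Quotient.mk _ (MvPowerSeries.C c) from rfl, diamondAug_mk,
    MvPowerSeries.constantCoeff_C]

theorem diamondAug_injective_zero : Function.Injective (F.diamondAug 0 0) := by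
  rw [injective_iff_map_eq_zero]
  intro x hx
  obtain ⟨f, rfl⟩ := Ideal.Quotient.mk_surjective x
  rw [diamondAug_mk] at hx
  have hf : f = 0 := MvPowerSeries.ext fun d => by
    rw [Subsingleton.elim d 0, MvPowerSeries.coeff_zero_eq_constantCoeff_apply, hx, map_zero]
  rw [hf, map_zero]

theorem diamondAug_gen (i : Fin r) : F.diamondAug n r (F.gen n i) = 1 := by
  rw [gen, diamondAug_mk]
  simp

theorem diamondAug_eps (l : ℕ) (u : (ZMod l)ˣ) :
    F.diamondAug n r (F.eps n qv l u : F.Diamond r n) = 1 := by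
  classical
  rw [eps]
  split_ifs with h
  · exact map_charOfRoot_eq_one _ (F.diamondAug_gen n _) u
  · simp

theorem diamondAug_kap (Q₀ : Finset ℕ) (l : ℕ) :
    F.diamondAug n r (kap Q₀ (F.eps n qv) l : F.Diamond r n) = 1 := by
  rw [kap, Units.coe_prod, map_prod]
  refine Finset.prod_eq_one fun s _ => ?_
  rw [epsAt]
  split_ifs with h
  · exact F.diamondAug_eps n qv s _
  · simp

variable [NeZero (F.levelAt j qv)]

omit [NeZero (F.levelAt j qv)] in
theorem diamondAug_chi (u : (ZMod (F.levelAt j qv))ˣ) :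
    F.diamondAug n r (F.chi n j qv u : F.Diamond r n) = 1 := by
  rw [chi, sigProd_apply, Units.coe_prod, map_prod]
  refine Finset.prod_eq_one fun s _ => ?_
  rw [Units.val_pow_eq_pow_val, map_pow]
  unfold sigChar
  split_ifs with h
  · rw [MonoidHom.comp_apply, F.diamondAug_eps n qv s _, one_pow]
  · simp

open Classical in
/-- The system over the coefficient ring with roots at `Q` and at the auxiliary prime. -/
def rootSysO (Q : Finset ℕ) (l : F.RIdx) : F.E.R :=
  if l.1 ∈ Q ∨ l.1 ∣ F.aux then F.alphaAt l.1 else (W.apOfModel l.1 : F.E.R)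

theorem residue_rootSysO (Q : Finset ℕ) (l : F.RIdx) :
    residue F.E.R (F.rootSysO Q l) = F.rootSys Q l := by
  simp only [rootSysO, rootSys]
  split_ifs
  · rfl
  · exact map_intCast _ _

/-- The factor over the coefficient ring. -/
def botFactor (L : ℕ) [NeZero L] (Q : Finset ℕ) :
    Submodule F.E.R (Additive (Gamma0 L) →+ F.E.R) :=
  LinearMap.range (localIdem (gamHecke F.E.R L (Subtype.val : F.RIdx → ℕ)) (F.rootSysO Q))

end LiftFrame

namespace LiftData

variable (D : LiftData W p M) (F : LiftFrame W hΔ p M)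
include D

/-- Adding primes of the tuple to the level gives an equivalent factor over the coefficient ring,
compatibly with the operators away from the tuple. -/
theorem exists_botFactor_equiv {n r : ℕ} {qv : Fin r → ℕ} (h : F.IsTWTuple n qv) (j : ℕ)
    (S : Finset ℕ) (hS : S ⊆ F.twistSet qv) [NeZero (F.level j)] :
    ∀ (L : ℕ) [NeZero L], L = F.level j * ∏ l ∈ S, l →
      ∃ Φ : F.botFactor (F.level j) ∅ ≃ₗ[F.E.R] F.botFactor L S,
        ∀ l : ℕ, l.Prime → l ∉ F.twistSet qv → ∀ x y : F.botFactor (F.level j) ∅,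
          y.1 = heckeHom F.E.R (F.level j) l x.1 → (Φ y).1 = heckeHom F.E.R L l (Φ x).1 := by
  classical
  induction S using Finset.induction with
  | empty =>
    intro L _ hL
    rw [Finset.prod_empty, mul_one] at hL
    subst hL
    exact ⟨LinearEquiv.refl _ _, fun _ _ _ _ _ hy => hy⟩
  | @insert x S hxS ih =>
    intro L _ hL
    have hx : x ∈ F.twistSet qv := hS (Finset.mem_insert_self _ _)
    obtain ⟨i, -, rfl⟩ := Finset.mem_image.mp hx
    have hS' : S ⊆ F.twistSet qv := fun y hy => hS (Finset.mem_insert_of_mem hy)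
    rw [Finset.prod_insert hxS, mul_comm (qv i), ← mul_assoc] at hL
    subst hL
    obtain ⟨hqp, -, -, hqa, -, hqlev⟩ := D.avoided_props (F := F) (h.prime i) (h.notMem i)
    haveI : NeZero (F.level j * ∏ l ∈ S, l) :=
      ⟨fun h0 => NeZero.ne (F.level j * (∏ l ∈ S, l) * qv i) (by rw [h0, zero_mul])⟩
    haveI : NeZero (qv i) := ⟨(h.prime i).ne_zero⟩
    obtain ⟨Φ, hΦ⟩ := ih hS' (F.level j * ∏ l ∈ S, l) rfl
    have hqL : ¬ qv i ∣ F.level j * ∏ l ∈ S, l := fun hd => by
      rcases (h.prime i).dvd_mul.mp hd with hd | hd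
      · exact hqlev j hd
      · obtain ⟨y, hy, hyd⟩ := ((h.prime i).prime.dvd_finsetProd_iff _).mp hd
        obtain ⟨i', -, rfl⟩ := Finset.mem_image.mp (hS' hy)
        exact hxS ((Nat.prime_dvd_prime_iff_eq (h.prime i) (h.prime i')).mp hyd ▸ hy)
    obtain ⟨l₀, hl₀, hl₀S, hl₀1, hu⟩ := D.exists_nonEisenstein F
      (NeZero.ne (F.level j * (∏ l ∈ S, l) * qv i)) (F.twistSet qv)
    have hl₀A : l₀ ∉ F.avoided := fun hh => hl₀S (Finset.mem_union_right _ hh)
    have hl₀a : ¬ l₀ ∣ F.aux := (D.avoided_props (F := F) hl₀ hl₀A).2.2.2.1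
    let s₀ : F.RIdx := ⟨l₀, hl₀, Or.inl hl₀A⟩
    let sq : F.RIdx := ⟨qv i, h.prime i, Or.inl (h.notMem i)⟩
    have hs₀ : F.rootSysO S s₀ = (W.apOfModel l₀ : F.E.R) :=
      if_neg fun hh => hh.elim (fun h' => hl₀S (Finset.mem_union_left _ (hS' h'))) hl₀a
    have hsq : F.rootSysO S sq = (W.apOfModel (qv i) : F.E.R) := if_neg fun hh => hh.elim hxS hqa
    obtain ⟨-, -, -, hroot, hsimple, hα1, hdist⟩ := D.stab_root (F := F) h
      (Finset.mem_union_left F.aux.primeFactors hx)
    have hunit : ∀ z : F.E.R, residue F.E.R z ≠ 0 → IsUnit z := fun z hz =>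
      isUnit_of_map_unit (residue F.E.R) z (isUnit_iff_ne_zero.mpr hz)
    obtain ⟨Ψ, hΨ⟩ := exists_equiv_addPrime (O := F.E.R) (N := F.level j * ∏ l ∈ S, l) (q := qv i)
      (Subtype.val : F.RIdx → ℕ) (fun s => s.2.1) (F.rootSysO S) sq
      (fun s => ⟨fun e => Subtype.ext e, fun e => e ▸ rfl⟩) hqL (F.alphaAt (qv i)) s₀ hl₀1
      (hunit _ (by
        rw [hs₀, map_sub, map_add, map_one, map_natCast, map_intCast]
        exact hu.ne_zero))
      (fun z hz => (mul_eq_zero.mp (by rwa [← two_mul] at hz)).resolve_left two_ne_zero)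
      (F.isUnit_natCast fun hd => hqp ((Nat.prime_dvd_prime_iff_eq Fact.out (h.prime i)).mp hd).symm)
      (fun L' hL' φ hφ => F.isParHom0_of_parabolic
        (hL'.elim (fun e => e ▸ (F.aux_dvd_level j).mul_right _)
          fun e => e ▸ ((F.aux_dvd_level j).mul_right _).mul_right _)
        (fun m hm => Nat.cast_ne_zero.mpr fun h0 => hm (h0 ▸ dvd_zero p)) φ hφ)
      ((residue_eq_zero_iff _).mp (by
        rw [hsq, map_add, map_sub, map_mul, map_mul, map_natCast, map_intCast, hroot]))
      (hunit _ (by rw [hsq, map_sub, map_add, map_intCast]; exact hsimple))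
      (hunit _ (by rw [map_sub, map_mul, map_one]; exact hα1))
      (hunit _ (by
        rw [hsq, map_sub, map_mul, map_add, map_one, map_natCast, map_intCast]; exact hdist))
    have hupd : @Function.update F.RIdx (fun _ => F.E.R)
        (fun a b => Classical.propDecidable (a = b)) (F.rootSysO S) sq (F.alphaAt (qv i)) =
        F.rootSysO (insert (qv i) S) := funext fun s => by
      by_cases hs : s = sq
      · subst hs
        rw [@Function.update_self]
        exact (if_pos (Or.inl (Finset.mem_insert_self _ _))).symm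
      · rw [@Function.update_of_ne _ _ (fun a b => Classical.propDecidable (a = b)) _ _ hs]
        have hne : s.1 ≠ qv i := fun e => hs (Subtype.ext e)
        simp only [LiftFrame.rootSysO, Finset.mem_insert, hne, false_or]
    have heq : LinearMap.range (localIdem
        (gamHecke F.E.R (F.level j * (∏ l ∈ S, l) * qv i) (Subtype.val : F.RIdx → ℕ))
        (@Function.update F.RIdx (fun _ => F.E.R) (fun a b => Classical.propDecidable (a = b))
          (F.rootSysO S) sq (F.alphaAt (qv i)))) =
        F.botFactor (F.level j * (∏ l ∈ S, l) * qv i) (insert (qv i) S) := by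
      rw [hupd]; rfl
    refine ⟨Φ.trans (Ψ.trans (LinearEquiv.ofEq _ _ heq)), fun l hl hlT a b hab => ?_⟩
    exact hΨ l hl (fun e => hlT (e ▸ hx)) (Φ a) (Φ b) (hΦ l hl hlT a b hab)

end LiftData

/-- The index of the chain of an operator of a tuple. -/
theorem LiftFrame.exists_idxMap (F : LiftFrame W hΔ p M) (D : LiftData W p M) (j : ℕ) {r : ℕ}
    {qv : Fin r → ℕ} (hqv : ∀ i, (qv i).Prime) (hnm : ∀ i, qv i ∉ F.avoided) :
    ∃ f : F.Idx qv → F.RIdx, Function.Surjective f ∧
      ∀ s, (f s).1 = F.primeOf qv s ∧ ∀ n : ℕ,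
        F.diamondAug n r (F.sys n qv s) = F.rootSysO (F.twistSet qv) (f s) := by
  classical
  have hmem : ∀ l : F.Idx qv, (F.primeOf qv l).Prime ∧
      (F.primeOf qv l ∉ F.avoided ∨ F.primeOf qv l ∣ F.aux) := by
    rintro (l | l)
    · exact ⟨l.2.1, Or.inl fun hh => l.2.2 (Finset.mem_union_left _ hh)⟩
    · refine ⟨(F.stabSet_props j hqv l.2).1, ?_⟩
      rcases Finset.mem_union.mp l.2 with hl | hl
      · obtain ⟨i, -, hi⟩ := Finset.mem_image.mp hl
        exact Or.inl fun hh => hnm i (hi ▸ hh)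
      · exact Or.inr (Nat.mem_primeFactors.mp hl).2.1
  refine ⟨fun l => ⟨F.primeOf qv l, hmem l⟩, ?_, fun s => ⟨rfl, fun n => ?_⟩⟩
  · rintro ⟨l, hl, hl'⟩
    by_cases hs : l ∈ F.stabSet qv
    · exact ⟨.inr ⟨l, hs⟩, rfl⟩
    · refine ⟨.inl ⟨l, hl, fun hh => ?_⟩, rfl⟩
      rcases Finset.mem_union.mp hh with hh | hh
      · refine hs (Finset.mem_union_right _ (Nat.mem_primeFactors.mpr ⟨hl, ?_, ?_⟩))
        · exact hl'.resolve_left fun h' => h' hh
        · rcases F.aux_spec with ⟨-, e⟩ | ⟨-, e, -⟩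
          · omega
          · exact e.ne_zero
      · exact hs (Finset.mem_union_left _ hh)
  · rcases s with l | l
    · refine (map_intCast _ _).trans (if_neg ?_).symm
      exact fun hh => hh.elim (fun h' => l.2.2 (Finset.mem_union_right _ h'))
        (D.avoided_props (F := F) l.2.1 fun h' => l.2.2 (Finset.mem_union_left _ h')).2.2.2.1
    · refine (F.diamondAug_algebraMap n _).trans (if_pos ?_).symm
      exact (Finset.mem_union.mp l.2).imp id fun h' => (Nat.mem_primeFactors.mp h').2.1

namespace LiftData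

variable (D : LiftData W p M) (F : LiftFrame W hΔ p M)
include D

/-- The level module maps onto the factor over the coefficient ring. -/
theorem exists_redTop (n j : ℕ) {r : ℕ} {qv : Fin r → ℕ} [NeZero (F.levelAt j qv)]
    (hqv : ∀ i, (qv i).Prime) (hnm : ∀ i, qv i ∉ F.avoided) {d : ℕ}
    (b : Module.Basis (Fin d) (F.Diamond r n) (F.Mod n j qv)) :
    ∃ g : F.Mod n j qv →+ F.botFactor (F.levelAt j qv) (F.twistSet qv),
      Function.Surjective g ∧ (∀ c x, g (c • x) = F.diamondAug n r c • g x) ∧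
      (∀ x, g x = 0 → x ∈ RingHom.ker (F.diamondAug n r) •
        (⊤ : Submodule (F.Diamond r n) (F.Mod n j qv))) ∧
      ∀ l : ℕ, l.Prime → ∀ x, (g (F.opAt n j qv l x)).1 =
        heckeHom F.E.R (F.levelAt j qv) l (g x).1 := by
  haveI := group_fg_Gamma0 (F.levelAt j qv)
  haveI := F.isNoetherianRing_diamond n (r := r)
  haveI := F.isAdicComplete_diamond n (r := r)
  letI : Algebra (F.Diamond r n) F.E.R := (F.diamondAug n r).toAlgebra
  have hO : Function.Surjective (algebraMap (F.Diamond r n) F.E.R) := F.diamondAug_surjective n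
  have hcomm := F.commAtRing_ops n j hqv
  have hlift := F.hasLifts n j qv
  have htriv : ∀ γ (v : F.E.R),
      ((gamChar (F.chi n j qv) γ : (F.Diamond r n)ˣ) : F.Diamond r n) • v = v := fun γ v => by
    rw [Algebra.smul_def, RingHom.algebraMap_toAlgebra, gamChar_apply, F.diamondAug_chi, one_mul]
  haveI : Module.Finite (F.Diamond r n) (eImage (F.idem n j qv) (F.Diamond r n)) :=
    finite_eImage (e := F.idem n j qv) (F.Diamond r n)
  haveI : Module.Finite (F.Diamond r n)
      (eImage (localEnd (F.ops n j qv) (F.sys n qv)) (F.Diamond r n)) :=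
    finite_eImage (e := localEnd (F.ops n j qv) (F.sys n qv)) (F.Diamond r n)
  haveI := finite_addHom (L := F.levelAt j qv) (O := F.E.R) F.E.R
  have key : ∀ (l : ℕ), l.Prime → ∀ x : tH1 (gamChar (F.chi n j qv)) F.E.R,
      tH1EquivHom htriv ((natHecke (F.chi n j qv) l).app F.E.R x) =
        heckeHom F.E.R (F.levelAt j qv) l (tH1EquivHom htriv x) := fun l hl x => by
    rw [tH1EquivHom_natHecke _ htriv hl, heckeHom_eq_int, heckeHom_eq_int (𝕜 := F.E.R)]
  have keyT : ∀ (l : ℕ), l.Prime → ∀ x : tH1 (gamChar (F.chi n j qv)) F.E.R,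
      tH1EquivHom htriv ((F.natT n j qv l).app F.E.R x) =
        heckeHom F.E.R (F.levelAt j qv) l (tH1EquivHom htriv x) := fun l hl x => by
    show tH1EquivHom htriv ((kap (F.twistSet qv) (F.eps n qv) l : F.Diamond r n) •
      (natHecke (F.chi n j qv) l).app F.E.R x) = _
    rw [map_smul, key l hl]
    refine AddMonoidHom.ext fun y => ?_
    rw [AddMonoidHom.smul_apply, Algebra.smul_def, RingHom.algebraMap_toAlgebra, F.diamondAug_kap,
      one_mul]
  obtain ⟨f, hf, hfs⟩ := F.exists_idxMap D j hqv hnm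
  have himg : homImage (F.idem n j qv) hO htriv =
      F.botFactor (F.levelAt j qv) (F.twistSet qv) := by
    show homImage (localEnd (F.ops n j qv) (F.sys n qv)) hO htriv = _
    rw [homImage_localEnd hcomm _ hlift hO htriv
      (fun s => gamHecke F.E.R (F.levelAt j qv) (Subtype.val : F.RIdx → ℕ) (f s)) fun s x => ?_]
    · rw [show (fun s => algebraMap (F.Diamond r n) F.E.R (F.sys n qv s)) =
        F.rootSysO (F.twistSet qv) ∘ f from funext fun s => (hfs s).2 n]
      exact congrArg LinearMap.range (localIdem_reindex (O := F.E.R)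
        (A := Module.End F.E.R (Additive (Gamma0 (F.levelAt j qv)) →+ F.E.R))
        (T := gamHecke F.E.R (F.levelAt j qv) (Subtype.val : F.RIdx → ℕ))
        (fun s t => commute_heckeHom s.2.1 t.2.1) (F.rootSysO (F.twistSet qv)) f hf)
    · show _ = heckeHom F.E.R (F.levelAt j qv) (f s).1 _
      rw [(hfs s).1]
      rcases s with l | l
      · exact keyT _ l.2.1 x
      · exact key _ (F.stabSet_props 0 hqv l.2).1 x
  let g₀ := redHom (F.idem n j qv) hO htriv
  let ι := LinearEquiv.ofEq _ _ himg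
  refine ⟨ι.toLinearMap.toAddMonoidHom.comp g₀.toAddMonoidHom,
    ι.surjective.comp (redHom_surjective hlift hO htriv), fun c x => ?_, fun x hx => ?_,
    fun l hl x => ?_⟩
  · show ι (g₀ (c • x)) = _
    rw [map_smul, ← algebraMap_smul F.E.R c (g₀ x), map_smul]
    rfl
  · exact mem_smul_of_redHom_eq_zero hlift (eqAtRing_localEnd_sq hcomm _) hO htriv b
      (ι.map_eq_zero_iff.mp hx)
  · show tH1EquivHom htriv (tH1Map (gamChar (F.chi n j qv)) (Algebra.linearMap _ F.E.R)
      ((F.opAt n j qv l x : F.Mod n j qv) : tH1 (gamChar (F.chi n j qv)) (F.Diamond r n))) = _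
    rw [F.coe_opAt n j qv hqv hl, ← (F.natT n j qv l).natural, keyT l hl]
    rfl

set_option maxHeartbeats 1000000 in
/-- **Reduction to the bottom.** -/
theorem exists_red {n r : ℕ} {qv : Fin r → ℕ} (h : F.IsTWTuple n qv) (j : ℕ)
    [NeZero (F.levelAt j qv)] [NeZero (F.levelAt j LiftFrame.noPrimes)] :
    ∃ red : F.Mod n j qv →+ F.Mod 0 j LiftFrame.noPrimes,
      (∀ (s : MvPowerSeries (Fin r) F.E.R) x,
        red (Ideal.Quotient.mk (F.diamondRel r n) s • x) =
          Ideal.Quotient.mk (F.diamondRel 0 0) (MvPowerSeries.C (MvPowerSeries.constantCoeff s)) •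
            red x) ∧
      Function.Surjective red ∧
      (∀ x, red x = 0 → x ∈
        (Ideal.span (Set.range (MvPowerSeries.X : Fin r → MvPowerSeries (Fin r) F.E.R))).map
          (Ideal.Quotient.mk (F.diamondRel r n)) • (⊤ : Submodule (F.Diamond r n) (F.Mod n j qv))) ∧
      ∀ l : ℕ, l.Prime → l ∉ F.twistSet qv → ∀ x,
        red (F.opAt n j qv l x) = F.opAt 0 j LiftFrame.noPrimes l (red x) := by
  classical
  haveI : NeZero (F.level j) := ⟨D.level_ne_zero j⟩
  have h0 : F.IsTWTuple 0 LiftFrame.noPrimes :=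
    ⟨fun a => a.elim0, fun a => a.elim0, fun a => a.elim0, fun a => a.elim0, fun a => a.elim0⟩
  obtain ⟨b⟩ := D.exists_basis_liftRank F n j h
  obtain ⟨b₀⟩ := D.exists_basis_liftRank F 0 j h0
  obtain ⟨g, hg, hgs, hgk, hgT⟩ := D.exists_redTop F n j h.prime h.notMem b
  obtain ⟨g₀, hg₀, hgs₀, hgk₀, hgT₀⟩ := D.exists_redTop F 0 j h0.prime h0.notMem b₀
  have hlev : F.levelAt j qv = F.level j * ∏ l ∈ F.twistSet qv, l := by
    rw [LiftFrame.levelAt, LiftFrame.twistSet, Finset.prod_image fun a _ c _ e => h.injective e]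
  have hlev₀ : F.levelAt j LiftFrame.noPrimes = F.level j * ∏ l ∈ F.twistSet LiftFrame.noPrimes, l := by
    simp [LiftFrame.levelAt, LiftFrame.twistSet]
  obtain ⟨Φ, hΦ⟩ := D.exists_botFactor_equiv F h j _ (Finset.Subset.refl _) (F.levelAt j qv) hlev
  obtain ⟨Φ₀, hΦ₀⟩ := D.exists_botFactor_equiv F h0 j _ (Finset.Subset.refl _)
    (F.levelAt j LiftFrame.noPrimes) hlev₀
  have hinj : Function.Injective g₀ := by
    rw [injective_iff_map_eq_zero]
    intro x hx
    have := hgk₀ x hx
    rwa [(RingHom.injective_iff_ker_eq_bot _).mp F.diamondAug_injective_zero, Submodule.bot_smul,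
      Submodule.mem_bot] at this
  let e₀ : F.Mod 0 j LiftFrame.noPrimes ≃+
      F.botFactor (F.levelAt j LiftFrame.noPrimes) (F.twistSet LiftFrame.noPrimes) :=
    AddEquiv.ofBijective g₀ ⟨hinj, hg₀⟩
  let Θ := Φ.symm.trans Φ₀
  refine ⟨e₀.symm.toAddMonoidHom.comp (Θ.toLinearMap.toAddMonoidHom.comp g), fun s x => ?_,
    e₀.symm.surjective.comp (Θ.surjective.comp hg), fun x hx => ?_, fun l hl hlT x => ?_⟩
  · apply hinj
    show g₀ (e₀.symm (Θ (g _))) = g₀ (_ • e₀.symm (Θ (g x)))
    rw [hgs, hgs₀, LiftFrame.diamondAug_mk, LiftFrame.diamondAug_mk, MvPowerSeries.constantCoeff_C,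
      map_smul]
    rw [show g₀ (e₀.symm (_ • Θ (g x))) = _ from e₀.apply_symm_apply _,
      show g₀ (e₀.symm (Θ (g x))) = _ from e₀.apply_symm_apply _]
  · have h1 : g x = 0 := Θ.map_eq_zero_iff.mp (e₀.symm.map_eq_zero_iff.mp hx)
    refine Submodule.smul_mono_left ?_ (hgk x h1)
    intro c hc
    obtain ⟨f, rfl⟩ := Ideal.Quotient.mk_surjective c
    refine Ideal.mem_map_of_mem _ ((mem_augPrime_iff (O := F.E.R)).mpr ?_)
    simpa [LiftFrame.diamondAug_mk] using hc
  · apply hinj
    show g₀ (e₀.symm (Θ (g _))) = g₀ (F.opAt 0 j LiftFrame.noPrimes l (e₀.symm (Θ (g x))))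
    refine Subtype.ext ?_
    rw [hgT₀ l hl, show g₀ (e₀.symm (Θ (g x))) = _ from e₀.apply_symm_apply _,
      show g₀ (e₀.symm (Θ (g (F.opAt n j qv l x)))) = _ from e₀.apply_symm_apply _]
    have hlT₀ : l ∉ F.twistSet LiftFrame.noPrimes := by simp [LiftFrame.twistSet]
    let y := Φ.symm (g x)
    obtain ⟨z, hz⟩ : ∃ z : F.botFactor (F.level j) ∅, z.1 = heckeHom F.E.R (F.level j) l y.1 := by
      haveI := finite_addHom (L := F.level j) (O := F.E.R) F.E.R
      obtain ⟨u, hu⟩ := y.2
      refine ⟨⟨_, heckeHom F.E.R (F.level j) l u, rfl⟩, ?_⟩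
      rw [← hu]
      exact (LinearMap.congr_fun (commute_localIdem
        (fun s t => commute_heckeHom s.2.1 t.2.1) (F.rootSysO ∅)
        (fun s => commute_heckeHom hl s.2.1)).eq u).symm
    have h2 : Φ z = g (F.opAt n j qv l x) := Subtype.ext (by
      rw [hΦ l hl hlT y z hz, Φ.apply_symm_apply, hgT l hl])
    show (Φ₀ (Φ.symm (g (F.opAt n j qv l x)))).1 = _
    rw [← h2, Φ.symm_apply_apply]
    exact hΦ₀ l hl hlT₀ y z hz

end LiftData

end FLTA.RT

end
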