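import Fermat.Agent.RT.Lift.ModulesRed
import Fermat.Agent.RT.ClassicalQuadratic
import Fermat.Agent.RT.LocalExtra

/-!
# The reduction to the bottom intertwines the traces

A map to the module at the empty tuple which commutes with the normalised `T_l` at the primes
outside the tuple intertwines the traces of any two representations acting through the traces at
the good primes.
-/

set_option autoImplicit false
set_option linter.style.haveILetI false

noncomputable section

open IsLocalRing WeierstrassCurve CongruenceSubgroup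

namespace FLTA.RT

local notation "Γℚ" => AlgebraicClosure ℚ ≃ₐ[ℚ] AlgebraicClosure ℚ

variable {W : WeierstrassCurve ℤ} {hΔ : W.Δ ≠ 0} {p : ℕ} [Fact p.Prime] {M : ℕ}

namespace LiftFrame

variable (F : LiftFrame W hΔ p M)

theorem isTWTuple_empty : F.IsTWTuple 0 LiftFrame.noPrimes :=
  ⟨fun a => a.elim0, fun a => a.elim0, fun a => a.elim0, fun a => a.elim0, fun a => a.elim0⟩

theorem badSet_empty_subset {r : ℕ} (qv : Fin r → ℕ) :
    F.badSet LiftFrame.noPrimes ⊆ F.badSet qv := by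
  intro l hl
  rcases Finset.mem_union.mp hl with hl | hl
  · exact Finset.mem_union_left _ hl
  · simp [LiftFrame.twistSet] at hl

end LiftFrame

namespace LiftData

variable (D : LiftData W p M) (F : LiftFrame W hΔ p M) {n j r : ℕ} {qv : Fin r → ℕ}

include D in
/-- **The reduction intertwines all traces.** -/
theorem red_trace (hqv : F.IsTWTuple n qv) [NeZero (F.levelAt j qv)]
    [NeZero (F.levelAt j LiftFrame.noPrimes)]
    (red : F.Mod n j qv →+ F.Mod 0 j LiftFrame.noPrimes)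
    (hred : ∀ l : ℕ, l.Prime → l ∉ F.twistSet qv → ∀ x,
      red (F.opAt n j qv l x) = F.opAt 0 j LiftFrame.noPrimes l (red x))
    {A : Type} [CommRing A] [IsLocalRing A] [IsNoetherianRing A] [Algebra F.E.R A]
    [Module.Finite F.E.R A] {A₀ : Type} [CommRing A₀] [IsLocalRing A₀] [IsNoetherianRing A₀]
    [Algebra F.E.R A₀] [Module.Finite F.E.R A₀]
    (α : A →+* Module.End (F.Diamond r n) (F.Mod n j qv))
    (α₀ : A₀ →+* Module.End (F.Diamond 0 0) (F.Mod 0 j LiftFrame.noPrimes))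
    (ρ : GaloisRepAdic A) (ρ₀ : GaloisRepAdic A₀)
    (hdet : ρ.DetIsCyclotomic p) (hdet₀ : ρ₀.DetIsCyclotomic p)
    (htr : ∀ (l : {l : ℕ // l.Prime ∧ l ∉ F.badSet qv})
      (P : ValuationSubring (AlgebraicClosure ℚ)), P.LiesOverPrime l.1 →
        ∀ τ : Γℚ, P.IsFrobeniusAt τ l.1 → ∀ x, α (ρ.trace τ) x = F.opAt n j qv l.1 x)
    (htr₀ : ∀ (l : {l : ℕ // l.Prime ∧ l ∉ F.badSet LiftFrame.noPrimes})
      (P : ValuationSubring (AlgebraicClosure ℚ)), P.LiesOverPrime l.1 →
        ∀ τ : Γℚ, P.IsFrobeniusAt τ l.1 → ∀ x,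
          α₀ (ρ₀.trace τ) x = F.opAt 0 j LiftFrame.noPrimes l.1 x)
    (σ : Γℚ) (x : F.Mod n j qv) :
    red (α (ρ.trace σ) x) = α₀ (ρ₀.trace σ) (red x) := by
  obtain ⟨b₀⟩ := D.exists_basis_liftRank F 0 j F.isTWTuple_empty
  haveI := Module.Finite.of_basis b₀
  haveI := F.isNoetherianRing_diamond 0 (r := 0)
  letI : Algebra ℤ_[p] A := ((algebraMap F.E.R A).comp (algebraMap ℤ_[p] F.E.R)).toAlgebra
  haveI : IsScalarTower ℤ_[p] F.E.R A := IsScalarTower.of_algebraMap_eq fun _ => rfl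
  haveI : Module.Finite ℤ_[p] A := Module.Finite.trans F.E.R A
  letI : Algebra ℤ_[p] A₀ := ((algebraMap F.E.R A₀).comp (algebraMap ℤ_[p] F.E.R)).toAlgebra
  haveI : IsScalarTower ℤ_[p] F.E.R A₀ := IsScalarTower.of_algebraMap_eq fun _ => rfl
  haveI : Module.Finite ℤ_[p] A₀ := Module.Finite.trans F.E.R A₀
  have hsep : ∀ y : F.Mod 0 j LiftFrame.noPrimes, (∀ k : ℕ, ∃ z, y = p ^ k • z) → y = 0 := by
    intro y h
    have hy : y ∈ ⨅ k : ℕ, maximalIdeal (F.Diamond 0 0) ^ k •
        (⊤ : Submodule (F.Diamond 0 0) (F.Mod 0 j LiftFrame.noPrimes)) := by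
      refine (Submodule.mem_iInf _).mpr fun k => ?_
      obtain ⟨z, rfl⟩ := h k
      rw [← Nat.cast_smul_eq_nsmul (F.Diamond 0 0), Nat.cast_pow]
      exact Submodule.smul_mem_smul (Ideal.pow_mem_pow (F.natCast_mem_diamond 0) k)
        Submodule.mem_top
    rwa [Ideal.iInf_pow_smul_eq_bot_of_isLocalRing (maximalIdeal (F.Diamond 0 0))
      (maximalIdeal.isMaximal _).ne_top, Submodule.mem_bot] at hy
  refine (trace_intertwines_of_frobenius α α₀ (exists_pow_le_span_natCast A)
    (exists_pow_le_span_natCast A₀) hsep ρ ρ₀ red (F.badSet qv)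
    (fun l hl hlS P hP τ hτ y => ?_) σ x).1
  have hlS₀ : l ∉ F.badSet LiftFrame.noPrimes := fun h => hlS (F.badSet_empty_subset qv h)
  have hlp : p ≠ l := (D.badSet_props F hqv.prime hl hlS).1.symm
  refine ⟨?_, ?_⟩
  · rw [htr ⟨l, hl, hlS⟩ P hP τ hτ, htr₀ ⟨l, hl, hlS₀⟩ P hP τ hτ]
    exact hred l hl (fun h => hlS (Finset.mem_union_right _ h)) y
  · rw [LocalGalois.det_frobenius_eq ρ hdet hl Fact.out hlp hP hτ, LocalGalois.det_frobenius_eq ρ₀ hdet₀ hl Fact.out hlp
      hP hτ, map_natCast, map_natCast, Module.End.natCast_apply, Module.End.natCast_apply,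
      map_nsmul]

end LiftData

end FLTA.RT

end
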