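import Fermat.Agent.RT.Lift.ModulesDiamond
import Fermat.Agent.RT.Lift.ModulesRaise
import Fermat.Agent.RT.Lift.ModulesRed
import Fermat.Agent.RT.Lift.ModulesRedTrace
import Fermat.Agent.RT.Lift.ModulesModular
import Fermat.Agent.RT.Lift.ModulesOld
import Fermat.Agent.RT.Lift.ModulesNewStrictLevel

/-!
# The Hecke input of lifting

The levels at all tuples, with the degeneracy maps, the old part at `p` of the first level and the
reductions to the empty tuple, form the Hecke input.
-/

set_option autoImplicit false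
set_option linter.style.haveILetI false

noncomputable section

open IsLocalRing WeierstrassCurve CongruenceSubgroup

namespace FLTA.RT

set_option synthInstance.maxHeartbeats 400000
set_option maxHeartbeats 4000000

local notation "Γℚ" => AlgebraicClosure ℚ ≃ₐ[ℚ] AlgebraicClosure ℚ

variable {W : WeierstrassCurve ℤ} {hΔ : W.Δ ≠ 0} {p : ℕ} [Fact p.Prime] {M : ℕ}

namespace LiftData

variable (D : LiftData W p M) (F : LiftFrame W hΔ p M)

/-- The level at an index, at any tuple. -/
def levelOf {n r : ℕ} {qv : Fin r → ℕ} (h : F.IsTWTuple n qv) (j : ℕ) :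
    F.LiftLevel (F.liftRank j) n j qv :=
  haveI : NeZero (F.levelAt j qv) := ⟨D.levelAt_ne_zero j h.prime⟩
  D.liftLevel F n j qv h

theorem levelOf_actsByTraces {n r : ℕ} {qv : Fin r → ℕ} (h : F.IsTWTuple n qv) (j : ℕ)
    [NeZero (F.levelAt j qv)] :
    F.ActsByTraces n j qv (D.liftLevel F n j qv h).α (D.liftLevel F n j qv h).ρ :=
  ⟨F.detIsCyclotomic_of_cond (D.liftLevel F n j qv h).isOfType,
    fun l P hP σ hσ x => D.liftLevel_trace_frob F n j qv h l P hP σ hσ x⟩

theorem exists_old {n r : ℕ} {qv : Fin r → ℕ} (h : F.IsTWTuple n qv) :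
    ∃ oldMap : (D.levelOf F h 0).M →ₗ[F.Diamond r n] (Fin F.oldRank → F.Diamond r n),
      (F.Mult → Function.Surjective oldMap) ∧
      (∀ a x, oldMap x = 0 → oldMap ((D.levelOf F h 0).α a x) = 0) ∧
      (F.Mult → ∀ x, oldMap x = 0 →
        (D.levelOf F h 0).α (F.strictDefect (D.levelOf F h 0).ρ) x = 0) := by
  haveI : NeZero (F.levelAt 0 qv) := ⟨D.levelAt_ne_zero 0 h.prime⟩
  obtain ⟨oldMap, hsurj, hstab, hker⟩ := D.exists_oldMap F h
  refine ⟨oldMap, hsurj, fun a x hx => hstab _ a.2 x hx, fun hm x hx => ?_⟩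
  obtain ⟨hlev, hpL, -, hL0⟩ := D.oldBase_spec F hm
  have hp : p.Prime := Fact.out
  have hlevAt : F.levelAt 0 qv = F.oldBase * (∏ i, qv i) * p := by
    rw [LiftFrame.levelAt, hlev]; ring
  haveI : NeZero p := ⟨hp.ne_zero⟩
  haveI : NeZero (F.oldBase * ∏ i, qv i) :=
    ⟨mul_ne_zero hL0 (Finset.prod_ne_zero_iff.mpr fun i _ => (h.prime i).ne_zero)⟩
  haveI : NeZero (F.oldBase * (∏ i, qv i) * p) := ⟨hlevAt ▸ NeZero.ne (F.levelAt 0 qv)⟩
  haveI : ((Gamma0 ((F.oldBase * ∏ i, qv i) * p)).subgroupOf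
      (Gamma0 (F.oldBase * ∏ i, qv i))).FiniteIndex := inferInstance
  have hc : Nat.Coprime p (F.oldBase * ∏ i, qv i) := by
    refine hp.coprime_iff_not_dvd.mpr fun hd => ?_
    rcases hp.dvd_mul.mp hd with hd | hd
    · exact hpL hd
    · obtain ⟨i, -, hi⟩ := (hp.prime.dvd_finsetProd_iff _).mp hd
      exact (D.avoided_props (F := F) (h.prime i) (h.notMem i)).1
        ((Nat.prime_dvd_prime_iff_eq hp (h.prime i)).mp hi).symm
  exact D.liftLevel_new_strict F hm n 0 qv h hlevAt hc x (fun y' hy' i => hker hm x hx hc y' hy' i)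

/-- The family at the empty tuple. -/
def liftBottom : F.LiftBottom where
  rank := F.liftRank
  rank_pos := D.liftRank_pos F 0
  level j _ := D.levelOf F (F.isTWTuple_noPrimes 0) j
  α_injective j _ :=
    haveI : NeZero (F.levelAt j LiftFrame.noPrimes) :=
      ⟨D.levelAt_ne_zero j (F.isTWTuple_noPrimes 0).prime⟩
    D.liftLevel_α_injective F 0 j LiftFrame.noPrimes (F.isTWTuple_noPrimes 0)
  det_injective i := by
    have h0 := F.isTWTuple_noPrimes 0
    haveI : NeZero (F.levelAt i LiftFrame.noPrimes) := ⟨D.levelAt_ne_zero i h0.prime⟩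
    exact F.raiseMatrix_det_injective D h0 i (D.levelOf_actsByTraces F h0 i)
  modular ψ S hψ := by
    have h0 := F.isTWTuple_noPrimes 0
    haveI : NeZero (F.levelAt F.k LiftFrame.noPrimes) := ⟨D.levelAt_ne_zero F.k h0.prime⟩
    letI := F.algCommRing 0 F.k LiftFrame.noPrimes h0.prime
    letI := (D.levelAlgData F 0 F.k LiftFrame.noPrimes h0).isLocalRing
    refine D.modular_of_point F ψ S fun l hl => ?_
    rw [← hψ l.1 l.2.1 hl]
    exact congrArg ψ ((D.levelAlgData F 0 F.k LiftFrame.noPrimes h0).trace_frob l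
      (F.place l.1) (F.liesOver _ l.2.1) _ (F.isFrobenius _ l.2.1)).symm
  oldRank := F.oldRank
  oldRank_lt := D.oldRank_lt F

/-- The family at one tuple. -/
theorem nonempty_liftStage {n r : ℕ} {qv : Fin r → ℕ} (h : F.IsTWTuple n qv) :
    Nonempty (LiftFrame.LiftStage (D.liftBottom F) n qv) := by
  classical
  have h0 := F.isTWTuple_noPrimes 0
  haveI hne : ∀ j, NeZero (F.levelAt j qv) := fun j => ⟨D.levelAt_ne_zero j h.prime⟩
  haveI hne₀ : ∀ j, NeZero (F.levelAt j LiftFrame.noPrimes) := fun j =>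
    ⟨D.levelAt_ne_zero j h0.prime⟩
  obtain ⟨σ, hσ, hdia⟩ := D.exists_diamond_trace F h
  choose up down hut hdt hdu hui hds hnt using fun i : Fin F.k =>
    F.exists_raise D h i (D.levelOf_actsByTraces F h i)
      (D.levelOf_actsByTraces F h ((i : ℕ) + 1))
  obtain ⟨oldMap, hos, host, hns⟩ := D.exists_old F h
  choose red hrs hrsurj hrk hrT using fun j : ℕ => D.exists_red F h j
  exact ⟨{
    level := fun j _ => D.levelOf F h j
    inertia := σ
    inertia_mem := hσ
    diamond_trace := fun j _ i => hdia j i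
    up := up
    down := down
    up_trace := hut
    down_trace := hdt
    down_up := hdu
    up_injective := hui
    down_surjective := hds
    new_trace := hnt
    oldMap := oldMap
    oldMap_surjective := hos
    oldMap_stable := host
    new_strict := hns
    red := fun j _ => red j
    red_smul := fun j _ => hrs j
    red_surjective := fun j _ => hrsurj j
    red_eq_zero := fun j _ => hrk j
    red_trace := fun j _ τ x => D.red_trace F h (red j) (hrT j)
      (D.liftLevel F n j qv h).α (D.liftLevel F 0 j LiftFrame.noPrimes h0).α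
      (D.liftLevel F n j qv h).ρ (D.liftLevel F 0 j LiftFrame.noPrimes h0).ρ
      (D.levelOf_actsByTraces F h j).1 (D.levelOf_actsByTraces F h0 j).1
      (fun l P hP σ hσ x => D.liftLevel_trace_frob F n j qv h l P hP σ hσ x)
      (fun l P hP σ hσ x => D.liftLevel_trace_frob F 0 j LiftFrame.noPrimes h0 l P hP σ hσ x)
      τ x }⟩

end LiftData

/-- **The Hecke input of lifting.** -/
theorem liftHasModules {W : WeierstrassCurve ℤ} {hΔ : W.Δ ≠ 0} {p : ℕ} [Fact p.Prime] {M : ℕ}
    (D : LiftData W p M) (F : LiftFrame W hΔ p M) : F.HasModules :=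
  ⟨D.liftBottom F, fun _ _ _ h => D.nonempty_liftStage F h⟩

end FLTA.RT

end
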