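import Fermat.Agent.RT.Lift.ShapeComponent

/-!
# Separation along the chain

`LevelRels j Q` says that a prime contains the relations which hold on the modules of level `j`.
Below the point at `j` (`PointAt`) such a prime at level `j + 1` which also contains the relation of
the new part lies above the component at `j + 1`.
-/

set_option autoImplicit false
set_option linter.overlappingInstances false
set_option linter.style.haveILetI false
set_option linter.unusedSectionVars false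

noncomputable section

namespace FLTA.RT.Component

variable {R S : Type} [CommRing R] [CommRing S]

/-- The four equations of the common eigen line. -/
def eigenRel (π : R) (v w : Fin 3 → R) : Fin 4 → R :=
  ![w 2 * v 2 + 4 * w 0 * v 1 - π * v 2, 2 * (w 2 * v 0 - w 0 * v 2) - 2 * π * v 0,
    2 * (w 1 * v 2 - w 2 * v 1) - 2 * π * v 1, 4 * w 1 * v 0 + w 2 * v 2 + π * v 2]

lemma map_eigenRel (f : R →+* S) (π : R) (v w : Fin 3 → R) (m : Fin 4) :
    f (eigenRel π v w m) = eigenRel (f π) (fun a => f (v a)) (fun a => f (w a)) m := by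
  fin_cases m <;> simp [eigenRel, map_ofNat]

lemma IsConePoint.eigenRel_eq_zero {π : R} {v w : Fin 3 → R} (h : IsConePoint π v w) (m : Fin 4) :
    eigenRel π v w m = 0 := by
  fin_cases m <;> simp [eigenRel]
  · linear_combination h.eigen00
  · linear_combination h.eigen01
  · linear_combination h.eigen10
  · linear_combination h.eigen11

lemma eigenRel_zero_left (π : R) (w : Fin 3 → R) (m : Fin 4) : eigenRel π 0 w m = 0 := by
  fin_cases m <;> simp [eigenRel]

/-- Cone points from their equations. -/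
theorem isConePoint_of_eigenRel {π : R} {v w : Fin 3 → R} (hn : Local.Q3 v = 0)
    (hf : Local.Q3 w = π ^ 2) (he : ∀ m, eigenRel π v w m = 0) : IsConePoint π v w := by
  have h0 := he 0
  have h1 := he 1
  have h2 := he 2
  have h3 := he 3
  simp [eigenRel] at h0 h1 h2 h3
  exact ⟨hn, hf, by linear_combination h0, by linear_combination h1, by linear_combination h2,
    by linear_combination h3⟩

end FLTA.RT.Component

namespace FLTA.RT.LiftShape

open IsLocalRing MvPowerSeries Component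

variable {O : Type} [CommRing O] [IsDomain O] [IsDiscreteValuationRing O]
  [IsAdicComplete (maximalIdeal O) O] (Z : LiftShape O)

/-- `tr + c₀`, nonzero on the side of the sign. -/
def side (i : Fin Z.k) : Z.P₀ := Z.frobTrace i + C (Z.c₀ i)

/-- `tr ^ 2 - (q + 1) ^ 2`. -/
def discr (i : Fin Z.k) : Z.P₀ := Z.frobTrace i ^ 2 - C (((Z.q i : O) + 1) ^ 2)

lemma discr_eq (i : Fin Z.k) :
    Z.discr i = Z.side i * (Z.frobTrace i - C (Z.c₀ i)) := by
  rw [discr, side, ← Z.c₀_sq i, map_pow]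
  ring

/-- The relations of the modules at level `j`. -/
structure LevelRels (j : ℕ) (Q : Ideal Z.P₀) : Prop where
  ut : ∀ i : Z.Sc, X (Coord.ut i) ∈ Q
  v_out : ∀ (i : Z.Sc) a, j ≤ (i.1 : ℕ) → X (Coord.v i a) ∈ Q
  v_nilp : ∀ i : Z.Sc, (i.1 : ℕ) < j → Local.Q3 (fun a => (X (Coord.v i a) : Z.P₀)) ∈ Q
  v_discr : ∀ (i : Z.Sc) a, (i.1 : ℕ) < j → Z.discr i.1 * X (Coord.v i a) ∈ Q
  v_eigen : ∀ (i : Z.Sc) m, (i.1 : ℕ) < j → Z.side i.1 * eigenRel (C (Z.pi i.1))
    (fun a => X (Coord.v i a)) (fun a => (X (Coord.w i a) : Z.P₀)) m ∈ Q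
  z_out : ∀ i : Z.Ns, j ≤ (i.1 : ℕ) → X (Coord.z i) ∈ Q
  u_out : ∀ (i : Z.Ns) a, j ≤ (i.1 : ℕ) → X (Coord.u i a) ∈ Q
  z_discr : ∀ i : Z.Ns, (i.1 : ℕ) < j → Z.discr i.1 * X (Coord.z i) ∈ Q
  u_side : ∀ (i : Z.Ns) a, (i.1 : ℕ) < j → Z.side i.1 * X (Coord.u i a) ∈ Q
  lam_zp : ∀ h : Z.mult, X (Coord.lam h) * X (Coord.zp h) ∈ Q

lemma LevelRels.mono {j : ℕ} {Q Q' : Ideal Z.P₀} (h : Z.LevelRels j Q) (hle : Q ≤ Q') :
    Z.LevelRels j Q' :=
  ⟨fun i => hle (h.ut i), fun i a hi => hle (h.v_out i a hi), fun i hi => hle (h.v_nilp i hi),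
    fun i a hi => hle (h.v_discr i a hi), fun i m hi => hle (h.v_eigen i m hi),
    fun i hi => hle (h.z_out i hi), fun i a hi => hle (h.u_out i a hi),
    fun i hi => hle (h.z_discr i hi), fun i a hi => hle (h.u_side i a hi),
    fun hm => hle (h.lam_zp hm)⟩

/-- The values at the point at `j`. -/
structure PointAt (j : ℕ) (ϖ : O) (x : Z.P₀ →+* O) : Prop where
  map_C : ∀ c, x (C c) = c
  v0 : ∀ i : Z.Sc, (i.1 : ℕ) < j → x (X (Coord.v i 0)) = ϖ
  z : ∀ i : Z.Ns, (i.1 : ℕ) < j → x (X (Coord.z i)) = ϖ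
  zp : ∀ h : Z.mult, x (X (Coord.zp h)) = ϖ
  trace : ∀ i, x (Z.frobTrace i) = Z.c₀ i

variable {ϖ : O} (hϖ : maximalIdeal O = Ideal.span {ϖ})

include hϖ

/-- There is a point at `j` on the component at `j`. -/
theorem exists_pointAt (j : ℕ) :
    ∃ x : Z.P₀ →+* O, Z.component hϖ j ≤ RingHom.ker x ∧ Z.PointAt j ϖ x := by
  obtain ⟨x, h1, h2, h3, h4, h5, h6⟩ := Z.exists_point hϖ j
  exact ⟨x, h2, h1, h3, h4, h5, h6⟩

/-- The raising relation holds at the points. -/
lemma PointAt.discr_mem {j : ℕ} {x : Z.P₀ →+* O} (hx : Z.PointAt j ϖ x) (i : Fin Z.k) :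
    Z.discr i ∈ RingHom.ker x := by
  rw [RingHom.mem_ker, discr, map_sub, map_pow, hx.trace, hx.map_C, Z.c₀_sq, sub_self]

/-- A prime with the relations of level `j` lies above the component if it is on the side of the
signs and contains the relations of the new parts. -/
theorem component_le_of_levelRels {j : ℕ} {Q : Ideal Z.P₀} [Q.IsPrime] (h : Z.LevelRels j Q)
    (hside : ∀ i : Fin Z.k, (i : ℕ) < j → Z.side i ∉ Q)
    (hnew : ∀ i : Fin Z.k, (i : ℕ) < j → Z.discr i ∈ Q)
    (hlam : ∀ hm : Z.mult, X (Coord.lam hm) ∈ Q) : Z.component hϖ j ≤ Q := by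
  have hres : ∀ {i : Fin Z.k} {a : Z.P₀}, (i : ℕ) < j → Z.side i * a ∈ Q → a ∈ Q :=
    fun hi ha => (Ideal.IsPrime.mem_or_mem ‹_› ha).resolve_left (hside _ hi)
  have ht : ∀ i : Fin Z.k, (i : ℕ) < j → Z.frobTrace i - C (Z.c₀ i) ∈ Q := fun i hi =>
    hres hi (Z.discr_eq i ▸ hnew i hi)
  refine Z.component_le hϖ ⟨fun x hx => ?_, fun i hi => ?_⟩
  · cases x with
    | v i a => exact h.v_out i a (not_lt.mp hx)
    | ut i => exact h.ut i
    | w i a => exact absurd hx id
    | t i =>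
      have := ht i.1 hx
      rwa [Z.frobTrace_ns, add_sub_cancel_left] at this
    | z i => exact h.z_out i (not_lt.mp hx)
    | u i a =>
      by_cases hi : (i.1 : ℕ) < j
      · exact hres hi (h.u_side i a hi)
      · exact h.u_out i a (not_lt.mp hi)
    | lam hm => exact hlam hm
    | zp hm => exact absurd hx id
    | extra a => exact absurd hx id
  · refine isConePoint_of_eigenRel ?_ ?_ fun m => ?_
    · rw [← Local.map_Q3, Ideal.Quotient.eq_zero_iff_mem]
      exact h.v_nilp i hi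
    · have h0 : Ideal.Quotient.mk Q (Z.discr i.1) = 0 :=
        Ideal.Quotient.eq_zero_iff_mem.mpr (hnew i.1 hi)
      rw [discr, map_sub, sub_eq_zero, Z.frobTrace_sq, map_add, Local.map_Q3] at h0
      rw [← map_pow, ← map_pow, Z.pi_sq]
      simp only [map_add, map_mul, map_pow, map_sub, map_one, map_natCast, map_ofNat] at h0 ⊢
      linear_combination h0
    · rw [← Component.map_eigenRel (Ideal.Quotient.mk Q), Ideal.Quotient.eq_zero_iff_mem]
      exact hres hi (h.v_eigen i m hi)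

/-- The component at `0`: good reduction at `p`, or the first step from the new part at `p`. -/
theorem component_zero_le {Q : Ideal Z.P₀} [Q.IsPrime] (h : Z.LevelRels 0 Q)
    (hlam : ∀ hm : Z.mult, X (Coord.lam hm) ∈ Q) : Z.component hϖ 0 ≤ Q :=
  Z.component_le_of_levelRels hϖ h (fun _ hi => absurd hi (Nat.not_lt_zero _))
    (fun _ hi => absurd hi (Nat.not_lt_zero _)) hlam

/-- **Separation below the point at `j`.** -/
theorem component_succ_le [CharZero O] {j : ℕ} {x : Z.P₀ →+* O} (hx : Z.PointAt j ϖ x)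
    {Q : Ideal Z.P₀} [Q.IsPrime] (hQ : Q ≤ RingHom.ker x) (h : Z.LevelRels (j + 1) Q)
    (hnew : ∀ i : Fin Z.k, (i : ℕ) = j → Z.discr i ∈ Q) : Z.component hϖ (j + 1) ≤ Q := by
  have hϖ0 : ϖ ≠ 0 := fun h0 => IsDiscreteValuationRing.not_a_field O
    (hϖ.trans (by rw [h0]; exact Ideal.span_singleton_eq_bot.mpr rfl))
  have hne : ∀ {a : Z.P₀} {b : Z.P₀}, x a ≠ 0 → a * b ∈ Q → b ∈ Q := fun ha hab =>
    (Ideal.IsPrime.mem_or_mem ‹_› hab).resolve_left fun hc => ha (hQ hc)
  refine Z.component_le_of_levelRels hϖ h (fun i _ hc => ?_) (fun i hi => ?_) fun hm => ?_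
  · have h0 : x (Z.side i) = 0 := hQ hc
    rw [side, map_add, hx.trace, hx.map_C, ← two_mul] at h0
    exact mul_ne_zero two_ne_zero (Z.c₀_ne_zero i) h0
  · rcases Nat.lt_succ_iff_lt_or_eq.mp hi with hlt | heq
    · by_cases hsc : Z.sc i
      · exact hne (a := X (Coord.v ⟨i, hsc⟩ 0)) (by rw [hx.v0 ⟨i, hsc⟩ hlt]; exact hϖ0)
          (by rw [mul_comm]; exact h.v_discr ⟨i, hsc⟩ 0 hi)
      · exact hne (a := X (Coord.z ⟨i, hsc⟩)) (by rw [hx.z ⟨i, hsc⟩ hlt]; exact hϖ0)
          (by rw [mul_comm]; exact h.z_discr ⟨i, hsc⟩ hi)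
    · exact hnew i heq
  · exact hne (a := X (Coord.zp hm)) (by rw [hx.zp hm]; exact hϖ0)
      (by rw [mul_comm]; exact h.lam_zp hm)

end FLTA.RT.LiftShape
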