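import Fermat.Agent.RT.Lift.Eval
import Fermat.Agent.RT.Lift.ShapeSeparation

/-!
# The relations at a point

`SiteMats.IsPoint g` says that a map `g` out of the ring of coordinates takes the values of given
matrices over a domain.  If these satisfy the tame relation, are trivial at the sites outside the
level and unipotent at the sites inside it, then the kernel of `g` contains the relations of the
level (`SiteMats.levelRels_ker`).
-/

set_option autoImplicit false
set_option linter.overlappingInstances false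
set_option linter.unusedSectionVars false

noncomputable section

namespace FLTA.RT

open Matrix
open FLTA.RT.LocalGalois (vec3)

section Tame

variable {R : Type} [CommRing R] [IsDomain R] {P T : Matrix (Fin 2) (Fin 2) R} {q : ℕ}

theorem pow_of_sq_zero (hN : (T - 1) * (T - 1) = 0) : T ^ q = 1 + (q : R) • (T - 1) := by
  induction q with
  | zero => simp
  | succ n ih =>
    rw [pow_succ, ih, show (1 + (n : R) • (T - 1)) * T =
      (1 + (n : R) • (T - 1)) * (1 + (T - 1)) by rw [add_sub_cancel], mul_add, mul_one, add_mul,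
      one_mul, smul_mul_assoc, hN, smul_zero, add_zero, Nat.cast_succ, add_smul, one_smul]
    abel

theorem trace_eq_zero_of_sq_zero {N : Matrix (Fin 2) (Fin 2) R} (hN : N * N = 0) :
    N 0 0 + N 1 1 = 0 := by
  have h00 := congrFun (congrFun hN 0) 0
  have h01 := congrFun (congrFun hN 0) 1
  have h10 := congrFun (congrFun hN 1) 0
  have h11 := congrFun (congrFun hN 1) 1
  simp only [mul_apply, Fin.sum_univ_two, Matrix.zero_apply] at h00 h01 h10 h11
  by_contra hne
  have hb : N 0 1 = 0 :=
    (mul_eq_zero.mp (show (N 0 0 + N 1 1) * N 0 1 = 0 by linear_combination h01)).resolve_left hne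
  have hc : N 1 0 = 0 :=
    (mul_eq_zero.mp (show (N 0 0 + N 1 1) * N 1 0 = 0 by linear_combination h10)).resolve_left hne
  rw [hb, zero_mul, add_zero, mul_self_eq_zero] at h00
  rw [hb, mul_zero, zero_add, mul_self_eq_zero] at h11
  exact hne (by rw [h00, h11, add_zero])

/-- The tame relation for unipotent `T`: the trace of `P` is `± (q + 1)` unless `T = 1`, and on
the side `c₀ = s (q + 1)` one has `P (T - 1) = s q (T - 1)`. -/
theorem tame_unipotent (hdet : P.det = q) (hrel : P * T = T ^ q * P)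
    (hN : (T - 1) * (T - 1) = 0) (hq0 : (q : R) ≠ 0) (hq1 : (q : R) ≠ 1) (hq2 : (q : R) + 1 ≠ 0)
    {s : R} (hs : s * s = 1) :
    (P.trace ^ 2 - ((q : R) + 1) ^ 2) • (T - 1) = 0 ∧
      (P.trace + s * ((q : R) + 1)) • (P * (T - 1) - (s * q) • (T - 1)) = 0 := by
  set N := T - 1
  set t := P.trace
  have h1 : P * N = (q : R) • (N * P) := by
    rw [pow_of_sq_zero hN, add_mul, one_mul, smul_mul_assoc] at hrel
    rw [show P * N = P * T - P by rw [mul_sub, mul_one], hrel]
    abel
  have hCH : P * P = t • P - (q : R) • (1 : Matrix (Fin 2) (Fin 2) R) := by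
    ext i j
    fin_cases i <;> fin_cases j <;>
      simp [t, mul_apply, Fin.sum_univ_two, trace_fin_two, ← hdet, det_fin_two] <;> ring
  have h2 : P * (P * N) = t • (P * N) - (q : R) • N := by
    rw [← mul_assoc, hCH, sub_mul, smul_mul_assoc, smul_mul_assoc, one_mul]
  have h3 : P * (P * N) = ((q : R) * q) • (t • (N * P) - (q : R) • N) := by
    rw [h1, mul_smul_comm, ← mul_assoc, h1, smul_mul_assoc, smul_smul, mul_assoc, hCH, mul_sub,
      mul_smul_comm, mul_smul_comm, mul_one]
  have h4 : ∀ a b, t * (P * N) a b = (q : R) * (q + 1) * N a b := fun a b => by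
    have e2 := congrFun (congrFun (h2.symm.trans h3) a) b
    have e1 := congrFun (congrFun h1 a) b
    simp only [Matrix.sub_apply, Matrix.smul_apply, smul_eq_mul] at e1 e2
    refine mul_left_cancel₀ (sub_ne_zero.mpr (Ne.symm hq1)) ?_
    linear_combination e2 - (q : R) * t * e1
  have h5 : ∀ a b, ((q : R) + 1) * (P * N) a b = (q : R) * t * N a b ∧
      (t ^ 2 - ((q : R) + 1) ^ 2) * N a b = 0 := fun a b => by
    have hm : t • (P * (P * N)) = ((q : R) * (q + 1)) • (P * N) := by
      have h : t • (P * N) = ((q : R) * (q + 1)) • N := by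
        ext i j
        simpa using h4 i j
      simpa only [mul_smul_comm] using congrArg (P * ·) h
    have e2 := congrFun (congrFun hm a) b
    rw [h2] at e2
    simp only [Matrix.sub_apply, Matrix.smul_apply, smul_eq_mul] at e2
    have e4 := h4 a b
    have e5 : ((q : R) + 1) * (P * N) a b = (q : R) * t * N a b := by
      refine mul_left_cancel₀ hq0 ?_
      linear_combination -e2 + t * e4
    exact ⟨e5, mul_left_cancel₀ hq0 (by linear_combination ((q : R) + 1) * e4 - t * e5)⟩
  refine ⟨?_, ?_⟩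
  · ext a b
    simpa using (h5 a b).2
  · ext a b
    obtain ⟨e5, e6⟩ := h5 a b
    simp only [Matrix.sub_apply, Matrix.smul_apply, smul_eq_mul, Matrix.zero_apply]
    refine mul_left_cancel₀ hq2 ?_
    linear_combination (t + s * ((q : R) + 1)) * e5 + (q : R) * e6 -
      (q : R) * ((q : R) + 1) ^ 2 * N a b * hs

end Tame

namespace LiftShape

open IsLocalRing MvPowerSeries

variable {O : Type} [CommRing O] [IsLocalRing O] {Z : LiftShape O} {R S : Type} [CommRing R]
  [CommRing S] [Algebra O R] [Algebra O S]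

/-- The image of values under a map. -/
def SiteMats.map (m : Z.SiteMats R) (f : R →ₐ[O] S) : Z.SiteMats S where
  T i := (m.T i).map f
  P i := (m.P i).map f
  lamV := f m.lamV
  zV := f m.zV
  extraV a := f (m.extraV a)

theorem SiteMats.map_val (m : Z.SiteMats R) (f : R →ₐ[O] S) (c : Z.Coord) :
    (m.map f).val c = f (m.val c) := by
  cases c with
  | v i a => exact (LocalGalois.map_vec3 (f : R →+* S) _ a).symm
  | w i a => exact (LocalGalois.map_vec3 (f : R →+* S) _ a).symm
  | ut i => simp [val, map, trace_fin_two, map_ofNat]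
  | t i => simp [val, map, trace_fin_two]
  | z i => rfl
  | u i a => fin_cases a <;> simp [val, map]
  | lam h => simp [val, map]
  | zp h => rfl
  | extra a => rfl

variable [IsDomain O] [IsDiscreteValuationRing O] [IsAdicComplete (maximalIdeal O) O]

/-- A map with the values `m`. -/
structure SiteMats.IsPoint (m : Z.SiteMats R) (g : Z.P₀ →+* R) : Prop where
  map_C : ∀ c, g (C c) = algebraMap O R c
  map_X : ∀ c, g (MvPowerSeries.X c) = m.val c
  map_frobTrace : ∀ i, g (Z.frobTrace i) = (m.P i).trace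

theorem SiteMats.isPoint_eval [IsLocalRing R] [IsAdicComplete (maximalIdeal R) R]
    [IsLocalHom (algebraMap O R)] {m : Z.SiteMats R} (h : m.Good) (f : R →ₐ[O] S) :
    (m.map f).IsPoint ((f : R →+* S).comp (m.eval h : Z.P₀ →+* R)) where
  map_C c := by
    show f (m.eval h (C c)) = _
    rw [m.eval_C h, f.commutes]
  map_X c := by
    show f (m.eval h _) = _
    rw [m.eval_X h, m.map_val]
  map_frobTrace i := by
    show f (m.eval h _) = _
    rw [m.eval_frobTrace h]
    simp [map, trace_fin_two]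

variable [IsDomain R]

/-- **The relations of level `j` at a point.** -/
theorem SiteMats.levelRels_ker {m : Z.SiteMats R} {g : Z.P₀ →+* R} (hg : m.IsPoint g) (j : ℕ)
    (hdet : ∀ i, (m.P i).det = (Z.q i : R))
    (hadapted : ∀ i, ¬ Z.sc i → m.P i = !![0, -(Z.q i : R); 1, (m.P i).trace])
    (hq : ∀ i, (Z.q i : R) ≠ 0 ∧ (Z.q i : R) ≠ 1 ∧ (Z.q i : R) + 1 ≠ 0)
    (hrel : ∀ i, m.P i * m.T i = m.T i ^ Z.q i * m.P i)
    (hout : ∀ i : Fin Z.k, j ≤ (i : ℕ) → m.T i = 1)
    (hin : ∀ i : Fin Z.k, (i : ℕ) < j → (m.T i - 1) * (m.T i - 1) = 0)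
    (hp : Z.mult → m.zV = 0 ∨ m.lamV = algebraMap O R Z.cp) :
    Z.LevelRels j (RingHom.ker g) := by
  have hN : ∀ i, (m.T i - 1) * (m.T i - 1) = 0 := fun i => by
    rcases lt_or_ge (i : ℕ) j with hi | hi
    · exact hin i hi
    · simp [hout i hi]
  have htr : ∀ i, m.T i 0 0 - 1 + (m.T i 1 1 - 1) = 0 := fun i => by
    simpa using trace_eq_zero_of_sq_zero (hN i)
  have hs : ∀ i, algebraMap O R (Z.s i) * algebraMap O R (Z.s i) = 1 := fun i => by
    rw [← map_mul, Z.s_sq, map_one]
  have hside : ∀ i, g (Z.side i) =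
      (m.P i).trace + algebraMap O R (Z.s i) * ((Z.q i : R) + 1) := fun i => by
    rw [side, map_add, hg.map_frobTrace, hg.map_C]
    simp [LiftShape.c₀]
  have hdiscr : ∀ i, g (Z.discr i) = (m.P i).trace ^ 2 - ((Z.q i : R) + 1) ^ 2 := fun i => by
    rw [discr, map_sub, map_pow, hg.map_frobTrace, hg.map_C]
    simp
  have hD : ∀ i a b, ((m.P i).trace ^ 2 - ((Z.q i : R) + 1) ^ 2) * (m.T i - 1) a b = 0 :=
    fun i a b => by
    have := congrFun (congrFun (tame_unipotent (hdet i) (hrel i) (hN i) (hq i).1 (hq i).2.1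
      (hq i).2.2 (hs i)).1 a) b
    simpa using this
  have hE : ∀ i a b, ((m.P i).trace + algebraMap O R (Z.s i) * ((Z.q i : R) + 1)) *
      ((m.P i * (m.T i - 1)) a b - algebraMap O R (Z.s i) * (Z.q i : R) * (m.T i - 1) a b) = 0 :=
    fun i a b => by
    have := congrFun (congrFun (tame_unipotent (hdet i) (hrel i) (hN i) (hq i).1 (hq i).2.1
      (hq i).2.2 (hs i)).2 a) b
    simpa using this
  refine ⟨fun i => ?_, fun i a hi => ?_, fun i _ => ?_, fun i a _ => ?_, fun i e _ => ?_,
    fun i hi => ?_, fun i a hi => ?_, fun i _ => ?_, fun i a _ => ?_, fun h => ?_⟩ <;>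
    rw [RingHom.mem_ker]
  · rw [hg.map_X]
    show (m.T i.1).trace - 2 = 0
    rw [trace_fin_two]
    linear_combination htr i.1
  · rw [hg.map_X]
    show vec3 (m.T i.1) a = 0
    rw [hout i.1 hi]
    fin_cases a <;> simp [vec3]
  · rw [Local.map_Q3]
    simp only [hg.map_X]
    show Local.Q3 (vec3 (m.T i.1)) = 0
    have h00 := congrFun (congrFun (hN i.1) 0) 0
    simp [mul_apply, Fin.sum_univ_two] at h00
    rw [LocalGalois.Q3_vec3, trace_fin_two, det_fin_two]
    linear_combination 4 * h00 + (m.T i.1 1 1 - 3 * m.T i.1 0 0 + 2) * htr i.1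
  · rw [map_mul, hdiscr, hg.map_X]
    have h00 := hD i.1 0 0
    have h11 := hD i.1 1 1
    have h01 := hD i.1 0 1
    have h10 := hD i.1 1 0
    simp [-mul_eq_zero] at h00 h11 h01 h10
    fin_cases a <;> simp [val, vec3, -mul_eq_zero]
    · tauto
    · tauto
    · linear_combination h00 - h11
  · rw [map_mul, hside, Component.map_eigenRel, hg.map_C]
    simp only [hg.map_X]
    show _ * Component.eigenRel (algebraMap O R (Z.pi i.1)) (vec3 (m.T i.1)) (vec3 (m.P i.1)) e = 0
    have hpi : algebraMap O R (Z.pi i.1) =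
        algebraMap O R (Z.s i.1) * ((Z.q i.1 : R) - 1) := by simp [LiftShape.pi]
    have E00 := hE i.1 0 0
    have E01 := hE i.1 0 1
    have E10 := hE i.1 1 0
    have E11 := hE i.1 1 1
    have D00 := hD i.1 0 0
    have D01 := hD i.1 0 1
    have D10 := hD i.1 1 0
    have D11 := hD i.1 1 1
    simp [mul_apply, Fin.sum_univ_two, -mul_eq_zero] at E00 E01 E10 E11 D00 D01 D10 D11
    have t0 := htr i.1
    have hs1 := hs i.1
    rw [trace_fin_two] at E00 E01 E10 E11 D00 D01 D10 D11 ⊢
    rw [hpi]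
    generalize algebraMap O R (Z.s i.1) = s at *
    generalize ((Z.q i.1 : ℕ) : R) = q at *
    fin_cases e <;> simp [Component.eigenRel, vec3, -mul_eq_zero]
    · linear_combination 4 * E00 - 2 * D00 + 2 * (q + 1) ^ 2 * (m.T i.1 0 0 - 1) * hs1 -
        (m.P i.1 0 0 + m.P i.1 1 1 + s * (q + 1)) *
          (m.P i.1 0 0 - m.P i.1 1 1 - s * (q - 1)) * t0
    · linear_combination 4 * E01 - 2 * D01 + 2 * (q + 1) ^ 2 * m.T i.1 0 1 * hs1 -
        2 * (m.P i.1 0 0 + m.P i.1 1 1 + s * (q + 1)) * m.P i.1 0 1 * t0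
    · linear_combination 4 * E10 - 2 * D10 + 2 * (q + 1) ^ 2 * m.T i.1 1 0 * hs1 -
        2 * (m.P i.1 0 0 + m.P i.1 1 1 + s * (q + 1)) * m.P i.1 1 0 * t0
    · linear_combination 4 * E11 - 2 * D11 + 2 * (q + 1) ^ 2 * (m.T i.1 1 1 - 1) * hs1 +
        (m.P i.1 0 0 + m.P i.1 1 1 + s * (q + 1)) *
          (m.P i.1 0 0 - m.P i.1 1 1 + s * (q - 1)) * t0
  · rw [hg.map_X]
    show m.T i.1 1 0 = 0
    simp [hout i.1 hi]
  · rw [hg.map_X]
    fin_cases a <;> simp [val, hout i.1 hi]
  · rw [map_mul, hdiscr, hg.map_X]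
    have := hD i.1 1 0
    simp at this
    simpa [val] using this
  · rw [map_mul, hside, hg.map_X]
    have E00 := hE i.1 0 0
    have E01 := hE i.1 0 1
    have D10 := hD i.1 1 0
    have hP := hadapted i.1 i.2
    have p00 : m.P i.1 0 0 = 0 := by rw [hP]; simp
    have p01 : m.P i.1 0 1 = -(Z.q i.1 : R) := by rw [hP]; simp
    simp [mul_apply, Fin.sum_univ_two, p00, p01, -mul_eq_zero] at E00 E01 D10
    have t0 := htr i.1
    have hs1 := hs i.1
    have hq0 := (hq i.1).1
    fin_cases a <;> simp [val, -mul_eq_zero]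
    all_goals
      generalize algebraMap O R (Z.s i.1) = s at *
      generalize (m.P i.1).trace = t at *
      generalize ((Z.q i.1 : ℕ) : R) = q at *
    · have : q * ((t + s * (q + 1)) * (m.T i.1 0 0 - 1 + s * m.T i.1 1 0)) = 0 := by
        linear_combination -s * E00 - q * (t + s * (q + 1)) * (m.T i.1 0 0 - 1) * hs1
      simpa [hq0] using this
    · have : q * ((t + s * (q + 1)) * (m.T i.1 0 1 + m.T i.1 1 0)) = 0 := by
        linear_combination -s * E01 - E00 - q * (t + s * (q + 1)) * m.T i.1 0 1 * hs1 -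
          q * (t + s * (q + 1)) * s * t0
      simpa [hq0] using this
    · have : q * ((t + s * (q + 1)) * (m.T i.1 1 1 - 1 - s * m.T i.1 1 0)) = 0 := by
        linear_combination s * E00 + q * (t + s * (q + 1)) * (m.T i.1 0 0 - 1) * hs1 +
          q * (t + s * (q + 1)) * t0
      simpa [hq0] using this
  · rw [map_mul, hg.map_X, hg.map_X]
    show (m.lamV - algebraMap O R Z.cp) * m.zV = 0
    rcases hp h with h' | h' <;> simp [h']

end LiftShape

end FLTA.RT

end
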