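import Fermat.Agent.RT.Lift.ShapeFrame
import Fermat.Agent.RT.Lift.PointRels

/-!
# The curve lies on the last component

At a point of a universal ring with the traces of the curve all sites are special on the side of
the node signs and `λ` is that of the curve, so the point lies on the component at `k`.
-/

set_option autoImplicit false
set_option linter.overlappingInstances false

noncomputable section

namespace FLTA.RT.LiftFrame

open IsLocalRing WeierstrassCurve GaloisRep Matrix
open FLTA.EllTate

variable {W : WeierstrassCurve ℤ} {hΔ : W.Δ ≠ 0} {p : ℕ} [Fact p.Prime] {M : ℕ}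
  (F : LiftFrame W hΔ p M) (H : LiftData W p M)

include H

/-- The curve is unipotent on inertia at the sites. -/
theorem curveRep_unipotent_site (i : Fin F.k) :
    F.curveRep.IsUnipotentOnInertiaAt (F.site i) :=
  isUnipotentOnInertiaAt_extend _ _ _ fun A hA _ hσ =>
    isUnipotentOnInertiaAt_of_semistable (F.site_prime i) (F.site_ne_p i)
      (Or.inr (H.curve.semistable _ (F.site_prime i) (F.site_dvd i))) A hA hσ

/-- **The point of the curve lies on the component at `k`.** -/
theorem component_le_ker_curve {r : ℕ} {qv : Fin r → ℕ} {g : ℕ}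
    (D : DeformationRingData F.E.R F.rhobar (F.cond qv))
    (b : ℕ → Module.Basis (Fin 2) D.R D.ρ.V) (z : D.R) (e : Fin g → D.R)
    (hgood : (F.siteMats H g D.ρ b z e).Good) (ψ : D.R →ₐ[F.E.R] F.E.R)
    (hψl : IsLocalHom (ψ : D.R →+* F.E.R)) (hψ : ∀ σ, ψ (D.ρ.trace σ) = F.curveRep.trace σ) :
    (F.shape H g).component F.maximalIdeal_eq F.k ≤
      RingHom.ker ((ψ : D.R →+* F.E.R).comp
        ((F.siteMats H g D.ρ b z e).eval hgood : (F.shape H g).P₀ →+* D.R)) := by
  set m := F.siteMats H g D.ρ b z e
  have hpt := LiftShape.SiteMats.isPoint_eval hgood ψ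
  set χ := (ψ : D.R →+* F.E.R).comp (m.eval hgood : (F.shape H g).P₀ →+* D.R)
  have : HenselianLocalRing F.E.R := Deformation.henselianLocalRing_of_complete F.E.R
  have hequiv : (D.ρ.baseChangeAlong (ψ : D.R →+* F.E.R) hψl).IsEquiv F.curveRep := by
    refine Deformation.isEquiv_of_trace_eq F.rhobar D.absIrr
      (residue_surjective.comp fun y => ⟨y, rfl⟩) (fun σ => ?_) fun σ => ?_
    · rw [Deformation.trace_baseChangeAlong]
      show ψ (D.ρ.trace σ) - _ ∈ _
      rw [hψ]
      exact F.curveRep_resCond σ
    · rw [Deformation.trace_baseChangeAlong]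
      exact hψ σ
  have hdetψ : ∀ σ, ψ (LinearMap.det (D.ρ.ρ σ)) = LinearMap.det (F.curveRep.ρ σ) := fun σ => by
    rw [← det_eq_of_isEquiv hequiv, det_baseChangeAlong]
    rfl
  have htrP : ∀ i : Fin F.k, ((m.map ψ).P i).trace = (F.shape H g).c₀ i := fun i => by
    show ((m.P i).map ψ).trace = _
    rw [← AddMonoidHom.map_trace ψ]
    show ψ (LinearMap.toMatrix _ _ (D.ρ.ρ _)).trace = _
    rw [← LinearMap.trace_eq_matrix_trace]
    exact (hψ _).trans (F.curveRep_trace_site H i)
  have hrels : (F.shape H g).LevelRels F.k (RingHom.ker χ) := by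
    refine LiftShape.SiteMats.levelRels_ker hpt F.k (fun i => ?_) (fun i hi => ?_) (fun i => ?_)
      (fun i => ?_) (fun i hi => absurd i.2 (not_lt.mpr hi)) (fun i _ => ?_) fun hm => Or.inr ?_
    · show ((m.P i).map ψ).det = _
      rw [← AlgHom.mapMatrix_apply, ← AlgHom.map_det, hgood.det_P, map_natCast]
    · show (m.P i).map ψ = _
      rw [hgood.adapted i hi]
      ext a a'
      fin_cases a <;> fin_cases a' <;> simp [trace_fin_two, LiftShape.SiteMats.map]
    · exact ⟨Nat.cast_ne_zero.mpr (F.site_prime i).ne_zero, (F.shape H g).q_sub_one_ne i,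
        (F.shape H g).q_add_one_ne i⟩
    · have h := congrArg (AlgHom.mapMatrix ψ) (F.tame_facts D i (b (F.site i))).2.2
      rw [map_mul, map_mul, map_pow] at h
      exact h
    · have hdet : ((m.map ψ).T i).det = 1 := by
        show ((m.T i).map ψ).det = 1
        rw [← AlgHom.mapMatrix_apply, ← AlgHom.map_det]
        exact (congrArg ψ (F.tame_facts D i (b (F.site i))).1).trans (map_one ψ)
      have htr : ((m.map ψ).T i).trace = 2 := by
        show ((m.T i).map ψ).trace = 2
        rw [← AddMonoidHom.map_trace ψ]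
        show ψ (LinearMap.toMatrix _ _ (D.ρ.ρ _)).trace = _
        rw [← LinearMap.trace_eq_matrix_trace]
        have h0 := ((charpoly_eq_sq_iff F.curveRep _).mp (F.curveRep_unipotent_site H i _
          (F.liesOver _ (F.site_prime i)) (F.tame (F.site i))
          (F.isTameGenerator _ (F.site_prime i) (F.site_ne_p i)).1)).1
        exact (hψ _).trans (sub_eq_zero.mp h0)
      exact LocalGalois.sub_one_mul_self htr hdet
    · show ψ (F.lam D.ρ) = F.lam F.curveRep
      simp only [lam, det_eq, map_sub, map_mul, hψ, hdetψ]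
  have hprime : (RingHom.ker χ).IsPrime := RingHom.ker_isPrime _
  refine LiftShape.component_le_of_levelRels (F.shape H g) F.maximalIdeal_eq hrels
    (fun i _ hc => ?_) (fun i _ => ?_) fun hm => ?_
  · rw [RingHom.mem_ker, LiftShape.side, map_add, hpt.map_frobTrace, hpt.map_C] at hc
    rw [show ((m.map ψ).P i).trace = (F.shape H g).c₀ i from htrP i,
      show (algebraMap F.E.R F.E.R) ((F.shape H g).c₀ i) = (F.shape H g).c₀ i from rfl] at hc
    rw [← two_mul] at hc
    exact mul_ne_zero two_ne_zero ((F.shape H g).c₀_ne_zero i) hc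
  · rw [RingHom.mem_ker, LiftShape.discr, map_sub, map_pow, hpt.map_frobTrace, hpt.map_C,
      show ((m.map ψ).P i).trace = (F.shape H g).c₀ i from htrP i, (F.shape H g).c₀_sq,
      sub_eq_zero]
    rfl
  · rw [RingHom.mem_ker, hpt.map_X]
    show ψ (F.lam D.ρ) - F.lam F.curveRep = 0
    rw [sub_eq_zero]
    simp only [lam, det_eq, map_sub, map_mul, hψ, hdetψ]

end FLTA.RT.LiftFrame
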