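import Fermat.Agent.RT.Lift.Separate
import Fermat.Agent.RT.Lift.CurveRels

/-!
# The patched support argument of lifting
-/

set_option autoImplicit false
set_option linter.overlappingInstances false
set_option linter.style.haveILetI false

noncomputable section

open ModularFormClass IsLocalRing WeierstrassCurve GaloisRep MvPowerSeries

namespace FLTA.RT

variable {W : WeierstrassCurve ℤ} {hΔ : W.Δ ≠ 0} {p : ℕ} [Fact p.Prime] {M : ℕ}

/-- Values of the coordinates at every tuple of the Taylor–Wiles input. -/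
theorem LiftFrame.exists_siteChoice (F : LiftFrame W hΔ p M) (H : LiftData W p M) (hTW : F.TWInput)
    (B : F.LiftBottom)
    (hB : ∀ (n r : ℕ) (qv : Fin r → ℕ), F.IsTWTuple n qv → Nonempty (LiftStage B n qv)) :
    ∃ g r : ℕ, g + (F.shape H g).pWeight + ∑ i, (F.shape H g).weight i ≤ r ∧
      Nonempty (F.SiteChoice H B g r) := by
  classical
  obtain ⟨g, r, hineq, hall⟩ := hTW
  choose qv hqv hgen using hall
  refine ⟨g, r, ?_, ?_⟩
  · rw [F.sum_siteH H g]
    by_cases hm : F.Mult
    · rw [LiftShape.pWeight, if_pos (show (F.shape H g).mult from hm)]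
      exact hineq.2 hm
    · rw [LiftShape.pWeight, if_neg (show ¬ (F.shape H g).mult from hm), add_zero]
      exact hineq.1 hm
  have hst : ∀ n, Nonempty (LiftStage B n (qv n)) := fun n => hB n r (qv n) (hqv n)
  let stage := fun n => (hst n).some
  have hD : ∀ n, Nonempty (DeformationRingData F.E.R F.rhobar (F.cond (qv n))) := fun n =>
    ((stage n).level 0 (Nat.zero_le _)).nonempty_ring (LiftFrame.ne_two' H) (F.rhobar_absIrr H)
  let D := fun n => (hD n).some
  choose b hb using fun n => F.exists_siteBases H g (D n)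
  choose z e hz he h using fun n => hgen n (D n) (b n)
  refine ⟨⟨qv, hqv, stage, D, b, z, e, fun n => hb n (z n) (e n) (hz n) (he n),
    fun n hm => ((h n).1 hm).1, fun n => ?_⟩⟩
  set m := F.siteMats H g (D n).ρ (b n) (z n) (e n) with hm_def
  have hgood : m.Good := hb n (z n) (e n) (hz n) (he n)
  set U := (maximalIdeal F.E.R).map (algebraMap F.E.R (D n).R) ⊔ Ideal.span (Set.range m.val)
  have hU : U ≤ maximalIdeal (D n).R := sup_le
    (Ideal.map_le_iff_le_comap.mpr fun a ha => map_nonunit (algebraMap F.E.R (D n).R) a ha)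
    (Ideal.span_le.mpr (by rintro _ ⟨c, rfl⟩; exact hgood.val_mem c))
  have hconst : ∀ {y x : (D n).R} {c c' : F.E.R}, y ∈ maximalIdeal (D n).R →
      y = x - algebraMap F.E.R _ c → x - algebraMap F.E.R _ c' ∈ Ideal.span (Set.range m.val) →
      y ∈ U := by
    intro y x c c' hy hxy hx
    have h1 : x - algebraMap F.E.R _ c' ∈ U := Ideal.mem_sup_right hx
    have h2 : algebraMap F.E.R (D n).R (c' - c) ∈ maximalIdeal (D n).R := by
      have := sub_mem hy (hU h1)
      rwa [hxy, sub_sub_sub_cancel_left, ← map_sub] at this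
    have h3 : c' - c ∈ maximalIdeal F.E.R := fun hu => h2 (hu.map _)
    rw [hxy, show x - algebraMap F.E.R _ c =
      (x - algebraMap F.E.R _ c') + algebraMap F.E.R (D n).R (c' - c) by rw [map_sub]; ring]
    exact add_mem h1 (Ideal.mem_sup_left (Ideal.mem_map_of_mem _ h3))
  have hsite : F.siteCoords (D n).ρ (b n) ⊆ U := by
    rintro y ⟨hy, s, hs, σ, hσ, i, j, c, rfl⟩
    obtain ⟨a, -, rfl⟩ := Finset.mem_image.mp hs
    rcases hσ with rfl | hσ
    · obtain ⟨c', hc'⟩ := (m.entry_mem hgood a i j).2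
      exact hconst hy rfl hc'
    · rw [Set.mem_singleton_iff] at hσ
      subst hσ
      obtain ⟨c', hc'⟩ := (m.entry_mem hgood a i j).1
      exact hconst hy rfl hc'
  have hextra : Set.range (e n) ⊆ U := by
    rintro _ ⟨a, rfl⟩
    exact Ideal.mem_sup_right (Ideal.subset_span ⟨LiftShape.Coord.extra a, rfl⟩)
  by_cases hm : F.Mult
  · refine ((h n).1 hm).2.trans (sup_le le_sup_left (Ideal.span_le.mpr ?_))
    refine Set.union_subset (Set.union_subset (Set.union_subset hsite ?_) ?_) hextra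
    · rintro y ⟨hy, c, rfl⟩
      exact hconst hy rfl (Ideal.subset_span ⟨LiftShape.Coord.lam hm, rfl⟩)
    · rintro _ rfl
      exact Ideal.mem_sup_right (Ideal.subset_span ⟨LiftShape.Coord.zp hm, rfl⟩)
  · exact ((h n).2 hm).trans (sup_le le_sup_left
      (Ideal.span_le.mpr (Set.union_subset hsite hextra)))

/-- **The patched argument**: the point of the curve occurs at the top level. -/
theorem exists_eigenform_of_inputs
    (D : LiftData W p M) (F : LiftFrame W hΔ p M) (hTW : F.TWInput)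
    (hmod : F.HasModules) :
    ∃ f : CuspForm (CongruenceSubgroup.Gamma0 (F.level F.k)) 2, f.IsNormalizedEigenform ∧
      ∃ T : Finset ℕ, ∀ ℓ : ℕ, ℓ.Prime → ℓ ∉ T → qCoeff f ℓ = (W.apOfModel ℓ : ℂ) := by
  classical
  have hp2 : p ≠ 2 := LiftFrame.ne_two' D
  obtain ⟨B, hB⟩ := hmod
  obtain ⟨g, r, hr, ⟨X⟩⟩ := F.exists_siteChoice D hTW B hB
  obtain ⟨D₀⟩ := (B.level 0 (Nat.zero_le _)).nonempty_ring hp2 (F.rhobar_absIrr D)
  obtain ⟨ξ, hξl, hξ⟩ := F.exists_curvePoint D hp2 D₀
  have hker := (X.toChoice D₀).ker_bot_le hp2 (X.chainInput D₀ hr) (ξ : D₀.R →+* F.E.R) fun n => by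
    let res : (X.D n).R →ₐ[F.E.R] D₀.R := (X.toChoice D₀).res n
    have hl : IsLocalHom ((ξ.comp res : (X.D n).R →ₐ[F.E.R] F.E.R) : (X.D n).R →+* F.E.R) :=
      ⟨fun a ha => ((X.toChoice D₀).isLocalHom_res n).map_nonunit a (hξl.map_nonunit _ ha)⟩
    exact F.component_le_ker_curve D (X.D n) (X.b n) (X.z n) (X.e n) (X.good n) (ξ.comp res) hl
      fun σ => (congrArg ξ ((X.toChoice D₀).res_trace n σ)).trans (hξ σ)
  let bot := LiftFrame.LiftChoice.bot (B := B) D₀ F.k le_rfl
  have hsurj : Function.Surjective bot := LiftFrame.LiftChoice.bot_surjective F.k le_rfl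
  let ψ : (B.level F.k le_rfl).A →ₐ[F.E.R] F.E.R :=
    (Ideal.Quotient.liftₐ (RingHom.ker bot) ξ fun a ha => hker ha).comp
      (Ideal.quotientKerAlgEquivOfSurjective hsurj).symm.toAlgHom
  have hψ : ∀ x, ψ (bot x) = ξ x := fun x => by
    show Ideal.Quotient.liftₐ (RingHom.ker bot) ξ (fun a ha => hker ha)
      ((Ideal.quotientKerAlgEquivOfSurjective hsurj).symm (bot x)) = _
    rw [show (Ideal.quotientKerAlgEquivOfSurjective hsurj).symm (bot x) =
      Ideal.Quotient.mk (RingHom.ker bot) x from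
        (Ideal.quotientKerAlgEquivOfSurjective hsurj).injective
          (by rw [AlgEquiv.apply_symm_apply]; rfl)]
    rfl
  refine B.modular ψ ({2, p} ∪ W.Δ.natAbs.primeFactors) fun ℓ hℓ hS => ?_
  simp only [Finset.mem_union, Finset.mem_insert, Finset.mem_singleton, not_or] at hS
  have hgood : W.IsGoodPrimeFor ℓ := fun hd => hS.2
    (Nat.mem_primeFactors.mpr ⟨hℓ, Int.natCast_dvd.mp hd, Int.natAbs_ne_zero.mpr hΔ⟩)
  rw [← LiftFrame.LiftChoice.bot_trace F.k le_rfl, hψ, hξ]
  exact F.curveRep_trace_frobenius D hp2 hℓ hS.1.1 hS.1.2 hgood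

end FLTA.RT

end
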