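import Fermat.Agent.RT.DeformFlat

/-!
# The ideal of the flat locus

The intersection of the ideals of finite index modulo which a representation is flat at `p`: it is
killed by every flat point, and maps to a finite ring killing it and `m ^ n` give flat
representations.
-/

set_option autoImplicit false

noncomputable section

namespace FLTA.RT

open IsLocalRing GaloisRep FLTA.Deformation
open FLTA.HeckeDatum (HasFlatModel levelHom finite_level)
open scoped TensorProduct

variable {p : ℕ} {R : Type} [CommRing R] [IsLocalRing R] (ρ : GaloisRepAdic R)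

variable (p) in
/-- The ideals of finite index modulo which the representation is flat. -/
def flatLevels : Set (Ideal R) :=
  {I | I ≤ maximalIdeal R ∧ Finite (R ⧸ I) ∧ HasFlatModel p _ (levelHom ρ I)}

variable (p) in
/-- The intersection of the flat levels. -/
def flatIdeal : Ideal R := maximalIdeal R ⊓ sInf (flatLevels p ρ)

theorem flatIdeal_le : flatIdeal p ρ ≤ maximalIdeal R := inf_le_left

/-- Flat levels are stable under intersection. -/
theorem inf_mem_flatLevels {I I' : Ideal R} (h : I ∈ flatLevels p ρ) (h' : I' ∈ flatLevels p ρ) :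
    I ⊓ I' ∈ flatLevels p ρ := by
  obtain ⟨hle, hfin, hm⟩ := h
  obtain ⟨-, hfin', hm'⟩ := h'
  have := finite_level ρ I hfin
  have := finite_level ρ I' hfin'
  have hfin'' : Finite (R ⧸ I ⊓ I') := by
    refine Finite.of_injective (fun x => ((Ideal.Quotient.factor inf_le_left x : R ⧸ I),
      (Ideal.Quotient.factor inf_le_right x : R ⧸ I'))) fun x y h => ?_
    obtain ⟨a, rfl⟩ := Ideal.Quotient.mk_surjective x
    obtain ⟨b, rfl⟩ := Ideal.Quotient.mk_surjective y
    simp only [Prod.mk.injEq, Ideal.Quotient.factor_mk, Ideal.Quotient.eq] at h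
    exact Ideal.Quotient.eq.mpr h
  refine ⟨inf_le_left.trans hle, hfin'', hasFlatModel_of_pair hm hm'
    (Submodule.factor (Submodule.smul_mono inf_le_left le_rfl)).toAddMonoidHom
    (Submodule.factor (Submodule.smul_mono inf_le_right le_rfl)).toAddMonoidHom
    (fun σ x => ?_) (fun σ x => ?_) fun x h1 h2 => ?_⟩
  all_goals obtain ⟨v, rfl⟩ := Submodule.Quotient.mk_surjective _ x
  · rfl
  · rfl
  · refine (Submodule.Quotient.mk_eq_zero _).mpr ((mem_smul_top_iff (repBasis ρ) _ v).mpr
      fun i => ⟨?_, ?_⟩)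
    · exact (mem_smul_top_iff (repBasis ρ) I v).mp ((Submodule.Quotient.mk_eq_zero _).mp h1) i
    · exact (mem_smul_top_iff (repBasis ρ) I' v).mp ((Submodule.Quotient.mk_eq_zero _).mp h2) i

section point

variable {B : Type} [CommRing B] [IsLocalRing B] (φ : R →+* B) (hφ : IsLocalHom φ)

/-- Coordinates of `1 ⊗ v`. -/
theorem repr_oneTensor (v : ρ.V) (i : Fin 2) :
    letI := φ.toAlgebra
    (Algebra.TensorProduct.basis B (repBasis ρ)).repr (oneTensor ρ φ hφ v) i =
      φ ((repBasis ρ).repr v i) := by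
  let _ : Algebra R B := φ.toAlgebra
  show (Algebra.TensorProduct.basis B (repBasis ρ)).repr ((1 : B) ⊗ₜ[R] v) i = _
  rw [Algebra.TensorProduct.basis_repr_tmul]
  simp
  rfl

/-- A flat point kills the flat ideal. -/
theorem eq_zero_of_isFlatAt (hp : p.Prime) [IsNoetherianRing B]
    (h : (ρ.baseChangeAlong φ hφ).IsFlatAt p) {z : R} (hz : z ∈ flatIdeal p ρ) : φ z = 0 := by
  obtain ⟨hfin, hlev⟩ := (isFlatAt_iff _ hp).mp h
  have : Finite (B ⧸ maximalIdeal B) := hfin
  let _ : Algebra R B := φ.toAlgebra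
  refine IsHausdorff.haus (I := maximalIdeal B) inferInstance _ fun n => ?_
  rw [SModEq.zero, smul_eq_mul, Ideal.mul_top]
  refine Ideal.pow_le_pow_right n.le_succ ?_
  set 𝔞 := maximalIdeal B ^ (n + 1)
  have hB : Finite (B ⧸ 𝔞) :=
    Ideal.finite_quotient_pow (IsNoetherian.noetherian (maximalIdeal B)) (n + 1)
  have := finite_level (ρ.baseChangeAlong φ hφ) 𝔞 hB
  set I := 𝔞.comap φ
  have hI : I ∈ flatLevels p ρ := by
    refine ⟨fun x hx => ?_, Finite.of_injective _ (Ideal.quotientMap_injective (I := 𝔞) (f := φ)),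
      (hlev 𝔞 hB).of_injective hp (QuotientAddGroup.lift (I • (⊤ : Submodule R ρ.V)).toAddSubgroup
        ((Submodule.mkQ (𝔞 • (⊤ : Submodule B (ρ.baseChangeAlong φ hφ).V))).toAddMonoidHom.comp
          (oneTensor ρ φ hφ)) fun v hv => (Submodule.Quotient.mk_eq_zero _).mpr
            ((mem_smul_top_iff (Algebra.TensorProduct.basis B (repBasis ρ)) 𝔞 _).mpr fun i => ?_))
        (fun x y hxy => ?_) fun σ x => ?_⟩
    · by_contra hu
      have h1 : IsUnit (φ x) := (not_not.mp hu : IsUnit x).map φ
      exact (Ideal.pow_le_self n.succ_ne_zero (show φ x ∈ 𝔞 from hx) : φ x ∈ maximalIdeal B) h1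
    · rw [repr_oneTensor]
      exact (mem_smul_top_iff (repBasis ρ) I v).mp hv i
    · obtain ⟨v, rfl⟩ := Submodule.Quotient.mk_surjective _ x
      obtain ⟨w, rfl⟩ := Submodule.Quotient.mk_surjective _ y
      refine (Submodule.Quotient.eq _).mpr ((mem_smul_top_iff (repBasis ρ) I _).mpr fun i => ?_)
      have h1 := (Submodule.Quotient.eq _).mp hxy
      rw [← map_sub] at h1
      have h2 := (mem_smul_top_iff (Algebra.TensorProduct.basis B (repBasis ρ)) 𝔞 _).mp h1 i
      rwa [repr_oneTensor] at h2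
    · obtain ⟨v, rfl⟩ := Submodule.Quotient.mk_surjective _ x
      exact congrArg (Submodule.mkQ _) (oneTensor_rho ρ φ hφ σ v)
  exact (sInf_le hI : sInf (flatLevels p ρ) ≤ I) hz.2

/-- Base change from a flat level to a finite ring is flat. -/
theorem isFlatAt_of_mem_flatLevels (hp : p.Prime) [Finite B] {I : Ideal R}
    (hI : I ∈ flatLevels p ρ) (hker : ∀ x ∈ I, φ x = 0) :
    (ρ.baseChangeAlong φ hφ).IsFlatAt p := by
  obtain ⟨-, hfin, hm⟩ := hI
  have := finite_level ρ I hfin
  let _ : Algebra R B := φ.toAlgebra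
  have := Fintype.ofFinite B
  let P := ρ.V ⧸ (I • (⊤ : Submodule R ρ.V))
  let actι : GalQ →* AddMonoid.End (B → P) :=
    { toFun := fun σ =>
        { toFun := fun x b => levelHom ρ I σ (x b)
          map_zero' := funext fun _ => map_zero _
          map_add' := fun x y => funext fun _ => map_add _ _ _ }
      map_one' := AddMonoidHom.ext fun x => funext fun b => by
        show levelHom ρ I 1 (x b) = _
        rw [map_one]; rfl
      map_mul' := fun σ τ => AddMonoidHom.ext fun x => funext fun b => by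
        show levelHom ρ I (σ * τ) (x b) = _
        rw [map_mul]; rfl }
  let t : B → P →ₗ[R] B ⊗[R] ρ.V := fun b =>
    Submodule.liftQ _ ((TensorProduct.mk R B ρ.V) b) (by
      rw [Submodule.smul_le]
      intro a ha v _
      rw [LinearMap.mem_ker, map_smul, TensorProduct.mk_apply, TensorProduct.smul_tmul',
        Algebra.smul_def, show algebraMap R B a = 0 from hker a ha, zero_mul,
        TensorProduct.zero_tmul])
  let F : (B → P) →+ (ρ.baseChangeAlong φ hφ).V :=
    { toFun := fun x => ∑ b, t b (x b)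
      map_zero' := Finset.sum_eq_zero fun b _ => map_zero (t b)
      map_add' := fun x y => by
        simp only [Pi.add_apply, map_add]
        exact Finset.sum_add_distrib }
  refine isFlatAt_of_model _ hp ((hm.pi hp (actι := actι) fun _ _ _ => rfl).of_surjective hp F ?_ ?_)
  · intro y
    change B ⊗[R] ρ.V at y
    classical
    induction y using TensorProduct.induction_on with
    | zero => exact ⟨0, map_zero F⟩
    | tmul b v =>
      refine ⟨(Pi.single b (Submodule.Quotient.mk v) : B → P), ?_⟩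
      show ∑ c, t c ((Pi.single b (Submodule.Quotient.mk v) : B → P) c) = _
      rw [Finset.sum_eq_single b (fun c _ hc => by rw [Pi.single_eq_of_ne hc, map_zero])
        (fun h => absurd (Finset.mem_univ b) h), Pi.single_eq_same]
      rfl
    | add y z hy hz =>
      obtain ⟨x, hx⟩ := hy
      obtain ⟨x', hx'⟩ := hz
      exact ⟨x + x', by rw [map_add, hx, hx']; rfl⟩
  · intro σ x
    show ∑ b, t b (levelHom ρ I σ (x b)) = (ρ.ρ σ).baseChange B (∑ b, t b (x b))
    rw [map_sum]
    refine Finset.sum_congr rfl fun b _ => ?_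
    obtain ⟨v, hv⟩ := Submodule.Quotient.mk_surjective _ (x b)
    rw [← hv]
    exact (LinearMap.baseChange_tmul (ρ.ρ σ) b v).symm

end point

variable [IsNoetherianRing R] [IsAdicComplete (maximalIdeal R) R] [Finite (ResidueField R)]

/-- A flat level lies below `flatIdeal + m ^ n` (Chevalley's lemma). -/
theorem exists_flatLevel_le (hne : (flatLevels p ρ).Nonempty) (n : ℕ) :
    ∃ I ∈ flatLevels p ρ, I ≤ flatIdeal p ρ ⊔ maximalIdeal R ^ n := by
  classical
  set m := maximalIdeal R
  have : Finite (R ⧸ m) := ‹Finite (ResidueField R)›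
  have hleast : ∀ k, ∃ J ∈ flatLevels p ρ, ∀ I ∈ flatLevels p ρ, J ≤ I ⊔ m ^ k := by
    intro k
    have : Finite (R ⧸ m ^ k) := Ideal.finite_quotient_pow (IsNoetherian.noetherian m) k
    have : IsArtinianRing (R ⧸ m ^ k) := isArtinian_of_finite
    obtain ⟨_, ⟨J, hJ, rfl⟩, hmin⟩ := IsArtinian.set_has_minimal
      ((fun I : Ideal R => I.map (Ideal.Quotient.mk (m ^ k))) '' flatLevels p ρ) (hne.image _)
    refine ⟨J, hJ, fun I hI => ?_⟩
    have h1 : (J ⊓ I).map (Ideal.Quotient.mk (m ^ k)) = J.map (Ideal.Quotient.mk (m ^ k)) := by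
      by_contra hne'
      exact hmin _ ⟨_, inf_mem_flatLevels ρ hJ hI, rfl⟩
        (lt_of_le_of_ne (Ideal.map_mono inf_le_left) hne')
    intro x hx
    obtain ⟨y, hy, hxy⟩ := (Ideal.mem_map_iff_of_surjective _ Ideal.Quotient.mk_surjective).mp
      (h1.symm ▸ Ideal.mem_map_of_mem _ hx : Ideal.Quotient.mk (m ^ k) x ∈ _)
    exact Submodule.mem_sup.mpr ⟨y, hy.2, x - y, Ideal.Quotient.eq.mp hxy.symm, by ring⟩
  choose J hJ hJle using hleast
  refine ⟨J n, hJ n, fun x hx => ?_⟩
  -- approximations of an element of the intersection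
  have hstep : ∀ (k : ℕ) (a : R), ∃ b : R, a ∈ J (n + k) →
      b ∈ J (n + (k + 1)) ∧ a - b ∈ m ^ (n + k) := fun k a => by
    by_cases ha : a ∈ J (n + k)
    · obtain ⟨b, hb, c, hc, hbc⟩ := Submodule.mem_sup.mp (hJle (n + k) _ (hJ (n + (k + 1))) ha)
      exact ⟨b, fun _ => ⟨hb, by rwa [← hbc, add_sub_cancel_left]⟩⟩
    · exact ⟨0, fun h => absurd h ha⟩
  choose next hnext using hstep
  let y : ℕ → R := fun k => Nat.rec x (fun k a => next k a) k
  have hy : ∀ k, y k ∈ J (n + k) := fun k => by
    induction k with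
    | zero => exact hx
    | succ k ih => exact (hnext k _ ih).1
  have hdiff : ∀ k l, k ≤ l → y k - y l ∈ m ^ (n + k) := fun k l hkl => by
    induction l, hkl using Nat.le_induction with
    | base => rw [sub_self]; exact zero_mem _
    | succ l hkl ih =>
      rw [← sub_add_sub_cancel _ (y l)]
      exact add_mem ih (Ideal.pow_le_pow_right (by omega) (hnext l _ (hy l)).2)
  obtain ⟨L, hL⟩ := IsPrecomplete.prec (I := m) (M := R) inferInstance (f := y) fun {a b} hab => by
    rw [SModEq.sub_mem, smul_eq_mul, Ideal.mul_top]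
    exact Ideal.pow_le_pow_right (Nat.le_add_left a n) (hdiff a b hab)
  have hL' : ∀ k, y k - L ∈ m ^ k := fun k => by
    have := hL k
    rwa [SModEq.sub_mem, smul_eq_mul, Ideal.mul_top] at this
  have hxL : x - L ∈ m ^ n := by
    rw [← sub_add_sub_cancel x (y n) L]
    exact add_mem (hdiff 0 n (Nat.zero_le n)) (hL' n)
  have hLI : ∀ I ∈ flatLevels p ρ, L ∈ I := fun I hI => mem_of_forall_modPow I L fun k => by
    obtain ⟨b, hb, c, hc, hbc⟩ := Submodule.mem_sup.mp (hJle (n + (k + 1)) I hI (hy (k + 1)))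
    have h1 : b - L ∈ m ^ (k + 1) := by
      rw [← sub_sub_sub_cancel_right b L (y (k + 1))]
      refine sub_mem ?_ ?_
      · rw [← hbc, ← sub_sub, sub_self, zero_sub]
        exact neg_mem (Ideal.pow_le_pow_right (Nat.le_add_left _ n) hc)
      · rw [← neg_sub]
        exact neg_mem (hL' _)
    rw [← Ideal.Quotient.eq.mpr h1]
    exact Ideal.mem_map_of_mem _ hb
  have hLm : L ∈ maximalIdeal R := by
    obtain ⟨I, hI⟩ := hne
    exact hI.1 (hLI I hI)
  exact Submodule.mem_sup.mpr ⟨L, ⟨hLm, Submodule.mem_sInf.mpr hLI⟩, x - L, hxL, by ring⟩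

end FLTA.RT

end
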