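import Fermat.Agent.RT.LocalGaloisAdic
import Fermat.Agent.RT.DeformBase
import Fermat.Agent.TaylorWiles.SitesLocal
import Fermat.Agent.EllTate.OrdSign
import Fermat.Agent.LevelLowering.LocalCurveLine
import Fermat.Agent.LevelLowering.GlobalPlane
import Fermat.Prelude.Def_GaloisRep_StrictOrdinary

/-!
# Local facts for the Taylor–Wiles input of lifting

An ordinary representation with Frobenius eigenvalue `±1` on the unramified quotient is strictly
ordinary; `E[p]` has this at a multiplicative prime; a first order deformation is unramified at an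
unramified `q ≡ -1` whose Frobenius has nonzero trace.
-/

set_option autoImplicit false

open scoped Pointwise

noncomputable section

namespace FLTA.RT

local notation "Qbar" => AlgebraicClosure ℚ
local notation "Γℚ" => AlgebraicClosure ℚ ≃ₐ[ℚ] AlgebraicClosure ℚ

section conj

variable {A : Type} [CommRing A] [IsLocalRing A] (ρ : GaloisRepAdic A)

theorem det_conj_apply (γ σ : Γℚ) :
    LinearMap.det (ρ.ρ (γ * σ * γ⁻¹)) = LinearMap.det (ρ.ρ σ) := by
  have h : LinearMap.det (ρ.ρ γ) * LinearMap.det (ρ.ρ γ⁻¹) = 1 := by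
    rw [← map_mul LinearMap.det, ← map_mul, mul_inv_cancel, map_one, map_one]
  rw [map_mul, map_mul, map_mul, map_mul, mul_right_comm, h, one_mul]

theorem trace_conj_apply (γ σ : Γℚ) : ρ.trace (γ * σ * γ⁻¹) = ρ.trace σ := by
  show LinearMap.trace A ρ.V (ρ.ρ (γ * σ * γ⁻¹)) = _
  rw [map_mul ρ.ρ, map_mul ρ.ρ, LinearMap.trace_mul_comm, ← mul_assoc, ← map_mul, inv_mul_cancel, map_one,
    one_mul]
  rfl

end conj

/-- Ordinary and `λ ^ 2 = 1` for the Frobenius eigenvalue `λ` on the unramified quotient give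
strictly ordinary. -/
theorem isStrictOrdinaryAt_of_lam {A : Type} [CommRing A] [IsLocalRing A] [Finite A] {p : ℕ}
    [Fact p.Prime] (ρ : GaloisRepAdic A) (hord : ρ.IsOrdinaryAt p) (hdet : ρ.DetIsCyclotomic p)
    {P₀ : ValuationSubring Qbar} (hP₀ : P₀.LiesOverPrime p) {Φ ι : Γℚ}
    (hΦ : P₀.IsFrobeniusAt Φ p) (hι : ι ∈ P₀.inertiaSubgroupIn ℚ)
    (hu : IsUnit (LinearMap.det (ρ.ρ ι) - 1))
    (h : (LinearMap.det (ρ.ρ ι) * ρ.trace Φ - ρ.trace (ι * Φ)) ^ 2 =
      (LinearMap.det (ρ.ρ ι) - 1) ^ 2) :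
    ρ.IsStrictOrdinaryAt p := by
  have : IsArtinianRing A := isArtinian_of_finite
  refine ⟨hdet.1, fun P hP => ?_⟩
  obtain ⟨γ, hγ⟩ := FLTA.Galois.exists_smul_eq (Fact.out : p.Prime) hP₀ hP
  obtain ⟨Φ', hΦ'eq⟩ : ∃ g, g = γ * Φ * γ⁻¹ := ⟨_, rfl⟩
  obtain ⟨ι', hι'eq⟩ : ∃ g, g = γ * ι * γ⁻¹ := ⟨_, rfl⟩
  have hΦ' : P.IsFrobeniusAt Φ' p := hΦ'eq ▸ hγ ▸ FLTA.Galois.isFrobeniusAt_smul γ hΦ
  have hι' : ι' ∈ P.inertiaSubgroupIn ℚ := by
    rw [← hγ, FLTA.Galois.inertiaSubgroupIn_smul_iff]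
    simpa [hι'eq, mul_assoc] using hι
  have hprod : γ * (ι * Φ) * γ⁻¹ = ι' * Φ' := by rw [hι'eq, hΦ'eq]; group
  rw [← det_conj_apply ρ γ ι, ← trace_conj_apply ρ γ Φ, ← trace_conj_apply ρ γ (ι * Φ), hprod]
    at h
  rw [← hι'eq, ← hΦ'eq] at h
  rw [← det_conj_apply ρ γ ι, ← hι'eq] at hu
  obtain ⟨L, ⟨b, rfl⟩, hD, hI⟩ := hord P hP
  let M : Γℚ → Matrix (Fin 2) (Fin 2) A := fun σ => LinearMap.toMatrixAlgEquiv b (ρ.ρ σ)
  have hM : ∀ σ, M σ = LinearMap.toMatrix b b (ρ.ρ σ) := fun σ => rfl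
  have hmul : ∀ σ σ', M (σ * σ') = M σ * M σ' := fun σ σ' => by simp [M, map_mul]
  have line : ∀ v ∈ Submodule.span A {b 0}, b.repr v 1 = 0 := fun v hv => by
    obtain ⟨c, rfl⟩ := Submodule.mem_span_singleton.mp hv
    simp
  have mem0 : b 0 ∈ Submodule.span A {b 0} := Submodule.mem_span_singleton_self _
  have m10 : ∀ σ ∈ P.decompositionSubgroup ℚ, M σ 1 0 = 0 := fun σ hσ => by
    simpa [hM, LinearMap.toMatrix_apply] using line _ (hD σ hσ _ mem0)
  have i1 : ∀ σ ∈ P.inertiaSubgroupIn ℚ, M σ 1 0 = 0 ∧ M σ 1 1 = 1 := fun σ hσ => by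
    have h0 := line _ (hI σ hσ (b 0))
    have h1 := line _ (hI σ hσ (b 1))
    simp [sub_eq_zero] at h0 h1
    exact ⟨by simpa [hM, LinearMap.toMatrix_apply] using h0,
      by simpa [hM, LinearMap.toMatrix_apply] using h1⟩
  have hdetM : ∀ σ ∈ P.decompositionSubgroup ℚ,
      LinearMap.det (ρ.ρ σ) = M σ 0 0 * M σ 1 1 := fun σ hσ => by
    rw [← LinearMap.det_toMatrix b, ← hM, Matrix.det_fin_two, m10 σ hσ, mul_zero, sub_zero]
  have htrM : ∀ σ, ρ.trace σ = M σ 0 0 + M σ 1 1 := fun σ => by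
    show LinearMap.trace A ρ.V (ρ.ρ σ) = _
    rw [LinearMap.trace_eq_matrix_trace A b, ← hM, Matrix.trace_fin_two]
  -- the eigenvalue of Frobenius
  have hΦD := hΦ'.mem_decompositionSubgroup
  have hz : M Φ' 1 1 ^ 2 = 1 := by
    obtain ⟨hι0, hι1⟩ := i1 ι' hι'
    have hd : LinearMap.det (ρ.ρ ι') = M ι' 0 0 := by
      rw [hdetM ι' (FLTA.Galois.inertiaSubgroupIn_le_decompositionSubgroup hι'), hι1, mul_one]
    rw [hd, htrM, htrM, hmul] at h
    simp [Matrix.mul_apply, Fin.sum_univ_two, hι0, hι1, m10 Φ' hΦD] at h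
    rw [hd] at hu
    have h' : (M ι' 0 0 - 1) * ((M ι' 0 0 - 1) * (M Φ' 1 1 ^ 2 - 1)) = 0 := by
      linear_combination h
    rwa [hu.mul_right_eq_zero, hu.mul_right_eq_zero, sub_eq_zero] at h'
  obtain ⟨F, hF, hF1⟩ := Deformation.exists_level_eq_one_of_artinian ρ
  have hzall : ∀ σ ∈ P.decompositionSubgroup ℚ, M σ 1 1 ^ 2 = 1 := by
    intro σ hσ
    obtain ⟨k, j, hj, he⟩ := FLTA.Galois.exists_pow_mul_inertia_eq (Fact.out : p.Prime) hP hΦ' hσ F
    have h1 : ρ.ρ ((Φ' ^ k * j)⁻¹ * σ) = 1 := by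
      refine (LinearMap.toMatrix (Deformation.repBasis ρ) (Deformation.repBasis ρ)).injective ?_
      rw [LinearMap.toMatrix_one]
      exact hF1 _ fun z hz => by
        rw [AlgEquiv.mul_apply, he z hz, ← AlgEquiv.mul_apply, inv_mul_cancel, AlgEquiv.one_apply]
    have hσ' : M σ = M (Φ' ^ k) * M j := by
      rw [← hmul]
      show LinearMap.toMatrixAlgEquiv b (ρ.ρ σ) = LinearMap.toMatrixAlgEquiv b (ρ.ρ (Φ' ^ k * j))
      conv_lhs => rw [← mul_inv_cancel_left (Φ' ^ k * j) σ]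
      rw [map_mul, h1, mul_one]
    have hpow : ∀ i : ℕ, M (Φ' ^ i) 1 1 = M Φ' 1 1 ^ i := fun i => by
      induction i with
      | zero => simp [M]
      | succ i ih =>
        rw [pow_succ, hmul, pow_succ, ← ih]
        simp [Matrix.mul_apply, Fin.sum_univ_two,
          m10 _ (Subgroup.pow_mem _ hΦD i)]
    rw [hσ']
    simp [Matrix.mul_apply, Fin.sum_univ_two, m10 _ (Subgroup.pow_mem _ hΦD k), (i1 j hj).2, hpow,
      ← pow_mul, mul_comm k 2]
    rw [pow_mul, hz, one_pow]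
  refine ⟨_, ⟨b, rfl⟩, hD, hI, fun σ hσ => ⟨M σ 0 0, M σ 1 1, fun w hw => ?_, fun v => ?_, ?_⟩⟩
  · obtain ⟨c, rfl⟩ := Submodule.mem_span_singleton.mp hw
    conv_lhs => rw [map_smul, ← b.sum_repr (ρ.ρ σ (b 0))]
    rw [Fin.sum_univ_two, line _ (hD σ hσ _ mem0), zero_smul, add_zero, smul_comm]
    simp [hM, LinearMap.toMatrix_apply]
  · rw [Submodule.mem_span_singleton]
    refine ⟨b.repr (ρ.ρ σ v - M σ 1 1 • v) 0, b.ext_elem fun i => ?_⟩
    have hv1 : b.repr (ρ.ρ σ v) 1 = M σ 1 1 * b.repr v 1 := by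
      conv_lhs => rw [← b.sum_repr v, Fin.sum_univ_two, map_add, map_smul, map_smul]
      simp [hM, LinearMap.toMatrix_apply, line _ (hD σ hσ _ mem0)]
      ring
    fin_cases i <;> simp [hv1]
  · intro n a ha
    have h1 := Ideal.mul_mem_right (M σ 1 1) _ (hdet.2 n σ a ha)
    rw [hdetM σ hσ] at h1
    convert h1 using 1
    linear_combination -(M σ 0 0) * hzall σ hσ

/-- At a multiplicative prime the Frobenius eigenvalue on the unramified quotient of `E[p]` is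
`±1`. -/
theorem planeRep_lam_sq {W : WeierstrassCurve ℤ} (hΔ : W.Δ ≠ 0) {p : ℕ} [Fact p.Prime]
    (hp2 : p ≠ 2) (hΔp : (p : ℤ) ∣ W.Δ) (hc₄ : ¬ (p : ℤ) ∣ W.c₄) {A : ValuationSubring Qbar}
    (hA : A.LiesOverPrime p) {Φ ι : Γℚ} (hΦ : A.IsFrobeniusAt Φ p)
    (hι : ι ∈ A.inertiaSubgroupIn ℚ) :
    (LinearMap.det ((LevelLowering.planeRep hΔ (p := p)).ρ ι) *
          LinearMap.trace (ZMod p) _ ((LevelLowering.planeRep hΔ (p := p)).ρ Φ) -
        LinearMap.trace (ZMod p) _ ((LevelLowering.planeRep hΔ (p := p)).ρ (ι * Φ))) ^ 2 =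
      (LinearMap.det ((LevelLowering.planeRep hΔ (p := p)).ρ ι) - 1) ^ 2 := by
  set r := LevelLowering.planeRep hΔ (p := p) with hr
  set L : Submodule (ZMod p) r.V := LevelLowering.curveLine W p A
  obtain ⟨hL0, hL1⟩ : L ≠ ⊥ ∧ L ≠ ⊤ :=
    LevelLowering.curveLine_ne hΔ hp2 (.inr ⟨hΔp, hc₄⟩) hA
  obtain ⟨e₀, he₀, hne⟩ := Submodule.exists_mem_ne_zero_of_ne_bot hL0
  obtain ⟨e₁, he₁⟩ : ∃ e, e ∉ L := by
    by_contra hall
    push Not at hall
    exact hL1 (eq_top_iff.mpr fun v _ => hall v)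
  have hli : LinearIndependent (ZMod p) ![e₀, e₁] :=
    (LinearIndependent.pair_iff' hne).mpr fun c hc => he₁ (hc ▸ L.smul_mem c he₀)
  let b : Module.Basis (Fin 2) (ZMod p) r.V :=
    basisOfLinearIndependentOfCardEqFinrank hli (by rw [r.finrank_eq, Fintype.card_fin])
  have hb : ∀ i, b i = ![e₀, e₁] i := fun i => by simp [b]
  have line : ∀ v ∈ L, b.repr v 1 = 0 := fun v hv => by
    by_contra hc
    refine he₁ ?_
    have hmem : b.repr v 1 • e₁ ∈ L := by
      have hsum := b.sum_repr v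
      rw [Fin.sum_univ_two, hb, hb] at hsum
      simp only [Matrix.cons_val_zero, Matrix.cons_val_one] at hsum
      rw [show b.repr v 1 • e₁ = v - b.repr v 0 • e₀ from eq_sub_of_add_eq' hsum]
      exact sub_mem hv (L.smul_mem _ he₀)
    simpa [smul_smul, inv_mul_cancel₀ hc] using L.smul_mem (b.repr v 1)⁻¹ hmem
  obtain ⟨s, hs2, hs, -⟩ := FLTA.EllTate.exists_sign_E1 (Fact.out : p.Prime) hA hΔ hΔp hc₄
    hΦ.mem_decompositionSubgroup
  have hΦL : ∀ v : r.V, r.ρ Φ v - (s : ZMod p) • v ∈ L := fun v => by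
    rw [Int.cast_smul_eq_zsmul]
    exact LevelLowering.mem_curveLine.mpr
      (hs 1 _ (by rw [pow_one]; exact FLTA.EllReducible.nsmul_coe_eq_zero v))
  have hιL : ∀ v : r.V, r.ρ ι v - v ∈ L := fun v =>
    LevelLowering.sub_mem_curveLine hΔ (.inr ⟨hΔp, hc₄⟩) hA hι v
  set P := LinearMap.toMatrix b b (r.ρ Φ) with hP
  set N := LinearMap.toMatrix b b (r.ρ ι) with hN
  have hP1 : ∀ j, P 1 j = if j = 1 then (s : ZMod p) else 0 := fun j => by
    have := line _ (hΦL (b j))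
    simp [sub_eq_zero] at this
    rw [hP, LinearMap.toMatrix_apply, this]
    fin_cases j <;> simp
  have hN1 : ∀ j, N 1 j = if j = 1 then (1 : ZMod p) else 0 := fun j => by
    have := line _ (hιL (b j))
    simp [sub_eq_zero] at this
    rw [hN, LinearMap.toMatrix_apply, this]
    fin_cases j <;> simp
  rw [← LinearMap.det_toMatrix b, LinearMap.trace_eq_matrix_trace (ZMod p) b,
    LinearMap.trace_eq_matrix_trace (ZMod p) b (r.ρ (ι * Φ)), map_mul, LinearMap.toMatrix_mul,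
    ← hP, ← hN]
  simp [Matrix.det_fin_two, Matrix.trace_fin_two, Matrix.mul_apply, Fin.sum_univ_two, hP1, hN1]
  have hs' : (s : ZMod p) ^ 2 = 1 := by rw [← Int.cast_pow, hs2, Int.cast_one]
  linear_combination (N 0 0 - 1) ^ 2 * hs'

open TW PT ExtCitation Module in
/-- A first order deformation is unramified at an unramified prime `q ≡ -1` with nonzero trace of
Frobenius. -/
theorem isUnramifiedAt_of_trace_ne_zero {p : ℕ} [Fact p.Prime] {k : Type} [Field k] [Finite k]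
    [CharP k p] (hp2 : p ≠ 2) (M : GQ →* Matrix (Fin 2) (Fin 2) k) (x : GQ → Ad0 k)
    (ρ' : GaloisRepAdic (DualNumber k)) (hx : IsDefoOf M x ρ') (hdet : ρ'.DetIsCyclotomic p)
    {q : ℕ} (hq : q.Prime) (hqp : p ≠ q) {A : ValuationSubring Qbar} (hA : A.LiesOverPrime q)
    {Φ τ : Γℚ} (hΦ : A.IsFrobeniusAt Φ q) (hτ : LocalGalois.IsTameGenerator A q p τ)
    (hur : ∀ σ ∈ A.inertiaSubgroupIn ℚ, M σ = 1) (hq1 : (q : k) = -1)
    (hdM : (M Φ).det = (q : k)) (ht : (M Φ).trace ≠ 0) : ρ'.IsUnramifiedAt q := by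
  have : Finite (DualNumber k) := inferInstanceAs (Finite (k × k))
  have : IsArtinianRing (DualNumber k) := isArtinian_of_finite
  obtain ⟨b, hb⟩ := hx
  have hpw : ∀ σ ∈ A.inertiaSubgroupIn ℚ,
      LinearMap.toMatrix b b (ρ'.ρ σ) = 1 + (x σ).1.map TrivSqZeroExt.inr := fun σ hσ => by
    rw [hb, defoMat, hur σ hσ, mul_one, Matrix.map_one _ (by simp) (by simp)]
  have hres : ∀ σ ∈ A.inertiaSubgroupIn ℚ, ∃ j : ℕ, ∀ v : ρ'.V, (ρ'.ρ σ ^ p ^ j) v - v ∈
      (IsLocalRing.maximalIdeal (DualNumber k) ^ 1 • ⊤ : Submodule (DualNumber k) ρ'.V) :=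
    fun σ hσ => ⟨1, fun v => by
      have h1 : ρ'.ρ σ ^ p ^ 1 = 1 := by
        refine (LinearMap.toMatrixAlgEquiv b).injective ?_
        rw [map_pow, map_one]
        show LinearMap.toMatrix b b (ρ'.ρ σ) ^ p ^ 1 = 1
        rw [hpw σ hσ, one_add_inr_pow, pow_one, ← Nat.cast_smul_eq_nsmul k, CharP.cast_eq_zero,
          zero_smul]
        ext i j <;> simp
      rw [h1]
      simp⟩
  have hrel := congrArg (LinearMap.toMatrix b b) (LocalGalois.adic_tame_relation ρ'.ρ hq hA Fact.out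
    hqp hτ ρ'.isAdicContinuous hdet.1 hres hΦ)
  set X := (x τ).1
  set P := M Φ
  rw [LinearMap.toMatrix_mul, LinearMap.toMatrix_mul, ← LinearMap.toMatrix_pow, hpw τ hτ.1,
    one_add_inr_pow] at hrel
  have hrel1 := congrArg (fun Y => Y.map TrivSqZeroExt.snd) hrel
  have hf : (LinearMap.toMatrix b b (ρ'.ρ Φ)).map TrivSqZeroExt.fst = P := by
    rw [hb]
    ext i j
    simp [defoMat, P]
  have hI : ∀ Y : Matrix (Fin 2) (Fin 2) k,
      (1 + Y.map TrivSqZeroExt.inr : Matrix (Fin 2) (Fin 2) (DualNumber k)).map TrivSqZeroExt.fst = 1 ∧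
      (1 + Y.map TrivSqZeroExt.inr : Matrix (Fin 2) (Fin 2) (DualNumber k)).map TrivSqZeroExt.snd = Y :=
    fun Y => by constructor <;> ext i j <;> fin_cases i <;> fin_cases j <;> simp
  simp only [map_snd_mul_dual, (hI _).1, (hI _).2, hf, mul_one, one_mul] at hrel1
  have hPX : P * X = -(X * P) := by
    have h1 : P * X = (q • X) * P := by
      rw [add_comm (_ : Matrix (Fin 2) (Fin 2) k) ((q • X) * P)] at hrel1
      exact add_right_cancel hrel1
    rw [h1, ← Nat.cast_smul_eq_nsmul k, hq1, neg_one_smul, neg_mul]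
  have hX : X = 0 := by
    have hCH : P * P = P.trace • P - P.det • (1 : Matrix (Fin 2) (Fin 2) k) := by
      ext i j
      fin_cases i <;> fin_cases j <;>
        simp [Matrix.mul_apply, Fin.sum_univ_two, Matrix.trace_fin_two, Matrix.det_fin_two] <;> ring
    have h2 : P * P * X = X * (P * P) := by
      rw [mul_assoc, hPX, mul_neg, ← mul_assoc, hPX, neg_mul, neg_neg, mul_assoc]
    rw [hCH, sub_mul, mul_sub, Matrix.smul_mul, Matrix.smul_mul, Matrix.mul_smul, Matrix.mul_smul,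
      one_mul, mul_one, sub_left_inj] at h2
    have h3 : P * X = X * P := smul_right_injective _ ht h2
    have h4 : X * P = 0 := by
      have h5 : (2 : k) • (X * P) = 0 := by
        rw [two_smul]
        conv_lhs => arg 1; rw [← h3, hPX]
        exact neg_add_cancel _
      exact (smul_eq_zero.mp h5).resolve_left (Ring.two_ne_zero fun h => hp2
        ((CharP.eq k ‹CharP k p› (ringChar.charP k)).trans h))
    have hunit : IsUnit P.det := by
      rw [hdM, hq1]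
      exact isUnit_one.neg
    simpa [mul_assoc, Matrix.mul_nonsing_inv P hunit] using congrArg (· * P⁻¹) h4
  have hτ1 : ρ'.ρ τ = 1 := by
    refine (LinearMap.toMatrix b b).injective ?_
    rw [hpw τ hτ.1, LinearMap.toMatrix_one, show (x τ).1 = 0 from hX]
    ext i j <;> simp
  intro B hB σ hσ
  obtain ⟨γ, hγ⟩ := FLTA.Galois.exists_smul_eq hq hA hB
  have h1 : γ⁻¹ * σ * γ ∈ A.inertiaSubgroupIn ℚ :=
    (FLTA.Galois.inertiaSubgroupIn_smul_iff γ).mp (hγ.symm ▸ hσ)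
  have h2 := LocalGalois.adic_eq_one_of_tame_generator ρ'.ρ hq hA Fact.out hqp hτ
    ρ'.isAdicContinuous hdet.1 hres hτ1 h1
  have e : σ = γ * (γ⁻¹ * σ * γ) * γ⁻¹ := by group
  rw [e, map_mul, map_mul, h2, mul_one, ← map_mul, mul_inv_cancel, map_one]

end FLTA.RT

end
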