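import Fermat.Agent.RT.Lift.Rings
import Fermat.Agent.RT.Lift.TWFlat
import Fermat.Agent.RT.Lift.TWLocal
import Fermat.Agent.RT.TW
import Fermat.Agent.RT.Main.FalseGood
import Fermat.Agent.RT.ImageCoeff
import Fermat.Agent.RT.ImageThreeCurve
import Fermat.Agent.RepTheory.Basic

/-!
# The Taylor–Wiles input of lifting

The site coordinates make a first order deformation constant at the sites, the coordinate at `p`
makes it strictly ordinary, and it is unramified at the auxiliary prime; so `RT.TW` applies, with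
the element killed by flat points taken in the ideal of the flat locus.
-/

set_option autoImplicit false

noncomputable section

open IsLocalRing Polynomial FLTA.TW FLTA.LevelLowering ExtCitation

namespace FLTA.RT

local notation "Γℚ" => AlgebraicClosure ℚ ≃ₐ[ℚ] AlgebraicClosure ℚ

namespace LiftFrame

variable {W : WeierstrassCurve ℤ} {hΔ : W.Δ ≠ 0} {p : ℕ} [Fact p.Prime] {M : ℕ}
  {F : LiftFrame W hΔ p M}

variable (F) in
/-- The trace of the residual representation. -/
theorem trace_barMat (σ : Γℚ) : (Deformation.barMat F.rhobar σ).trace =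
    F.φ (LinearMap.trace (ZMod p) _ ((planeRep hΔ (p := p)).ρ σ)) := by
  let : Algebra (ZMod p) (ResidueField F.E.R) := F.φ.toAlgebra
  rw [show (Deformation.barMat F.rhobar σ).trace = LinearMap.trace _ F.rhobar.V (F.rhobar.ρ σ) from
    (LinearMap.trace_eq_matrix_trace _ (Deformation.barBasis F.rhobar) _).symm]
  exact LinearMap.trace_baseChange _ _

variable (F) in
/-- The determinant of the residual representation. -/
theorem det_barMat (σ : Γℚ) : (Deformation.barMat F.rhobar σ).det =
    F.φ (LinearMap.det ((planeRep hΔ (p := p)).ρ σ)) := by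
  let : Algebra (ZMod p) (ResidueField F.E.R) := F.φ.toAlgebra
  rw [show (Deformation.barMat F.rhobar σ).det = LinearMap.det (F.rhobar.ρ σ) from
    LinearMap.det_toMatrix (Deformation.barBasis F.rhobar) _]
  exact LinearMap.det_baseChange _

variable (F) in
/-- The hypotheses of the Taylor–Wiles generators: `U` is the set of primes of the minimal level. -/
theorem twResidual (D : LiftData W p M) :
    TWResidual p F.rhobar (M.primeFactors.erase p) F.siteSet := by
  classical
  have hram : ∀ q ∈ M.primeFactors.erase p, q.Prime ∧ q ≠ p ∧ ¬ F.rhobar.IsUnramifiedAt q := by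
    intro q hq
    obtain ⟨hqp, hq⟩ := Finset.mem_erase.mp hq
    obtain ⟨hqP, hqM, -⟩ := Nat.mem_primeFactors.mp hq
    refine ⟨hqP, hqp, fun hu => D.minimal q hqP hqp hqM fun A hA σ hσ x => ?_⟩
    let : Algebra (ZMod p) (ResidueField F.E.R) := F.φ.toAlgebra
    let b := Module.finBasisOfFinrankEq (ZMod p) _ (planeRep hΔ (p := p)).finrank_eq
    have h1 : ((planeRep hΔ (p := p)).ρ σ).baseChange (ResidueField F.E.R) = 1 := hu A hA σ hσ
    have h2 := congrArg (LinearMap.toMatrix (Algebra.TensorProduct.basis (ResidueField F.E.R) b)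
      (Algebra.TensorProduct.basis (ResidueField F.E.R) b)) h1
    rw [LinearMap.toMatrix_baseChange, LinearMap.toMatrix_one,
      ← Matrix.map_one (algebraMap (ZMod p) (ResidueField F.E.R)) (map_zero _) (map_one _)] at h2
    have h3 : (planeRep hΔ (p := p)).ρ σ = 1 := by
      refine (LinearMap.toMatrix b b).injective ?_
      rw [LinearMap.toMatrix_one]
      exact Matrix.map_injective F.φ.injective h2
    exact DFunLike.congr_fun h3 x
  have hsite : ∀ s ∈ F.siteSet, ∃ i, F.site i = s := fun s hs => by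
    simpa [siteSet] using hs
  refine ⟨ne_two_of_data D, F.natCast_mem, F.rhobar_absIrr D, residual_detIsCyclotomic W p _ _ hΔ F.φ,
    F.split, ?_, hram, fun s hs => ?_, fun q hq hqp hqU => ?_⟩
  · rcases D.curve.hp with rfl | rfl
    · exact (residual_absIrr_and_indexTwo_three W hΔ _ _ D.curve.semistable D.curve.irreducible
        F.φ).2
    · exact (residual_absIrr_and_indexTwo W hΔ 5 _ _ le_rfl D.curve.semistable D.curve.irreducible
        F.φ).2
  · obtain ⟨h1, h2, -, h4⟩ := (F.site_iff s).mp (hsite s hs)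
    exact ⟨h1, h2, fun h => h4 (Nat.mem_primeFactors.mp (Finset.mem_of_mem_erase h)).2.1⟩
  · refine RepTheory.residual_isUnramifiedAt_baseChangeAlong F.φ ?_
    have hqM : ¬ q ∣ M := fun h =>
      hqU (Finset.mem_erase.mpr ⟨hqp, Nat.mem_primeFactors.mpr ⟨hq, h, D.squarefree.ne_zero⟩⟩)
    by_cases hbad : (q : ℤ) ∣ W.Δ
    · obtain ⟨i, rfl⟩ := (F.site_iff q).mpr ⟨hq, hqp, hbad, hqM⟩
      exact F.site_unramified i
    · exact planeRep_isUnramifiedAt_of_good hΔ hq hqp hbad

variable (F) in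
/-- An element of the unipotent set outside the minimal level is the auxiliary prime. -/
theorem eq_aux_of_mem_unipSet (D : LiftData W p M) {q : ℕ} (hq : q ∈ F.unipSet)
    (hqU : q ∉ M.primeFactors.erase p) :
    q = F.aux ∧ p = 3 ∧ F.aux.Prime ∧ F.aux % 3 = 2 ∧ F.aux ≠ 2 ∧
      W.IsGoodPrimeFor F.aux ∧ ¬ (p : ℤ) ∣ W.apOfModel F.aux := by
  obtain ⟨hqp, hq⟩ := Finset.mem_erase.mp hq
  obtain ⟨hqP, hqd, -⟩ := Nat.mem_primeFactors.mp hq
  have hqa : q ∣ F.aux := (hqP.dvd_mul.mp hqd).resolve_left fun h =>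
    hqU (Finset.mem_erase.mpr ⟨hqp, Nat.mem_primeFactors.mpr ⟨hqP, h, D.squarefree.ne_zero⟩⟩)
  rcases F.aux_spec with ⟨-, h⟩ | ⟨hp, ha, ha2, h32, -, hgood, hap⟩
  · exact absurd (Nat.dvd_one.mp (h ▸ hqa)) hqP.ne_one
  · exact ⟨(Nat.prime_dvd_prime_iff_eq hqP ha).mp hqa, hp, ha, h32, ha2, hgood, hap⟩

variable (F) in
theorem siteWeight_siteH (s : ℕ) (hs : s.Prime) : SiteWeight F.rhobar s (F.siteH s) := by
  unfold siteH
  split_ifs with h
  · obtain ⟨c, hc⟩ := h
    exact Or.inr ⟨le_rfl, _, F.liesOver s hs, _, F.isFrobenius s hs, c, hc⟩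
  · exact Or.inl le_rfl

section detect

variable {r : ℕ} {qv : Fin r → ℕ} (DQ : GaloisRep.DeformationRingData F.E.R F.rhobar (F.cond qv))

attribute [local instance] Deformation.dualAlgebra

variable (φ : DQ.R →ₐ[F.E.R] DualNumber (ResidueField F.E.R))
  (hφ : IsLocalHom (φ : DQ.R →+* DualNumber (ResidueField F.E.R)))

/-- A map killing the site coordinates gives a deformation constant at the sites. -/
theorem siteConstant_of_kill (D : LiftData W p M) (b : ℕ → Module.Basis (Fin 2) DQ.R DQ.ρ.V)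
    (hkill : ∀ y ∈ F.siteCoords DQ.ρ b, φ y = 0) {s : ℕ} (hs : s ∈ F.siteSet) :
    SiteConstant p
      (DQ.ρ.baseChangeAlong (φ : DQ.R →+* DualNumber (ResidueField F.E.R)) hφ) s := by
  obtain ⟨hsP, hsp, -⟩ := (twResidual F D).sites s hs
  let φ' : DQ.R →+* DualNumber (ResidueField F.E.R) := φ
  let _ : Algebra DQ.R (DualNumber (ResidueField F.E.R)) := φ'.toAlgebra
  refine ⟨F.place s, F.liesOver s hsP, F.frob s, F.tame s, F.isFrobenius s hsP,
    F.isTameGenerator s hsP hsp,
    Algebra.TensorProduct.basis (DualNumber (ResidueField F.E.R)) (b s), fun i j => ?_⟩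
  have key : ∀ σ ∈ ({F.frob s, F.tame s} : Set Γℚ), TrivSqZeroExt.snd (LinearMap.toMatrix
      (Algebra.TensorProduct.basis (DualNumber (ResidueField F.E.R)) (b s))
      (Algebra.TensorProduct.basis (DualNumber (ResidueField F.E.R)) (b s))
      ((DQ.ρ.baseChangeAlong φ' hφ).ρ σ) i j) = 0 := by
    intro σ hσ
    obtain ⟨c, hc⟩ := DQ.residue_surjective
      (residue DQ.R (LinearMap.toMatrix (b s) (b s) (DQ.ρ.ρ σ) i j))
    have h0 := hkill _ ⟨Ideal.Quotient.eq.mp hc.symm, s, hs, σ, hσ, i, j, c, rfl⟩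
    rw [map_sub, AlgHom.commutes, sub_eq_zero] at h0
    show TrivSqZeroExt.snd (LinearMap.toMatrix _ _ ((DQ.ρ.ρ σ).baseChange _) i j) = 0
    rw [LinearMap.toMatrix_baseChange, Matrix.map_apply]
    show TrivSqZeroExt.snd (φ _) = 0
    rw [h0]
    rfl
  exact ⟨key _ (Set.mem_insert _ _), key _ (Set.mem_insert_of_mem _ rfl)⟩

/-- A map killing the coordinate at `p` gives a strictly ordinary deformation. -/
theorem isStrictOrdinary_of_kill (D : LiftData W p M) (hm : F.Mult)
    (hkill : ∀ y ∈ F.lamCoords DQ.ρ, φ y = 0) :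
    (DQ.ρ.baseChangeAlong (φ : DQ.R →+* DualNumber (ResidueField F.E.R))
      hφ).IsStrictOrdinaryAt p := by
  have hp : p.Prime := Fact.out
  let : Algebra (ZMod p) (ResidueField F.E.R) := F.φ.toAlgebra
  have : Finite (DualNumber (ResidueField F.E.R)) :=
    inferInstanceAs (Finite (ResidueField F.E.R × ResidueField F.E.R))
  set ρ' := DQ.ρ.baseChangeAlong (φ : DQ.R →+* DualNumber (ResidueField F.E.R)) hφ with hρ'
  have hcond := (F.cond_iff_of_mult hm qv ρ').mp
    (push_mem DQ (F.isClosed_cond (ne_two_of_data D) qv) φ hφ)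
  have hcyc := F.detIsCyclotomic_of_cond DQ.isOfType
  set N := Deformation.barMat F.rhobar
  obtain ⟨x, bx, hbx⟩ :=
    exists_cocycle_of_push p F.rhobar DQ.residue_surjective DQ.ρ DQ.residual_isEquiv hcyc φ hφ
  have hfst : ∀ g, (LinearMap.toMatrix bx bx (ρ'.ρ g)).map TrivSqZeroExt.fst = N g := fun g => by
    rw [hbx]
    ext i j
    simp [defoMat, N]
  have htr : ∀ g, TrivSqZeroExt.fst (ρ'.trace g) = (N g).trace := fun g => by
    show TrivSqZeroExt.fst (LinearMap.trace _ _ (ρ'.ρ g)) = _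
    rw [LinearMap.trace_eq_matrix_trace _ bx, ← hfst g]
    simp [Matrix.trace_fin_two]
  -- the determinant is constant
  have hdet : ∀ g, LinearMap.det (ρ'.ρ g) = TrivSqZeroExt.inl (N g).det := fun g => by
    rw [← LinearMap.det_toMatrix bx, hbx]
    refine TrivSqZeroExt.ext ?_ ?_
    · rw [TrivSqZeroExt.fst_inl]
      simp [defoMat, Matrix.det_fin_two, N]
    · rw [TrivSqZeroExt.snd_inl]
      rw [defoMat, snd_det_defo]
      refine mul_eq_zero_of_left ?_ _
      exact LinearMap.mem_ker.mp (x.1 g).2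
  -- so is the coordinate at `p`
  obtain ⟨c, hc⟩ := DQ.residue_surjective (residue DQ.R (F.lam DQ.ρ))
  have h0 := hkill _ ⟨Ideal.Quotient.eq.mp hc.symm, c, rfl⟩
  rw [map_sub, AlgHom.commutes, sub_eq_zero] at h0
  set lam' := LinearMap.det (ρ'.ρ F.inert) * ρ'.trace (F.frob p) - ρ'.trace (F.inert * F.frob p)
    with hlam
  have hlamφ : lam' = φ (F.lam DQ.ρ) := by
    rw [hlam, hρ', det_baseChangeAlong, RepTheory.trace_baseChangeAlong,
      RepTheory.trace_baseChangeAlong, LiftFrame.lam, map_sub, map_mul]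
    rfl
  have hconst : lam' = TrivSqZeroExt.inl (TrivSqZeroExt.fst lam') := by
    rw [hlamφ, h0]
    rfl
  set u : ResidueField F.E.R := (N F.inert).det
  have hu : u - 1 ≠ 0 := by
    rw [sub_ne_zero]
    intro h
    refine F.cycloExp_inert ?_
    have hd : LinearMap.det ((planeRep hΔ (p := p)).ρ F.inert) = 1 :=
      F.φ.injective (by rw [← det_barMat, map_one]; exact h)
    exact (det_rhoW W p hΔ F.inert).symm.trans hd
  refine isStrictOrdinaryAt_of_lam ρ' hcond.1.2.1 hcond.1.1 (F.liesOver p hp) (F.isFrobenius p hp)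
    F.inert_mem ?_ ?_
  · rw [hdet, ← TrivSqZeroExt.inl_one, ← TrivSqZeroExt.inl_sub]
    exact (isUnit_iff_ne_zero.mpr hu).map (TrivSqZeroExt.inlHom _ _)
  · rw [← hlam, hconst, hdet, ← TrivSqZeroExt.inl_one, ← TrivSqZeroExt.inl_sub, pow_two, pow_two,
      ← TrivSqZeroExt.inl_mul, ← TrivSqZeroExt.inl_mul]
    refine congrArg TrivSqZeroExt.inl ?_
    have hf : TrivSqZeroExt.fst lam' =
        F.φ (LinearMap.det ((planeRep hΔ (p := p)).ρ F.inert) *
          LinearMap.trace (ZMod p) _ ((planeRep hΔ (p := p)).ρ (F.frob p)) -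
          LinearMap.trace (ZMod p) _ ((planeRep hΔ (p := p)).ρ (F.inert * F.frob p))) := by
      rw [hlam, TrivSqZeroExt.fst_sub, TrivSqZeroExt.fst_mul, hdet, TrivSqZeroExt.fst_inl, htr, htr,
        map_sub F.φ, map_mul F.φ, ← det_barMat, ← trace_barMat, ← trace_barMat]
    have hsq := planeRep_lam_sq hΔ (ne_two_of_data D) hm (D.curve.semistable p hp hm)
      (F.liesOver p hp) (F.isFrobenius p hp) F.inert_mem
    rw [← pow_two, ← pow_two, hf, ← map_pow, hsq, map_pow, map_sub, map_one, ← det_barMat]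

/-- Away from `p`. -/
theorem awayFromP_of_kill (D : LiftData W p M) (b : ℕ → Module.Basis (Fin 2) DQ.R DQ.ρ.V)
    (hkill : ∀ y ∈ F.siteCoords DQ.ρ b, φ y = 0) :
    AwayFromP p (M.primeFactors.erase p) F.siteSet qv
      (DQ.ρ.baseChangeAlong (φ : DQ.R →+* DualNumber (ResidueField F.E.R)) hφ) := by
  classical
  let : Algebra (ZMod p) (ResidueField F.E.R) := F.φ.toAlgebra
  have : CharP (ResidueField F.E.R) p := charP_of_injective_ringHom F.φ.injective p
  set ρ' := DQ.ρ.baseChangeAlong (φ : DQ.R →+* DualNumber (ResidueField F.E.R)) hφ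
  have hP := push_mem DQ (F.isClosed_cond (ne_two_of_data D) qv) φ hφ
  have hsub : M.primeFactors.erase p ⊆ F.unipSet := fun q hq => by
    obtain ⟨hqp, hq⟩ := Finset.mem_erase.mp hq
    refine Finset.mem_erase.mpr ⟨hqp, ?_⟩
    obtain ⟨hqP, hqM, hM0⟩ := Nat.mem_primeFactors.mp hq
    refine Nat.mem_primeFactors.mpr ⟨hqP, hqM.mul_right _, mul_ne_zero hM0 ?_⟩
    rcases F.aux_spec with ⟨-, h⟩ | ⟨-, ha, -⟩
    · rw [h]; exact one_ne_zero
    · exact ha.ne_zero
  refine ⟨fun q hq => ?_, fun q hq hqS => ?_, fun s hs => siteConstant_of_kill DQ φ hφ D b hkill hs⟩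
  · obtain ⟨h1, h2, -⟩ := (twResidual F D).ramified q hq
    by_cases h : F.Mult
    · exact ((F.cond_iff_of_mult h qv ρ').mp hP).2 q (hsub hq) h1 h2
    · exact ((F.cond_iff_of_not_mult h qv ρ').mp hP).2 q (hsub hq) h1 h2
  · by_cases hram : q ∉ F.ramSet qv
    · exact F.unramified_of_cond hP hq hram
    -- otherwise it is the auxiliary prime
    simp only [ramSet, not_not, Finset.mem_insert, Finset.mem_union] at hram hqS
    have hqu : q ∈ F.unipSet := by tauto
    have hqU : q ∉ M.primeFactors.erase p := by tauto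
    obtain ⟨rfl, hp3, -, h32, ha2, hgood, hap⟩ := F.eq_aux_of_mem_unipSet D hqu hqU
    have hqp : F.aux ≠ p := (Finset.mem_erase.mp hqu).1
    have hcyc := F.detIsCyclotomic_of_cond DQ.isOfType
    obtain ⟨x, hx⟩ :=
      exists_cocycle_of_push p F.rhobar DQ.residue_surjective DQ.ρ DQ.residual_isEquiv hcyc φ hφ
    obtain ⟨htr, hdet⟩ := planeRep_frobenius hΔ (ne_two_of_data D) hq ha2 hgood hqp
      (F.liesOver _ hq) (F.isFrobenius _ hq)
    refine isUnramifiedAt_of_trace_ne_zero (ne_two_of_data D) _ _ ρ' hx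
      (F.detIsCyclotomic_of_cond hP) hq hqp.symm (F.liesOver _ hq) (F.isFrobenius _ hq)
      (F.isTameGenerator _ hq hqp) (fun σ hσ => ?_) ?_ ?_ ?_
    · show LinearMap.toMatrixAlgEquiv (Deformation.barBasis F.rhobar) (F.rhobar.ρ σ) = 1
      rw [(twResidual F D).unramified _ hq hqp hqU _ (F.liesOver _ hq) σ hσ, map_one]
    · rw [← map_natCast F.φ, ← map_one F.φ, ← map_neg]
      congr 1
      subst hp3
      rw [← ZMod.natCast_mod, h32]
      rfl
    · rw [det_barMat, hdet, map_natCast]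
    · rw [trace_barMat, htr]
      intro h
      rw [map_eq_zero] at h
      exact hap ((ZMod.intCast_zmod_eq_zero_iff_dvd _ p).mp h)

end detect

end LiftFrame

open LiftFrame in
theorem liftTWInput {W : WeierstrassCurve ℤ} {hΔ : W.Δ ≠ 0} {p : ℕ} [Fact p.Prime] {M : ℕ}
    (D : LiftData W p M) (F : LiftFrame W hΔ p M) : F.TWInput := by
  classical
  let : Algebra (ZMod p) (ResidueField F.E.R) := F.φ.toAlgebra
  let := Deformation.dualAlgebra F.E.R
  have hp2 := ne_two_of_data D
  have hw : ∀ s ∈ F.siteSet, SiteWeight F.rhobar s (F.siteH s) := fun s hs =>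
    F.siteWeight_siteH s ((twResidual F D).sites s hs).1
  by_cases hm : F.Mult
  · obtain ⟨r, g, hg, hn⟩ :=
      exists_twGenerators_ordinary (twResidual F D) F.siteH hw F.avoided
    refine ⟨g, r, ⟨fun h => absurd hm h, fun _ => hg⟩, fun n => ?_⟩
    obtain ⟨qv, hinj, hq, hfr, hgen⟩ := hn n
    refine ⟨qv, ⟨hinj, fun i => (hq i).1, fun i => (hq i).2.1, fun i => (hq i).2.2.2.2.2, hfr⟩,
      fun DQ b => ?_⟩
    have : Finite (ResidueField DQ.R) := finite_residue DQ.residue_surjective
    set E : Set DQ.R := F.siteCoords DQ.ρ b ∪ F.lamCoords DQ.ρ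
    obtain ⟨z, hz, a, ha, hmax⟩ := hgen _ (F.isClosed_cond hp2 qv) DQ
      (F.detIsCyclotomic_of_cond DQ.isOfType) E (flatIdeal p DQ.ρ)
      (Set.union_subset (fun y hy => hy.1) fun y hy => hy.1) (flatIdeal_le _) fun φ hφ hkill => by
        refine ⟨isStrictOrdinary_of_kill DQ φ hφ D hm fun y hy => hkill y (Or.inr hy), ?_,
          awayFromP_of_kill DQ φ hφ D b fun y hy => hkill y (Or.inl hy)⟩
        by_cases hne : (flatLevels p DQ.ρ).Nonempty
        · refine Or.inr fun hJ => ?_
          obtain ⟨I, hI, hle⟩ := exists_flatLevel_le DQ.ρ hne 2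
          have : Finite (DualNumber (ResidueField F.E.R)) :=
            inferInstanceAs (Finite (ResidueField F.E.R × ResidueField F.E.R))
          refine isFlatAt_of_mem_flatLevels DQ.ρ _ hφ Fact.out hI fun y hy => ?_
          obtain ⟨u, hu, v, hv, rfl⟩ := Submodule.mem_sup.mp (hle hy)
          have hv0 : φ v = 0 := by
            rw [pow_two] at hv
            refine Submodule.mul_induction_on hv (fun a ha a' ha' => ?_) fun a a' h h' => ?_
            · have h1 := (Deformation.mem_maximalIdeal_dual _).mp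
                (map_nonunit (φ : DQ.R →+* DualNumber (ResidueField F.E.R)) a ha)
              have h2 := (Deformation.mem_maximalIdeal_dual _).mp
                (map_nonunit (φ : DQ.R →+* DualNumber (ResidueField F.E.R)) a' ha')
              rw [map_mul]
              refine TrivSqZeroExt.ext ?_ ?_
              · simp [show TrivSqZeroExt.fst (φ a) = 0 from h1]
              · simp [TrivSqZeroExt.snd_mul, show TrivSqZeroExt.fst (φ a) = 0 from h1,
                  show TrivSqZeroExt.fst (φ a') = 0 from h2]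
            · rw [map_add, h, h', add_zero]
          show φ (u + v) = 0
          rw [map_add, hJ u hu, hv0, add_zero]
        · refine Or.inl ?_
          rw [flatIdeal, Set.not_nonempty_iff_eq_empty.mp hne, sInf_empty, inf_top_eq]
    refine ⟨z, a, flatIdeal_le _ hz, ha, fun _ => ⟨fun E' ψ hψ hfl =>
      eq_zero_of_isFlatAt DQ.ρ _ hψ Fact.out hfl hz, hmax.le.trans ?_⟩, fun h => absurd hm h⟩
    simp only [Ideal.span_union, E]
    exact sup_le (le_sup_of_le_right le_sup_right) (sup_le (le_sup_of_le_right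
      (le_sup_of_le_left le_sup_right)) (sup_le (le_sup_of_le_right
        (le_sup_of_le_left le_sup_left)) le_sup_left))
  · obtain ⟨r, g, hg, hn⟩ := exists_twGenerators_flat (twResidual F D) F.siteH hw F.avoided
    refine ⟨g, r, ⟨fun _ => hg, fun h => absurd h hm⟩, fun n => ?_⟩
    obtain ⟨qv, hinj, hq, hfr, hgen⟩ := hn n
    refine ⟨qv, ⟨hinj, fun i => (hq i).1, fun i => (hq i).2.1, fun i => (hq i).2.2.2.2.2, hfr⟩,
      fun DQ b => ?_⟩
    obtain ⟨a, ha, hmax⟩ := hgen _ (F.isClosed_cond hp2 qv) DQ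
      (F.detIsCyclotomic_of_cond DQ.isOfType) (F.siteCoords DQ.ρ b) (fun y hy => hy.1)
      fun φ hφ hkill => ⟨((F.cond_iff_of_not_mult hm qv _).mp
        (push_mem DQ (F.isClosed_cond hp2 qv) φ hφ)).1.2.1, awayFromP_of_kill DQ φ hφ D b hkill⟩
    refine ⟨0, a, zero_mem _, ha, fun h => absurd h hm, fun _ => hmax.le.trans ?_⟩
    rw [Ideal.span_union]
    exact sup_le (le_sup_of_le_right le_sup_right)
      (sup_le (le_sup_of_le_right le_sup_left) le_sup_left)

end FLTA.RT

end
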