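import Fermat.Agent.RT.Lift.Exists
import Fermat.Agent.RT.Lift.TW
import Fermat.Agent.RT.Lift.Modules
import Fermat.Agent.RT.Lift.Patched
import Fermat.Agent.RT.S59Match
import Fermat.Agent.Carayol.MatchMain

/-!
# `LiftFromMinimal` from the frame, the two inputs and the patched argument
-/

set_option autoImplicit false

noncomputable section

open WeierstrassCurve

namespace FLTA.RT

variable {W : WeierstrassCurve ℤ} {hΔ : W.Δ ≠ 0} {p : ℕ} [Fact p.Prime] {M : ℕ}
  (F : LiftFrame W hΔ p M)

theorem LiftFrame.aux_cases : F.aux = 1 ∨ (F.aux.Prime ∧ F.aux ≠ p ∧ ¬ F.aux ∣ M ∧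
    W.IsGoodPrimeFor F.aux) := by
  rcases F.aux_spec with ⟨-, h⟩ | ⟨hp, ha, -, h32, hM, hgood, -⟩
  · exact Or.inl h
  · exact Or.inr ⟨ha, fun h => by rw [h, hp] at h32; norm_num at h32, hM, hgood⟩

theorem LiftFrame.site_spec (i : Fin F.k) : (F.site i).Prime ∧ F.site i ≠ p ∧
    (F.site i : ℤ) ∣ W.Δ ∧ ¬ F.site i ∣ M :=
  (F.site_iff _).mp ⟨i, rfl⟩

theorem LiftFrame.squarefree_base_lift (hM : Squarefree M) : Squarefree F.base := by
  classical
  have hp : p.Prime := Fact.out
  have h1 : Squarefree (if F.Mult then Nat.lcm M p else M) := by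
    split
    · by_cases hpM : p ∣ M
      · rwa [Nat.lcm_comm, Nat.lcm_eq_right hpM]
      · have hc : Nat.Coprime M p := ((Nat.Prime.coprime_iff_not_dvd hp).mpr hpM).symm
        rw [hc.lcm_eq_mul, Nat.squarefree_mul hc]
        exact ⟨hM, hp.squarefree⟩
    · exact hM
  rcases F.aux_cases with h | ⟨ha, hap, haM, -⟩
  · rw [LiftFrame.base, h, mul_one]
    exact h1
  · have hc : Nat.Coprime (if F.Mult then Nat.lcm M p else M) F.aux := by
      refine ((Nat.Prime.coprime_iff_not_dvd ha).mpr fun hd => ?_).symm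
      split at hd
      · rcases ha.dvd_mul.mp (hd.trans (Nat.lcm_dvd_mul M p)) with h | h
        · exact haM h
        · exact hap ((Nat.prime_dvd_prime_iff_eq ha hp).mp h)
      · exact haM hd
    rw [LiftFrame.base, Nat.squarefree_mul hc]
    exact ⟨h1, ha.squarefree⟩

theorem LiftFrame.squarefree_level (hM : Squarefree M) : Squarefree (F.level F.k) := by
  classical
  have hp : p.Prime := Fact.out
  have hall : ∀ s : Finset (Fin F.k), Squarefree (F.base * ∏ i ∈ s, F.site i) := by
    intro s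
    induction s using Finset.induction with
    | empty => simpa using F.squarefree_base_lift hM
    | insert i s his ih =>
      obtain ⟨hq, hqp, hqΔ, hqM⟩ := F.site_spec i
      have hc : Nat.Coprime (F.site i) (F.base * ∏ x ∈ s, F.site x) := by
        refine (Nat.Prime.coprime_iff_not_dvd hq).mpr fun hd => ?_
        rcases hq.dvd_mul.mp hd with h | h
        · rcases hq.dvd_mul.mp h with h' | h'
          · split at h'
            · rcases hq.dvd_mul.mp (h'.trans (Nat.lcm_dvd_mul M p)) with h'' | h''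
              · exact hqM h''
              · exact hqp ((Nat.prime_dvd_prime_iff_eq hq hp).mp h'')
            · exact hqM h'
          · rcases F.aux_cases with ha | ⟨ha, -, -, hgood⟩
            · rw [ha] at h'
              exact hq.ne_one (Nat.dvd_one.mp h')
            · exact hgood ((Nat.prime_dvd_prime_iff_eq hq ha).mp h' ▸ hqΔ)
        · obtain ⟨x, hx, hxd⟩ := (hq.prime.dvd_finsetProd_iff _).mp h
          have := (Nat.prime_dvd_prime_iff_eq hq (F.site_spec x).1).mp hxd
          exact his (F.site_injective this ▸ hx)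
      rw [Finset.prod_insert his, mul_left_comm, Nat.squarefree_mul hc]
      exact ⟨hq.squarefree, ih⟩
  exact hall _

theorem LiftFrame.dvd_level_of_dvd_disc {q : ℕ} (hq : q.Prime) (hqΔ : (q : ℤ) ∣ W.Δ) :
    q ∣ F.level F.k := by
  classical
  by_cases hqM : q ∣ M
  · refine dvd_mul_of_dvd_left (dvd_mul_of_dvd_left ?_ _) _
    split
    · exact hqM.trans (Nat.dvd_lcm_left M p)
    · exact hqM
  by_cases hqp : q = p
  · subst hqp
    refine dvd_mul_of_dvd_left (dvd_mul_of_dvd_left ?_ _) _
    rw [if_pos (show F.Mult from hqΔ)]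
    exact Nat.dvd_lcm_right M q
  · obtain ⟨i, rfl⟩ := (F.site_iff q).mpr ⟨hq, hqp, hqΔ, hqM⟩
    exact dvd_mul_of_dvd_right (Finset.dvd_prod_of_mem _ (Finset.mem_filter.mpr
      ⟨Finset.mem_univ i, i.2⟩)) _

/-- **Lifting from the minimal level.** -/
theorem liftFromMinimal : LiftFromMinimal := by
  intro p W hc M hsf hbad hmin hres
  have : Fact p.Prime := ⟨by rcases hc.hp with rfl | rfl <;> norm_num⟩
  have D : LiftData W p M := ⟨hc, hsf, hbad, hmin, hres⟩
  obtain ⟨F⟩ := nonempty_liftFrame (hΔ := hc.hΔ) D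
  obtain ⟨f, hf, T, hT⟩ := exists_eigenform_of_inputs D F (liftTWInput D F) (liftHasModules D F)
  have hsfN : Squarefree (F.level F.k) := F.squarefree_level hsf
  have : NeZero (F.level F.k) := ⟨hsfN.ne_zero⟩
  refine ⟨F.level F.k, hsfN.ne_zero.bot_lt, fun h => ?_, fun q hq h => ?_,
    fun q hq h => F.dvd_level_of_dvd_disc hq h, ?_⟩
  · exact Nat.squarefree_iff_prime_squarefree.mp hsfN p Fact.out (by rwa [← sq])
  · exact Nat.squarefree_iff_prime_squarefree.mp hsfN q hq
      ((Dvd.intro q (pow_three' q).symm).trans h)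
  · exact isModularModelOfLevel_of_eq_outside W hc.hΔ
      (fun lam hlam hlam2 => Carayol.hasFrobQuadratic W hc.hΔ hlam hlam2) hf T
      fun ℓ hℓ hℓT _ _ => hT ℓ hℓ hℓT

end FLTA.RT

end
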