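import Fermat.Agent.RT.FreeLift
import Fermat.Agent.Gamma0.Complex.Basic
import Fermat.Agent.Gamma0.ComplexConjClass
import Mathlib.Algebra.Field.ZMod
import Mathlib.FieldTheory.Finite.Basic

/-!
# Levels without elliptic points of order three

If a prime `r ≡ 2 (mod 3)` divides `L`, then `Γ₀(L)` has no element of trace `± 1`: twisted
cocycles lift without assuming `3` invertible, and parabolic homomorphisms are refined parabolic
as soon as `2` is injective.
-/

set_option autoImplicit false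

noncomputable section

open CongruenceSubgroup ModularCurve.Period
open scoped MatrixGroups
open FLTA.Gamma0.Presentation (matU)
open FLTA.Gamma0 (Coset)

namespace FLTA.RT

theorem sq_add_add_one_ne_zero {r : ℕ} [Fact r.Prime] (hr3 : r % 3 = 2) (y : ZMod r) :
    y ^ 2 + y + 1 ≠ 0 := by
  intro hy
  have hr : r.Prime := Fact.out
  have hy3 : y ^ 3 = 1 := by linear_combination (y - 1) * hy
  have hy0 : y ≠ 0 := fun h => by simp [h] at hy
  have hd1 : orderOf y ∣ 3 := orderOf_dvd_of_pow_eq_one hy3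
  have hd2 : orderOf y ∣ r - 1 := orderOf_dvd_of_pow_eq_one (ZMod.pow_card_sub_one_eq_one hy0)
  have hcop : Nat.gcd 3 (r - 1) = 1 :=
    (Nat.Prime.coprime_iff_not_dvd Nat.prime_three).mpr fun h => by omega
  have h1 := Nat.dvd_gcd hd1 hd2
  rw [hcop, Nat.dvd_one, orderOf_eq_one_iff] at h1
  rw [h1] at hy
  have h3 : ((3 : ℕ) : ZMod r) = 0 := by push_cast; linear_combination hy
  rw [ZMod.natCast_eq_zero_iff] at h3
  have := (Nat.prime_dvd_prime_iff_eq hr Nat.prime_three).mp h3
  omega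

/-- No element of trace `± 1`. -/
theorem trace_sq_ne_one {L r : ℕ} (hr : r.Prime) (hrL : r ∣ L) (hr3 : r % 3 = 2) {γ : SL(2, ℤ)}
    (hγ : γ ∈ Gamma0 L) : (γ : Matrix (Fin 2) (Fin 2) ℤ).trace ^ 2 ≠ 1 := by
  intro h
  have := Fact.mk hr
  have hc : ((γ 1 0 : ℤ) : ZMod r) = 0 := by
    rw [← map_intCast (ZMod.castHom hrL (ZMod r)), Gamma0_mem.mp hγ, map_zero]
  have hdet := γ.det_coe
  rw [Matrix.det_fin_two] at hdet
  have hd : ((γ 0 0 : ℤ) : ZMod r) * ((γ 1 1 : ℤ) : ZMod r) = 1 := by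
    have h1 := congrArg (Int.cast : ℤ → ZMod r) hdet
    push_cast at h1
    rw [hc] at h1
    linear_combination h1
  rw [Matrix.trace_fin_two, sq_eq_one_iff] at h
  rcases h with h | h
  · have h1 := congrArg (Int.cast : ℤ → ZMod r) h
    push_cast at h1
    exact sq_add_add_one_ne_zero hr3 (-((γ 0 0 : ℤ) : ZMod r))
      (by linear_combination ((γ 0 0 : ℤ) : ZMod r) * h1 - hd)
  · have h1 := congrArg (Int.cast : ℤ → ZMod r) h
    push_cast at h1
    exact sq_add_add_one_ne_zero hr3 ((γ 0 0 : ℤ) : ZMod r)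
      (by linear_combination ((γ 0 0 : ℤ) : ZMod r) * h1 - hd)

/-- The element of order six fixes no coset. -/
theorem matU_smul_coset_ne {L r : ℕ} (hr : r.Prime) (hrL : r ∣ L) (hr3 : r % 3 = 2)
    (x : Coset (Gamma0 L)) : matU • x ≠ x := by
  intro h
  induction x using QuotientGroup.induction_on with
  | H g =>
    rw [MulAction.Quotient.smul_mk, QuotientGroup.eq] at h
    refine trace_sq_ne_one hr hrL hr3 ((Gamma0 L).inv_mem h) ?_
    have e : ((matU • g)⁻¹ * g)⁻¹ = g⁻¹ * matU * g⁻¹⁻¹ := by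
      simp [smul_eq_mul, mul_assoc]
    rw [e, FLTA.Gamma0.ConjClass.trace_conj]
    decide +kernel

/-- Parabolic homomorphisms of such a level are refined parabolic if `2` is injective. -/
theorem isParHom0_of_isParabolicHom_elliptic {L r : ℕ} (hr : r.Prime) (hrL : r ∣ L)
    (hr3 : r % 3 = 2) {A : Type*} [AddCommGroup A] (h2 : ∀ a : A, a + a = 0 → a = 0)
    {φ : Additive (Gamma0 L) →+ A} (hφ : IsParabolicHom (Gamma0 L) φ) :
    FLTA.Gamma0.IsParHom0 (Gamma0 L) φ := by
  intro γ hγ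
  have ht := trace_sq_ne_one hr hrL hr3 γ.2
  have hdet := (γ : SL(2, ℤ)).det_coe
  rw [Matrix.det_fin_two] at hdet
  rcases (show ((γ : SL(2, ℤ)) : Matrix (Fin 2) (Fin 2) ℤ).trace ^ 2 ≤ 4 from hγ).eq_or_lt with
    h | h
  · exact hφ γ h
  · set t := ((γ : SL(2, ℤ)) : Matrix (Fin 2) (Fin 2) ℤ).trace with htdef
    have ht0 : t = 0 := by
      have h1 : t < 2 := by nlinarith
      have h2 : -2 < t := by nlinarith
      rcases (show t = -1 ∨ t = 0 ∨ t = 1 by omega) with h3 | h3 | h3
      · exact absurd (by rw [h3]; norm_num) ht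
      · exact h3
      · exact absurd (by rw [h3]; norm_num) ht
    rw [htdef, Matrix.trace_fin_two] at ht0
    have h4 : γ ^ 4 = 1 := by
      refine Subtype.ext (Subtype.ext ?_)
      have hsq : ((γ : SL(2, ℤ)) : Matrix (Fin 2) (Fin 2) ℤ) *
          ((γ : SL(2, ℤ)) : Matrix (Fin 2) (Fin 2) ℤ) = -1 := by
        ext i j
        fin_cases i <;> fin_cases j <;> simp [Matrix.mul_apply, Fin.sum_univ_two]
        · linear_combination (γ : SL(2, ℤ)) 0 0 * ht0 - hdet
        · linear_combination (γ : SL(2, ℤ)) 0 1 * ht0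
        · linear_combination (γ : SL(2, ℤ)) 1 0 * ht0
        · linear_combination (γ : SL(2, ℤ)) 1 1 * ht0 - hdet
      simp [pow_succ, hsq]
    refine h2 _ (h2 _ ?_)
    have h0 : (4 : ℕ) • φ (Additive.ofMul γ) = 0 := by
      rw [← map_nsmul, ← ofMul_pow, h4]
      exact map_zero φ
    rw [← h0]
    abel

end FLTA.RT

end
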