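import Fermat.Agent.RT.Lift.Stage
import Fermat.Agent.RT.RaiseNewPart

/-!
# The support argument along the chain of levels

Given components `C j` and primes `x j` of the coordinate ring which separate as in
`LiftChoice.ChainInput`, the last component is in the support of the top patched module, so a
point of the bottom ring lying on it factors through the top bottom algebra.
-/

set_option autoImplicit false
set_option linter.unusedSectionVars false
set_option linter.style.haveILetI false

noncomputable section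

open IsLocalRing WeierstrassCurve GaloisRep FLTA.Patching FLTA.Patching.LevelSystem

namespace FLTA.RT.LiftFrame

variable {W : WeierstrassCurve ℤ} {hΔ : W.Δ ≠ 0} {p : ℕ} [Fact p.Prime] {M : ℕ}
  {F : LiftFrame W hΔ p M} {B : F.LiftBottom}
  {D₀ : DeformationRingData F.E.R F.rhobar (F.cond noPrimes)}
  {σ : Type} [Finite σ] {r : ℕ}

/-- Components and step primes with their separation properties. -/
structure LiftChoice.ChainInput (X : F.LiftChoice B D₀ σ r) where
  /-- the components -/
  C : ℕ → Ideal (MvPowerSeries σ F.E.R)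
  C_prime : ∀ j ≤ F.k, (C j).IsPrime
  dim_le : ∀ j ≤ F.k,
    ringKrullDim (MvPowerSeries σ F.E.R ⧸ C j) ≤ ringKrullDim (MvPowerSeries (Fin r) F.E.R)
  /-- the primes at which the steps are made -/
  x : Fin F.k → Ideal (MvPowerSeries σ F.E.R)
  x_prime : ∀ i, (x i).IsPrime
  le_x : ∀ i : Fin F.k, C i ≤ x i
  disc_mem : ∀ i : Fin F.k,
    X.frobT i ^ 2 - ((F.site i : MvPowerSeries σ F.E.R) + 1) ^ 2 ∈ x i
  /-- only the next component meets the new part below a step prime -/
  sep : ∀ (i : Fin F.k) (Q : Ideal (MvPowerSeries σ F.E.R)), Q.IsPrime → Q ≤ x i →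
    (∀ f, (∀ n y, (∀ l, (X.stage n).down i l y = 0) → X.act n ((i : ℕ) + 1) i.2 f y = 0) →
      f ∈ Q) → C ((i : ℕ) + 1) ≤ Q
  /-- the first component contains every prime over the relations of the first level, in the
  multiplicative case those of its new part -/
  sep_zero : ∀ Q : Ideal (MvPowerSeries σ F.E.R), Q.IsPrime →
    (∀ f, (∀ n y, (F.Mult → (X.stage n).oldMap y = 0) →
      X.act n 0 (Nat.zero_le _) f y = 0) → f ∈ Q) → C 0 ≤ Q

theorem residue_surjective_series (τ : Type) [Finite τ] :
    Function.Surjective (residue (MvPowerSeries τ F.E.R) ∘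
      algebraMap F.E.R (MvPowerSeries τ F.E.R)) := by
  intro y
  obtain ⟨f, rfl⟩ := IsLocalRing.residue_surjective y
  refine ⟨MvPowerSeries.constantCoeff f, Ideal.Quotient.eq.mpr ?_⟩
  rw [Local.mem_maximalIdeal_iff]
  simp [MvPowerSeries.algebraMap_apply]

theorem finite_quotient_series (τ : Type) [Finite τ] (N : ℕ) :
    Finite (MvPowerSeries τ F.E.R ⧸ maximalIdeal (MvPowerSeries τ F.E.R) ^ N) := by
  have := finite_residue (residue_surjective_series (F := F) τ)
  exact Ideal.finite_quotient_pow (IsNoetherian.noetherian _) N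

/-- The bottom module over the quotient by the augmentation. -/
abbrev botModule (F : LiftFrame W hΔ p M) (r : ℕ) (N : Type) [AddCommGroup N]
    [Module (F.Diamond 0 0) N] : Module (MvPowerSeries (Fin r) F.E.R ⧸ augPrime F.E.R r) N :=
  Module.compHom N (F.botEquiv r).toRingHom

/-- **The support argument.** A point of the bottom ring on the last component factors through the
bottom algebra of the top level. -/
theorem LiftChoice.ker_bot_le (X : F.LiftChoice B D₀ σ r) (hp2 : p ≠ 2) (I : X.ChainInput)
    (ξ : D₀.R →+* F.E.R) (hξ : ∀ n, I.C F.k ≤ RingHom.ker (ξ.comp (X.π n))) :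
    RingHom.ker (LiftChoice.bot (B := B) D₀ F.k le_rfl) ≤ RingHom.ker ξ := by
  classical
  let S := MvPowerSeries (Fin r) F.E.R
  let P₀ := MvPowerSeries σ F.E.R
  let J : ℕ → Ideal S := fun n => F.diamondRel r n
  let aug : Ideal S := augPrime F.E.R r
  haveI : aug.IsPrime := augPrime_isPrime
  have hJ : ∀ n, J n ≤ maximalIdeal S ^ n := diamondRel_le_pow r
  have hJP : ∀ n, J n ≤ aug := diamondRel_le_aug r
  have hfin : ∀ N, Finite (S ⧸ maximalIdeal S ^ N) := finite_quotient_series (F := F) (Fin r)
  have hP : ∀ N, Finite (P₀ ⧸ maximalIdeal P₀ ^ N) := finite_quotient_series (F := F) σ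
  haveI hR0 := finite_residue D₀.residue_surjective
  have hR : ∀ N, Finite (D₀.R ⧸ maximalIdeal D₀.R ^ N) :=
    fun N => Ideal.finite_quotient_pow (IsNoetherian.noetherian _) N
  haveI := isDomain_zSer F.E.R r
  letI : Algebra (ZSer F.E.R r) S := (zToY F.E.R r).toAlgebra
  haveI : Module.Finite (ZSer F.E.R r) S := zToY_finite
  haveI : FaithfulSMul (ZSer F.E.R r) S :=
    (faithfulSMul_iff_algebraMap_injective _ _).mpr zToY_injective
  letI : Algebra (ZSer F.E.R r) P₀ := (limMap hP X.φ).toAlgebra
  have hdim : ringKrullDim (ZSer F.E.R r) = ringKrullDim S := ringKrullDim_zSer F.E.R r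
  -- the bottom bases and their lifts
  letI instB : ∀ (j : ℕ) (hj : j ≤ F.k), Module (S ⧸ aug) (B.level j hj).M := fun j hj =>
    botModule F r (B.level j hj).M
  let w : ∀ (j : ℕ) (hj : j ≤ F.k),
      Module.Basis (Fin (B.rank j)) (S ⧸ aug) (B.level j hj).M := fun j hj =>
    (B.level j hj).basis.mapCoeffs (F.botEquiv r).symm fun c x => by
      show F.botEquiv r ((F.botEquiv r).symm c) • x = c • x
      rw [RingEquiv.apply_symm_apply]
  have hred : ∀ (n j : ℕ) (hj : j ≤ F.k) (s : S) (x : ((X.stage n).level j hj).M),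
      (X.stage n).red j hj (Ideal.Quotient.mk (J n) s • x) =
        Ideal.Quotient.mk aug s • (X.stage n).red j hj x := fun n j hj s x => by
    rw [(X.stage n).red_smul]
    rfl
  have hbasis : ∀ (j : ℕ) (hj : j ≤ F.k) (n : ℕ), ∃ b : Module.Basis (Fin (B.rank j)) (S ⧸ J n)
      ((X.stage n).level j hj).M, ∀ a, (X.stage n).red j hj (b a) = w j hj a := by
    intro j hj n
    have hker : RingHom.ker (Ideal.Quotient.factor (hJP n)) = aug.map (Ideal.Quotient.mk (J n)) :=
      Ideal.Quotient.factor_ker _
    refine exists_basis_lift (Ideal.Quotient.factor (hJP n))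
      (Ideal.Quotient.factor_surjective _) (le_maximalIdeal (RingHom.ker_ne_top _))
      ((X.stage n).level j hj).basis ((X.stage n).red j hj) (fun s x => ?_)
      ((X.stage n).red_surjective j hj) (fun x hx => ?_) (w j hj)
    · obtain ⟨s, rfl⟩ := Ideal.Quotient.mk_surjective s
      rw [Ideal.Quotient.factor_mk]
      exact hred n j hj s x
    · rw [hker]
      exact (X.stage n).red_eq_zero j hj x hx
  choose b hb using hbasis
  let rep : ∀ (j : ℕ) (hj : j ≤ F.k) (n : ℕ),
      P₀ →+* Matrix (Fin (B.rank j)) (Fin (B.rank j)) (S ⧸ J n) := fun j hj =>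
    levelRep (J := J) (b j hj) fun n => X.act n j hj
  have hσ : ∀ j hj, ActsByScalars (ZSer F.E.R r) (rep j hj) := fun j hj =>
    actsByScalars_limMap hfin hJ (rep j hj) hP X.φ rfl fun n s =>
      LevelSystem.ofModules_rep_scalar (hJ := hJ) (J := J) (b := b j hj)
        (act := fun n => X.act n j hj) (X.act_φ n j hj s)
  -- one step
  have hstep : ∀ (i : Fin F.k), SupportsAt hfin hJ (rep i i.2.le) (I.C i) →
      SupportsAt hfin hJ (rep ((i : ℕ) + 1) i.2) (I.C ((i : ℕ) + 1)) := by
    intro i hi
    haveI := I.C_prime ((i : ℕ) + 1) i.2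
    haveI := I.x_prime i
    let T₀ : Fin 2 → Fin 2 → Module.End (S ⧸ aug) (B.level i i.2.le).M := fun k l =>
      { toFun := (B.level i i.2.le).α (F.raiseMatrix (B.level i i.2.le).ρ (F.site i) k l)
        map_add' := map_add _
        map_smul' := fun s y => map_smul _ (F.botEquiv r s) y }
    have hT₀ : ∀ y : Fin 2 → (B.level i i.2.le).M,
        (∀ k, ∑ l, T₀ k l (y l) = 0) → ∀ l, y l = 0 := by
      intro y hy m
      set A := F.raiseMatrix (B.level i i.2.le).ρ (F.site i) with hA
      refine B.det_injective i ?_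
      rw [map_zero]
      have h1 : ∑ k, (B.level i i.2.le).α (A.adjugate m k) (∑ l, T₀ k l (y l)) = 0 :=
        Finset.sum_eq_zero fun k _ => by rw [hy k, map_zero]
      simp only [map_sum] at h1
      rw [Finset.sum_comm] at h1
      have h2 : ∀ l, ∑ k, (B.level i i.2.le).α (A.adjugate m k) (T₀ k l (y l)) =
          (B.level i i.2.le).α ((A.adjugate * A) m l) (y l) := fun l => by
        rw [Matrix.mul_apply, map_sum, LinearMap.sum_apply]
        refine Finset.sum_congr rfl fun k _ => ?_
        rw [map_mul, Module.End.mul_apply]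
        rfl
      simp only [h2, Matrix.adjugate_mul, Matrix.smul_apply, Matrix.one_apply, smul_eq_mul,
        mul_ite, mul_one, mul_zero] at h1
      rw [Finset.sum_eq_single m (fun l _ hl => by simp [Ne.symm hl]) (by simp)] at h1
      simpa using h1
    obtain ⟨B₀, hd⟩ := raiseData_of_modules (J := J) (b i i.2.le) (b ((i : ℕ) + 1) i.2)
      (fun n => X.act n i i.2.le) (fun n => X.act n ((i : ℕ) + 1) i.2)
      (fun l n => (X.stage n).up i l) (fun l n => (X.stage n).down i l) hJ
      (hσ i i.2.le) (hσ _ i.2) (fun l n f y => X.up_act hp2 n i l f y)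
      (fun l n f y => X.down_act hp2 n i l f y) (X.T i)
      (fun n k l y => X.down_up_act n i k l y)
      (fun n _ y hy => by
        have hm : (maximalIdeal S).map (Ideal.Quotient.mk (J n)) = maximalIdeal (S ⧸ J n) := by
          haveI : IsLocalHom (Ideal.Quotient.mk (J n)) :=
            IsLocalHom.of_surjective _ Ideal.Quotient.mk_surjective
          refine le_antisymm (Ideal.map_le_iff_le_comap.mpr fun s hs =>
            map_nonunit (Ideal.Quotient.mk (J n)) s hs) fun z hz => ?_
          obtain ⟨s, rfl⟩ := Ideal.Quotient.mk_surjective z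
          exact Ideal.mem_map_of_mem _ ((mk_mem_maximalIdeal_iff s).mp hz)
        have := (X.stage n).up_injective i y
        rw [hm] at this
        exact this hy)
      (fun n _ => (X.stage n).down_surjective i) aug hJP (w i i.2.le)
      (fun n => (X.stage n).red i i.2.le) (fun n => hred n i i.2.le) (fun n => hb i i.2.le n) T₀
      (fun n k l y => by
        rw [X.red_act hp2, X.bot_π_T]
        rfl) hT₀
    refine supportsAt_raise hfin hJ hd _ ((I.dim_le _ i.2).trans hdim.ge) (I.x i)
      (hi.mono hfin hJ (rep i i.2.le) (I.le_x i)) ?_ fun Q hQ hQx hkill => ?_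
    · rw [X.T_det, ← neg_sub]
      exact neg_mem (I.disc_mem i)
    · refine I.sep i Q hQ hQx fun f hf => hkill f ?_
      exact killsNew_ofModules (hJ := hJ) (J := J) (b i i.2.le) (b ((i : ℕ) + 1) i.2)
        (fun n => X.act n ((i : ℕ) + 1) i.2) (fun l n => (X.stage n).down i l)
        (fun n c => by
          obtain ⟨y, hy⟩ := (X.stage n).down_surjective i c
          exact ⟨y, funext hy⟩) hf
  -- the first level
  have hzero : SupportsAt hfin hJ (rep 0 (Nat.zero_le _)) (I.C 0) := by
    haveI := I.C_prime 0 (Nat.zero_le _)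
    have hdim0 := (I.dim_le 0 (Nat.zero_le _)).trans hdim.ge
    by_cases hm : F.Mult
    · let std : ∀ n, Module.Basis (Fin B.oldRank) (S ⧸ J n) (Fin B.oldRank → S ⧸ J n) :=
        fun n => Pi.basisFun _ _
      let jF : ∀ n, Matrix (Fin B.oldRank) (Fin (B.rank 0)) (S ⧸ J n) := fun n =>
        LinearMap.toMatrix (b 0 (Nat.zero_le _) n) (std n) (X.stage n).oldMap
      have hsec : ∀ n, ∃ s : (Fin B.oldRank → S ⧸ J n) →ₗ[S ⧸ J n]
          ((X.stage n).level 0 (Nat.zero_le _)).M, (X.stage n).oldMap.comp s = LinearMap.id :=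
        fun n => Module.projective_lifting_property (X.stage n).oldMap LinearMap.id
          ((X.stage n).oldMap_surjective hm)
      choose s hs using hsec
      have hstd : ∀ n y, (std n).repr ((X.stage n).oldMap y) =
          fun a => (X.stage n).oldMap y a := fun n y => by
        ext a; simp [std]
      refine supportsAt_new_of_surjective hfin hJ (rep 0 (Nat.zero_le _)) jF (hσ 0 _)
        B.oldRank_lt (fun n _ c => ?_) (fun f => ?_) _ hdim0 fun Q hQ hkill => ?_
      · obtain ⟨y, hy⟩ := (X.stage n).oldMap_surjective hm c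
        refine ⟨(b 0 (Nat.zero_le _) n).equivFun y, ?_⟩
        rw [Module.Basis.equivFun_apply, LinearMap.toMatrix_mulVec_repr, hy]
        funext a; simp [std]
      · refine ⟨fun n => LinearMap.toMatrix (std n) (std n)
          ((X.stage n).oldMap.comp ((X.act n 0 (Nat.zero_le _) f).comp (s n))), fun n => ?_⟩
        simp only [jF, rep, levelRep_apply]
        rw [← LinearMap.toMatrix_comp, ← LinearMap.toMatrix_comp]
        refine congrArg _ (LinearMap.ext fun y => sub_eq_zero.mp ?_)
        show (X.stage n).oldMap (X.act n 0 (Nat.zero_le _) f y) -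
          (X.stage n).oldMap (X.act n 0 (Nat.zero_le _) f (s n ((X.stage n).oldMap y))) = 0
        rw [← map_sub, ← map_sub]
        refine (X.stage n).oldMap_stable _ _ ?_
        rw [map_sub, ← LinearMap.comp_apply, hs, LinearMap.id_apply, sub_self]
      · refine I.sep_zero Q hQ fun f hf => hkill f
          ⟨fun n => LinearMap.toMatrix (std n) (b 0 (Nat.zero_le _) n)
            ((X.act n 0 (Nat.zero_le _) f).comp (s n)), fun n => ?_⟩
        simp only [jF, rep, levelRep_apply]
        rw [← LinearMap.toMatrix_comp]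
        refine congrArg _ (LinearMap.ext fun y => sub_eq_zero.mp ?_)
        show X.act n 0 (Nat.zero_le _) f y -
          X.act n 0 (Nat.zero_le _) f (s n ((X.stage n).oldMap y)) = 0
        rw [← map_sub]
        refine hf n _ fun _ => ?_
        rw [map_sub, ← LinearMap.comp_apply, hs, LinearMap.id_apply, sub_self]
    · refine supportsAt_base hfin hJ (hσ 0 _) B.rank_pos _ hdim0 fun Q hQ hkill => ?_
      refine I.sep_zero Q hQ fun f hf => hkill f fun n => ?_
      show LinearMap.toMatrix _ _ (X.act n 0 (Nat.zero_le _) f) = 0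
      rw [show X.act n 0 (Nat.zero_le _) f = 0 from LinearMap.ext fun y =>
        hf n y fun h => absurd h hm, map_zero]
  have hall : ∀ (j : ℕ) (hj : j ≤ F.k), SupportsAt hfin hJ (rep j hj) (I.C j) := by
    intro j
    induction j with
    | zero => exact fun _ => hzero
    | succ i ih => exact fun hi => hstep ⟨i, hi⟩ (ih (Nat.le_of_succ_le hi))
  -- the bottom
  set L := B.level F.k le_rfl
  let tr : Module.End (F.Diamond 0 0) L.M →+* Module.End (S ⧸ aug) L.M :=
    { toFun := fun g =>
        { toFun := g
          map_add' := map_add g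
          map_smul' := fun c y => map_smul g (F.botEquiv r c) y }
      map_one' := rfl
      map_mul' := fun _ _ => rfl
      map_zero' := rfl
      map_add' := fun _ _ => rfl }
  let act₀ : D₀.R →+* Matrix (Fin (B.rank F.k)) (Fin (B.rank F.k)) (S ⧸ aug) :=
    (LinearMap.toMatrixAlgEquiv (w F.k le_rfl)).toRingEquiv.toRingHom.comp
      (tr.comp (L.α.comp (LiftChoice.bot D₀ F.k le_rfl).toRingHom))
  have hbot : BottomCompat (rep F.k le_rfl) X.π act₀ := by
    intro n f a c x y hx hy
    have h := LevelSystem.ofModules_rep_map (J := J) (hJ := hJ) (b := b F.k le_rfl)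
      (act := fun n => X.act n F.k le_rfl) (n := n) (f := f) (Ideal.Quotient.factor (hJP n))
      (w F.k le_rfl) ((X.stage n).red F.k le_rfl) (fun s z => by
        obtain ⟨s, rfl⟩ := Ideal.Quotient.mk_surjective s
        rw [Ideal.Quotient.factor_mk]
        exact hred n F.k le_rfl s z) (hb F.k le_rfl n)
      (tr (L.α (LiftChoice.bot D₀ F.k le_rfl (X.π n f)))) (fun z => X.red_act hp2 n F.k le_rfl f z)
    have h' := congrFun (congrFun h a) c
    refine Ideal.mem_sup_left (Ideal.Quotient.eq.mp ?_)
    rw [hy, ← Ideal.Quotient.factor_mk (hJP n) x, hx]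
    exact h'
  obtain ⟨c, hc⟩ := exists_varIdeal_pow_le (O := F.E.R) (r := r)
  haveI := fun n => X.isLocalHom_π n
  have hz : (Ideal.span (Set.range (MvPowerSeries.X : ULift.{0} (Fin r) → ZSer F.E.R r))).map
      (algebraMap (ZSer F.E.R r) P₀) ≤ RingHom.ker (ξ.comp (limMap hR X.π)) := by
    refine map_algebraMap_le_ker_limMap hR X.π hP X.φ rfl (fun n => X.isLocalHom_π n) ξ fun n s hs => ?_
    rw [← RingHom.comp_apply ξ, ← RingHom.comp_apply (ξ.comp (X.π n)), ← RingHom.mem_ker]
    refine (Ideal.span_le.mpr ?_) hs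
    rintro _ ⟨i, rfl⟩
    rw [SetLike.mem_coe, RingHom.mem_ker, RingHom.comp_apply, RingHom.comp_apply, LiftChoice.φ,
      Local.evalHom_X, LiftChoice.π_apply, (X.exists_zLift n i).choose_spec.2]
    have h0 : X.res n ((X.D n).ρ.trace ((X.stage n).inertia i.down) - 2) = 0 :=
      X.res_trace_inertia_sub n i.down
    rw [h0, map_zero]
  have hker := point_mem_bottom hR hfin hJ (rep F.k le_rfl) X.π act₀ ξ (hσ F.k le_rfl) hbot
    (limMap_surjective hR X.π hP (X.π_surjective hp2))
    ((hall F.k le_rfl).mono hfin hJ (rep F.k le_rfl) (fun f hf =>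
      limMap_mem hR X.π (I := RingHom.ker ξ) fun n => hξ n hf)) hc hz
  intro a ha
  refine hker ?_
  rw [RingHom.mem_ker] at ha ⊢
  show LinearMap.toMatrixAlgEquiv (w F.k le_rfl) (tr (L.α (LiftChoice.bot D₀ F.k le_rfl a))) = 0
  rw [show LiftChoice.bot (B := B) D₀ F.k le_rfl a = 0 from ha, map_zero, map_zero, map_zero]

end FLTA.RT.LiftFrame

end
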