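import Fermat.Agent.RT.Lift.Frame
import Fermat.Agent.RT.DeformExtend
import Fermat.Agent.RT.DeformRing
import Fermat.Agent.RT.Main.ModulesAlg
import Fermat.Agent.EllTate.FlatModel
import Fermat.Agent.EllTate.Ordinary

/-!
# The curve as a point of the bottom deformation problem

The Tate module over the coefficients of a frame satisfies the condition at the empty tuple and
reduces to the residual representation, so it gives a point of the universal ring there.
-/

set_option autoImplicit false

noncomputable section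

namespace FLTA.RT

open IsLocalRing WeierstrassCurve GaloisRep
open FLTA.LevelLowering (planeRep)
open FLTA.EllTate FLTA.EllReduction

local notation "Γℚ" => AlgebraicClosure ℚ ≃ₐ[ℚ] AlgebraicClosure ℚ

/-- A map from the `p`-adic integers to a field of characteristic `p` is reduction. -/
lemma padicHom_eq_toZMod {p : ℕ} [Fact p.Prime] {K : Type} [Field K] (f : ℤ_[p] →+* K)
    (φ : ZMod p →+* K) (x : ℤ_[p]) : f x = φ (PadicInt.toZMod x) := by
  have hker : x - ((PadicInt.toZMod x).val : ℕ) ∈ maximalIdeal ℤ_[p] := by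
    rw [← PadicInt.ker_toZMod, RingHom.mem_ker, map_sub, map_natCast, ZMod.natCast_zmod_val,
      sub_self]
  rw [PadicInt.maximalIdeal_eq_span_p, Ideal.mem_span_singleton] at hker
  obtain ⟨y, hy⟩ := hker
  have hp : (p : K) = 0 := by
    rw [← map_natCast φ, ZMod.natCast_self, map_zero]
  have h := congrArg f hy
  rw [map_sub, map_mul, map_natCast, map_natCast, hp, zero_mul, sub_eq_zero] at h
  rw [h, ← map_natCast φ, ZMod.natCast_zmod_val]

/-- The trace on `E[p]` is the trace of the Tate module modulo `p`. -/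
theorem trace_planeRep_eq {W : WeierstrassCurve ℤ} (hΔ : W.Δ ≠ 0) {p : ℕ} [Fact p.Prime]
    (σ : Γℚ) : LinearMap.trace (ZMod p) _ ((planeRep hΔ (p := p)).ρ σ) =
      PadicInt.toZMod ((tateRep W hΔ p).trace σ) := by
  have hp : p.Prime := Fact.out
  set V := (planeRep hΔ (p := p)).V
  let red : (tateRep W hΔ p).V →+ V :=
    { toFun := fun f => (⟨TateSeq.comp 1 f, (natCast_zsmul _ _).trans (by
          simpa using TateSeq.pow_nsmul_comp (p := p) f 1)⟩ :
          Submodule.torsionBy ℤ (GeomPoint W) (p : ℤ))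
      map_zero' := Subtype.ext (map_zero (TateSeq.comp 1))
      map_add' := fun u v => Subtype.ext (map_add (TateSeq.comp 1) u v) }
  have hsmul : ∀ (x : ℤ_[p]) (f : (tateRep W hΔ p).V), red (x • f) = PadicInt.toZMod x • red f := by
    intro x f
    have h1 : red (x • f) = (PadicInt.toZMod x).val • red f := by
      refine Subtype.ext ?_
      show TateSeq.comp 1 (x • f) = (PadicInt.toZMod x).val • TateSeq.comp 1 f
      show zsmulAt x 1 (TateSeq.comp 1 f) = _
      refine zsmulAt_eq (TateSeq.pow_nsmul_comp f 1) ?_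
      rw [← sub_eq_zero, ← map_natCast (PadicInt.toZModPow 1) (PadicInt.toZMod x).val, ← map_sub,
        ← RingHom.mem_ker, PadicInt.ker_toZModPow, pow_one, ← PadicInt.maximalIdeal_eq_span_p,
        ← PadicInt.ker_toZMod, RingHom.mem_ker, map_sub, map_natCast, ZMod.natCast_zmod_val,
        sub_self]
    rw [h1, ← Nat.cast_smul_eq_nsmul (ZMod p), ZMod.natCast_zmod_val]
  let e := tateBasis W hΔ p
  have hspan : Submodule.span (ZMod p) (Set.range fun i => red (e i)) = ⊤ := by
    refine top_le_iff.mp fun P _ => ?_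
    obtain ⟨f, hf⟩ := exists_seq (exists_nsmul_prime_eq W hΔ p) (a := P.1)
      ((natCast_zsmul _ _).symm.trans P.2)
    have hP : P = red f := Subtype.ext hf.symm
    rw [hP]
    change red f ∈ _
    rw [← e.sum_repr f, map_sum]
    exact Submodule.sum_mem _ fun i _ => by
      rw [hsmul]
      exact Submodule.smul_mem _ _ (Submodule.subset_span ⟨i, rfl⟩)
  let b : Module.Basis (Fin 2) (ZMod p) V :=
    basisOfTopLeSpanOfCardEqFinrank (fun i => red (e i)) hspan.ge
      (by rw [(planeRep hΔ (p := p)).finrank_eq, Fintype.card_fin])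
  have hb : ∀ i, b i = red (e i) := fun i => by simp [b]
  have hmat : LinearMap.toMatrix b b ((planeRep hΔ (p := p)).ρ σ) =
      (tateMat W hΔ p σ).map PadicInt.toZMod := by
    ext i j
    have h1 : (planeRep hΔ (p := p)).ρ σ (red (e j)) =
        red ((tateRep W hΔ p).ρ σ (e j)) := Subtype.ext rfl
    rw [LinearMap.toMatrix_apply, hb, h1, ← e.sum_repr ((tateRep W hΔ p).ρ σ (e j)), map_sum,
      map_sum, Finsupp.coe_finsetSum, Finset.sum_apply, Finset.sum_eq_single i]
    · rw [hsmul, ← hb, map_smul, Module.Basis.repr_self, Finsupp.smul_single,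
        Finsupp.single_eq_same, smul_eq_mul, mul_one]
      rw [Matrix.map_apply]
      exact congrArg _ (LinearMap.toMatrix_apply e e ((tateRep W hΔ p).ρ σ) i j).symm
    · intro k _ hk
      rw [hsmul, ← hb, map_smul, Module.Basis.repr_self, Finsupp.smul_single,
        Finsupp.single_eq_of_ne (Ne.symm hk)]
    · exact fun h => absurd (Finset.mem_univ i) h
  rw [LinearMap.trace_eq_matrix_trace _ b, hmat]
  exact (AddMonoidHom.map_trace PadicInt.toZMod _).symm.trans
    (congrArg PadicInt.toZMod (trace_eq_trace_tateMat σ).symm)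

namespace LiftFrame

variable {W : WeierstrassCurve ℤ} {hΔ : W.Δ ≠ 0} {p : ℕ} [Fact p.Prime] {M : ℕ}
  (F : LiftFrame W hΔ p M)

/-- The Tate module over the coefficients of the frame. -/
def curveRep : GaloisRepAdic F.E.R :=
  (tateRep W hΔ p).baseChangeAlong (algebraMap ℤ_[p] F.E.R) inferInstance

theorem curveRep_trace (σ : Γℚ) :
    F.curveRep.trace σ = algebraMap ℤ_[p] F.E.R ((tateRep W hΔ p).trace σ) :=
  Deformation.trace_baseChangeAlong _ _ _ _

/-- Frobenius at a good odd prime. -/
theorem curveRep_trace_frobenius (H : LiftData W p M) (hp2 : p ≠ 2) {ℓ : ℕ} (hℓ : ℓ.Prime)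
    (hℓ2 : ℓ ≠ 2) (hℓp : ℓ ≠ p) (hgood : W.IsGoodPrimeFor ℓ) :
    F.curveRep.trace (F.frob ℓ) = (W.apOfModel ℓ : F.E.R) := by
  rw [F.curveRep_trace, (trace_det_frobenius H.curve.irreducible hp2 hℓ hℓ2 hℓp hgood
    (F.liesOver ℓ hℓ) (F.isFrobenius ℓ hℓ)).1, map_intCast]

/-- The curve satisfies the condition at the empty tuple. -/
theorem curveRep_cond (H : LiftData W p M) (hp2 : p ≠ 2) :
    F.cond (Fin.elim0 : Fin 0 → ℕ) F.curveRep := by
  have hp : p.Prime := Fact.out
  have hdet : F.curveRep.DetIsCyclotomic p :=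
    Avoid.detIsCyclotomic_baseChangeAlong _ _ (detIsCyclotomic H.curve.irreducible hp2)
  have hunr : ∀ q : ℕ, q.Prime → q ∉ F.ramSet (Fin.elim0 : Fin 0 → ℕ) → F.curveRep.IsUnramifiedAt q := by
    intro q hq hS
    simp only [ramSet, Finset.mem_insert, Finset.mem_union, not_or] at hS
    obtain ⟨hqp, ⟨hU, hs⟩, -⟩ := hS
    refine RepTheory.isUnramifiedAt_baseChangeAlong _ _ (isUnramifiedAt_of_good hq hqp fun hd => ?_)
    by_cases hM : q ∣ M
    · refine hU (Finset.mem_erase.mpr ⟨hqp, Nat.mem_primeFactors.mpr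
        ⟨hq, hM.trans (dvd_mul_right _ _), mul_ne_zero H.squarefree.ne_zero ?_⟩⟩)
      rcases F.aux_spec with ⟨-, h⟩ | ⟨-, h, -⟩
      · rw [h]; exact one_ne_zero
      · exact h.ne_zero
    · obtain ⟨i, hi⟩ := (F.site_iff q).mpr ⟨hq, hqp, hd, hM⟩
      exact hs (Finset.mem_image.mpr ⟨i, Finset.mem_univ _, hi⟩)
  have hunip : ∀ q ∈ F.unipSet, q.Prime → q ≠ p → F.curveRep.IsUnipotentOnInertiaAt q :=
    fun q _ hq hqp => isUnipotentOnInertiaAt_extend _ _ _ fun A hA σ hσ =>
      isUnipotentOnInertiaAt_of_semistable hq hqp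
        (or_iff_not_imp_left.mpr fun h => H.curve.semistable q hq (not_not.mp h)) A hA hσ
  by_cases hm : F.Mult
  · have hc₄ := H.curve.semistable p hp hm
    have hord : F.curveRep.IsOrdinaryAt p :=
      isOrdinaryAt_extend _ _ _
        (isStrictOrdinaryAt_tateRep hΔ hp2 hm hc₄ H.curve.irreducible).isOrdinaryAt
    simp only [cond, if_pos hm]
    exact ⟨⟨hdet, hord, hunr⟩, hunip⟩
  · have : Finite (ResidueField F.E.R) := inferInstance
    have hflat : F.curveRep.IsFlatAt p := isFlatAt_extend _ _ _ hp (isFlatAt_tateRep hm)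
    simp only [cond, if_neg hm]
    exact ⟨⟨hdet, hflat, hunr⟩, hunip⟩

/-- The curve reduces to the residual representation. -/
theorem curveRep_resCond : Deformation.ResCond F.rhobar F.curveRep.trace := by
  refine (Deformation.resCond_iff F.rhobar _).mpr fun σ => ?_
  have hid : ∀ y : ResidueField F.E.R, ResidueField.map (algebraMap F.E.R F.E.R) y = y := fun y => by
    obtain ⟨y, rfl⟩ := residue_surjective y
    rfl
  rw [hid, Deformation.barMat]
  show residue F.E.R (F.curveRep.trace σ) =
    (LinearMap.toMatrixAlgEquiv (Deformation.barBasis F.rhobar) (F.rhobar.ρ σ)).trace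
  rw [show (LinearMap.toMatrixAlgEquiv (Deformation.barBasis F.rhobar) (F.rhobar.ρ σ)).trace =
    LinearMap.trace (ResidueField F.E.R) _ (F.rhobar.ρ σ) from
      (LinearMap.trace_eq_matrix_trace _ _ _).symm]
  let : Algebra (ZMod p) (ResidueField F.E.R) := F.φ.toAlgebra
  refine Eq.trans ?_ (LinearMap.trace_baseChange ((planeRep hΔ (p := p)).ρ σ) _).symm
  rw [trace_planeRep_eq, F.curveRep_trace]
  exact padicHom_eq_toZMod ((residue F.E.R).comp (algebraMap ℤ_[p] F.E.R)) F.φ _

/-- **The point of the curve** on a universal ring at the empty tuple. -/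
theorem exists_curvePoint (H : LiftData W p M) (hp2 : p ≠ 2)
    (D : DeformationRingData F.E.R F.rhobar (F.cond (Fin.elim0 : Fin 0 → ℕ))) :
    ∃ ξ : D.R →ₐ[F.E.R] F.E.R, IsLocalHom (ξ : D.R →+* F.E.R) ∧
      ∀ σ, ξ (D.ρ.trace σ) = F.curveRep.trace σ := by
  obtain ⟨ξ, hl, ht, -⟩ := existsUnique_map_trace D F.E.R
    (residue_surjective.comp fun y => ⟨y, rfl⟩) F.curveRep (F.curveRep_cond H hp2)
    F.curveRep_resCond
  exact ⟨ξ, hl, ht⟩

end LiftFrame

end FLTA.RT
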