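import Fermat.Agent.RT.Local.Prime
import Fermat.Agent.Patching.PowerSeriesLevels

/-!
# The part of the diamond algebra seen by the traces

`ZSer O r = O⟦z₁, …, z_r⟧` maps to `O⟦y₁, …, y_r⟧` by `z ↦ y ^ 2 / (1 + y)`.  The map is finite and
injective, a power of the augmentation ideal `(y)` lies in `(z)`, and both rings have the same
dimension.
-/

set_option autoImplicit false

noncomputable section

namespace FLTA.RT

open IsLocalRing MvPowerSeries

variable (O : Type) [CommRing O] [IsDomain O] [IsDiscreteValuationRing O]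
  [IsAdicComplete (maximalIdeal O) O] (r : ℕ)

/-- The power series ring in the `z`-variables. -/
abbrev ZSer : Type := MvPowerSeries (ULift.{0} (Fin r)) O

/-- The two rings are isomorphic by renaming. -/
def zRename : ZSer O r ≃+* MvPowerSeries (Fin r) O :=
  (renameEquiv O (Equiv.ulift : ULift.{0} (Fin r) ≃ Fin r)).toRingEquiv

omit [IsDiscreteValuationRing O] [IsAdicComplete (maximalIdeal O) O] in
theorem isDomain_zSer : IsDomain (ZSer O r) :=
  (zRename O r).injective.isDomain (zRename O r).toRingHom

omit [IsDomain O] [IsDiscreteValuationRing O] [IsAdicComplete (maximalIdeal O) O] in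
theorem ringKrullDim_zSer : ringKrullDim (ZSer O r) = ringKrullDim (MvPowerSeries (Fin r) O) :=
  ringKrullDim_eq_of_ringEquiv (zRename O r)

variable {O r}

omit [IsDomain O] [IsDiscreteValuationRing O] [IsAdicComplete (maximalIdeal O) O] in
theorem isUnit_one_add_X (i : Fin r) : IsUnit (1 + X i : MvPowerSeries (Fin r) O) := by
  simp [MvPowerSeries.isUnit_iff_constantCoeff]

/-- `y ^ 2 / (1 + y)`. -/
def zVal (i : Fin r) : MvPowerSeries (Fin r) O :=
  X i ^ 2 * Ring.inverse (1 + X i : MvPowerSeries (Fin r) O)

omit [IsDomain O] [IsDiscreteValuationRing O] [IsAdicComplete (maximalIdeal O) O] in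
theorem zVal_mul (i : Fin r) : zVal (O := O) i * (1 + X i) = X i ^ 2 := by
  rw [zVal, mul_assoc, Ring.inverse_mul_cancel _ (isUnit_one_add_X i), mul_one]

omit [IsAdicComplete (maximalIdeal O) O] in
theorem zVal_mem (i : Fin r) : zVal (O := O) i ∈ maximalIdeal (MvPowerSeries (Fin r) O) :=
  Ideal.mul_mem_right _ _ (Ideal.pow_mem_of_mem _ (Local.X_mem_maximalIdeal i) 2 two_pos)

variable (O r) in
/-- The map `z ↦ y ^ 2 / (1 + y)`. -/
def zToY : ZSer O r →+* MvPowerSeries (Fin r) O :=
  Local.evalHom (maximalIdeal _) C (fun i => zVal i.down) fun i => zVal_mem i.down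

theorem zToY_X (i : ULift.{0} (Fin r)) : zToY O r (X i) = zVal i.down :=
  Local.evalHom_X ..

theorem zToY_C (c : O) : zToY O r (C c) = C c :=
  Local.evalHom_C ..

theorem zToY_finite [Finite (ResidueField O)] : (zToY O r).Finite := by
  refine Local.finite_of_params (RingHom.id (MvPowerSeries (Fin r) O)) Function.surjective_id _
    (fun c => zToY_C c) (fun i => by rw [zToY_X]; exact zVal_mem _) fun Q hQ _ hX i => ?_
  have h := hX ⟨i⟩
  rw [zToY_X] at h
  have h2 := Q.mul_mem_right (1 + X i) h
  rw [zVal_mul] at h2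
  exact hQ.mem_of_pow_mem 2 h2

theorem zToY_injective [Finite (ResidueField O)] : Function.Injective (zToY O r) := by
  have := isDomain_zSer O r
  refine Local.injective_of_integral (zRename O r).toRingHom (zToY O r) ?_
    (zRename O r).injective (RingHom.IsIntegral.of_finite zToY_finite)
  exact RingHom.IsIntegral.of_finite (RingHom.Finite.of_surjective _ (zRename O r).surjective)

/-- A power of `(y)` lies in the ideal generated by the images of the `z`-variables. -/
theorem exists_varIdeal_pow_le :
    ∃ c : ℕ, Deformation.varIdeal O r ^ c ≤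
      (Ideal.span (Set.range (X : ULift.{0} (Fin r) → ZSer O r))).map (zToY O r) := by
  refine Ideal.exists_pow_le_of_le_radical_of_fg ?_ ⟨(Set.finite_range X).toFinset, by simp⟩
  rw [Deformation.varIdeal, Ideal.span_le]
  rintro _ ⟨i, rfl⟩
  refine ⟨2, ?_⟩
  rw [← zVal_mul]
  refine Ideal.mul_mem_right _ _ ?_
  have := Ideal.mem_map_of_mem (zToY O r) (Ideal.subset_span (Set.mem_range_self (ULift.up i)) :
    (X (ULift.up i) : ZSer O r) ∈ Ideal.span (Set.range X))
  rwa [zToY_X] at this

end FLTA.RT

end
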