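import Fermat.Agent.RT.Lift.Shape
import Fermat.Agent.RT.LocalMatrix
import Fermat.Agent.RT.DeformRing

/-!
# Evaluation of the coordinates at matrices

`SiteMats` are matrices of Frobenius and of the tame generator at every site, with the values of
the other coordinates.  They give a map out of the ring of coordinates (`SiteMats.eval`), which
sends `frobTrace` to the trace of Frobenius and has all matrix entries, up to constants, in the
ideal of the coordinates.
-/

set_option autoImplicit false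
set_option linter.overlappingInstances false

noncomputable section

namespace FLTA.RT.LiftShape

open IsLocalRing MvPowerSeries Matrix
open FLTA.RT.LocalGalois (vec3)

variable {O : Type} [CommRing O] [IsLocalRing O] (Z : LiftShape O)
  (R : Type) [CommRing R] [Algebra O R]

/-- Values at a local ring: matrices at the sites and the other coordinates. -/
structure SiteMats where
  /-- the tame generators -/
  T : Fin Z.k → Matrix (Fin 2) (Fin 2) R
  /-- the Frobenius elements -/
  P : Fin Z.k → Matrix (Fin 2) (Fin 2) R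
  /-- the eigenvalue at `p` -/
  lamV : R
  /-- the element killed by the flat points -/
  zV : R
  /-- the extra elements -/
  extraV : Fin Z.g → R

variable {Z R}

/-- The value of a coordinate. -/
def SiteMats.val (m : Z.SiteMats R) : Z.Coord → R
  | .v i a => vec3 (m.T i.1) a
  | .ut i => (m.T i.1).trace - 2
  | .w i a => vec3 (m.P i.1) a
  | .t i => (m.P i.1).trace - algebraMap O R (Z.c₀ i.1)
  | .z i => m.T i.1 1 0
  | .u i a => ![m.T i.1 0 0 - 1 + algebraMap O R (Z.s i.1) * m.T i.1 1 0,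
      m.T i.1 0 1 + m.T i.1 1 0,
      m.T i.1 1 1 - 1 - algebraMap O R (Z.s i.1) * m.T i.1 1 0] a
  | .lam _ => m.lamV - algebraMap O R Z.cp
  | .zp _ => m.zV
  | .extra a => m.extraV a

/-- The conditions on the values: residual normal forms. -/
structure SiteMats.Good [IsLocalRing R] (m : Z.SiteMats R) : Prop where
  det_P : ∀ i, (m.P i).det = (Z.q i : R)
  trace_P : ∀ i, (m.P i).trace - algebraMap O R (Z.c₀ i) ∈ maximalIdeal R
  T_sub_one : ∀ i a b, m.T i a b - (1 : Matrix (Fin 2) (Fin 2) R) a b ∈ maximalIdeal R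
  vec3_P : ∀ i, Z.sc i → ∀ a, vec3 (m.P i) a ∈ maximalIdeal R
  adapted : ∀ i, ¬ Z.sc i → m.P i = !![0, -(Z.q i : R); 1, (m.P i).trace]
  lam_mem : Z.mult → m.lamV - algebraMap O R Z.cp ∈ maximalIdeal R
  z_mem : Z.mult → m.zV ∈ maximalIdeal R
  extra_mem : ∀ a, m.extraV a ∈ maximalIdeal R

variable [IsLocalRing R]

theorem SiteMats.Good.val_mem {m : Z.SiteMats R} (h : m.Good) (c : Z.Coord) :
    m.val c ∈ maximalIdeal R := by
  have hT : ∀ i a b, a ≠ b → m.T i a b ∈ maximalIdeal R := fun i a b hab => by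
    simpa [Matrix.one_apply_ne hab] using h.T_sub_one i a b
  have hD : ∀ i a, m.T i a a - 1 ∈ maximalIdeal R := fun i a => by simpa using h.T_sub_one i a a
  cases c with
  | v i a =>
    fin_cases a
    · exact hT _ _ _ (by decide)
    · exact hT _ _ _ (by decide)
    · show m.T i.1 0 0 - m.T i.1 1 1 ∈ _
      rw [show m.T i.1 0 0 - m.T i.1 1 1 = (m.T i.1 0 0 - 1) - (m.T i.1 1 1 - 1) by ring]
      exact sub_mem (hD _ _) (hD _ _)
  | ut i =>
    show (m.T i.1).trace - 2 ∈ _
    rw [trace_fin_two, show m.T i.1 0 0 + m.T i.1 1 1 - 2 =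
      (m.T i.1 0 0 - 1) + (m.T i.1 1 1 - 1) by ring]
    exact add_mem (hD _ _) (hD _ _)
  | w i a => exact h.vec3_P _ i.2 a
  | t i => exact h.trace_P _
  | z i => exact hT _ _ _ (by decide)
  | u i a =>
    fin_cases a
    · exact add_mem (hD _ _) (Ideal.mul_mem_left _ _ (hT _ _ _ (by decide)))
    · exact add_mem (hT _ _ _ (by decide)) (hT _ _ _ (by decide))
    · exact sub_mem (hD _ _) (Ideal.mul_mem_left _ _ (hT _ _ _ (by decide)))
  | lam hm => exact h.lam_mem hm
  | zp hm => exact h.z_mem hm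
  | extra a => exact h.extra_mem a

variable [IsAdicComplete (maximalIdeal R) R]

/-- Evaluation of the coordinates. -/
def SiteMats.eval (m : Z.SiteMats R) (h : m.Good) : Z.P₀ →ₐ[O] R :=
  { Local.evalHom (maximalIdeal R) (algebraMap O R) m.val h.val_mem with
    commutes' := fun _ => Local.evalHom_C .. }

theorem SiteMats.eval_X (m : Z.SiteMats R) (h : m.Good) (c : Z.Coord) :
    m.eval h (X c) = m.val c :=
  Local.evalHom_X ..

theorem SiteMats.eval_C (m : Z.SiteMats R) (h : m.Good) (c : O) :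
    m.eval h (C c) = algebraMap O R c :=
  Local.evalHom_C ..

/-- A value is its constant term up to the ideal of the coordinates. -/
theorem SiteMats.eval_sub_const_mem (m : Z.SiteMats R) (h : m.Good) (f : Z.P₀) :
    m.eval h f - algebraMap O R (constantCoeff f) ∈ Ideal.span (Set.range m.val) := by
  classical
  have h1 := Local.sub_truncTotal_mem f 1
  rw [pow_one] at h1
  have h2 : ((truncTotal 1 f : MvPolynomial Z.Coord O) : Z.P₀) = C (constantCoeff f) := by
    ext d
    rw [MvPolynomial.coeff_coe, coeff_truncTotal_eq_ite, MvPowerSeries.coeff_C]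
    by_cases hd : d = 0
    · simp [hd]
    · have : ¬ Finsupp.degree d < 1 := by
        rw [Nat.lt_one_iff, Finsupp.degree_eq_zero_iff]; exact hd
      rw [if_neg this, if_neg hd]
  rw [h2] at h1
  have := Ideal.mem_map_of_mem (m.eval h : Z.P₀ →+* R) h1
  rw [Ideal.map_span, ← Set.range_comp, RingHom.coe_coe, map_sub, m.eval_C h] at this
  rwa [show (⇑(m.eval h) ∘ X) = m.val from funext (m.eval_X h)] at this

variable [IsDomain O] [IsDiscreteValuationRing O] [IsAdicComplete (maximalIdeal O) O]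
  [IsLocalHom (algebraMap O R)]

omit [IsAdicComplete (maximalIdeal O) O] in
theorem SiteMats.isLocalHom_eval (m : Z.SiteMats R) (h : m.Good) :
    IsLocalHom (m.eval h : Z.P₀ →+* R) :=
  ⟨fun f hf => by
    by_contra hn
    have hf' : f ∈ maximalIdeal Z.P₀ := hn
    rw [Local.mem_maximalIdeal_iff] at hf'
    have h1 : m.eval h f - algebraMap O R (constantCoeff f) ∈ maximalIdeal R := by
      refine (Ideal.span_le.mpr ?_) (m.eval_sub_const_mem h f)
      rintro _ ⟨c, rfl⟩
      exact h.val_mem c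
    have h3 := add_mem h1 (map_nonunit (algebraMap O R) _ hf')
    rw [sub_add_cancel] at h3
    exact h3 hf⟩

/-- The series `frobTrace` evaluates to the trace of Frobenius. -/
theorem SiteMats.eval_frobTrace (m : Z.SiteMats R) (h : m.Good) (i : Fin Z.k) :
    m.eval h (Z.frobTrace i) = (m.P i).trace := by
  by_cases hi : Z.sc i
  · have : IsLocalHom (m.eval h : Z.P₀ →+* R) := m.isLocalHom_eval h
    refine Z.map_frobTrace_eq (m.eval h : Z.P₀ →+* R) ⟨i, hi⟩ ?_ ?_
    · simp only [RingHom.coe_coe, map_mul, map_ofNat, map_natCast, m.eval_X h]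
      show _ = _ + Local.Q3 (vec3 (m.P i))
      rw [LocalGalois.Q3_vec3, h.det_P i]
      ring
    · simpa [m.eval_C h] using h.trace_P i
  · rw [Z.frobTrace_ns ⟨i, hi⟩, map_add, m.eval_C h, m.eval_X h]
    show algebraMap O R (Z.c₀ i) + ((m.P i).trace - algebraMap O R (Z.c₀ i)) = _
    ring

/-- All entries at the sites are, up to constants, in the ideal of the coordinates. -/
theorem SiteMats.entry_mem (m : Z.SiteMats R) (h : m.Good) (i : Fin Z.k) (a b : Fin 2) :
    (∃ c : O, m.T i a b - algebraMap O R c ∈ Ideal.span (Set.range m.val)) ∧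
      ∃ c : O, m.P i a b - algebraMap O R c ∈ Ideal.span (Set.range m.val) := by
  set I := Ideal.span (Set.range m.val)
  have hX : ∀ c, m.val c ∈ I := fun c => Ideal.subset_span ⟨c, rfl⟩
  by_cases hi : Z.sc i
  · obtain ⟨hv, hv', hv2⟩ := (⟨hX (.v ⟨i, hi⟩ 0), hX (.v ⟨i, hi⟩ 1), hX (.v ⟨i, hi⟩ 2)⟩ :
      m.T i 0 1 ∈ I ∧ m.T i 1 0 ∈ I ∧ m.T i 0 0 - m.T i 1 1 ∈ I)
    have hut : m.T i 0 0 + m.T i 1 1 - 2 ∈ I := by
      rw [← trace_fin_two]; exact hX (.ut ⟨i, hi⟩)
    obtain ⟨hw, hw', hw2⟩ := (⟨hX (.w ⟨i, hi⟩ 0), hX (.w ⟨i, hi⟩ 1), hX (.w ⟨i, hi⟩ 2)⟩ :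
      m.P i 0 1 ∈ I ∧ m.P i 1 0 ∈ I ∧ m.P i 0 0 - m.P i 1 1 ∈ I)
    obtain ⟨c2, hc2⟩ := Z.two_isUnit.exists_right_inv
    have h2 : algebraMap O R c2 * 2 = 1 := by
      rw [← map_ofNat (algebraMap O R) 2, ← map_mul, mul_comm, hc2, map_one]
    have hY := m.eval_sub_const_mem h (Z.frobTrace i)
    rw [m.eval_frobTrace h, trace_fin_two] at hY
    set c := constantCoeff (Z.frobTrace i)
    constructor
    · fin_cases a <;> fin_cases b
      · refine ⟨1, ?_⟩
        simp only [Fin.isValue, map_one, Fin.zero_eta]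
        rw [show m.T i 0 0 - 1 = algebraMap O R c2 *
          ((m.T i 0 0 - m.T i 1 1) + (m.T i 0 0 + m.T i 1 1 - 2)) by
          linear_combination -(m.T i 0 0 - 1) * h2]
        exact Ideal.mul_mem_left _ _ (add_mem hv2 hut)
      · exact ⟨0, by simpa using hv⟩
      · exact ⟨0, by simpa using hv'⟩
      · refine ⟨1, ?_⟩
        simp only [Fin.isValue, map_one, Fin.mk_one]
        rw [show m.T i 1 1 - 1 = algebraMap O R c2 *
          ((m.T i 0 0 + m.T i 1 1 - 2) - (m.T i 0 0 - m.T i 1 1)) by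
          linear_combination -(m.T i 1 1 - 1) * h2]
        exact Ideal.mul_mem_left _ _ (sub_mem hut hv2)
    · fin_cases a <;> fin_cases b
      · refine ⟨c2 * c, ?_⟩
        simp only [Fin.isValue, map_mul, Fin.zero_eta]
        rw [show m.P i 0 0 - algebraMap O R c2 * algebraMap O R c = algebraMap O R c2 *
          ((m.P i 0 0 - m.P i 1 1) + (m.P i 0 0 + m.P i 1 1 - algebraMap O R c)) by
          linear_combination -(m.P i 0 0) * h2]
        exact Ideal.mul_mem_left _ _ (add_mem hw2 hY)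
      · exact ⟨0, by simpa using hw⟩
      · exact ⟨0, by simpa using hw'⟩
      · refine ⟨c2 * c, ?_⟩
        simp only [Fin.isValue, map_mul, Fin.mk_one]
        rw [show m.P i 1 1 - algebraMap O R c2 * algebraMap O R c = algebraMap O R c2 *
          ((m.P i 0 0 + m.P i 1 1 - algebraMap O R c) - (m.P i 0 0 - m.P i 1 1)) by
          linear_combination -(m.P i 1 1) * h2]
        exact Ideal.mul_mem_left _ _ (sub_mem hY hw2)
  · have hz : m.T i 1 0 ∈ I := hX (.z ⟨i, hi⟩)
    have hu0 : m.T i 0 0 - 1 + algebraMap O R (Z.s i) * m.T i 1 0 ∈ I := hX (.u ⟨i, hi⟩ 0)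
    have hu1 : m.T i 0 1 + m.T i 1 0 ∈ I := hX (.u ⟨i, hi⟩ 1)
    have hu2 : m.T i 1 1 - 1 - algebraMap O R (Z.s i) * m.T i 1 0 ∈ I := hX (.u ⟨i, hi⟩ 2)
    have ht : (m.P i).trace - algebraMap O R (Z.c₀ i) ∈ I := hX (.t ⟨i, hi⟩)
    constructor
    · fin_cases a <;> fin_cases b
      · exact ⟨1, by simpa using sub_mem hu0 (Ideal.mul_mem_left _ (algebraMap O R (Z.s i)) hz)⟩
      · exact ⟨0, by simpa using sub_mem hu1 hz⟩
      · exact ⟨0, by simpa using hz⟩
      · exact ⟨1, by simpa using add_mem hu2 (Ideal.mul_mem_left _ (algebraMap O R (Z.s i)) hz)⟩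
    · have hP := h.adapted i hi
      fin_cases a <;> fin_cases b
      · exact ⟨0, by rw [hP]; simp⟩
      · exact ⟨-(Z.q i : O), by rw [hP]; simp⟩
      · exact ⟨1, by rw [hP]; simp⟩
      · exact ⟨Z.c₀ i, by rw [hP]; simpa using ht⟩

/-- The coordinates give a surjection when they generate the maximal ideal. -/
theorem SiteMats.eval_surjective [IsNoetherianRing R]
    (hR : Function.Surjective (residue R ∘ algebraMap O R)) [Finite (ResidueField O)]
    (m : Z.SiteMats R) (h : m.Good)
    (hgen : maximalIdeal R ≤ (maximalIdeal O).map (algebraMap O R) ⊔ Ideal.span (Set.range m.val)) :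
    Function.Surjective (m.eval h) := by
  cases nonempty_fintype Z.Coord
  let e := Fintype.equivFin Z.Coord
  obtain ⟨γ, hγs, hγ⟩ := exists_surjective_powerSeries hR (fun a => m.val (e.symm a))
    (fun a => h.val_mem _) (by
      refine hgen.trans (sup_le_sup_left (Ideal.span_le.mpr ?_) _)
      rintro _ ⟨c, rfl⟩
      exact Ideal.subset_span ⟨e c, by simp⟩)
  let f : MvPowerSeries (Fin (Fintype.card Z.Coord)) O →ₐ[O] Z.P₀ := MvPowerSeries.rename e.symm
  have heq : (m.eval h).comp f = γ := by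
    refine Deformation.powerSeries_algHom_ext hR fun a => ?_
    rw [AlgHom.comp_apply, MvPowerSeries.rename_X, m.eval_X h, hγ]
  intro x
  obtain ⟨u, rfl⟩ := hγs x
  exact ⟨f u, AlgHom.congr_fun heq u⟩

end FLTA.RT.LiftShape

end
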