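import Fermat.Agent.RT.Lift.ExistsAux
import Fermat.Agent.RT.ImageCoeff
import Fermat.Agent.Galois.Places
import Fermat.Agent.Galois.Cyclotomic

/-!
# Existence of the lifting frame

Coefficients, places and local elements as for `nonempty_avoidFrame`; the auxiliary prime at
`p = 3`; the sites are the bad primes away from `p` outside the minimal level.
-/

set_option autoImplicit false

noncomputable section

namespace FLTA.RT

open IsLocalRing WeierstrassCurve

theorem nonempty_liftFrame {W : WeierstrassCurve ℤ} {hΔ : W.Δ ≠ 0} {p : ℕ} [Fact p.Prime] {M : ℕ}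
    (D : LiftData W p M) : Nonempty (LiftFrame W hΔ p M) := by
  classical
  have hM0 : M ≠ 0 := D.squarefree.ne_zero
  have hp2 : p ≠ 2 := by rcases D.curve.hp with rfl | rfl <;> omega
  obtain ⟨E, ζ, φ, η, hpE, hζ, hη⟩ := exists_coefficientRing p 0
  obtain ⟨ϖ, hϖ⟩ := (IsPrincipalIdealRing.principal (maximalIdeal E.R)).principal
  obtain ⟨aux, haux⟩ : ∃ aux : ℕ, (p = 5 ∧ aux = 1) ∨ (p = 3 ∧ aux.Prime ∧ aux ≠ 2 ∧
      aux % 3 = 2 ∧ ¬ aux ∣ M ∧ W.IsGoodPrimeFor aux ∧ ¬ (p : ℤ) ∣ W.apOfModel aux) := by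
    rcases D.curve.hp with rfl | rfl
    · obtain ⟨r, hr, hrM, hr2, hr3, hgood, ha⟩ :=
        exists_auxPrime hΔ D.curve.semistable D.curve.irreducible M.primeFactors
      exact ⟨r, Or.inr ⟨rfl, hr, hr2, hr3,
        fun h => hrM (Nat.mem_primeFactors.mpr ⟨hr, h, hM0⟩), hgood, by exact_mod_cast ha⟩⟩
    · exact ⟨1, Or.inl ⟨rfl, rfl⟩⟩
  have hpl : ∀ s : ℕ, ∃ A : ValuationSubring (AlgebraicClosure ℚ), s.Prime → A.LiesOverPrime s :=
    fun s => if hs : s.Prime then (Galois.exists_liesOverPrime hs).imp fun _ h _ => h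
      else ⟨⊤, fun h => absurd h hs⟩
  choose place hplace using hpl
  have hfr : ∀ s : ℕ, ∃ σ, s.Prime → (place s).IsFrobeniusAt σ s :=
    fun s => if hs : s.Prime then (Galois.exists_isFrobeniusAt hs (hplace s hs)).imp fun _ h _ => h
      else ⟨1, fun h => absurd h hs⟩
  choose frob hfrob using hfr
  have hta : ∀ s : ℕ, ∃ τ, s.Prime → s ≠ p → LocalGalois.IsTameGenerator (place s) s p τ :=
    fun s => if hs : s.Prime ∧ s ≠ p then
        (LocalGalois.exists_isTameGenerator hs.1 Fact.out (Ne.symm hs.2) (hplace s hs.1)).imp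
          fun _ h _ _ => h
      else ⟨1, fun h h' => absurd ⟨h, h'⟩ hs⟩
  choose tame htame using hta
  obtain ⟨ι, hι, hcyc⟩ := Galois.exists_inertia_cycloExp p (hplace p Fact.out) (-1 : (ZMod p)ˣ)
  set T : Finset ℕ := W.Δ.natAbs.primeFactors.filter fun q => q ≠ p ∧ ¬ q ∣ M with hT
  have hsite : ∀ q : ℕ, (∃ i, (T.equivFin.symm i : ℕ) = q) ↔
      q.Prime ∧ q ≠ p ∧ (q : ℤ) ∣ W.Δ ∧ ¬ q ∣ M := by
    intro q
    have hmem : q ∈ T ↔ q.Prime ∧ q ≠ p ∧ (q : ℤ) ∣ W.Δ ∧ ¬ q ∣ M := by
      simp only [hT, Finset.mem_filter, Nat.mem_primeFactors, Int.natCast_dvd, ne_eq,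
        Int.natAbs_eq_zero, hΔ, not_false_eq_true, and_true]
      tauto
    rw [← hmem]
    exact ⟨fun ⟨i, hi⟩ => hi ▸ (T.equivFin.symm i).2, fun h => ⟨T.equivFin ⟨q, h⟩, by simp⟩⟩
  exact ⟨{
    E := E
    ϖ := ϖ
    maximalIdeal_eq := hϖ
    natCast_mem := hpE
    φ := φ
    split := exists_charpoly_split φ _ hη
    aux := aux
    aux_spec := haux
    k := T.card
    site := fun i => (T.equivFin.symm i : ℕ)
    site_injective := Subtype.val_injective.comp T.equivFin.symm.injective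
    site_iff := hsite
    site_unramified := fun i => by
      obtain ⟨hq, hqp, -, hqM⟩ := (hsite _).mp ⟨i, rfl⟩
      exact planeRep_isUnramifiedAt_of_level hp2 hΔ D.curve.irreducible hM0 D.res hq hqp hqM
    place := place
    liesOver := hplace
    frob := frob
    isFrobenius := hfrob
    tame := tame
    isTameGenerator := htame
    inert := ι
    inert_mem := hι
    cycloExp_inert := by
      rw [hcyc, Units.val_neg, Units.val_one]
      intro h
      have h2 : ((2 : ℕ) : ZMod p) = 0 := by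
        push_cast
        linear_combination -h
      exact hp2 ((Nat.prime_dvd_prime_iff_eq Fact.out Nat.prime_two).mp
        ((ZMod.natCast_eq_zero_iff 2 p).mp h2)) }⟩

end FLTA.RT

end
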