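import Fermat.Agent.RT.Lift.Frame
import Fermat.Agent.RT.Main.FalseGood
import Fermat.Agent.RT.ImageThreeCurve
import Fermat.Agent.RT.DatumResidueSystem
import Fermat.Agent.Carayol.MatchMain
import Fermat.Agent.GaloisReps.ResidualAttach

/-!
# The auxiliary prime at `p = 3`, and `E[p]` outside a level of residual modularity
-/

set_option autoImplicit false

noncomputable section

open Polynomial WeierstrassCurve

namespace FLTA.RT

open FLTA.LevelLowering (planeRep)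

local notation "Γℚ" => AlgebraicClosure ℚ ≃ₐ[ℚ] AlgebraicClosure ℚ

theorem zmod_three_cases : ∀ x : ZMod 3, x = 0 ∨ x = 1 ∨ x = -1 := by decide

theorem zmod_three_neg_one_ne_one : (-1 : ZMod 3) ≠ 1 := by decide

theorem zmod_three_neg_one_eq_two : (-1 : ZMod 3) = ((2 : ℕ) : ZMod 3) := by decide

variable {W : WeierstrassCurve ℤ}

/-- Some element of determinant `-1` has nonzero trace on `E[3]`. -/
theorem exists_det_neg_one_trace_ne [Fact (Nat.Prime 3)] (hΔ : W.Δ ≠ 0) (hW : W.IsSemistableModel)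
    (hirr : W.ModRepIsIrreducible 3) :
    ∃ σ : Γℚ, LinearMap.det ((planeRep hΔ (p := 3)).ρ σ) = -1 ∧
      LinearMap.trace (ZMod 3) _ ((planeRep hΔ (p := 3)).ρ σ) ≠ 0 := by
  set ρ := (planeRep hΔ (p := 3)).ρ with hρ
  have hrk : Module.finrank (ZMod 3) (planeRep hΔ (p := 3)).V = 2 := (planeRep hΔ (p := 3)).finrank_eq
  by_contra hall
  simp only [not_exists, not_and, not_not] at hall
  have hinv : ∀ σ, LinearMap.det (ρ σ) = -1 → ρ σ * ρ σ = 1 := by
    intro σ hσ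
    have h := FLTA.LevelLowering.quadratic_self hrk ρ σ
    rw [hall σ hσ, zero_smul, hσ, neg_smul, one_smul, add_neg_eq_zero] at h
    nth_rw 2 [h]
    rw [← map_mul, mul_inv_cancel, map_one]
  obtain ⟨c, hcdef⟩ : ∃ c : Γℚ, c = complexConjugation := ⟨_, rfl⟩
  have hc : LinearMap.det (ρ c) = -1 := by
    rw [hcdef]
    exact FLTA.Carayol.curveRep_isOdd hΔ complexConjugation complexConjugation_mul_self
      complexConj_ne_one
  let d : Γℚ →* ZMod 3 := LinearMap.det.comp ρ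
  have hd : ∀ σ, d σ = 1 ∨ d σ = -1 := fun σ => by
    have h0 : d σ ≠ 0 := left_ne_zero_of_mul_eq_one (show d σ * d σ⁻¹ = 1 by
      rw [← map_mul, mul_inv_cancel, map_one])
    exact (zmod_three_cases (d σ)).resolve_left h0
  let G : Subgroup Γℚ := d.toHomUnits.ker
  have hG : ∀ σ, σ ∈ G ↔ d σ = 1 := fun σ => by
    rw [MonoidHom.mem_ker, Units.ext_iff]; rfl
  have hne : (-1 : ZMod 3) ≠ 1 := zmod_three_neg_one_ne_one
  have hidx : G.index = 2 := by
    rw [Subgroup.index_eq_two_iff]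
    refine ⟨c, fun b => ?_⟩
    rw [hG, hG, map_mul, show d c = -1 from hc]
    rcases hd b with h | h <;> rw [h]
    · exact Or.inr ⟨rfl, by rw [one_mul]; exact hne⟩
    · exact Or.inl ⟨by rw [neg_mul_neg, one_mul], hne⟩
  have hconj : ∀ h ∈ G, ρ c * ρ h * ρ c = ρ h⁻¹ := by
    intro h hh
    have h1 := hinv (c * h) (by
      show d (c * h) = -1
      rw [map_mul, (hG h).1 hh, mul_one]; exact hc)
    rw [map_mul] at h1
    calc ρ c * ρ h * ρ c = ρ c * ρ h * ρ c * (ρ h * ρ h⁻¹) := by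
          rw [← map_mul ρ h, mul_inv_cancel, map_one, mul_one]
      _ = (ρ c * ρ h * (ρ c * ρ h)) * ρ h⁻¹ := by simp only [mul_assoc]
      _ = ρ h⁻¹ := by rw [h1, one_mul]
  have hcomm : ∀ h ∈ G, ∀ k ∈ G, ρ (h * k) = ρ (k * h) := by
    intro h hh k hk
    have e : ρ (h⁻¹ * k⁻¹)⁻¹ = ρ (h * k) := by
      rw [← hconj _ (mul_mem (inv_mem hh) (inv_mem hk)), map_mul]
      calc ρ c * (ρ h⁻¹ * ρ k⁻¹) * ρ c = ρ c * ρ h⁻¹ * ρ c * (ρ c * ρ k⁻¹ * ρ c) := by
            rw [show ρ c * ρ h⁻¹ * ρ c * (ρ c * ρ k⁻¹ * ρ c) =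
              ρ c * ρ h⁻¹ * (ρ c * ρ c) * ρ k⁻¹ * ρ c by simp only [mul_assoc], hinv c hc]
            simp only [mul_assoc, one_mul]
        _ = ρ (h * k) := by
            rw [hconj _ (inv_mem hh), hconj _ (inv_mem hk), inv_inv, inv_inv, map_mul]
    rw [← e, mul_inv_rev, inv_inv, inv_inv]
  let K := AlgebraicClosure (ZMod 3)
  let R := ((planeRep hΔ (p := 3)).baseChangeAlong (RingHom.id (ZMod 3))).baseChange K
  obtain ⟨-, hirr2⟩ := residual_absIrr_and_indexTwo_three W hΔ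
    (EllTorsion.natCard_torsionBy_intModel W hΔ (Fact.out : Nat.Prime 3).ne_zero)
    (EllTorsion.galoisFactorsThroughFiniteLevel_intModel W hΔ (Fact.out : Nat.Prime 3).ne_zero)
    hW hirr (RingHom.id (ZMod 3))
  have hR : ∀ V : Submodule K R.V, (∀ σ ∈ G, ∀ x ∈ V, R.ρ σ x ∈ V) → V = ⊥ ∨ V = ⊤ :=
    hirr2 K G hidx
  have hfac : ∀ a b, ρ a = ρ b → R.ρ a = R.ρ b := fun a b e => by
    simp only [R, ResidualGaloisRep.baseChangeAlong]
    show LinearMap.baseChange _ (LinearMap.baseChange _ (ρ a)) = _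
    rw [e]
    rfl
  have : Nontrivial R.V := Module.nontrivial_of_finrank_eq_succ R.finrank_eq
  have hscal : ∀ h ∈ G, ∃ μ : K, ∀ x : R.V, R.ρ h x = μ • x := by
    intro h hh
    obtain ⟨μ, hμ⟩ := Module.End.exists_eigenvalue (R.ρ h)
    rcases hR (Module.End.eigenspace (R.ρ h) μ) (fun k hk x hx => by
      rw [Module.End.mem_eigenspace_iff] at hx ⊢
      rw [← Module.End.mul_apply, ← map_mul, hfac _ _ (hcomm h hh k hk), map_mul,
        Module.End.mul_apply, hx, map_smul]) with h0 | h1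
    · exact absurd h0 hμ
    · exact ⟨μ, fun x => Module.End.mem_eigenspace_iff.mp (h1 ▸ Submodule.mem_top)⟩
  obtain ⟨v, hv⟩ := exists_ne (0 : R.V)
  rcases hR (Submodule.span K {v}) (fun σ hσ x hx => by
    obtain ⟨μ, hμ⟩ := hscal σ hσ
    rw [hμ]; exact Submodule.smul_mem _ _ hx) with h0 | h1
  · exact hv (Submodule.span_singleton_eq_bot.mp h0)
  · have h := finrank_span_singleton (K := K) hv
    rw [h1, finrank_top, R.finrank_eq] at h
    omega

/-- The auxiliary prime at `p = 3`, outside any given finite set. -/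
theorem exists_auxPrime [Fact (Nat.Prime 3)] (hΔ : W.Δ ≠ 0) (hW : W.IsSemistableModel)
    (hirr : W.ModRepIsIrreducible 3) (S : Finset ℕ) :
    ∃ r : ℕ, r.Prime ∧ r ∉ S ∧ r ≠ 2 ∧ r % 3 = 2 ∧ W.IsGoodPrimeFor r ∧
      ¬ (3 : ℤ) ∣ W.apOfModel r := by
  obtain ⟨σ, hσd, hσt⟩ := exists_det_neg_one_trace_ne hΔ hW hirr
  set ρ := (planeRep hΔ (p := 3)).ρ with hρ
  obtain ⟨r, hr, hrS, A, hA, τ, hτ, n, hn⟩ := Density.exists_frobenius_pow_map_eq ρ
    (planeRep hΔ (p := 3)).factorsThroughFiniteLevel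
    (insert 2 (insert 3 (S ∪ W.Δ.natAbs.primeFactors))) σ
  simp only [Finset.mem_insert, Finset.mem_union, Nat.mem_primeFactors, not_or] at hrS
  obtain ⟨hr2, hr3, hrS', hrΔ⟩ := hrS
  have hgood : W.IsGoodPrimeFor r := fun h =>
    hrΔ ⟨hr, Int.natCast_dvd.mp h, Int.natAbs_ne_zero.mpr hΔ⟩
  have hcp := FLTA.Carayol.curveRep_charpoly_of_quadratic hΔ
    (FLTA.Carayol.hasFrobQuadratic W hΔ (Fact.out : Nat.Prime 3) (by norm_num)) hr hgood hr3 hA hτ
  have hrk : Module.finrank (ZMod 3) (planeRep hΔ (p := 3)).V = 2 := (planeRep hΔ (p := 3)).finrank_eq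
  replace hcp : (ρ τ).charpoly = X ^ 2 - C (W.apOfModel r : ZMod 3) * X + C (r : ZMod 3) := hcp
  rw [FLTA.RepTheory.charpoly_of_finrank_two hrk] at hcp
  have hdet : LinearMap.det (ρ τ) = (r : ZMod 3) := by
    simpa [coeff_add, coeff_sub, coeff_X_pow] using congrArg (fun P : (ZMod 3)[X] => P.coeff 0) hcp
  have htr : LinearMap.trace (ZMod 3) _ (ρ τ) = (W.apOfModel r : ZMod 3) := by
    simpa [coeff_add, coeff_sub, coeff_X_pow, coeff_C] using
      congrArg (fun P : (ZMod 3)[X] => P.coeff 1) hcp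
  have hdn : (r : ZMod 3) ^ n = -1 := by rw [← hdet, ← map_pow, hn, hσd]
  have hr_neg : (r : ZMod 3) = -1 := by
    rcases zmod_three_cases (r : ZMod 3) with e | e | e
    · exact absurd ((Nat.prime_dvd_prime_iff_eq Nat.prime_three hr).mp
        ((ZMod.natCast_eq_zero_iff r 3).mp e)).symm hr3
    · rw [e, one_pow] at hdn; exact absurd hdn.symm zmod_three_neg_one_ne_one
    · exact e
  refine ⟨r, hr, hrS', hr2, ?_, hgood, fun h => ?_⟩
  · have e : (r : ZMod 3) = ((2 : ℕ) : ZMod 3) := by rw [hr_neg, zmod_three_neg_one_eq_two]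
    exact (ZMod.natCast_eq_natCast_iff' r 2 3).mp e
  · have h0 : LinearMap.trace (ZMod 3) _ (ρ τ) = 0 := by
      rw [htr]; exact (ZMod.intCast_zmod_eq_zero_iff_dvd _ 3).mpr (by exact_mod_cast h)
    have hq := FLTA.LevelLowering.quadratic_self hrk ρ τ
    rw [h0, zero_smul, hdet, hr_neg, neg_smul, one_smul, add_neg_eq_zero] at hq
    have hsq : ρ τ * ρ τ = 1 := by
      nth_rw 2 [hq]
      rw [← map_mul, mul_inv_cancel, map_one]
    rcases Nat.even_or_odd n with ⟨j, rfl⟩ | ⟨j, rfl⟩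
    · rw [← two_mul, pow_mul, hr_neg, neg_one_sq, one_pow] at hdn
      exact absurd hdn.symm zmod_three_neg_one_ne_one
    · rw [pow_succ, pow_mul, pow_two, hsq, one_pow, one_mul] at hn
      exact hσt (hn ▸ h0)

/-- `E[p]` is unramified outside `p M` if it is residually modular of level `M`. -/
theorem planeRep_isUnramifiedAt_of_level {p : ℕ} [Fact p.Prime] (hp2 : p ≠ 2) (hΔ : W.Δ ≠ 0)
    (hirr : W.ModRepIsIrreducible p) {M : ℕ} (hM : M ≠ 0)
    (hres : W.IsResiduallyModularOfLevel p M) {q : ℕ} (hq : q.Prime) (hqp : q ≠ p)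
    (hqM : ¬ q ∣ M) : (planeRep hΔ (p := p)).IsUnramifiedAt q := by
  obtain ⟨f, 𝔪, hf, h𝔪, hp𝔪, hcong⟩ := hres
  haveI := h𝔪
  let : Field (integralClosure ℤ ℂ ⧸ 𝔪) := Ideal.Quotient.field 𝔪
  let k := integralClosure ℤ ℂ ⧸ 𝔪
  have hp0 : (p : k) = 0 := by
    rw [← map_natCast (Ideal.Quotient.mk 𝔪)]
    exact Ideal.Quotient.eq_zero_iff_mem.mpr hp𝔪
  haveI : CharP k p := (CharP.charP_iff_prime_eq_zero Fact.out).mpr hp0
  obtain ⟨r, hr, hunr⟩ := FLTA.GaloisReps.exists_residual_attached' hf (Fact.out : p.Prime)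
    (Ideal.Quotient.mk 𝔪 : integralClosure ℤ ℂ →+* k)
  set S : Finset ℕ := insert p (M.primeFactors ∪ W.Δ.natAbs.primeFactors) with hS
  have hgood : ∀ ℓ : ℕ, ℓ.Prime → ℓ ∉ S → W.IsGoodPrimeFor ℓ := fun ℓ hℓ hℓS h => hℓS (by
    simp only [hS, Finset.mem_insert, Finset.mem_union, Nat.mem_primeFactors]
    exact Or.inr (Or.inr ⟨hℓ, Int.natCast_dvd.mp h, Int.natAbs_ne_zero.mpr hΔ⟩))
  have hF := FLTA.Carayol.hasFrobQuadratic W hΔ (Fact.out : p.Prime) hp2
  have hchar : ∀ σ : Γℚ, (r.ρ σ).charpoly = ((FLTA.Carayol.curveRepK hΔ k).ρ σ).charpoly := by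
    refine FLTA.Carayol.charpoly_eq_curveRepK hΔ hF S (Finset.mem_insert_self _ _) hgood r
      fun ℓ hℓ hℓS A hA σ hσ => ?_
    have hℓp : ℓ ≠ p := fun e => hℓS (e ▸ Finset.mem_insert_self _ _)
    have hℓM : ¬ ℓ ∣ M := fun h => hℓS (by
      simp only [hS, Finset.mem_insert, Finset.mem_union, Nat.mem_primeFactors]
      exact Or.inr (Or.inl ⟨hℓ, h, hM⟩))
    have hℓk : (ℓ : k) ≠ 0 := fun h => hℓp
      ((Nat.prime_dvd_prime_iff_eq Fact.out hℓ).mp ((CharP.cast_eq_zero_iff k p ℓ).mp h)).symm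
    obtain ⟨a, ha, hcp⟩ := hr ℓ hℓ hℓM hℓk A hA σ hσ
    obtain ⟨a', ha', hcong'⟩ := hcong ℓ hℓ (hgood ℓ hℓ hℓS) hℓM hℓp
    have e : a = a' := Subtype.ext (ha.trans ha'.symm)
    rw [hcp, e, Ideal.Quotient.eq.mpr hcong', map_intCast]
  intro A hA σ hσ
  have hspans : RepTheory.Spans (FLTA.Carayol.curveRepK hΔ k).ρ := by
    rw [← RepTheory.isAbsolutelyIrreducible_iff_spans, FLTA.Carayol.curveRepK,
      RepTheory.isAbsolutelyIrreducible_baseChangeAlong_iff]
    exact residual_isAbsolutelyIrreducible W hΔ p _ _ hp2 hirr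
  have h1 : (FLTA.Carayol.curveRepK hΔ k).ρ σ = 1 :=
    FLTA.Carayol.eq_one_of_trace_eq hspans
      (fun g => ((RepTheory.trace_eq_of_charpoly_eq r.finrank_eq
        (FLTA.Carayol.curveRepK hΔ k).finrank_eq (hchar g)).1).symm)
      (hunr q hq (fun h => (hq.dvd_mul.mp h).elim hqM
        fun h' => hqp ((Nat.prime_dvd_prime_iff_eq hq Fact.out).mp h')) A hA σ hσ)
  letI : Algebra (ZMod p) k := (ZMod.castHom (dvd_refl p) k).toAlgebra
  let b := Module.finBasisOfFinrankEq (ZMod p) _ (FLTA.Carayol.curveRep W hΔ p).finrank_eq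
  show (FLTA.Carayol.curveRep W hΔ p).ρ σ = 1
  apply (LinearMap.toMatrix b b).injective
  apply Matrix.map_injective (algebraMap (ZMod p) k).injective
  show (LinearMap.toMatrix b b ((FLTA.Carayol.curveRep W hΔ p).ρ σ)).map (algebraMap (ZMod p) k) = _
  rw [← LinearMap.toMatrix_baseChange k ((FLTA.Carayol.curveRep W hΔ p).ρ σ) b b,
    show ((FLTA.Carayol.curveRep W hΔ p).ρ σ).baseChange k = 1 from h1, LinearMap.toMatrix_one,
    LinearMap.toMatrix_one]
  exact (Matrix.map_one _ (_root_.map_zero _) (_root_.map_one _)).symm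

end FLTA.RT

end
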