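import Fermat.Agent.RT.S59Interface
import Fermat.Agent.RT.Main.AvoidFrame
import Fermat.Agent.RT.DeformOrdinary
import Fermat.Prelude.Def_ExtCitation_AdmissibleExtension

/-!
# Lifting from a minimal level: coefficients, levels, conditions

`LiftData` are the hypotheses of `LiftFromMinimal`.  A `LiftFrame` fixes the coefficient ring, the
auxiliary prime (only at `p = 3`), the raising sites and the local data.  The levels form the chain
`level 0 ∣ level 1 ∣ … ∣ level k`, adding one site at each step.  In the multiplicative case at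
`p` every level contains `p` and the condition at `p` is ordinary; otherwise it is flat.
-/

set_option autoImplicit false

noncomputable section

open Polynomial IsLocalRing WeierstrassCurve

namespace FLTA.RT

open FLTA.LevelLowering (planeRep)
open FLTA.RT.LocalGalois (IsTameGenerator)

local notation "Qbar" => AlgebraicClosure ℚ
local notation "Γℚ" => AlgebraicClosure ℚ ≃ₐ[ℚ] AlgebraicClosure ℚ

/-- The hypotheses of lifting from the minimal level `M`. -/
structure LiftData (W : WeierstrassCurve ℤ) (p : ℕ) (M : ℕ) : Prop where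
  curve : LiftingCurve p W
  squarefree : Squarefree M
  bad_at : p ∣ M → ¬ W.IsGoodPrimeFor p
  minimal : ∀ q : ℕ, q.Prime → q ≠ p → q ∣ M → ¬ TorsUnramifiedAt W p q
  res : W.IsResiduallyModularOfLevel p M

/-- The coefficients, the auxiliary prime, the sites and the chosen local data. -/
structure LiftFrame (W : WeierstrassCurve ℤ) (hΔ : W.Δ ≠ 0) (p : ℕ) [Fact p.Prime] (M : ℕ) :
    Type 1 where
  /-- the coefficient ring -/
  E : RepTheory.FiniteDVRExt ℤ_[p]
  /-- a uniformiser -/
  ϖ : E.R
  maximalIdeal_eq : maximalIdeal E.R = Ideal.span {ϖ}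
  natCast_mem : (p : E.R) ∈ maximalIdeal E.R
  φ : ZMod p →+* ResidueField E.R
  split : ∀ σ : Γℚ, ∃ α β : ResidueField E.R,
    LinearMap.charpoly (((planeRep hΔ (p := p)).baseChangeAlong φ).ρ σ) = (X - C α) * (X - C β)
  /-- the auxiliary prime, or `1` -/
  aux : ℕ
  aux_spec : (p = 5 ∧ aux = 1) ∨ (p = 3 ∧ aux.Prime ∧ aux ≠ 2 ∧ aux % 3 = 2 ∧ ¬ aux ∣ M ∧
    W.IsGoodPrimeFor aux ∧ ¬ (p : ℤ) ∣ W.apOfModel aux)
  /-- the number of sites -/
  k : ℕ
  /-- the raising sites: bad primes away from `p` outside the minimal level -/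
  site : Fin k → ℕ
  site_injective : Function.Injective site
  site_iff : ∀ q : ℕ, (∃ i, site i = q) ↔ q.Prime ∧ q ≠ p ∧ (q : ℤ) ∣ W.Δ ∧ ¬ q ∣ M
  site_unramified : ∀ i, (planeRep hΔ (p := p)).IsUnramifiedAt (site i)
  /-- a place over every prime -/
  place : ℕ → ValuationSubring Qbar
  liesOver : ∀ s : ℕ, s.Prime → (place s).LiesOverPrime s
  /-- a Frobenius at every prime -/
  frob : ℕ → Γℚ
  isFrobenius : ∀ s : ℕ, s.Prime → (place s).IsFrobeniusAt (frob s) s
  /-- a tame generator at every prime -/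
  tame : ℕ → Γℚ
  isTameGenerator : ∀ s : ℕ, s.Prime → s ≠ p → IsTameGenerator (place s) s p (tame s)
  /-- an inertia element at `p` with cyclotomic character `≢ 1` -/
  inert : Γℚ
  inert_mem : inert ∈ (place p).inertiaSubgroupIn ℚ
  cycloExp_inert : (ExtCitation.cycloExp p inert : ZMod p) ≠ 1

namespace LiftFrame

variable {W : WeierstrassCurve ℤ} {hΔ : W.Δ ≠ 0} {p : ℕ} [Fact p.Prime] {M : ℕ}
  (F : LiftFrame W hΔ p M)

/-- The residual representation. -/
abbrev rhobar : ResidualGaloisRep (ResidueField F.E.R) := (planeRep hΔ (p := p)).baseChangeAlong F.φ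

/-- Bad reduction at `p`, hence multiplicative. -/
def Mult (_F : LiftFrame W hΔ p M) : Prop := (p : ℤ) ∣ W.Δ

open Classical in
/-- The bottom level. -/
def base : ℕ := (if F.Mult then Nat.lcm M p else M) * F.aux

/-- The level after raising at the first `j` sites. -/
def level (j : ℕ) : ℕ := F.base * ∏ i ∈ Finset.univ.filter (fun i : Fin F.k => (i : ℕ) < j), F.site i

/-- The primes of the minimal level and the auxiliary prime: inertia is unipotent there. -/
def unipSet : Finset ℕ := (M * F.aux).primeFactors.erase p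

/-- The raising sites as a set. -/
def siteSet : Finset ℕ := Finset.univ.image F.site

/-- The primes allowed to ramify at the level of the tuple `qv`. -/
def ramSet {r : ℕ} (qv : Fin r → ℕ) : Finset ℕ :=
  insert p (F.unipSet ∪ F.siteSet ∪ Finset.univ.image qv)

open Classical in
/-- The deformation condition at the level of the tuple `qv`. -/
def cond {r : ℕ} (qv : Fin r → ℕ) : RepPred F.E.R :=
  fun _A _ _ _ ρ => if F.Mult then ordCond F.E.R p (F.ramSet qv) F.unipSet ρ
    else flatCond F.E.R p (F.ramSet qv) F.unipSet ρ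

open Classical in
/-- `h⁰` of the trace-zero adjoint representation at a site: `3` for scalar Frobenius, else `1`. -/
def siteH (s : ℕ) : ℕ :=
  if ∃ c : ResidueField F.E.R, F.rhobar.ρ (F.frob s) = c • (1 : Module.End _ F.rhobar.V) then 3
  else 1

/-- The primes which Taylor–Wiles tuples avoid. -/
def avoided : Finset ℕ :=
  insert p (insert 2 (F.unipSet ∪ F.siteSet ∪ W.Δ.natAbs.primeFactors))

/-- A Taylor–Wiles tuple of level `n`. -/
structure IsTWTuple (n : ℕ) {r : ℕ} (qv : Fin r → ℕ) : Prop where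
  injective : Function.Injective qv
  prime : ∀ i, (qv i).Prime
  notMem : ∀ i, qv i ∉ F.avoided
  pow_dvd : ∀ i, p ^ (n + 1) ∣ qv i - 1
  distinct : ∀ i, ∀ A : ValuationSubring Qbar, A.LiesOverPrime (qv i) →
    ∀ σ : Γℚ, A.IsFrobeniusAt σ (qv i) →
      ∃ α β : ResidueField F.E.R, α ≠ β ∧
        LinearMap.charpoly (F.rhobar.ρ σ) = (X - C α) * (X - C β)

/-- `(χ(inert) - 1) λ`, where `λ` is the Frobenius eigenvalue on the unramified quotient at `p`. -/
def lam {R : Type} [CommRing R] [IsLocalRing R] (ρ : GaloisRepAdic R) : R :=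
  (ρ.det F.inert : R) * ρ.trace (F.frob p) - ρ.trace (F.inert * F.frob p)

/-- Vanishes exactly when the unramified quotient has Frobenius eigenvalue `±1`. -/
def strictDefect {R : Type} [CommRing R] [IsLocalRing R] (ρ : GaloisRepAdic R) : R :=
  F.lam ρ ^ 2 - ((ρ.det F.inert : R) - 1) ^ 2

/-- The coordinates at the sites, in one basis at each site. -/
def siteCoords {R : Type} [CommRing R] [IsLocalRing R] [Algebra F.E.R R] (ρ : GaloisRepAdic R)
    (b : ℕ → Module.Basis (Fin 2) R ρ.V) : Set R :=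
  {y | y ∈ maximalIdeal R ∧ ∃ s ∈ F.siteSet, ∃ σ ∈ ({F.frob s, F.tame s} : Set Γℚ), ∃ i j,
    ∃ c : F.E.R, y = LinearMap.toMatrix (b s) (b s) (ρ.ρ σ) i j - algebraMap F.E.R R c}

/-- The coordinate at `p`. -/
def lamCoords {R : Type} [CommRing R] [IsLocalRing R] [Algebra F.E.R R] (ρ : GaloisRepAdic R) :
    Set R :=
  {y | y ∈ maximalIdeal R ∧ ∃ c : F.E.R, y = F.lam ρ - algebraMap F.E.R R c}

/-- An element killed by every point at which the representation is flat at `p`. -/
def KilledByFlat {R : Type} [CommRing R] [IsLocalRing R] [Algebra F.E.R R] (ρ : GaloisRepAdic R)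
    (z : R) : Prop :=
  ∀ (E' : RepTheory.FiniteDVRExt F.E.R) (ψ : R →ₐ[F.E.R] E'.R)
    (hψ : IsLocalHom (ψ : R →+* E'.R)),
    (ρ.baseChangeAlong (ψ : R →+* E'.R) hψ).IsFlatAt p → ψ z = 0

/-- **The Taylor–Wiles input.**  Good reduction at `p`: the sites and `g` elements generate.
Multiplicative reduction: the sites, the coordinate at `p`, an element killed by flat points and
`g` elements generate. -/
def TWInput : Prop :=
  ∃ g r : ℕ,
    ((¬ F.Mult → g + ∑ s ∈ F.siteSet, F.siteH s ≤ r) ∧
      (F.Mult → g + 1 + ∑ s ∈ F.siteSet, F.siteH s ≤ r)) ∧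
    ∀ n : ℕ, ∃ qv : Fin r → ℕ, F.IsTWTuple n qv ∧
      ∀ D : GaloisRep.DeformationRingData F.E.R F.rhobar (F.cond qv),
        ∀ b : ℕ → Module.Basis (Fin 2) D.R D.ρ.V,
          ∃ (z : D.R) (e : Fin g → D.R), z ∈ maximalIdeal D.R ∧ (∀ i, e i ∈ maximalIdeal D.R) ∧
            (F.Mult → F.KilledByFlat D.ρ z ∧ maximalIdeal D.R ≤
              (maximalIdeal F.E.R).map (algebraMap F.E.R D.R) ⊔
                Ideal.span (F.siteCoords D.ρ b ∪ F.lamCoords D.ρ ∪ {z} ∪ Set.range e)) ∧
            (¬ F.Mult → maximalIdeal D.R ≤ (maximalIdeal F.E.R).map (algebraMap F.E.R D.R) ⊔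
              Ideal.span (F.siteCoords D.ρ b ∪ Set.range e))

/-- The diamond relations at level `n`. -/
def diamondRel (r n : ℕ) : Ideal (MvPowerSeries (Fin r) F.E.R) :=
  Ideal.span (Set.range fun j : Fin r =>
    ((1 + MvPowerSeries.X j) ^ p ^ (n + 1) - 1 : MvPowerSeries (Fin r) F.E.R))

/-- The group ring of the diamond group at level `n`. -/
abbrev Diamond (r n : ℕ) : Type := MvPowerSeries (Fin r) F.E.R ⧸ F.diamondRel r n

end LiftFrame

end FLTA.RT

end
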