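import Fermat.Agent.RT.Lift.Rings
import Fermat.Agent.RT.Lift.CurvePoint
import Fermat.Agent.RT.Main.ModulesCond
import Fermat.Agent.RT.Main.ModulesAssembly

/-!
# A deformation ring over a level algebra

The cyclotomic determinant is the one of the curve; the defect of strictness passes to the level
algebra; inertia at the sites is trivial or unipotent there; at a multiplicative `p` an element
killed by the flat points dies at every point which is not strict.
-/

set_option autoImplicit false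
set_option linter.unusedSectionVars false

noncomputable section

open IsLocalRing WeierstrassCurve GaloisRep

namespace FLTA.RT

local notation "Γℚ" => AlgebraicClosure ℚ ≃ₐ[ℚ] AlgebraicClosure ℚ

/-- Two cyclotomic determinants are equal. -/
theorem det_eq_of_detIsCyclotomic {A : Type} [CommRing A] [IsLocalRing A] [IsNoetherianRing A]
    {p : ℕ} [Fact p.Prime] {ρ ρ' : GaloisRepAdic A} (h : ρ.DetIsCyclotomic p)
    (h' : ρ'.DetIsCyclotomic p) (σ : Γℚ) :
    LinearMap.det (ρ.ρ σ) = LinearMap.det (ρ'.ρ σ) := by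
  have hinf : ⨅ n : ℕ, maximalIdeal A ^ n = ⊥ :=
    Ideal.iInf_pow_eq_bot_of_isLocalRing _ (IsLocalRing.maximalIdeal.isMaximal A).ne_top
  rw [← sub_eq_zero, ← Ideal.mem_bot, ← hinf, Ideal.mem_iInf]
  intro n
  obtain ⟨a, ha⟩ := exists_isExp (p := p) n σ
  have hle : Ideal.span {((p ^ n : ℕ) : A)} ≤ maximalIdeal A ^ n := by
    rw [Ideal.span_singleton_le_iff_mem, Nat.cast_pow]
    exact Ideal.pow_mem_pow h.1 n
  have h2 := sub_mem (hle (h.2 n σ a ha)) (hle (h'.2 n σ a ha))
  rwa [sub_sub_sub_cancel_right] at h2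

/-- A square-zero shift from the characteristic polynomial `(X - 1) ^ 2`. -/
theorem sq_zero_of_charpoly {A : Type} [CommRing A] {V : Type} [AddCommGroup V] [Module A V]
    [Module.Finite A V] [Module.Free A V] (b : Module.Basis (Fin 2) A V) {f : Module.End A V}
    (h : LinearMap.charpoly f = (Polynomial.X - 1) ^ 2) :
    (LinearMap.toMatrix b b f - 1) * (LinearMap.toMatrix b b f - 1) = 0 := by
  have h1 := Matrix.aeval_self_charpoly (LinearMap.toMatrix b b f)
  rw [LinearMap.charpoly_toMatrix, h] at h1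
  simpa [pow_two] using h1

namespace LiftFrame

variable {W : WeierstrassCurve ℤ} {hΔ : W.Δ ≠ 0} {p : ℕ} [Fact p.Prime] {M : ℕ}
  {F : LiftFrame W hΔ p M}

/-- The determinant is that of the curve. -/
theorem det_eq_curveRep (hp2 : p ≠ 2) (H : LiftData W p M) {R : Type} [CommRing R] [IsLocalRing R]
    [IsNoetherianRing R] [Algebra F.E.R R] [IsLocalHom (algebraMap F.E.R R)] {r : ℕ}
    {qv : Fin r → ℕ} {ρ : GaloisRepAdic R} (hρ : F.cond qv ρ) (σ : Γℚ) :
    LinearMap.det (ρ.ρ σ) = algebraMap F.E.R R (LinearMap.det (F.curveRep.ρ σ)) := by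
  have hc : F.curveRep.DetIsCyclotomic p := F.detIsCyclotomic_of_cond (F.curveRep_cond H hp2)
  rw [det_eq_of_detIsCyclotomic (F.detIsCyclotomic_of_cond hρ)
    (Avoid.detIsCyclotomic_baseChangeAlong (algebraMap F.E.R R) inferInstance hc) σ,
    det_baseChangeAlong]

/-- The defect of strictness commutes with maps which respect traces and determinants. -/
theorem map_strictDefect {R S : Type} [CommRing R] [IsLocalRing R] [CommRing S] [IsLocalRing S]
    (f : R →+* S) {ρ : GaloisRepAdic R} {ρ' : GaloisRepAdic S}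
    (htr : ∀ σ, f (ρ.trace σ) = ρ'.trace σ)
    (hdet : ∀ σ, f (LinearMap.det (ρ.ρ σ)) = LinearMap.det (ρ'.ρ σ)) :
    f (F.strictDefect ρ) = F.strictDefect ρ' ∧ f (F.lam ρ) = F.lam ρ' := by
  have h : ∀ σ, f (ρ.det σ : R) = (ρ'.det σ : S) := hdet
  simp [strictDefect, lam, h, htr]

namespace LiftLevel

variable {d n j r : ℕ} {qv : Fin r → ℕ} (L : F.LiftLevel d n j qv)
  {R : Type} [CommRing R] [IsLocalRing R] [Algebra F.E.R R] {ρ : GaloisRepAdic R}
  (f : R →ₐ[F.E.R] L.A) (hf : IsLocalHom (f : R →+* L.A))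
  (he : (ρ.baseChangeAlong (f : R →+* L.A) hf).IsEquiv L.ρ) (b : Module.Basis (Fin 2) R ρ.V)

include he

theorem map_trace (σ : Γℚ) : f (ρ.trace σ) = L.ρ.trace σ := by
  rw [← Deformation.trace_eq_of_isEquiv he, Deformation.trace_baseChangeAlong]
  rfl

theorem map_det (σ : Γℚ) : f (LinearMap.det (ρ.ρ σ)) = LinearMap.det (L.ρ.ρ σ) := by
  rw [← det_eq_of_isEquiv he, det_baseChangeAlong]
  rfl

theorem map_toMatrix_of_out (i : Fin F.k) (hi : j ≤ (i : ℕ)) (hq : (F.site i).Prime) (σ : Γℚ)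
    (hσ : σ ∈ (F.place (F.site i)).inertiaSubgroupIn ℚ) :
    (LinearMap.toMatrix b b (ρ.ρ σ)).map f = 1 := by
  obtain ⟨e⟩ := he
  have hu := RepTheory.isUnramifiedAt_of_isEquiv ⟨e.symm⟩ (L.unramified_site i hi) _
    (F.liesOver _ hq) σ hσ
  let : Algebra R L.A := (f : R →+* L.A).toAlgebra
  have h := toMatrix_bc (B := L.A) b (ρ.ρ σ)
  rw [show (ρ.ρ σ).baseChange L.A = 1 from hu, LinearMap.toMatrix_one] at h
  exact h.symm

theorem map_toMatrix_of_in (i : Fin F.k) (hi : (i : ℕ) < j) (hq : (F.site i).Prime) (σ : Γℚ)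
    (hσ : σ ∈ (F.place (F.site i)).inertiaSubgroupIn ℚ) :
    ((LinearMap.toMatrix b b (ρ.ρ σ)).map f - 1) *
      ((LinearMap.toMatrix b b (ρ.ρ σ)).map f - 1) = 0 := by
  have hu : ((ρ.baseChangeAlong (f : R →+* L.A) hf).ρ σ).charpoly = (Polynomial.X - 1) ^ 2 := by
    rw [RepTheory.charpoly_eq_of_isEquiv he]
    exact L.unipotent_site i hi _ (F.liesOver _ hq) σ hσ
  let : Algebra R L.A := (f : R →+* L.A).toAlgebra
  have h := sq_zero_of_charpoly (Algebra.TensorProduct.basis L.A b)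
    (f := (ρ.ρ σ).baseChange L.A) hu
  rwa [toMatrix_bc] at h

/-- At a multiplicative `p` every point is flat or strict. -/
theorem point_flat_or_strict (hm : F.Mult) {z : R} (hz : F.KilledByFlat ρ z)
    (E' : RepTheory.FiniteDVRExt F.E.R) (ψ : L.A →ₐ[F.E.R] E'.R) :
    ψ (f z) = 0 ∨ ψ (f (F.strictDefect ρ)) = 0 := by
  have hψ : IsLocalHom (ψ : L.A →+* E'.R) := Avoid.isLocalHom_of_finite ψ
  rcases L.flat_or_strict hm E' ψ hψ with h | h
  · refine Or.inl (hz E' (ψ.comp f) ?_ ?_)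
    · exact ⟨fun a ha => hf.map_nonunit a (hψ.map_nonunit _ ha)⟩
    · obtain ⟨e⟩ := he
      refine (isClosed_flat (𝒪 := F.E.R) (Fact.out : p.Prime)).of_isEquiv ?_ h
      exact ⟨(((Avoid.baseChangeAlongCompEquiv (f : R →+* L.A) (ψ : L.A →+* E'.R) hf hψ
        ⟨fun a ha => hf.map_nonunit a (hψ.map_nonunit _ ha)⟩ ρ).symm.trans
          (GaloisRepAdic.Equiv.baseChangeAlong _ hψ e))).symm⟩
  · refine Or.inr ?_
    rw [← RingHom.coe_coe f, (map_strictDefect (F := F) (f : R →+* L.A)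
      (L.map_trace f hf he) (L.map_det f hf he)).1]
    exact h

end LiftLevel

end LiftFrame

end FLTA.RT

end
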