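import Fermat.Agent.RT.Lift.ModulesAwayLevel
import Fermat.Agent.RT.Lift.Inputs
import Fermat.Agent.RT.Main.ModulesCond

/-!
# The Galois properties away from `p` of the Hecke representation of lifting

For a Hecke–Galois datum at the classical level of a tuple, pushed along a local map to an algebra
with trivial residue extension: the primes outside the level are unramified, the primes dividing it
exactly have unipotent inertia, and the deformation condition holds as soon as it does at `p`.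
-/

set_option autoImplicit false

noncomputable section

open IsLocalRing WeierstrassCurve

namespace FLTA.RT.LiftFrame

open FLTA.RT.Avoid

attribute [local instance] Datum.factIntegral

set_option synthInstance.maxHeartbeats 400000

variable {W : WeierstrassCurve ℤ} {hΔ : W.Δ ≠ 0} {p : ℕ} [Fact p.Prime] {M : ℕ}
  (F : LiftFrame W hΔ p M) {n r j : ℕ} {qv : Fin r → ℕ} [NeZero (F.classicalAt j qv)]
  {S : Finset ℕ}
  {θ : CuspForm.heckeAlgebra (F.classicalAt j qv) 2 (↑S : Set ℕ) →+* ResidueField F.E.R}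
  {T : Type} [CommRing T] [IsLocalRing T] [IsNoetherianRing T]
  [IsAdicComplete (maximalIdeal T) T] [Algebra F.E.R T] [IsLocalHom (algebraMap F.E.R T)]
  [Module.Finite F.E.R T] [Module.Free F.E.R T]
  {A : Type} [CommRing A] [IsLocalRing A] [IsNoetherianRing A]
  [IsAdicComplete (maximalIdeal A) A] [Algebra F.E.R A]

/-- A site outside the level is unramified. -/
theorem isUnramifiedAt_site (hT : Function.Surjective (residue T ∘ algebraMap F.E.R T))
    (hA : IsLocalHom (algebraMap F.E.R A))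
    (hA' : Function.Surjective (residue A ∘ algebraMap F.E.R A))
    (hpS : p ∈ S) (hNS : ∀ q : ℕ, q.Prime → q ∣ F.classicalAt j qv → q ∈ S)
    (H : CuspForm.HeckeGaloisRepDatum (F.classicalAt j qv) (↑S : Set ℕ) F.E.R θ T)
    (Φ : T →ₐ[F.E.R] A) (hΦ : IsLocalHom (Φ : T →+* A))
    (hq : F.IsTWTuple n qv) (i : Fin F.k) (hi : j ≤ (i : ℕ)) :
    (H.ρ.baseChangeAlong (Φ : T →+* A) hΦ).IsUnramifiedAt (F.site i) :=
  push_of_isClosedCond (P := fun _A _ _ _ ρ => ρ.IsUnramifiedAt (F.site i))
    (isClosed_unramified (F.site i)) hT hA hA' Φ hΦ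
    (datum_isUnramifiedAt F.natCast_mem hpS hNS H (F.site_isPrime i)
      (F.site_not_dvd_classicalAt hq i hi) (F.site_ne i))

/-- A site in the level has unipotent inertia. -/
theorem isUnipotentOnInertiaAt_site (D : LiftData W p M)
    (hT : Function.Surjective (residue T ∘ algebraMap F.E.R T))
    (hA : IsLocalHom (algebraMap F.E.R A))
    (hA' : Function.Surjective (residue A ∘ algebraMap F.E.R A))
    (hpS : p ∈ S) (hNS : ∀ q : ℕ, q.Prime → q ∣ F.classicalAt j qv → q ∈ S)
    (H : CuspForm.HeckeGaloisRepDatum (F.classicalAt j qv) (↑S : Set ℕ) F.E.R θ T)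
    (Φ : T →ₐ[F.E.R] A) (hΦ : IsLocalHom (Φ : T →+* A))
    (hq : F.IsTWTuple n qv) (i : Fin F.k) (hi : (i : ℕ) < j) :
    (H.ρ.baseChangeAlong (Φ : T →+* A) hΦ).IsUnipotentOnInertiaAt (F.site i) :=
  push_of_isClosedCond (P := fun _A _ _ _ ρ => ρ.IsUnipotentOnInertiaAt (F.site i))
    (isClosed_unipotent (F.site i)) hT hA hA' Φ hΦ
    (Fermat.Agent.S34.result Fact.out F.natCast_mem hpS hNS H (F.site i) (F.site_isPrime i)
      (F.site_ne i) (F.site_dvd_classicalAt qv i hi)
      (F.not_sq_dvd_classicalAt D.squarefree hq (F.site_isPrime i) (F.site_mem_avoided i)))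

/-- The conditions away from `p` of a datum. -/
theorem datum_away (D : LiftData W p M) (hpS : p ∈ S)
    (hNS : ∀ q : ℕ, q.Prime → q ∣ F.classicalAt j qv → q ∈ S)
    (H : CuspForm.HeckeGaloisRepDatum (F.classicalAt j qv) (↑S : Set ℕ) F.E.R θ T)
    (hq : F.IsTWTuple n qv) :
    (∀ l : ℕ, l.Prime → l ∉ F.ramSet qv → H.ρ.IsUnramifiedAt l) ∧
      ∀ l ∈ F.unipSet, l.Prime → l ≠ p → H.ρ.IsUnipotentOnInertiaAt l := by
  refine ⟨fun l hl hlR => datum_isUnramifiedAt F.natCast_mem hpS hNS H hl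
    (fun h => hlR (F.mem_ramSet_of_dvd D.squarefree hq hl h))
    (fun h => hlR (by simp [ramSet, h])), fun l hlU hl hlp => ?_⟩
  exact Fermat.Agent.S34.result Fact.out F.natCast_mem hpS hNS H l hl hlp
    (F.dvd_classicalAt_of_mem_unipSet j qv hlU)
    (F.not_sq_dvd_classicalAt D.squarefree hq hl (by simp [avoided, hlU]))

/-- The deformation condition of the pushed datum; in the multiplicative case the datum must be
ordinary at `p`. -/
theorem cond_of_datum (D : LiftData W p M) (hp2 : p ≠ 2)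
    (hT : Function.Surjective (residue T ∘ algebraMap F.E.R T))
    (hA : IsLocalHom (algebraMap F.E.R A))
    (hA' : Function.Surjective (residue A ∘ algebraMap F.E.R A))
    (hpS : p ∈ S) (hNS : ∀ q : ℕ, q.Prime → q ∣ F.classicalAt j qv → q ∈ S)
    (H : CuspForm.HeckeGaloisRepDatum (F.classicalAt j qv) (↑S : Set ℕ) F.E.R θ T)
    (Φ : T →ₐ[F.E.R] A) (hΦ : IsLocalHom (Φ : T →+* A))
    (hq : F.IsTWTuple n qv) (hord : F.Mult → H.ρ.IsOrdinaryAt p) :
    F.cond qv (H.ρ.baseChangeAlong (Φ : T →+* A) hΦ) := by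
  have hdet := FLTA.HeckeDatum.detIsCyclotomic_of_datum Fact.out F.natCast_mem hpS hNS H
  obtain ⟨hur, hun⟩ := F.datum_away D hpS hNS H hq
  simp only [LiftFrame.cond]
  split_ifs with hm
  · refine push_of_isClosedCond (isClosed_ordCond F.E.R p hp2 _ _) hT hA hA' Φ hΦ ?_
    exact ⟨⟨hdet, hord hm, hur⟩, hun⟩
  · refine push_of_isClosedCond (isClosed_flatCond F.E.R p _ _) hT hA hA' Φ hΦ ?_
    exact ⟨⟨hdet, Fermat.Agent.S32.result Fact.out hp2 F.natCast_mem
      (F.not_dvd_classicalAt_of_not_mult D hm hq j) hpS hNS H, hur⟩, hun⟩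

omit [Fact p.Prime] in
/-- The diamond relation from its validity at every point. -/
theorem diamond_sq_of_points {O A : Type} [CommRing O] [CommRing A] [Algebra O A]
    (hsep : ∀ a : A, (∀ (B : Type) [CommRing B] [IsDomain B] [Algebra O B] (ψ : A →ₐ[O] B),
      ψ a = 0) → a = 0)
    (dia : MvPowerSeries (Fin r) O →ₐ[O] A) (i : Fin r) (t : A)
    (h : ∀ (B : Type) [CommRing B] [IsDomain B] [Algebra O B] (ψ : A →ₐ[O] B),
      ψ (dia (1 + MvPowerSeries.X i)) ^ 2 - ψ t * ψ (dia (1 + MvPowerSeries.X i)) + 1 = 0) :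
    dia (MvPowerSeries.X i) ^ 2 = (t - 2) * dia (1 + MvPowerSeries.X i) := by
  have key : dia (1 + MvPowerSeries.X i) ^ 2 - t * dia (1 + MvPowerSeries.X i) + 1 = 0 :=
    hsep _ fun B _ _ _ ψ => by simpa using h B ψ
  rw [map_add, map_one] at key ⊢
  linear_combination key

end FLTA.RT.LiftFrame

end
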