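import Fermat.Agent.RT.Lift.Setup

/-!
# The classical levels of lifting

The primes of the classical level `classicalAt j qv` lie in `ramSet qv`; the sites of the level and the primes of
`unipSet` divide it exactly, the other sites do not, and `p` divides it exactly if and only if the
reduction at `p` is multiplicative.
-/

set_option autoImplicit false

noncomputable section

namespace FLTA.RT.LiftFrame

variable {W : WeierstrassCurve ℤ} {hΔ : W.Δ ≠ 0} {p : ℕ} [Fact p.Prime] {M : ℕ}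
  (F : LiftFrame W hΔ p M) {n r : ℕ} {qv : Fin r → ℕ}

theorem site_isPrime (i : Fin F.k) : (F.site i).Prime := ((F.site_iff _).mp ⟨i, rfl⟩).1

theorem site_ne (i : Fin F.k) : F.site i ≠ p := ((F.site_iff _).mp ⟨i, rfl⟩).2.1

theorem aux_ne (h : F.aux ≠ 1) :
    F.aux.Prime ∧ ¬ F.aux ∣ M ∧ F.aux ≠ p ∧ ¬ (F.aux : ℤ) ∣ W.Δ := by
  rcases F.aux_spec with ⟨-, h1⟩ | ⟨hp, hpr, -, h3, hM, hgood, -⟩
  · exact absurd h1 h
  · exact ⟨hpr, hM, fun e => by omega, hgood⟩

theorem not_sq_dvd_mul {l a b : ℕ} (hl : l.Prime) (ha : ¬ l ^ 2 ∣ a) (hb : ¬ l ∣ b) :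
    ¬ l ^ 2 ∣ a * b := fun h =>
  ha ((Nat.Coprime.pow_left 2 (hl.coprime_iff_not_dvd.mpr hb)).dvd_of_dvd_mul_right h)

theorem prime_dvd_base {l : ℕ} (hl : l.Prime) (h : l ∣ F.base) :
    l ∣ M ∨ (F.Mult ∧ l = p) ∨ (F.aux ≠ 1 ∧ l = F.aux) := by
  classical
  rcases hl.dvd_mul.mp h with h | h
  · by_cases hm : F.Mult
    · rw [if_pos hm] at h
      rcases (Nat.Prime.dvd_mul hl).mp (h.trans (Nat.lcm_dvd_mul M p)) with h | h
      · exact Or.inl h
      · exact Or.inr (Or.inl ⟨hm, (Nat.prime_dvd_prime_iff_eq hl Fact.out).mp h⟩)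
    · rw [if_neg hm] at h
      exact Or.inl h
  · have h1 : F.aux ≠ 1 := fun e => hl.one_lt.ne' (Nat.dvd_one.mp (e ▸ h))
    exact Or.inr (Or.inr ⟨h1, (Nat.prime_dvd_prime_iff_eq hl (F.aux_ne h1).1).mp h⟩)

theorem base_dvd : M ∣ F.base := by
  classical
  rw [base]
  split_ifs
  · exact (Nat.dvd_lcm_left M p).trans (Dvd.intro _ rfl)
  · exact Dvd.intro _ rfl

theorem aux_dvd_base : F.aux ∣ F.base := Dvd.intro_left _ rfl

theorem squarefree_base (hM : Squarefree M) : Squarefree F.base := by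
  classical
  have hp : p.Prime := Fact.out
  have h1 : Squarefree (if F.Mult then Nat.lcm M p else M) := by
    split_ifs with hm
    · by_cases hpM : p ∣ M
      · rwa [Nat.lcm_eq_left hpM]
      · have hco : Nat.Coprime M p := Nat.Coprime.symm (hp.coprime_iff_not_dvd.mpr hpM)
        rw [hco.lcm_eq_mul, Nat.squarefree_mul hco]
        exact ⟨hM, hp.prime.squarefree⟩
    · exact hM
  rw [base]
  by_cases ha : F.aux = 1
  · rwa [ha, mul_one]
  obtain ⟨hpr, haM, hap, -⟩ := F.aux_ne ha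
  have hco : Nat.Coprime (if F.Mult then Nat.lcm M p else M) F.aux := by
    refine Nat.Coprime.symm (hpr.coprime_iff_not_dvd.mpr fun h => ?_)
    split_ifs at h with hm
    · rcases hpr.dvd_mul.mp (h.trans (Nat.lcm_dvd_mul M p)) with h | h
      · exact haM h
      · exact hap ((Nat.prime_dvd_prime_iff_eq hpr hp).mp h)
    · exact haM h
  rw [Nat.squarefree_mul hco]
  exact ⟨h1, hpr.prime.squarefree⟩

theorem not_sq_dvd_base (hM : Squarefree M) {l : ℕ} (hl : l.Prime) : ¬ l ^ 2 ∣ F.base := fun h =>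
  hl.not_isUnit ((F.squarefree_base hM) l (by rwa [← sq]))

theorem site_not_dvd_base (i : Fin F.k) : ¬ F.site i ∣ F.base := fun h => by
  obtain ⟨hs, hne, hΔ', hsM⟩ := (F.site_iff _).mp ⟨i, rfl⟩
  rcases F.prime_dvd_base hs h with h | ⟨-, h⟩ | ⟨ha, h⟩
  · exact hsM h
  · exact hne h
  · exact (F.aux_ne ha).2.2.2 (h ▸ hΔ')

theorem mem_unipSet {l : ℕ} : l ∈ F.unipSet ↔
    l ≠ p ∧ l.Prime ∧ l ∣ M * F.aux ∧ M * F.aux ≠ 0 := by
  simp [unipSet, Nat.mem_primeFactors]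

theorem dvd_level_cases {j l : ℕ} (hl : l.Prime) (h : l ∣ F.level j) :
    l ∣ F.base ∨ ∃ i : Fin F.k, (i : ℕ) < j ∧ F.site i = l := by
  rcases hl.dvd_mul.mp h with h | h
  · exact Or.inl h
  · obtain ⟨i, hi, hd⟩ := (Prime.dvd_finsetProd_iff hl.prime _).mp h
    exact Or.inr ⟨i, (Finset.mem_filter.mp hi).2,
      ((Nat.prime_dvd_prime_iff_eq hl (F.site_isPrime i)).mp hd).symm⟩

theorem site_dvd_level {j : ℕ} (i : Fin F.k) (hi : (i : ℕ) < j) : F.site i ∣ F.level j :=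
  (Finset.dvd_prod_of_mem _ (by simp [hi])).trans (Dvd.intro_left _ rfl)

theorem site_not_dvd_level {j : ℕ} (i : Fin F.k) (hi : j ≤ (i : ℕ)) : ¬ F.site i ∣ F.level j :=
  fun h => (F.dvd_level_cases (F.site_isPrime i) h).elim (F.site_not_dvd_base i)
    fun ⟨_, hi', e⟩ => absurd (F.site_injective e ▸ hi') (Nat.not_lt.mpr hi)

theorem not_sq_dvd_level (hM : Squarefree M) {j l : ℕ} (hl : l.Prime) : ¬ l ^ 2 ∣ F.level j := by
  intro h
  by_cases hs : ∃ i : Fin F.k, (i : ℕ) < j ∧ F.site i = l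
  · obtain ⟨i, hi, rfl⟩ := hs
    have hb := F.site_not_dvd_base i
    rw [level, mul_comm, ← Finset.mul_prod_erase _ _
      (show i ∈ Finset.univ.filter (fun i : Fin F.k => (i : ℕ) < j) by simp [hi]), mul_assoc] at h
    rw [sq, Nat.mul_dvd_mul_iff_left hl.pos] at h
    rcases hl.dvd_mul.mp h with h | h
    · obtain ⟨i', hi', hd⟩ := (Prime.dvd_finsetProd_iff hl.prime _).mp h
      exact Finset.ne_of_mem_erase hi'
        (F.site_injective ((Nat.prime_dvd_prime_iff_eq hl (F.site_isPrime i')).mp hd).symm)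
    · exact hb h
  · refine not_sq_dvd_mul hl (F.not_sq_dvd_base hM hl) (fun hd => ?_) h
    obtain ⟨i, hi, hd⟩ := (Prime.dvd_finsetProd_iff hl.prime _).mp hd
    exact hs ⟨i, (Finset.mem_filter.mp hi).2,
      ((Nat.prime_dvd_prime_iff_eq hl (F.site_isPrime i)).mp hd).symm⟩

variable {F}

theorem IsTWTuple.dvd_prod_iff (hq : F.IsTWTuple n qv) {l : ℕ} (hl : l.Prime) :
    l ∣ ∏ i, qv i ↔ ∃ i, qv i = l := by
  rw [Prime.dvd_finsetProd_iff hl.prime]
  exact ⟨fun ⟨i, _, hd⟩ => ⟨i, ((Nat.prime_dvd_prime_iff_eq hl (hq.prime i)).mp hd).symm⟩,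
    fun ⟨i, hi⟩ => ⟨i, Finset.mem_univ i, hi ▸ dvd_rfl⟩⟩

theorem IsTWTuple.not_dvd_prod (hq : F.IsTWTuple n qv) {l : ℕ} (hl : l.Prime)
    (hla : l ∈ F.avoided) : ¬ l ∣ ∏ i, qv i := fun h => by
  obtain ⟨i, rfl⟩ := (hq.dvd_prod_iff hl).mp h
  exact hq.notMem i hla

variable (F)

theorem classicalAt_eq (hq : F.IsTWTuple n qv) (j : ℕ) :
    F.classicalAt j qv = F.level j * (∏ i, qv i) * ∏ i, qv i := by
  rw [classicalAt, levelAt, twistSet, Finset.prod_image hq.injective.injOn]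

theorem site_mem_avoided (i : Fin F.k) : F.site i ∈ F.avoided := by
  simp [avoided, siteSet]

theorem prime_dvd_classicalAt {j l : ℕ} (hl : l.Prime) (hq : F.IsTWTuple n qv)
    (h : l ∣ F.classicalAt j qv) : l ∣ F.level j ∨ ∃ i, qv i = l := by
  rw [F.classicalAt_eq hq] at h
  rcases hl.dvd_mul.mp h with h | h
  · exact (hl.dvd_mul.mp h).imp_right (hq.dvd_prod_iff hl).mp
  · exact Or.inr ((hq.dvd_prod_iff hl).mp h)

theorem classicalAt_ne_zero (hM : Squarefree M) (hq : F.IsTWTuple n qv) (j : ℕ) :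
    F.classicalAt j qv ≠ 0 := by
  have h : ∏ i, qv i ≠ 0 := Finset.prod_ne_zero_iff.mpr fun i _ => (hq.prime i).ne_zero
  rw [F.classicalAt_eq hq]
  exact mul_ne_zero (mul_ne_zero (mul_ne_zero (F.squarefree_base hM).ne_zero
    (Finset.prod_ne_zero_iff.mpr fun i _ => (F.site_isPrime i).ne_zero)) h) h

theorem mem_ramSet_of_dvd (hM : Squarefree M) (hq : F.IsTWTuple n qv) {j l : ℕ} (hl : l.Prime)
    (h : l ∣ F.classicalAt j qv) : l ∈ F.ramSet qv := by
  by_cases hlp : l = p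
  · simp [ramSet, hlp]
  rcases F.prime_dvd_classicalAt hl hq h with h | ⟨i, rfl⟩
  · rcases F.dvd_level_cases hl h with h | ⟨i, -, rfl⟩
    · have hu : l ∈ F.unipSet := by
        rw [F.mem_unipSet]
        refine ⟨hlp, hl, ?_, mul_ne_zero hM.ne_zero fun e => ?_⟩
        · rcases F.prime_dvd_base hl h with h | ⟨-, h⟩ | ⟨-, h⟩
          · exact h.mul_right _
          · exact absurd h hlp
          · exact h ▸ Dvd.intro_left _ rfl
        · exact absurd ((F.aux_ne (by omega)).1) (e ▸ Nat.not_prime_zero)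
      simp [ramSet, hu]
    · simp [ramSet, siteSet]
  · simp [ramSet]

theorem site_not_dvd_classicalAt (hq : F.IsTWTuple n qv) {j : ℕ} (i : Fin F.k) (hi : j ≤ (i : ℕ)) :
    ¬ F.site i ∣ F.classicalAt j qv := fun h => by
  rcases F.prime_dvd_classicalAt (F.site_isPrime i) hq h with h | ⟨i', h⟩
  · exact F.site_not_dvd_level i hi h
  · exact hq.notMem i' (h ▸ F.site_mem_avoided i)

theorem not_sq_dvd_classicalAt (hM : Squarefree M) (hq : F.IsTWTuple n qv) {j l : ℕ}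
    (hl : l.Prime) (hla : l ∈ F.avoided) : ¬ l ^ 2 ∣ F.classicalAt j qv := by
  rw [F.classicalAt_eq hq, mul_assoc]
  exact not_sq_dvd_mul hl (F.not_sq_dvd_level hM hl) fun h =>
    (hl.dvd_mul.mp h).elim (hq.not_dvd_prod hl hla) (hq.not_dvd_prod hl hla)

theorem site_dvd_classicalAt {j : ℕ} (qv : Fin r → ℕ) (i : Fin F.k) (hi : (i : ℕ) < j) :
    F.site i ∣ F.classicalAt j qv :=
  ((F.site_dvd_level i hi).mul_right _).mul_right _

theorem dvd_classicalAt_of_mem_unipSet (j : ℕ) (qv : Fin r → ℕ) {l : ℕ} (hl : l ∈ F.unipSet) :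
    l ∣ F.classicalAt j qv := by
  obtain ⟨-, hl, hd, -⟩ := F.mem_unipSet.mp hl
  have h : l ∣ F.base := (hl.dvd_mul.mp hd).elim (fun h => h.trans F.base_dvd)
    fun h => h.trans F.aux_dvd_base
  exact ((h.mul_right _).mul_right _).mul_right _

theorem dvd_classicalAt_of_mult (h : F.Mult) (j : ℕ) (qv : Fin r → ℕ) :
    p ∣ F.classicalAt j qv := by
  classical
  have h1 : p ∣ F.base := by
    rw [base, if_pos h]
    exact (Nat.dvd_lcm_right M p).mul_right _
  exact ((h1.mul_right _).mul_right _).mul_right _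

theorem not_dvd_classicalAt_of_not_mult (D : LiftData W p M) (h : ¬ F.Mult)
    (hq : F.IsTWTuple n qv) (j : ℕ) : ¬ p ∣ F.classicalAt j qv := fun hd => by
  have hp : p.Prime := Fact.out
  rcases F.prime_dvd_classicalAt hp hq hd with hd | ⟨i, hi⟩
  · rcases F.dvd_level_cases hp hd with hd | ⟨i, -, hi⟩
    · rcases F.prime_dvd_base hp hd with hd | ⟨hm, -⟩ | ⟨ha, e⟩
      · exact D.bad_at hd fun hdΔ => h hdΔ
      · exact h hm
      · exact (F.aux_ne ha).2.2.1 e.symm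
    · exact F.site_ne i hi
  · exact hq.notMem i (by simp [avoided, hi])

end FLTA.RT.LiftFrame

end
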