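import Fermat.Agent.RT.Lift.Inputs
import Fermat.Agent.RT.DeformUniversal

/-!
# The universal rings of lifting and their maps to the level algebras

The deformation conditions of a frame are closed; a level gives the universal ring at its tuple,
its map to the level algebra and, for the empty tuple, the restriction.  Identities which hold on
the traces hold on the whole universal ring (`map_act_of_trace`).
-/

set_option autoImplicit false

noncomputable section

open IsLocalRing WeierstrassCurve GaloisRep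

namespace FLTA.RT

open FLTA.LevelLowering (planeRep)
open FLTA.Deformation (nonempty_deformationRingData)

namespace LiftFrame

variable {W : WeierstrassCurve ℤ} {hΔ : W.Δ ≠ 0} {p : ℕ} [Fact p.Prime] {M : ℕ}
  (F : LiftFrame W hΔ p M)

theorem cond_iff_of_mult (h : F.Mult) {r : ℕ} (qv : Fin r → ℕ) {A : Type} [CommRing A]
    [IsLocalRing A] [Algebra F.E.R A] (ρ : GaloisRepAdic A) :
    F.cond qv ρ ↔ ordCond F.E.R p (F.ramSet qv) F.unipSet ρ := by
  simp only [cond, if_pos h]

theorem cond_iff_of_not_mult (h : ¬ F.Mult) {r : ℕ} (qv : Fin r → ℕ) {A : Type} [CommRing A]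
    [IsLocalRing A] [Algebra F.E.R A] (ρ : GaloisRepAdic A) :
    F.cond qv ρ ↔ flatCond F.E.R p (F.ramSet qv) F.unipSet ρ := by
  simp only [cond, if_neg h]

theorem isClosed_cond (hp2 : p ≠ 2) {r : ℕ} (qv : Fin r → ℕ) :
    IsClosedCond F.E.R (F.cond qv) := by
  by_cases h : F.Mult
  · exact (isClosed_ordCond F.E.R p hp2 _ _).congr fun _ _ _ _ ρ => (F.cond_iff_of_mult h qv ρ).symm
  · exact (isClosed_flatCond F.E.R p _ _).congr fun _ _ _ _ ρ =>
      (F.cond_iff_of_not_mult h qv ρ).symm

theorem unramified_of_cond {r : ℕ} {qv : Fin r → ℕ} {A : Type} [CommRing A] [IsLocalRing A]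
    [Algebra F.E.R A] {ρ : GaloisRepAdic A} (hρ : F.cond qv ρ) {q : ℕ} (hq : q.Prime)
    (hS : q ∉ F.ramSet qv) : ρ.IsUnramifiedAt q := by
  by_cases h : F.Mult
  · exact ((F.cond_iff_of_mult h qv ρ).mp hρ).1.2.2 q hq hS
  · exact ((F.cond_iff_of_not_mult h qv ρ).mp hρ).1.2.2 q hq hS

theorem detIsCyclotomic_of_cond {r : ℕ} {qv : Fin r → ℕ} {A : Type} [CommRing A] [IsLocalRing A]
    [Algebra F.E.R A] {ρ : GaloisRepAdic A} (hρ : F.cond qv ρ) : ρ.DetIsCyclotomic p := by
  by_cases h : F.Mult
  · exact ((F.cond_iff_of_mult h qv ρ).mp hρ).1.1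
  · exact ((F.cond_iff_of_not_mult h qv ρ).mp hρ).1.1

theorem cond_of_noPrimes {r : ℕ} (qv : Fin r → ℕ) {A : Type} [CommRing A] [IsLocalRing A]
    [Algebra F.E.R A] {ρ : GaloisRepAdic A} (hρ : F.cond noPrimes ρ) : F.cond qv ρ := by
  have hsub : F.ramSet noPrimes ⊆ F.ramSet qv := by
    intro x hx
    simp only [ramSet, Finset.mem_insert, Finset.mem_union, Finset.mem_image,
      IsEmpty.exists_iff, or_false] at hx ⊢
    tauto
  by_cases h : F.Mult
  · rw [F.cond_iff_of_mult h] at hρ ⊢
    exact ⟨⟨hρ.1.1, hρ.1.2.1, fun q hq hS => hρ.1.2.2 q hq fun h' => hS (hsub h')⟩, hρ.2⟩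
  · rw [F.cond_iff_of_not_mult h] at hρ ⊢
    exact ⟨⟨hρ.1.1, hρ.1.2.1, fun q hq hS => hρ.1.2.2 q hq fun h' => hS (hsub h')⟩, hρ.2⟩

omit [Fact p.Prime] in
theorem ne_two_of_data (H : LiftData W p M) : p ≠ 2 := by
  rcases H.curve.hp with h | h <;> omega

theorem rhobar_absIrr (H : LiftData W p M) : F.rhobar.IsAbsolutelyIrreducible :=
  (FLTA.RepTheory.isAbsolutelyIrreducible_baseChangeAlong_iff F.φ _).mpr
    ((FLTA.RepTheory.isAbsolutelyIrreducible_iff_spans _).2
      (LevelLowering.planeRep_spans hΔ (ne_two_of_data H) H.curve.irreducible))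

variable {F} {d n j r : ℕ} {qv : Fin r → ℕ}

theorem LiftLevel.resCond (hbar : F.rhobar.IsAbsolutelyIrreducible) (L : F.LiftLevel d n j qv) :
    Deformation.ResCond F.rhobar L.ρ.trace :=
  (Deformation.residual_isEquiv_iff F.rhobar hbar L.residue_surjective L.ρ).mp L.residual_isEquiv

/-- The residual representation satisfies the deformation condition. -/
theorem LiftLevel.cond_rhobar (hp2 : p ≠ 2) (hbar : F.rhobar.IsAbsolutelyIrreducible)
    (L : F.LiftLevel d n j qv) : F.cond qv (GaloisRepAdic.ofResidualGaloisRep F.rhobar) := by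
  have : IsLocalHom (algebraMap F.E.R (ResidueField F.E.R)) :=
    IsLocalHom.of_surjective _ IsLocalRing.residue_surjective
  let ι := ResidueField.map (algebraMap F.E.R L.A)
  let e : ResidueField F.E.R ≃+* ResidueField L.A :=
    RingEquiv.ofBijective ι ⟨RingHom.injective _, fun y => by
      obtain ⟨c, hc⟩ := L.residue_surjective y
      exact ⟨residue F.E.R c, (ResidueField.map_residue _ c).trans hc⟩⟩
  let π : L.A →ₐ[F.E.R] ResidueField F.E.R :=
    { e.symm.toRingHom.comp (residue L.A) with
      commutes' := fun c => by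
        show e.symm (residue L.A (algebraMap F.E.R L.A c)) = _
        rw [RingEquiv.symm_apply_eq]
        exact (ResidueField.map_residue (algebraMap F.E.R L.A) c).symm }
  have hπ : IsLocalHom (π : L.A →+* ResidueField F.E.R) :=
    IsLocalHom.of_surjective _ (e.symm.surjective.comp IsLocalRing.residue_surjective)
  have hsurj : Function.Surjective (residue (ResidueField F.E.R) ∘
      algebraMap F.E.R (ResidueField F.E.R)) :=
    IsLocalRing.residue_surjective.comp IsLocalRing.residue_surjective
  have htest : GaloisRep.IsArtinianTestAlgebra F.E.R (ResidueField F.E.R) :=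
    { isLocalHom := inferInstance
      residue_surjective := hsurj
      isArtinian := inferInstance }
  have hclosed := F.isClosed_cond hp2 qv
  refine hclosed.of_isEquiv ?_ (hclosed.baseChange L.residue_surjective htest π hπ L.isOfType)
  have hres := L.resCond hbar
  refine Deformation.isEquiv_of_trace_eq F.rhobar hbar hsurj ?_ fun σ => ?_
  · intro σ
    have := hπ
    have h := Deformation.resCond_map F.rhobar π hres σ
    rw [Deformation.trace_baseChangeAlong]
    exact h
  · rw [Deformation.trace_baseChangeAlong]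
    show e.symm (residue L.A (L.ρ.trace σ)) = _
    rw [RingEquiv.symm_apply_eq, (Deformation.resCond_iff F.rhobar _).mp hres σ]
    show ι _ = ι _
    congr 1
    exact (LinearMap.trace_eq_matrix_trace _ (Deformation.barBasis F.rhobar) (F.rhobar.ρ σ)).symm

/-- The universal ring at the tuple of a level exists. -/
theorem LiftLevel.nonempty_ring (hp2 : p ≠ 2) (hbar : F.rhobar.IsAbsolutelyIrreducible)
    (L : F.LiftLevel d n j qv) :
    Nonempty (DeformationRingData F.E.R F.rhobar (F.cond qv)) :=
  nonempty_deformationRingData hbar (F.isClosed_cond hp2 qv).isDeformationCondition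
    (L.cond_rhobar hp2 hbar)
    (tangentFinite_of_unramified F.rhobar (F.ramSet qv) _ fun _ _ _ _ _ h _ hq hS =>
      F.unramified_of_cond h hq hS)

/-- The universal ring maps to the algebra of a level, compatibly with the traces. -/
theorem LiftLevel.exists_hom (L : F.LiftLevel d n j qv)
    (D : DeformationRingData F.E.R F.rhobar (F.cond qv)) :
    ∃ (φ : D.R →ₐ[F.E.R] L.A) (hφ : IsLocalHom (φ : D.R →+* L.A)),
      (D.ρ.baseChangeAlong (φ : D.R →+* L.A) hφ).IsEquiv L.ρ ∧
        ∀ σ, φ (D.ρ.trace σ) = L.ρ.trace σ := by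
  obtain ⟨φ, ⟨hφ, he⟩, -⟩ := D.universal L.A L.residue_surjective L.ρ L.isOfType L.residual_isEquiv
  refine ⟨φ, hφ, he, fun σ => ?_⟩
  rw [← Deformation.trace_eq_of_isEquiv he σ, Deformation.trace_baseChangeAlong]
  rfl

variable (F)

/-- Restriction from a tuple to the empty tuple. -/
theorem exists_restrict (D : DeformationRingData F.E.R F.rhobar (F.cond qv))
    (D₀ : DeformationRingData F.E.R F.rhobar (F.cond noPrimes)) :
    ∃ res : D.R →ₐ[F.E.R] D₀.R, IsLocalHom (res : D.R →+* D₀.R) ∧
      (∀ σ, res (D.ρ.trace σ) = D₀.ρ.trace σ) := by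
  obtain ⟨res, hl, ht, -⟩ := existsUnique_map_trace D D₀.R D₀.residue_surjective D₀.ρ
    (F.cond_of_noPrimes qv D₀.isOfType) (resCond_universal D₀)
  exact ⟨res, hl, ht⟩

/-- Restriction is surjective: the traces generate. -/
theorem restrict_surjective (hp2 : p ≠ 2) (D : DeformationRingData F.E.R F.rhobar (F.cond qv))
    (D₀ : DeformationRingData F.E.R F.rhobar (F.cond noPrimes)) (res : D.R →ₐ[F.E.R] D₀.R)
    [IsLocalHom (res : D.R →+* D₀.R)] (ht : ∀ σ, res (D.ρ.trace σ) = D₀.ρ.trace σ) :
    Function.Surjective res := by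
  set m := maximalIdeal D₀.R
  have hle : (maximalIdeal D.R).map (res : D.R →+* D₀.R) ≤ m :=
    Ideal.map_le_iff_le_comap.mpr fun y hy => map_nonunit (res : D.R →+* D₀.R) y hy
  have hm : m ≤ (maximalIdeal D.R).map (res : D.R →+* D₀.R) ⊔ m • m := fun x hx => by
    obtain ⟨y, hy, hxy⟩ :=
      adjoin_trace_dense (F.isClosed_cond hp2 noPrimes).isDeformationCondition D₀ 1 x
    have hym : y ∈ m := by
      have := sub_mem hx (Ideal.pow_le_self (I := m) two_ne_zero hxy)
      rwa [sub_sub_cancel] at this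
    have hrange : y ∈ (res.range : Subalgebra F.E.R D₀.R) := by
      refine Algebra.adjoin_le (S := res.range) ?_ hy
      rintro _ ⟨σ, rfl⟩
      exact ⟨D.ρ.trace σ, ht σ⟩
    obtain ⟨y', rfl⟩ := hrange
    have hy' : y' ∈ maximalIdeal D.R := fun hu => hym (hu.map (res : D.R →+* D₀.R))
    rw [← sub_add_cancel x (res y'), add_comm]
    refine Submodule.add_mem_sup (Ideal.mem_map_of_mem _ hy') ?_
    rwa [smul_eq_mul, ← pow_two]
  have hgen : m ≤ (maximalIdeal D.R).map (res : D.R →+* D₀.R) :=
    Submodule.le_of_le_smul_of_le_jacobson_bot (IsNoetherian.noetherian m)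
      (maximalIdeal_le_jacobson ⊥) hm
  obtain ⟨S, hS⟩ := (IsNoetherian.noetherian (maximalIdeal D.R) : (maximalIdeal D.R).FG)
  let e := S.equivFin.symm
  have hspan : Ideal.span (Set.range fun i => (e i : D.R)) = maximalIdeal D.R := by
    rw [← hS]
    congr 1
    ext y
    exact ⟨fun ⟨i, hi⟩ => hi ▸ (e i).2, fun hy => ⟨S.equivFin ⟨y, hy⟩, by simp [e]⟩⟩
  have hmem : ∀ i, (e i : D.R) ∈ maximalIdeal D.R := fun i =>
    hspan ▸ Ideal.subset_span ⟨i, rfl⟩
  obtain ⟨γ, hγ⟩ := exists_eval D.residue_surjective (fun i => (e i : D.R)) hmem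
  obtain ⟨γ₀, hγ₀s, hγ₀⟩ := exists_surjective_powerSeries D₀.residue_surjective
    (fun i => res (e i : D.R)) (fun i => hle (Ideal.mem_map_of_mem _ (hmem i))) (by
      refine le_sup_of_le_right (hgen.trans ?_)
      rw [← hspan, Ideal.map_span, ← Set.range_comp]
      exact le_rfl)
  have heq : res.comp γ = γ₀ := by
    refine Deformation.powerSeries_algHom_ext D₀.residue_surjective fun i => ?_
    rw [AlgHom.comp_apply, hγ, hγ₀]
  intro x
  obtain ⟨u, rfl⟩ := hγ₀s x
  exact ⟨γ u, by rw [← heq]; rfl⟩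

omit [Fact p.Prime] in
/-- A finite local algebra over a local ring is adic for the maximal ideal of the base. -/
theorem exists_pow_le_map {O A : Type} [CommRing O] [IsLocalRing O] [CommRing A] [IsLocalRing A]
    [IsNoetherianRing A] [Algebra O A] [Module.Finite O A] (K : ℕ) :
    ∃ N, maximalIdeal A ^ N ≤ (maximalIdeal O ^ K).map (algebraMap O A) := by
  have h : maximalIdeal A ≤ ((maximalIdeal O).map (algebraMap O A)).radical := by
    rw [Ideal.radical_eq_sInf]
    refine le_sInf fun P ⟨hP, hPp⟩ => ?_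
    have hmax : (P.comap (algebraMap O A)).IsMaximal := by
      have hle : maximalIdeal O ≤ P.comap (algebraMap O A) := Ideal.map_le_iff_le_comap.mp hP
      rw [← (maximalIdeal.isMaximal O).eq_of_le (hPp.comap _).ne_top hle]
      exact maximalIdeal.isMaximal O
    have : P.IsMaximal := Ideal.isMaximal_of_isIntegral_of_isMaximal_comap P hmax
    exact (IsLocalRing.eq_maximalIdeal this).ge
  obtain ⟨e, he⟩ := Ideal.exists_pow_le_of_le_radical_of_fg h (IsNoetherian.noetherian _)
  exact ⟨e * K, by
    rw [pow_mul, Ideal.map_pow]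
    exact Ideal.pow_right_mono he K⟩

/-- Powers of the maximal ideal of a level algebra act through powers of the maximal ideal of the
coefficients. -/
theorem LiftLevel.exists_act_mem (L : F.LiftLevel d n j qv) (K : ℕ) :
    ∃ N, ∀ a ∈ maximalIdeal L.A ^ N, ∀ x : L.M, L.α a x ∈
      ((maximalIdeal (MvPowerSeries (Fin r) F.E.R) ^ K).map (Ideal.Quotient.mk (F.diamondRel r n))) •
        (⊤ : Submodule (F.Diamond r n) L.M) := by
  obtain ⟨N, hN⟩ := exists_pow_le_map (O := F.E.R) (A := L.A) K
  refine ⟨N, fun a ha x => ?_⟩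
  have ha' := hN ha
  clear ha
  rw [Ideal.map] at ha'
  induction ha' using Submodule.span_induction generalizing x with
  | mem y hy =>
    obtain ⟨c, hc, rfl⟩ := hy
    rw [← L.diamond.commutes c, L.α_diamond]
    refine Submodule.smul_mem_smul (Ideal.mem_map_of_mem _ ?_) Submodule.mem_top
    have h1 : (maximalIdeal F.E.R).map (algebraMap F.E.R (MvPowerSeries (Fin r) F.E.R)) ≤
        maximalIdeal (MvPowerSeries (Fin r) F.E.R) := by
      refine Ideal.map_le_iff_le_comap.mpr fun b hb => ?_
      exact map_nonunit (algebraMap F.E.R (MvPowerSeries (Fin r) F.E.R)) b hb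
    have h2 := Ideal.pow_right_mono h1 K
    rw [← Ideal.map_pow] at h2
    exact h2 (Ideal.mem_map_of_mem _ hc)
  | zero => simp
  | add y z _ _ hy hz =>
    rw [map_add, LinearMap.add_apply]
    exact add_mem (hy x) (hz x)
  | smul b y _ hy =>
    rw [smul_eq_mul, mul_comm, map_mul, Module.End.mul_apply]
    exact hy _

/-- The levels are separated for the maximal ideal of the coefficients. -/
theorem LiftLevel.eq_zero_of_forall_mem (L : F.LiftLevel d n j qv) {x : L.M}
    (h : ∀ K : ℕ, x ∈ ((maximalIdeal (MvPowerSeries (Fin r) F.E.R) ^ K).map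
      (Ideal.Quotient.mk (F.diamondRel r n))) • (⊤ : Submodule (F.Diamond r n) L.M)) :
    x = 0 := by
  have : Module.Finite (F.Diamond r n) L.M := Module.Finite.of_basis L.basis
  have : IsNoetherianRing (MvPowerSeries (Fin r) F.E.R) := inferInstance
  by_cases htop : F.diamondRel r n = ⊤
  · have : Subsingleton (F.Diamond r n) := Ideal.Quotient.subsingleton_iff.mpr htop
    have := Module.subsingleton (F.Diamond r n) L.M
    exact Subsingleton.elim _ _
  have : Nontrivial (F.Diamond r n) := Ideal.Quotient.nontrivial_iff.mpr htop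
  have : IsLocalRing (F.Diamond r n) :=
    IsLocalRing.of_surjective' _ Ideal.Quotient.mk_surjective
  have hle : (maximalIdeal (MvPowerSeries (Fin r) F.E.R)).map
      (Ideal.Quotient.mk (F.diamondRel r n)) ≤ maximalIdeal (F.Diamond r n) := by
    refine Ideal.map_le_iff_le_comap.mpr fun b hb => ?_
    have : IsLocalHom (Ideal.Quotient.mk (F.diamondRel r n)) :=
      IsLocalHom.of_surjective _ Ideal.Quotient.mk_surjective
    exact map_nonunit (Ideal.Quotient.mk (F.diamondRel r n)) b hb
  have hkr := Ideal.iInf_pow_smul_eq_bot_of_isLocalRing (R := F.Diamond r n) (M := L.M)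
    (maximalIdeal (F.Diamond r n)) (maximalIdeal.isMaximal _).ne_top
  have hx : x ∈ ⨅ K : ℕ, maximalIdeal (F.Diamond r n) ^ K • (⊤ : Submodule (F.Diamond r n) L.M) := by
    refine Submodule.mem_iInf _ |>.mpr fun K => ?_
    refine Submodule.smul_mono_left ?_ (h K)
    rw [Ideal.map_pow]
    exact Ideal.pow_right_mono hle K
  rwa [hkr, Submodule.mem_bot] at hx

variable {d' n' j' r' : ℕ} {qv' : Fin r' → ℕ}

/-- An additive map of level modules, semilinear for a ring map of the diamond rings fixing the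
constants and commuting with the traces, commutes with the whole universal ring. -/
theorem map_act_of_trace (hp2 : p ≠ 2) (D : DeformationRingData F.E.R F.rhobar (F.cond qv))
    (L : F.LiftLevel d n j qv) (L' : F.LiftLevel d' n' j' qv')
    (a : D.R →ₐ[F.E.R] L.A) (a' : D.R →ₐ[F.E.R] L'.A) [IsLocalHom (a : D.R →+* L.A)]
    [IsLocalHom (a' : D.R →+* L'.A)]
    (ψ : MvPowerSeries (Fin r) F.E.R →+* MvPowerSeries (Fin r') F.E.R)
    (hψm : (maximalIdeal (MvPowerSeries (Fin r) F.E.R)).map ψ ≤
      maximalIdeal (MvPowerSeries (Fin r') F.E.R))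
    (hψC : ∀ c : F.E.R, ψ (MvPowerSeries.C c) = MvPowerSeries.C c)
    (h : L.M →+ L'.M)
    (hh : ∀ s x, h (Ideal.Quotient.mk (F.diamondRel r n) s • x) =
      Ideal.Quotient.mk (F.diamondRel r' n') (ψ s) • h x)
    (htr : ∀ σ x, h (L.α (a (D.ρ.trace σ)) x) = L'.α (a' (D.ρ.trace σ)) (h x)) (f : D.R) (x : L.M) :
    h (L.α (a f) x) = L'.α (a' f) (h x) := by
  have hconst : ∀ (c : F.E.R) (y : L.M),
      L.α (algebraMap F.E.R L.A c) y = Ideal.Quotient.mk (F.diamondRel r n) (MvPowerSeries.C c) • y :=
    fun c y => by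
      rw [← L.diamond.commutes c, L.α_diamond]
      rfl
  have hconst' : ∀ (c : F.E.R) (y : L'.M), L'.α (algebraMap F.E.R L'.A c) y =
      Ideal.Quotient.mk (F.diamondRel r' n') (MvPowerSeries.C c) • y := fun c y => by
    rw [← L'.diamond.commutes c, L'.α_diamond]
    rfl
  have hadj : ∀ g ∈ Algebra.adjoin F.E.R (Set.range D.ρ.trace),
      ∀ y, h (L.α (a g) y) = L'.α (a' g) (h y) := by
    intro g hg
    induction hg using Algebra.adjoin_induction with
    | mem y hy =>
      obtain ⟨σ, rfl⟩ := hy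
      exact htr σ
    | algebraMap c =>
      intro y
      rw [a.commutes, a'.commutes, hconst, hconst', hh, hψC]
    | add g g' _ _ hg hg' =>
      intro y
      simp only [map_add, LinearMap.add_apply, hg, hg']
    | mul g g' _ _ hg hg' =>
      intro y
      simp only [map_mul, Module.End.mul_apply, hg, hg']
  refine sub_eq_zero.mp (L'.eq_zero_of_forall_mem F fun K => ?_)
  obtain ⟨N, hN⟩ := L.exists_act_mem F K
  obtain ⟨N', hN'⟩ := L'.exists_act_mem F K
  obtain ⟨g, hg, hfg⟩ :=
    adjoin_trace_dense (F.isClosed_cond hp2 qv).isDeformationCondition D (max N N') f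
  have hmem : ∀ {A : Type} [CommRing A] [IsLocalRing A] [Algebra F.E.R A] (b : D.R →ₐ[F.E.R] A)
      [IsLocalHom (b : D.R →+* A)] (m : ℕ), m ≤ max N N' → b (f - g) ∈ maximalIdeal A ^ m := by
    intro A _ _ _ b _ m hm
    have h1 : (maximalIdeal D.R).map (b : D.R →+* A) ≤ maximalIdeal A :=
      Ideal.map_le_iff_le_comap.mpr fun y hy => map_nonunit (b : D.R →+* A) y hy
    have h2 := Ideal.pow_right_mono h1 m
    rw [← Ideal.map_pow] at h2
    exact h2 (Ideal.mem_map_of_mem _ (Ideal.pow_le_pow_right (by omega) hfg))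
  have e1 : h (L.α (a (f - g)) x) ∈ ((maximalIdeal (MvPowerSeries (Fin r') F.E.R) ^ K).map
      (Ideal.Quotient.mk (F.diamondRel r' n'))) • (⊤ : Submodule (F.Diamond r' n') L'.M) := by
    have h0 := hN _ (hmem a N (le_max_left _ _)) x
    refine Submodule.smul_induction_on h0 (fun s hs y _ => ?_) fun y z hy hz => ?_
    · obtain ⟨s, hs', rfl⟩ :=
        (Ideal.mem_map_iff_of_surjective _ Ideal.Quotient.mk_surjective).mp hs
      rw [hh]
      refine Submodule.smul_mem_smul (Ideal.mem_map_of_mem _ ?_) Submodule.mem_top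
      have h2 := Ideal.pow_right_mono hψm K
      rw [← Ideal.map_pow] at h2
      exact h2 (Ideal.mem_map_of_mem _ hs')
    · rw [map_add]
      exact add_mem hy hz
  have e2 := hN' _ (hmem a' N' (le_max_right _ _)) (h x)
  have e := sub_mem e1 e2
  rw [map_sub, map_sub, LinearMap.sub_apply, map_sub, map_sub, map_sub, LinearMap.sub_apply,
    hadj g hg x] at e
  convert e using 1
  abel

end LiftFrame

end FLTA.RT

end
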