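import Fermat.Agent.RT.Lift.Setup
import Fermat.Agent.RT.Lift.Rings
import Fermat.Agent.RT.Lift.ModulesAwayLevel
import Fermat.Agent.RT.Main.ModulesGeneric
import Fermat.Agent.RT.LocalExtra
import Fermat.Agent.Carayol.MatchCompare
import Fermat.Agent.LevelLowering.GlobalPlane
import Fermat.Agent.S32

/-!
# The level modules of lifting: flatness at `p`

A Hecke-Galois datum at a level prime to `p` is flat at `p`, hence so is its push along any map to
a complete local algebra.  A representation over a discrete valuation ring with the Frobenius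
polynomials of an eigen system at a level prime to `p` is flat at `p`: this is the `p`-old case of
`flat_or_strict`.
-/

set_option autoImplicit false

noncomputable section

open IsLocalRing Polynomial CuspForm WeierstrassCurve

namespace FLTA.RT

attribute [local instance] Datum.factIntegral

local notation "Γℚ" => AlgebraicClosure ℚ ≃ₐ[ℚ] AlgebraicClosure ℚ

set_option synthInstance.maxHeartbeats 400000
set_option maxHeartbeats 1000000

section Generic

variable {p : ℕ} [Fact p.Prime] {N : ℕ} [NeZero N] {S : Finset ℕ}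
  {O : Type} [CommRing O] [IsDomain O] [IsDiscreteValuationRing O]
  [IsAdicComplete (maximalIdeal O) O] [CharZero O] [Finite (ResidueField O)]

/-- A datum at a level prime to `p`, pushed to a complete local algebra, is flat at `p`. -/
theorem isFlatAt_push_datum {θ : CuspForm.heckeAlgebra N 2 (↑S : Set ℕ) →+* ResidueField O}
    (hp2 : p ≠ 2) (hpO : (p : O) ∈ maximalIdeal O) (hpN : ¬ p ∣ N) (hpS : p ∈ S)
    (hNS : ∀ q : ℕ, q.Prime → q ∣ N → q ∈ S)
    (H : HeckeGaloisRepDatum N (↑S : Set ℕ) O θ (heckeLocal N (↑S : Set ℕ) O θ))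
    {A : Type} [CommRing A] [IsLocalRing A] [IsNoetherianRing A]
    [IsAdicComplete (maximalIdeal A) A] [Algebra O A] (hA : IsLocalHom (algebraMap O A))
    (hA' : Function.Surjective (residue A ∘ algebraMap O A))
    (Φ : heckeLocal N (↑S : Set ℕ) O θ →ₐ[O] A)
    (hΦ : IsLocalHom (Φ : heckeLocal N (↑S : Set ℕ) O θ →+* A)) :
    (H.ρ.baseChangeAlong (Φ : heckeLocal N (↑S : Set ℕ) O θ →+* A) hΦ).IsFlatAt p :=
  Avoid.push_of_isClosedCond (isClosed_flat Fact.out)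
    (Datum.residue_surjective_pi N _ O θ) hA hA' Φ hΦ
    (Fermat.Agent.S32.result Fact.out hp2 hpO hpN hpS hNS H)

/-- A representation with the Frobenius polynomials of an eigen system at a level prime to `p` is
flat at `p`. -/
theorem isFlatAt_of_heckePoint (hp2 : p ≠ 2) (hpO : (p : O) ∈ maximalIdeal O) (hpN : ¬ p ∣ N)
    (hpS : p ∈ S) (hNS : ∀ q : ℕ, q.Prime → q ∣ N → q ∈ S) (ρ : GaloisRepAdic O)
    (hirr : ρ.residual.IsAbsolutelyIrreducible)
    (χ : CuspForm.heckeAlgebra N 2 (↑S : Set ℕ) →+* O)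
    (hρ : ∀ (ℓ : ℕ) (hℓ : ℓ.Prime) (hℓN : ¬ ℓ ∣ N) (hℓS : ℓ ∉ (↑S : Set ℕ)),
      ∀ P : ValuationSubring (AlgebraicClosure ℚ), P.LiesOverPrime ℓ →
        ∀ σ : Γℚ, P.IsFrobeniusAt σ ℓ →
          (ρ.ρ σ).charpoly = X ^ 2 - C (χ (heckeAlgebra.T hℓ hℓN hℓS)) * X + C (ℓ : O)) :
    ρ.IsFlatAt p := by
  have hid : Function.Surjective (residue O ∘ algebraMap O O) := by
    rw [Algebra.algebraMap_self]
    exact residue_surjective
  have hloc : IsLocalHom (algebraMap O O) := ⟨fun _ h => h⟩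
  obtain ⟨θ, Φ, hθ, hΦT⟩ := Avoid.exists_residual_heckeLocal_hom hNS hid χ
  have hΦT' : ∀ (ℓ : ℕ) (hℓ : ℓ.Prime) (hℓN : ¬ ℓ ∣ N) (hℓS : ℓ ∉ (↑S : Set ℕ)),
      Φ (heckeLocal.π N (↑S : Set ℕ) O θ (heckeAlgebra.T hℓ hℓN hℓS)) =
        χ (heckeAlgebra.T hℓ hℓN hℓS) :=
    fun ℓ hℓ hℓN hℓS => hΦT ⟨ℓ, hℓ, hℓN, hℓS⟩
  have hθ' : ∀ t, θ t = residue O (χ t) := fun t => by
    obtain ⟨a, ha⟩ := residue_surjective (θ t)
    rw [← hθ t, ← ha, ResidueField.map_residue, Algebra.algebraMap_self_apply]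
  obtain ⟨D, hD⟩ := Datum.exists_heckeDatum N S O θ hp2 hpS hNS hpO ρ.residual hirr
    fun ℓ hℓ hℓN hℓS P hP σ hσ => by
      rw [FLTA.RepTheory.charpoly_residual, hρ ℓ hℓ hℓN hℓS P hP σ hσ, hθ']
      simp
  have hΦ := Avoid.isLocalHom_of_finite Φ
  have hflat := isFlatAt_push_datum hp2 hpO hpN hpS hNS D hloc hid Φ hΦ
  have hatt := Avoid.isAttached_baseChangeAlong Φ D hD hΦ
  refine (isClosed_flat (𝒪 := O) Fact.out).of_isEquiv ?_ hflat
  obtain ⟨e⟩ := FLTA.RepTheory.isEquiv_of_charpoly_eq hirr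
    (Carayol.adic_charpoly_eq_of_frobenius ρ
      (D.ρ.baseChangeAlong (Φ : heckeLocal N (↑S : Set ℕ) O θ →+* O) hΦ) S
      fun ℓ hℓ hℓS P hP τ hτ => by
      have hℓN : ¬ ℓ ∣ N := fun h => hℓS (hNS ℓ hℓ h)
      have hℓS' : ℓ ∉ (↑S : Set ℕ) := fun h => hℓS (Finset.mem_coe.mp h)
      rw [hρ ℓ hℓ hℓN hℓS' P hP τ hτ, hatt ℓ hℓ hℓN hℓS' P hP τ hτ,
        hΦT' ℓ hℓ hℓN hℓS'])
  exact ⟨e.symm⟩

end Generic

namespace LiftFrame

open FLTA.LevelLowering (planeRep)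

variable {W : WeierstrassCurve ℤ} {hΔ : W.Δ ≠ 0} {p : ℕ} [Fact p.Prime] {M : ℕ}
  (F : LiftFrame W hΔ p M) {n j : ℕ} {r : ℕ} {qv : Fin r → ℕ}

theorem self_mem_badSet (qv : Fin r → ℕ) : p ∈ F.badSet qv :=
  Finset.mem_union_left _ (Finset.mem_insert_self _ _)

/-- **Good reduction at `p`**: the pushed datum of a level is flat at `p`. -/
theorem isFlatAt_push_classicalAt (D : LiftData W p M) (hm : ¬ F.Mult) (h : F.IsTWTuple n qv)
    [NeZero (F.classicalAt j qv)]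
    (hNS : ∀ l : ℕ, l.Prime → l ∣ F.classicalAt j qv → l ∈ F.badSet qv)
    {θ : CuspForm.heckeAlgebra (F.classicalAt j qv) 2 (↑(F.badSet qv) : Set ℕ) →+*
      ResidueField F.E.R}
    (H : HeckeGaloisRepDatum (F.classicalAt j qv) (↑(F.badSet qv) : Set ℕ) F.E.R θ
      (heckeLocal (F.classicalAt j qv) (↑(F.badSet qv) : Set ℕ) F.E.R θ))
    {A : Type} [CommRing A] [IsLocalRing A] [IsNoetherianRing A]
    [IsAdicComplete (maximalIdeal A) A] [Algebra F.E.R A] [IsLocalHom (algebraMap F.E.R A)]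
    (hA' : Function.Surjective (residue A ∘ algebraMap F.E.R A))
    (Φ : heckeLocal (F.classicalAt j qv) (↑(F.badSet qv) : Set ℕ) F.E.R θ →ₐ[F.E.R] A)
    (hΦ : IsLocalHom
      (Φ : heckeLocal (F.classicalAt j qv) (↑(F.badSet qv) : Set ℕ) F.E.R θ →+* A)) :
    (H.ρ.baseChangeAlong
      (Φ : heckeLocal (F.classicalAt j qv) (↑(F.badSet qv) : Set ℕ) F.E.R θ →+* A) hΦ).IsFlatAt p :=
  isFlatAt_push_datum (ne_two_of_data D) F.natCast_mem (F.not_dvd_classicalAt_of_not_mult D hm h j)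
    (F.self_mem_badSet qv) hNS H inferInstance hA' Φ hΦ

/-- The residual polynomial of Frobenius at a prime outside the bad set. -/
theorem flat_rhobar_charpoly (D : LiftData W p M) {l : ℕ} (hl : l.Prime) (hlS : l ∉ F.badSet qv)
    {P : ValuationSubring (AlgebraicClosure ℚ)} (hP : P.LiesOverPrime l) {σ : Γℚ}
    (hσ : P.IsFrobeniusAt σ l) :
    (F.rhobar.ρ σ).charpoly = X ^ 2 - C (W.apOfModel l : ResidueField F.E.R) * X
      + C (l : ResidueField F.E.R) := by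
  simp only [badSet, avoided, Finset.mem_union, Finset.mem_insert, Nat.mem_primeFactors,
    not_or] at hlS
  obtain ⟨⟨hlp, hl2, -, hlΔ⟩, -⟩ := hlS
  have h4 : ¬ (l : ℤ) ∣ W.Δ := fun h => hlΔ ⟨hl, Int.natCast_dvd.mp h, Int.natAbs_ne_zero.mpr hΔ⟩
  obtain ⟨htr, hdet⟩ := LevelLowering.planeRep_frobenius (hΔ := hΔ) (p := p) (ne_two_of_data D)
    hl hl2 h4 hlp hP hσ
  rw [RepTheory.residual_charpoly_baseChangeAlong,
    RepTheory.charpoly_of_finrank_two (planeRep hΔ (p := p)).finrank_eq, htr, hdet]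
  simp

/-- **The `p`-old points are flat**: a representation over an extension with cyclotomic
determinant, whose Frobenius traces are congruent to `a_l(W)` and come from an eigen system at a
level prime to `p`, is flat at `p`. -/
theorem isFlatAt_of_old (D : LiftData W p M) {E' : RepTheory.FiniteDVRExt F.E.R}
    (ρ : GaloisRepAdic E'.R) (hdet : ρ.DetIsCyclotomic p)
    (N' : ℕ) [NeZero N'] (hpN' : ¬ p ∣ N')
    (hN' : ∀ l : ℕ, l.Prime → l ∣ N' → l ∈ F.badSet qv)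
    (χ : CuspForm.heckeAlgebra N' 2 (↑(F.badSet qv) : Set ℕ) →+* E'.R)
    (hres : ∀ (l : ℕ) (hl : l.Prime) (hlN : ¬ l ∣ N') (hlS : l ∉ (↑(F.badSet qv) : Set ℕ)),
      residue E'.R (χ (heckeAlgebra.T hl hlN hlS)) = (W.apOfModel l : ResidueField E'.R))
    (hρ : ∀ (l : ℕ) (hl : l.Prime) (hlN : ¬ l ∣ N') (hlS : l ∉ (↑(F.badSet qv) : Set ℕ)),
      ∀ P : ValuationSubring (AlgebraicClosure ℚ), P.LiesOverPrime l →
        ∀ σ : Γℚ, P.IsFrobeniusAt σ l → ρ.trace σ = χ (heckeAlgebra.T hl hlN hlS)) :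
    ρ.IsFlatAt p := by
  classical
  have hp2 := ne_two_of_data D
  have hpE : (p : E'.R) ∈ maximalIdeal E'.R := hdet.1
  have hcp : ∀ (l : ℕ) (hl : l.Prime) (hlN : ¬ l ∣ N') (hlS : l ∉ (↑(F.badSet qv) : Set ℕ)),
      ∀ P : ValuationSubring (AlgebraicClosure ℚ), P.LiesOverPrime l →
        ∀ σ : Γℚ, P.IsFrobeniusAt σ l →
          (ρ.ρ σ).charpoly = X ^ 2 - C (χ (heckeAlgebra.T hl hlN hlS)) * X + C (l : E'.R) := by
    intro l hl hlN hlS P hP σ hσ
    have hlp : p ≠ l := fun e => hlS (Finset.mem_coe.mpr (e ▸ F.self_mem_badSet qv))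
    rw [RepTheory.charpoly_of_finrank_two ρ.finrank_eq,
      LocalGalois.det_frobenius_eq ρ hdet hl Fact.out hlp hP hσ]
    show X ^ 2 - C (ρ.trace σ) * X + _ = _
    rw [hρ l hl hlN hlS P hP σ hσ]
  have hN'' : ∀ l : ℕ, l.Prime → l ∉ F.badSet qv → ¬ l ∣ N' := fun l hl hlS h => hlS (hN' l hl h)
  refine isFlatAt_of_heckePoint hp2 hpE hpN' (F.self_mem_badSet qv) hN' ρ
    (Datum.residual_isAbsolutelyIrreducible_of_frobenius F.rhobar (F.rhobar_absIrr D)
      (F.badSet qv) (fun l => (W.apOfModel l : ResidueField F.E.R))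
      (fun l hl hlS P hP σ hσ => F.flat_rhobar_charpoly D hl hlS hP hσ) ρ
      (ResidueField.map (algebraMap F.E.R E'.R))
      (fun l => if hl : l.Prime ∧ l ∉ F.badSet qv then
        χ (heckeAlgebra.T hl.1 (hN'' l hl.1 hl.2) (fun hh => hl.2 (Finset.mem_coe.mp hh))) else 0)
      (fun l hl hlS => by
        rw [dif_pos (And.intro hl hlS), map_intCast]
        exact hres l hl _ _)
      (fun l hl hlS P hP σ hσ => by
        rw [dif_pos (And.intro hl hlS)]
        exact hcp l hl _ _ P hP σ hσ))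
    χ hcp

/-- The `p`-old case at a point of a level algebra: the form of `flat_or_strict`. -/
theorem isFlatAt_point_of_old (D : LiftData W p M) {A : Type} [CommRing A] [IsLocalRing A]
    [Algebra F.E.R A] (T : {l : ℕ // l.Prime ∧ l ∉ F.badSet qv} → A)
    (hT : ∀ l, T l - (W.apOfModel l.1 : A) ∈ maximalIdeal A)
    {ρ : GaloisRepAdic A} (hdet : ρ.DetIsCyclotomic p)
    (hρ : ∀ (l : {l : ℕ // l.Prime ∧ l ∉ F.badSet qv})
      (P : ValuationSubring (AlgebraicClosure ℚ)), P.LiesOverPrime l.1 →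
        ∀ σ : Γℚ, P.IsFrobeniusAt σ l.1 → ρ.trace σ = T l)
    (E' : RepTheory.FiniteDVRExt F.E.R) (ψ : A →ₐ[F.E.R] E'.R)
    (hψ : IsLocalHom (ψ : A →+* E'.R))
    (N' : ℕ) [NeZero N'] (hpN' : ¬ p ∣ N')
    (hN' : ∀ l : ℕ, l.Prime → l ∣ N' → l ∈ F.badSet qv)
    (χ : CuspForm.heckeAlgebra N' 2 (↑(F.badSet qv) : Set ℕ) →+* E'.R)
    (hχ : ∀ (l : ℕ) (hl : l.Prime) (hlN : ¬ l ∣ N') (hlS : l ∉ (↑(F.badSet qv) : Set ℕ)),
      χ (heckeAlgebra.T hl hlN hlS) = ψ (T ⟨l, hl, by simpa using hlS⟩)) :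
    (ρ.baseChangeAlong (ψ : A →+* E'.R) hψ).IsFlatAt p := by
  refine F.isFlatAt_of_old D _ (Avoid.detIsCyclotomic_baseChangeAlong _ hψ hdet) N' hpN' hN' χ
    (fun l hl hlN hlS => ?_) fun l hl hlN hlS P hP σ hσ => ?_
  · have hm := map_nonunit (ψ : A →+* E'.R) _ (hT ⟨l, hl, by simpa using hlS⟩)
    rw [← residue_eq_zero_iff, map_sub, map_sub, map_intCast, map_intCast, sub_eq_zero] at hm
    rw [hχ]
    exact hm
  · rw [RepTheory.trace_baseChangeAlong, hρ ⟨l, hl, by simpa using hlS⟩ P hP σ hσ, hχ]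
    rfl

end LiftFrame

end FLTA.RT

end
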