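import Fermat.Agent.RT.Lift.ModulesPointClass
import Fermat.Agent.RT.Lift.ModulesFlat
import Fermat.Agent.RT.Diamond.PointBridge
import Fermat.Agent.Galois.Cyclotomic

/-!
# The diamond relation at a Taylor–Wiles prime, point by point

At every point `ψ` of a level algebra of lifting with representation `ρ`, a chosen inertia element
`σ` at the Taylor–Wiles prime `qv i`, the same for all levels, satisfies
`u² - tr ρ(σ) u + 1 = 0` with `u = ψ(1 + y_i)`.
-/

set_option autoImplicit false
set_option synthInstance.maxHeartbeats 400000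
set_option linter.style.haveILetI false

noncomputable section

open IsLocalRing WeierstrassCurve CongruenceSubgroup Polynomial

namespace FLTA.RT

open FLTA.Periods

local notation "Qb" => AlgebraicClosure ℚ
local notation "Γℚ" => AlgebraicClosure ℚ ≃ₐ[ℚ] AlgebraicClosure ℚ

variable {W : WeierstrassCurve ℤ} {hΔ : W.Δ ≠ 0} {p : ℕ} [Fact p.Prime] {M : ℕ}

/-- The residual trace at a prime outside the avoided set, from the traces at good primes. -/
theorem LiftData.residue_trace_frob (D : LiftData W p M) (F : LiftFrame W hΔ p M) {r : ℕ}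
    {qv : Fin r → ℕ} {B : Type} [CommRing B] [IsLocalRing B] [IsNoetherianRing B] (ι : F.E.R →+* B) [IsLocalHom ι]
    (ρ : GaloisRepAdic B) (hdet : ρ.DetIsCyclotomic p)
    (hres : ∀ l : ℕ, l.Prime → l ∉ F.badSet qv → ∀ A : ValuationSubring Qb, A.LiesOverPrime l →
      ∀ σ : Γℚ, A.IsFrobeniusAt σ l → residue B (ρ.trace σ) = (W.apOfModel l : ResidueField B))
    {q : ℕ} (hq : q.Prime) (hqS : q ∉ F.avoided) {A : ValuationSubring Qb}
    (hA : A.LiesOverPrime q) {Φ : Γℚ} (hΦ : A.IsFrobeniusAt Φ q) :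
    residue B (ρ.trace Φ) = (W.apOfModel q : ResidueField B) := by
  have key := Carayol.residual_charpoly_eq_of_frobenius ρ.residual
    (F.rhobar.baseChangeAlong (ResidueField.map ι)) (F.badSet qv) (fun l hl hlS P hP τ hτ => by
      obtain ⟨hlp, -⟩ := D.avoided_props (F := F) hl fun h => hlS (Finset.mem_union_left _ h)
      rw [RepTheory.charpoly_residual, RepTheory.adic_charpoly_eq,
        RepTheory.residual_charpoly_baseChangeAlong, F.flat_rhobar_charpoly D hl hlS hP hτ,
        LocalGalois.det_frobenius_eq ρ hdet hl Fact.out hlp.symm hP hτ]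
      simp [hres l hl hlS P hP τ hτ]) Φ
  have hqS' : q ∉ F.badSet (fun i : Fin 0 => i.elim0) := by
    simpa [LiftFrame.badSet, LiftFrame.twistSet] using hqS
  rw [RepTheory.charpoly_residual, RepTheory.adic_charpoly_eq,
    RepTheory.residual_charpoly_baseChangeAlong, F.flat_rhobar_charpoly D hq hqS' hA hΦ] at key
  have h1 := congrArg (fun P : (ResidueField B)[X] => P.coeff 1) key
  simpa using h1

/-- The primes of a level lie in the bad set. -/
theorem LiftData.mem_badSet_of_dvd (D : LiftData W p M) (F : LiftFrame W hΔ p M) {j r : ℕ}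
    {qv : Fin r → ℕ} (hqv : ∀ i, (qv i).Prime) {l : ℕ} (hl : l.Prime)
    (h : l ∣ F.levelAt j qv) : l ∈ F.badSet qv := by
  by_contra hl'
  exact ((D.badSet_props F hqv hl hl').2.2.2.2 j).1 h

/-- The primes of the tuple divide the level exactly. -/
theorem LiftData.twistSet_exactly (D : LiftData W p M) {F : LiftFrame W hΔ p M} {n r : ℕ}
    {qv : Fin r → ℕ} (h : F.IsTWTuple n qv) (j : ℕ) {l : ℕ} (hl : l ∈ F.twistSet qv) :
    l.Prime ∧ l ∣ F.levelAt j qv ∧ ¬ l * l ∣ F.levelAt j qv := by
  obtain ⟨i, -, rfl⟩ := Finset.mem_image.mp hl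
  refine ⟨h.prime i, dvd_mul_of_dvd_right (Finset.dvd_prod_of_mem qv (Finset.mem_univ i)) _,
    fun hd => ?_⟩
  have h1 : ¬ qv i ∣ F.level j * ∏ k ∈ Finset.univ.erase i, qv k := by
    intro hd'
    rcases (h.prime i).dvd_mul.mp hd' with hd' | hd'
    · exact (D.avoided_props (h.prime i) (h.notMem i)).2.2.2.2.2 j hd'
    · obtain ⟨k, hk, hk'⟩ := ((h.prime i).prime.dvd_finsetProd_iff _).mp hd'
      exact (Finset.mem_erase.mp hk).1
        (h.injective ((Nat.prime_dvd_prime_iff_eq (h.prime i) (h.prime k)).mp hk').symm)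
  refine h1 (Nat.dvd_of_mul_dvd_mul_left (h.prime i).pos ?_)
  rwa [LiftFrame.levelAt, ← Finset.mul_prod_erase Finset.univ qv (Finset.mem_univ i),
    mul_left_comm] at hd

set_option maxHeartbeats 1500000 in
/-- The eigenclass of a point over the fraction field, in the shape of the bridge. -/
theorem LiftData.exists_point_fieldClass (D : LiftData W p M) (F : LiftFrame W hΔ p M) {n j r : ℕ}
    {qv : Fin r → ℕ} [NeZero (F.levelAt j qv)] (h : F.IsTWTuple n qv) (i : Fin r)
    (E' : RepTheory.FiniteDVRExt F.E.R) (ψ : F.Alg n j qv →ₐ[F.E.R] E'.R) :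
    ∃ (E'' : RepTheory.FiniteDVRExt E'.R) (β : E''.R) (ε : ∀ l : ℕ, (ZMod l)ˣ →* E''.Rˣ)
      (z : tH1 (gamChar (charMap (algebraMap E''.R (FractionRing E''.R))
        (sigProd (F.levelAt j qv) (F.twistSet qv) ε))) (FractionRing E''.R)),
      z ≠ 0 ∧ (∀ l u, residue E''.R (ε l u : E''.R) = 1) ∧
      (∀ l u, (ε l u : E''.R) = algebraMap E'.R E''.R
        (ψ (algebraMap (F.Diamond r n) (F.Alg n j qv) (F.eps n qv l u : F.Diamond r n)))) ∧
      (∀ l : {l : ℕ // l.Prime ∧ l ∉ F.badSet qv},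
        algebraMap E''.R (FractionRing E''.R) (kap (F.twistSet qv) ε l.1 : E''.R) •
          (natHecke (charMap (algebraMap E''.R (FractionRing E''.R))
            (sigProd (F.levelAt j qv) (F.twistSet qv) ε)) l.1).app (FractionRing E''.R) z =
          algebraMap E''.R (FractionRing E''.R) (algebraMap E'.R E''.R (ψ (F.algT n j qv l))) • z) ∧
      (natHecke (charMap (algebraMap E''.R (FractionRing E''.R))
          (sigProd (F.levelAt j qv) (F.twistSet qv) ε)) (qv i)).app (FractionRing E''.R) z =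
        algebraMap E''.R (FractionRing E''.R) β • z ∧
      residue E''.R β =
        residue E''.R (algebraMap E'.R E''.R (algebraMap F.E.R E'.R (F.alphaAt (qv i)))) ∧
      ∀ l : {l : ℕ // l.Prime ∧ l ∉ F.badSet qv},
        residue E''.R (algebraMap E'.R E''.R (ψ (F.algT n j qv l))) =
          (W.apOfModel l.1 : ResidueField E''.R) := by
  obtain ⟨E'', β, z, hT, hU, hβ, hres, hz⟩ := D.exists_point_class F h i E' ψ
  have hsig : charMap (algebraMap E''.R (FractionRing E''.R))
        (charMap (F.pointRing n j qv E' ψ E'') (F.chi n j qv)) =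
      charMap (algebraMap E''.R (FractionRing E''.R)) (sigProd (F.levelAt j qv) (F.twistSet qv)
        fun l => charMap (F.pointRing n j qv E' ψ E'') (F.eps n qv l)) := by
    rw [LiftFrame.chi, charMap_sigProd (F.pointRing n j qv E' ψ E'')]
  refine ⟨E'', β, fun l => charMap (F.pointRing n j qv E' ψ E'') (F.eps n qv l),
    tH1Cast (V := FractionRing E''.R) hsig (Diamond.toFieldClass (K := FractionRing E''.R)
      (charMap (F.pointRing n j qv E' ψ E'') (F.chi n j qv)) z), ?_, ?_, ?_, ?_, ?_, hβ, hres⟩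
  · exact fun e => hz ((tH1Cast (V := FractionRing E''.R) hsig).injective
      (e.trans (map_zero (tH1Cast (V := FractionRing E''.R) hsig)).symm))
  · intro l u
    rw [coe_charMap, F.residue_pointRing n j qv E' ψ E'', F.diamondToRes_eps, map_one]
  · exact fun l u => rfl
  · intro l
    have h3 := congrArg (fun w => tH1Cast (V := FractionRing E''.R) hsig
      (Diamond.toFieldClass (K := FractionRing E''.R)
        (charMap (F.pointRing n j qv E' ψ E'') (F.chi n j qv)) w)) (hT l)
    simp only [Diamond.toFieldClass_smul, Diamond.toFieldClass_natHecke, map_smul,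
      tH1Cast_natHecke] at h3
    rw [coe_kap_charMap (F.pointRing n j qv E' ψ E'')]
    exact h3
  · have h3 := congrArg (fun w => tH1Cast (V := FractionRing E''.R) hsig
      (Diamond.toFieldClass (K := FractionRing E''.R)
        (charMap (F.pointRing n j qv E' ψ E'') (F.chi n j qv)) w)) hU
    simp only [Diamond.toFieldClass_smul, Diamond.toFieldClass_natHecke, map_smul,
      tH1Cast_natHecke] at h3
    exact h3

set_option maxHeartbeats 2000000 in
/-- The trace of an inertia element at a Taylor–Wiles prime, at a point. -/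
theorem LiftData.trace_inertia_point (D : LiftData W p M) (F : LiftFrame W hΔ p M) {n j r : ℕ}
    {qv : Fin r → ℕ} [NeZero (F.levelAt j qv)] (h : F.IsTWTuple n qv) (i : Fin r)
    {σ : Γℚ} (hσ : σ ∈ (F.place (qv i)).inertiaSubgroupIn ℚ) {ζ : Qbˣ}
    (hζ : IsPrimitiveRoot ζ (qv i)) {g : (ZMod (qv i))ˣ}
    (hg : σ (ζ : Qb) = (ζ : Qb) ^ (g : ZMod (qv i)).val)
    (hgen : (F.eps n qv (qv i) g : F.Diamond r n) = F.gen n i)
    (E' : RepTheory.FiniteDVRExt F.E.R) (ψ : F.Alg n j qv →ₐ[F.E.R] E'.R)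
    (ρ : GaloisRepAdic E'.R) (hρ : F.IsPointRep n j qv E' ψ ρ) :
    let u := ψ (algebraMap (F.Diamond r n) (F.Alg n j qv) (F.gen n i))
    u ^ 2 - ρ.trace σ * u + 1 = 0 := by
  classical
  intro u
  obtain ⟨E'', β, ε, z, hz, hε, hεv, hT, hU, hβ, hres⟩ := D.exists_point_fieldClass F h i E' ψ
  have hqv := h.prime
  haveI : Fact (qv i).Prime := ⟨hqv i⟩
  letI : Algebra ℤ_[p] E''.R :=
    (((algebraMap E'.R E''.R).comp (algebraMap F.E.R E'.R)).comp
      (algebraMap ℤ_[p] F.E.R)).toAlgebra
  haveI : Module.Finite ℤ_[p] E''.R := RingHom.finite_algebraMap.mp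
    (((RingHom.finite_algebraMap.mpr inferInstance).comp
      (RingHom.finite_algebraMap.mpr inferInstance)).comp
      (RingHom.finite_algebraMap.mpr inferInstance))
  haveI : Module.IsTorsionFree ℤ_[p] E''.R := Module.isTorsionFree_iff_algebraMap_injective.mpr
    ((E''.injective.comp E'.injective).comp F.E.injective)
  haveI : Module.Free ℤ_[p] E''.R := Module.free_of_finite_type_torsion_free'
  have hdet : (ρ.baseChangeAlong (algebraMap E'.R E''.R) inferInstance).DetIsCyclotomic p :=
    Avoid.detIsCyclotomic_baseChangeAlong _ _ hρ.1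
  have hpO : (p : E''.R) ∈ maximalIdeal E''.R := hdet.1
  haveI : CharP (ResidueField E''.R) p := (CharP.charP_iff_prime_eq_zero Fact.out).mpr (by
    rw [← map_natCast (residue E''.R), residue_eq_zero_iff]
    exact hpO)
  let c : ℕ → E''.R := fun l => if hl : l.Prime ∧ l ∉ F.badSet qv then
    algebraMap E'.R E''.R (ψ (F.algT n j qv ⟨l, hl⟩)) else 0
  have hc : ∀ l (hl : l.Prime) (hlS : l ∉ F.badSet qv),
      c l = algebraMap E'.R E''.R (ψ (F.algT n j qv ⟨l, hl, hlS⟩)) :=
    fun l hl hlS => dif_pos ⟨hl, hlS⟩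
  have htr : ∀ l : ℕ, l.Prime → l ∉ F.badSet qv → ∀ A : ValuationSubring Qb, A.LiesOverPrime l →
      ∀ τ : Γℚ, A.IsFrobeniusAt τ l → (ρ.baseChangeAlong (algebraMap E'.R E''.R) inferInstance).trace τ = c l := fun l hl hlS A hA τ hτ => by
    rw [RepTheory.trace_baseChangeAlong, hρ.2 ⟨l, hl, hlS⟩ A hA τ hτ, hc l hl hlS]
  have hA := F.liesOver _ (hqv i)
  have hF := F.isFrobenius _ (hqv i)
  have htq : residue E''.R ((ρ.baseChangeAlong (algebraMap E'.R E''.R) inferInstance).trace (F.frob (qv i))) =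
      (W.apOfModel (qv i) : ResidueField E''.R) :=
    D.residue_trace_frob F (qv := qv) ((algebraMap E'.R E''.R).comp (algebraMap F.E.R E'.R)) (ρ.baseChangeAlong (algebraMap E'.R E''.R) inferInstance) hdet (fun l hl hlS A hA τ hτ => by
      rw [htr l hl hlS A hA τ hτ, hc l hl hlS, hres]) (hqv i) (h.notMem i) hA hF
  have hqT : qv i ∈ F.twistSet qv := Finset.mem_image_of_mem qv (Finset.mem_univ i)
  obtain ⟨-, -, -, h1, h2, -, -⟩ := D.stab_root h (l := qv i) (Finset.mem_union_left _ hqT)
  have hq1 : ((qv i : ℕ) : ResidueField F.E.R) = 1 := by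
    have := F.charP_res
    obtain ⟨d, hd⟩ := h.pow_dvd i
    have hq : qv i = p ^ (n + 1) * d + 1 := by have := (hqv i).one_le; omega
    rw [hq, Nat.cast_add, Nat.cast_mul, Nat.cast_pow, CharP.cast_eq_zero, zero_pow (by omega)]
    simp
  rw [hq1] at h1
  have hβ' : residue E''.R β = ResidueField.map ((algebraMap E'.R E''.R).comp (algebraMap F.E.R E'.R)) (residue F.E.R (F.alphaAt (qv i))) := by
    rw [hβ, ResidueField.map_residue]
    rfl
  obtain ⟨l₀, hl₀, hl₀S, hl₀1, hunit⟩ := D.exists_nonEisenstein F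
    (M' := F.levelAt j qv * ∏ l ∈ F.twistSet qv, l)
    (mul_ne_zero (NeZero.ne _) (Finset.prod_ne_zero_iff.mpr fun l hl =>
      (D.twistSet_exactly h j hl).1.ne_zero)) (F.twistSet qv)
  have hl₀bad : l₀ ∉ F.badSet qv := by rwa [LiftFrame.badSet, Finset.union_comm]
  have main := Diamond.trace_inertia_of_class (p := p) (q := qv i) (L := F.levelAt j qv) D.ne_two
    hpO (F.twistSet qv) (fun l hl => D.twistSet_exactly h j hl) hqT
    ((dvd_pow_self p (Nat.succ_ne_zero n)).trans (h.pow_dvd i))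
    ε (fun l _ w => hε l w)
    (F.badSet qv) (F.self_mem_badSet qv) (fun l hl hd => D.mem_badSet_of_dvd F hqv hl hd)
    c β z hz
    (fun l hl hlS => (hT ⟨l, hl, hlS⟩).trans (by rw [hc l hl hlS]))
    hU
    (ρ.baseChangeAlong (algebraMap E'.R E''.R) inferInstance) hdet htr hA hF
    (by
      have h5 := congrArg
        (ResidueField.map ((algebraMap E'.R E''.R).comp (algebraMap F.E.R E'.R))) h1
      rw [map_add, map_sub, map_mul, map_mul, map_one, map_intCast, map_zero] at h5
      rw [map_add, map_sub, map_mul, map_mul, map_one, htq, hβ']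
      exact h5)
    (by
      rw [htq, ← map_intCast (ResidueField.map ((algebraMap E'.R E''.R).comp (algebraMap F.E.R E'.R))), ← map_pow,
        show (4 : ResidueField E''.R) = ResidueField.map ((algebraMap E'.R E''.R).comp (algebraMap F.E.R E'.R)) 4 from (map_ofNat _ 4).symm]
      intro e
      have e' := (ResidueField.map ((algebraMap E'.R E''.R).comp (algebraMap F.E.R E'.R))).injective e
      exact h2 (sq_eq_zero_iff.mp (by linear_combination 4 * h1 + e')))
    hl₀ hl₀bad hl₀1
    (by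
      rw [hc l₀ hl₀ hl₀bad, hres, map_natCast, ← map_intCast (ResidueField.map ((algebraMap E'.R E''.R).comp (algebraMap F.E.R E'.R))),
        ← map_natCast (ResidueField.map ((algebraMap E'.R E''.R).comp (algebraMap F.E.R E'.R)))]
      intro e
      refine hunit.ne_zero ?_
      rw [(ResidueField.map ((algebraMap E'.R E''.R).comp (algebraMap F.E.R E'.R))).injective e]
      push_cast
      ring)
    (fun M' hM' =>
      have haux : F.aux ∣ M' := ((F.aux_dvd_level j).mul_right _).trans hM'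
      ⟨fun f hf => F.isParHom0_of_parabolic haux (fun m hm => Nat.cast_ne_zero.mpr fun e =>
          hm (e ▸ dvd_zero p)) f hf,
        fun f hf => F.isParHom0_of_parabolic haux
          (fun m hm e => hm ((CharP.cast_eq_zero_iff (ResidueField E''.R) p m).mp e)) f hf⟩)
    hσ hζ hg
  apply E''.injective
  rw [RepTheory.trace_baseChangeAlong] at main
  have hu : ((ε (qv i) g : E''.Rˣ) : E''.R) = algebraMap E'.R E''.R u := by
    rw [hεv, hgen]
  have hw : algebraMap E'.R E''.R u *
      (((ε (qv i) g)⁻¹ : E''.Rˣ) : E''.R) = 1 := by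
    rw [← hu, Units.mul_inv]
  rw [map_zero, map_add, map_sub, map_mul, map_pow, map_one, main, hu]
  linear_combination -hw

/-- An inertia element at a prime of the tuple acting on the roots of unity by the chosen
generator. -/
theorem LiftFrame.exists_inertia_gen (F : LiftFrame W hΔ p M) {n r : ℕ} {qv : Fin r → ℕ}
    (h : F.IsTWTuple n qv) (i : Fin r) :
    ∃ σ ∈ (F.place (qv i)).inertiaSubgroupIn ℚ, ∃ (ζ : Qbˣ) (g : (ZMod (qv i))ˣ),
      IsPrimitiveRoot ζ (qv i) ∧ σ (ζ : Qb) = (ζ : Qb) ^ (g : ZMod (qv i)).val ∧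
      (F.eps n qv (qv i) g : F.Diamond r n) = F.gen n i := by
  classical
  haveI : Fact (qv i).Prime := ⟨h.prime i⟩
  have heps : F.eps n qv (qv i) = charOfRoot (qv i) (F.gen n i) := by
    have he : ∃ k, qv k = qv i := ⟨i, rfl⟩
    rw [LiftFrame.eps, dif_pos he, h.injective he.choose_spec]
  obtain ⟨g, -, hg⟩ := exists_charOfRoot_eq (x := F.gen n i) (h.prime i) (by
    obtain ⟨d, hd⟩ := h.pow_dvd i
    rw [hd, pow_mul, F.gen_pow, one_pow])
  obtain ⟨ζ, hζ⟩ : ∃ ζ : Qb, IsPrimitiveRoot ζ (qv i) :=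
    haveI : NeZero ((qv i : ℕ) : Qb) := ⟨Nat.cast_ne_zero.mpr (h.prime i).ne_zero⟩
    ⟨_, (HasEnoughRootsOfUnity.exists_primitiveRoot Qb (qv i)).choose_spec⟩
  obtain ⟨σ, hσ, hσζ⟩ := Galois.exists_inertia_apply_eq_pow (qv i) (F.liesOver _ (h.prime i)) 1
    (g : ZMod (qv i)).val (fun hd => g.ne_zero (by
      rw [← ZMod.natCast_zmod_val (g : ZMod (qv i)), ZMod.natCast_eq_zero_iff]
      exact hd))
  refine ⟨σ, hσ, (hζ.isUnit (h.prime i).ne_zero).unit, g,
    IsPrimitiveRoot.coe_units_iff.mp (by simpa using hζ), ?_, by rw [heps, hg]⟩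
  rw [IsUnit.unit_spec]
  exact hσζ ζ (by rw [pow_one]; exact hζ.pow_eq_one)

set_option maxHeartbeats 1000000 in
/-- **The diamond relation at a Taylor–Wiles prime, point by point**, with one inertia element for
all levels. -/
theorem LiftData.point_diamond (D : LiftData W p M) (F : LiftFrame W hΔ p M) {n r : ℕ}
    {qv : Fin r → ℕ} (h : F.IsTWTuple n qv) (i : Fin r) :
    ∃ σ ∈ (F.place (qv i)).inertiaSubgroupIn ℚ, ∀ (j : ℕ) [NeZero (F.levelAt j qv)]
      (E' : RepTheory.FiniteDVRExt F.E.R) (ψ : F.Alg n j qv →ₐ[F.E.R] E'.R)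
      (ρ : GaloisRepAdic E'.R), F.IsPointRep n j qv E' ψ ρ →
        let u := ψ (algebraMap (F.Diamond r n) (F.Alg n j qv) (F.gen n i))
        u ^ 2 - ρ.trace σ * u + 1 = 0 := by
  obtain ⟨σ, hσ, ζ, g, hζ, hg, hgen⟩ := F.exists_inertia_gen h i
  exact ⟨σ, hσ, fun j _ E' ψ ρ hρ => D.trace_inertia_point F h i hσ hζ hg hgen E' ψ ρ hρ⟩

end FLTA.RT

end
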