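import Fermat.Agent.RT.Lift.ModulesLevelDef
import Fermat.Agent.RT.Lift.ModulesPointDiamond

/-!
# The diamond relation of the levels

One inertia element at each Taylor–Wiles prime gives the quadratic relation of the diamond element
in every level algebra, as the points separate.
-/

set_option autoImplicit false
set_option linter.style.haveILetI false

noncomputable section

open IsLocalRing WeierstrassCurve

namespace FLTA.RT

set_option synthInstance.maxHeartbeats 400000
set_option maxHeartbeats 2000000

local notation "Γℚ" => AlgebraicClosure ℚ ≃ₐ[ℚ] AlgebraicClosure ℚ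

variable {W : WeierstrassCurve ℤ} {hΔ : W.Δ ≠ 0} {p : ℕ} [Fact p.Prime] {M : ℕ}

/-- The empty tuple is a Taylor–Wiles tuple. -/
theorem LiftFrame.isTWTuple_noPrimes (F : LiftFrame W hΔ p M) (n : ℕ) :
    F.IsTWTuple n LiftFrame.noPrimes :=
  ⟨fun i => i.elim0, fun i => i.elim0, fun i => i.elim0, fun i => i.elim0, fun i => i.elim0⟩

/-- **The diamond relation in the level algebras.** -/
theorem LiftData.exists_diamond_trace (D : LiftData W p M) (F : LiftFrame W hΔ p M) {n r : ℕ}
    {qv : Fin r → ℕ} (h : F.IsTWTuple n qv) :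
    ∃ inertia : Fin r → Γℚ, (∀ i, inertia i ∈ (F.place (qv i)).inertiaSubgroupIn ℚ) ∧
      ∀ (j : ℕ) [NeZero (F.levelAt j qv)] (i : Fin r),
        (D.liftLevel F n j qv h).diamond (MvPowerSeries.X i) ^ 2 =
          ((D.liftLevel F n j qv h).ρ.trace (inertia i) - 2) *
            (D.liftLevel F n j qv h).diamond (1 + MvPowerSeries.X i) := by
  choose σ hσ hp using fun i => D.point_diamond F h i
  refine ⟨σ, hσ, fun j _ i => ?_⟩
  let L := D.liftLevel F n j qv h
  have key : L.diamond (1 + MvPowerSeries.X i) ^ 2 -
      L.ρ.trace (σ i) * L.diamond (1 + MvPowerSeries.X i) + 1 = 0 := by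
    by_contra hne
    obtain ⟨E', ψ, hψ⟩ := L.separated _ hne
    letI := F.algCommRing n j qv h.prime
    have hloc : IsLocalHom (ψ : L.A →+* E'.R) := Avoid.isLocalHom_of_finite ψ
    have h1 := (D.levelAlgData F n j qv h).point_rep E' ψ hloc
    have h2 := hp i j E' ψ _ h1
    simp only [RepTheory.trace_baseChangeAlong] at h2
    apply hψ
    rw [map_add, map_sub, map_mul, map_pow, map_one]
    exact h2
  show L.diamond (MvPowerSeries.X i) ^ 2 =
    (L.ρ.trace (σ i) - 2) * L.diamond (1 + MvPowerSeries.X i)
  rw [map_add, map_one] at key ⊢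
  linear_combination key

end FLTA.RT

end
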