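import Fermat.Agent.RT.DiscOld
import Fermat.Agent.RT.DiscPush
import Fermat.Agent.RT.CoeffPoint
import Fermat.Agent.RT.CoeffPointsAlg
import Fermat.Agent.RT.PointEigen

/-!
# An eigen class whose system is absent at the lower level has zero traces

Over a domain of characteristic zero: a non-zero parabolic eigen class gives a character of the
Hecke algebra, and a character of the Hecke algebra has a non-zero parabolic eigen class.  Hence, if
no character at level `M` has the eigenvalues of an eigen class at level `M q`, both traces of the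
class to level `M` vanish.
-/

set_option autoImplicit false

noncomputable section

open CongruenceSubgroup ModularCurve.Period CuspForm
open scoped MatrixGroups

namespace FLTA.RT

open FLTA.Periods FLTA.LevelRaising

section Char

variable {N : ℕ} [NeZero N] {S : Set ℕ}

/-- A non-zero parabolic eigen class gives a character of the Hecke algebra. -/
theorem exists_char_of_eigenClass (hS : ∀ q : ℕ, q.Prime → q ∣ N → q ∈ S) {K : Type} [Field K]
    [CharZero K] {v : Additive (Gamma0 N) →+ K} (hv0 : v ≠ 0)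
    (hpar : IsParabolicHom (Gamma0 N) v) (a : ℕ → K)
    (hT : ∀ l : ℕ, l.Prime → l ∉ S → heckeHom K N l v = a l • v) :
    ∃ χ : CuspForm.heckeAlgebra N 2 S →+* K,
      ∀ (l : ℕ) (hl : l.Prime) (hlN : ¬ l ∣ N) (hlS : l ∉ S),
        χ (heckeAlgebra.T hl hlN hlS) = a l := by
  obtain ⟨u, hu⟩ := exists_parQuot_factor hpar
  have hu0 : u ≠ 0 := fun h => hv0 (by rw [← hu, h]; rfl)
  let Ψ : Unit → K →+ (parQuot (Gamma0 N) →+ K) := fun _ =>
    AddMonoidHom.mk' (fun x : K => x • u) fun x y => add_smul x y u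
  have hinj : ∀ x : K, (∀ φ, Ψ φ x = 0) → x = 0 := fun x hx =>
    (smul_eq_zero.mp (hx ())).resolve_right hu0
  have hgen : ∀ (l : ℕ) (hl : l.Prime) (hlN : ¬ l ∣ N) (hlS : l ∉ S),
      ActsAs Ψ (heckeAlgebra.T hl hlN hlS) (a l • (1 : Module.End K K)) := fun l hl hlN hlS => by
    refine ⟨fun _ x => AddMonoidHom.ext fun z => ?_⟩
    obtain ⟨g, rfl⟩ := parMk_surjective (Gamma0 N) z
    have h := hT l hl hlS
    rw [heckeHom_eq_int, ← hu, heckeHom_comp, ← heckeQuot_T_comp_parMk hl hlN] at h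
    have h' : u (heckeQuot N (heckeAlgebra.T hl hlN (Set.notMem_empty l)) (parMk (Gamma0 N) g)) =
        a l * u (parMk (Gamma0 N) g) := DFunLike.congr_fun h g
    show (a l • x) * u (parMk (Gamma0 N) g) =
      x * u (heckeQuot N (heckeAlgebra.T hl hlN (Set.notMem_empty l)) (parMk (Gamma0 N) g))
    rw [h', smul_eq_mul]
    ring
  obtain ⟨θ, hθ⟩ := exists_ringHom_of_actsAs Ψ hinj hS fun l hl hlN hlS => ⟨_, hgen l hl hlN hlS⟩
  have hlin : ∀ t (x : K), θ t x = x * θ t 1 := fun t x => by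
    rw [← smul_eq_mul x (θ t 1), ← (θ t).map_smul, smul_eq_mul, mul_one]
  let χ : CuspForm.heckeAlgebra N 2 S →+* K :=
    { toFun := fun t => θ t 1
      map_one' := by show θ 1 1 = 1; rw [θ.map_one]; rfl
      map_mul' := fun t t' => by
        rw [map_mul, Module.End.mul_apply, hlin t (θ t' 1), mul_comm]
      map_zero' := by show θ 0 1 = 0; rw [θ.map_zero]; rfl
      map_add' := fun t t' => by rw [map_add]; rfl }
  refine ⟨χ, fun l hl hlN hlS => ?_⟩
  show θ (heckeAlgebra.T hl hlN hlS) 1 = a l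
  rw [(hθ _).unique Ψ hinj (hgen l hl hlN hlS), LinearMap.smul_apply, Module.End.one_apply,
    smul_eq_mul, mul_one]

/-- A character with values at the good generators in a subring takes all its values there. -/
theorem exists_char_restrict (hS : ∀ q : ℕ, q.Prime → q ∣ N → q ∈ S) {O K : Type} [CommRing O]
    [CommRing K] (ι : O →+* K) (hι : Function.Injective ι)
    (χ : CuspForm.heckeAlgebra N 2 S →+* K) (a : ℕ → O)
    (hχ : ∀ (l : ℕ) (hl : l.Prime) (hlN : ¬ l ∣ N) (hlS : l ∉ S),
      χ (heckeAlgebra.T hl hlN hlS) = ι (a l)) :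
    ∃ χ' : CuspForm.heckeAlgebra N 2 S →+* O,
      ∀ (l : ℕ) (hl : l.Prime) (hlN : ¬ l ∣ N) (hlS : l ∉ S),
        χ' (heckeAlgebra.T hl hlN hlS) = a l := by
  have hmem : ∀ t, χ t ∈ ι.range := fun t => by
    obtain ⟨y, hy⟩ := t
    induction hy using Algebra.adjoin_induction with
    | mem z hz =>
      rcases hz with ⟨l, hl, hlN, hlS, rfl⟩ | ⟨q, hqN, hq, hqS, rfl⟩
      · exact ⟨a l, (hχ l hl hlN hlS).symm⟩
      · exact absurd (hS q hq hqN) hqS
    | algebraMap r =>
      show χ (algebraMap ℤ (CuspForm.heckeAlgebra N 2 S) r) ∈ _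
      rw [eq_intCast, map_intCast]
      exact intCast_mem _ r
    | add z w hz hw h1 h2 =>
      let u : CuspForm.heckeAlgebra N 2 S := ⟨z, hz⟩
      let v : CuspForm.heckeAlgebra N 2 S := ⟨w, hw⟩
      change χ (u + v) ∈ _
      rw [map_add]
      exact add_mem h1 h2
    | mul z w hz hw h1 h2 =>
      let u : CuspForm.heckeAlgebra N 2 S := ⟨z, hz⟩
      let v : CuspForm.heckeAlgebra N 2 S := ⟨w, hw⟩
      change χ (u * v) ∈ _
      rw [map_mul]
      exact mul_mem h1 h2
  choose f hf using hmem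
  let χ' : CuspForm.heckeAlgebra N 2 S →+* O :=
    { toFun := f
      map_one' := hι (by rw [hf, map_one, map_one])
      map_mul' := fun t t' => hι (by rw [map_mul, hf, hf, hf, map_mul])
      map_zero' := hι (by rw [hf, map_zero, map_zero])
      map_add' := fun t t' => hι (by rw [map_add, hf, hf, hf, map_add]) }
  exact ⟨χ', fun l hl hlN hlS => hι ((hf _).trans (hχ l hl hlN hlS))⟩

/-- A character of the Hecke algebra has a non-zero parabolic eigen class. -/
theorem exists_eigenClass_of_char {O : Type} [CommRing O] [IsDomain O] [CharZero O]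
    (χ : CuspForm.heckeAlgebra N 2 S →+* O) :
    ∃ u : Additive (Gamma0 N) →+ O, u ≠ 0 ∧ IsParabolicHom (Gamma0 N) u ∧
      ∀ (l : ℕ) (hl : l.Prime) (hlN : ¬ l ∣ N) (hlS : l ∉ S),
        heckeHom O N l u = χ (heckeAlgebra.T hl hlN hlS) • u := by
  classical
  let K := FractionRing O
  let ι : O →+* K := algebraMap O K
  have hι : Function.Injective ι := IsFractionRing.injective O K
  let pre : CuspForm.heckeAlgebra N 2 S →+* Module.End ℤ (parQuot (Gamma0 N)) :=
    (heckeQuot N).comp (toFull N S)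
  let _ : Module (CuspForm.heckeAlgebra N 2 S) (parQuot (Gamma0 N)) :=
    Module.compHom _ pre
  have hsmul : ∀ (t : CuspForm.heckeAlgebra N 2 S) (x : parQuot (Gamma0 N)),
      t • x = heckeQuot N (toFull N S t) x := fun _ _ => rfl
  have : IsScalarTower ℤ (CuspForm.heckeAlgebra N 2 S) (parQuot (Gamma0 N)) :=
    ⟨fun m t x => smul_assoc m t x⟩
  have : Module.Finite (CuspForm.heckeAlgebra N 2 S) (parQuot (Gamma0 N)) :=
    Module.Finite.of_restrictScalars_finite ℤ _ _
  obtain ⟨g, hg0, hg⟩ := exists_eigenFunctional (A := CuspForm.heckeAlgebra N 2 S)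
    (Q := parQuot (Gamma0 N)) (K := K) (fun t ht =>
      Subalgebra.inclusion_injective (CuspForm.heckeAlgebra_mono (Set.empty_subset S))
        (((injective_iff_map_eq_zero (heckeQuot N)).mp (heckeQuot_injective N)
          (toFull N S t) (LinearMap.ext fun x => (hsmul t x).symm.trans (ht x))).trans (map_zero (toFull N S)).symm))
    (ι.comp χ)
  let b := Module.Free.chooseBasis ℤ (parQuot (Gamma0 N))
  obtain ⟨s, hs⟩ := IsLocalization.exist_integer_multiples_of_finite (nonZeroDivisors O)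
    fun i => g (b i)
  choose c hc using hs
  have hint : ∀ x, ∃ o : O, ι o = ι s * g x := fun x => by
    refine ⟨∑ i, b.repr x i • c i, ?_⟩
    conv_rhs => rw [← b.sum_repr x, map_sum, Finset.mul_sum]
    rw [map_sum]
    refine Finset.sum_congr rfl fun i _ => ?_
    rw [map_zsmul, map_zsmul, mul_smul_comm, show ι (c i) = ι s * g (b i) from
      (hc i).trans (Algebra.smul_def _ _)]
  choose w hw using hint
  let u : parQuot (Gamma0 N) →+ O := AddMonoidHom.mk' w fun x y => hι (by
    rw [map_add, hw, hw, hw, map_add, mul_add])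
  have hs0 : ι s ≠ 0 := (map_ne_zero_iff _ hι).mpr (nonZeroDivisors.ne_zero s.2)
  refine ⟨u.comp (parMk (Gamma0 N)), fun h0 => hg0 (AddMonoidHom.ext fun x => ?_),
    isParabolicHom_comp_parMk u, fun l hl hlN hlS => ?_⟩
  · obtain ⟨y, rfl⟩ := parMk_surjective (Gamma0 N) x
    have h1 : w (parMk (Gamma0 N) y) = 0 := DFunLike.congr_fun h0 y
    have h2 := hw (parMk (Gamma0 N) y)
    rw [h1, map_zero] at h2
    exact (mul_eq_zero.mp h2.symm).resolve_left hs0
  · rw [heckeHom_eq_int, heckeHom_comp, ← heckeQuot_T_comp_parMk hl hlN]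
    refine AddMonoidHom.ext fun y => hι ?_
    show ι (w (heckeQuot N (heckeAlgebra.T hl hlN (Set.notMem_empty l)) (parMk (Gamma0 N) y))) =
      ι (χ (heckeAlgebra.T hl hlN hlS) * w (parMk (Gamma0 N) y))
    rw [map_mul, hw, hw, mul_left_comm]
    refine congrArg (ι s * ·) ?_
    let t : CuspForm.heckeAlgebra N 2 S := heckeAlgebra.T hl hlN hlS
    have h := hg t (parMk (Gamma0 N) y)
    rw [hsmul t (parMk (Gamma0 N) y)] at h
    exact h

/-- An eigen class over an extension field with values at the good primes in `O` and a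
non-Eisenstein prime vanishes if no character has these values. -/
theorem eigenClass_eq_zero_of_noChar (hS : ∀ q : ℕ, q.Prime → q ∣ N → q ∈ S) {O K : Type}
    [CommRing O] [Field K] [CharZero K] (ι : O →+* K) (hι : Function.Injective ι) (a : ℕ → O)
    {l₀ : ℕ} (hl₀ : l₀.Prime) (hl₀S : l₀ ∉ S) (hl₀1 : (l₀ : ZMod N) = 1)
    (hne : a l₀ ≠ (l₀ : O) + 1)
    (hno : ¬ ∃ χ : CuspForm.heckeAlgebra N 2 S →+* O,
      ∀ (l : ℕ) (hl : l.Prime) (hlN : ¬ l ∣ N) (hlS : l ∉ S),
        χ (heckeAlgebra.T hl hlN hlS) = a l)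
    {v : Additive (Gamma0 N) →+ K}
    (hv : ∀ l : ℕ, l.Prime → l ∉ S → heckeHom K N l v = ι (a l) • v) : v = 0 := by
  by_contra hv0
  have := Fact.mk hl₀
  have hl₀N : ¬ l₀ ∣ N := fun h => hl₀S (hS l₀ hl₀ h)
  have hpar : IsParabolicHom (Gamma0 N) v := fun g hg => by
    have h := isParabolicHom_of_eisenstein K (fun z hz => by simpa using hz) hl₀N hl₀1 v g hg
    rw [hv l₀ hl₀ hl₀S, AddMonoidHom.sub_apply, AddMonoidHom.smul_apply,
      AddMonoidHom.smul_apply, nsmul_eq_mul, smul_eq_mul, ← sub_mul] at h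
    refine (mul_eq_zero.mp h).resolve_left (sub_ne_zero.mpr fun e => hne (hι ?_))
    rw [map_add, map_natCast, map_one, e, Nat.cast_succ]
  obtain ⟨ψ, hψ⟩ := exists_char_of_eigenClass hS hv0 hpar (fun l => ι (a l)) hv
  exact hno (exists_char_restrict hS ι hι ψ a hψ)

end Char

section Traces

variable {q M K' : ℕ} [Fact q.Prime] [NeZero q] [NeZero M] {S : Set ℕ}

/-- If no character of level `M` has the eigenvalues of a class of level `M q`, both traces of
the class to level `M` vanish. -/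
theorem sum_transCocyc_eq_zero_of_noChar (hqM : Nat.Coprime q M) (hKM : M ∣ K')
    (hqK : Nat.Coprime q K') (hqS : q ∈ S) (hS : ∀ s : ℕ, s.Prime → s ∣ M → s ∈ S)
    {O : Type} [CommRing O] [IsDomain O] [CharZero O] (a : ℕ → O) {l₀ : ℕ} (hl₀ : l₀.Prime)
    (hl₀S : l₀ ∉ S) (hl₀1 : (l₀ : ZMod M) = 1) (hne : a l₀ ≠ (l₀ : O) + 1)
    (u : Additive (Gamma0 (M * q)) →+ O)
    (hu : ∀ l : ℕ, l.Prime → l ∉ S → heckeHom O (M * q) l u = a l • u)
    (hno : ¬ ∃ χ : CuspForm.heckeAlgebra M 2 S →+* O,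
      ∀ (l : ℕ) (hl : l.Prime) (hlN : ¬ l ∣ M) (hlS : l ∉ S),
        χ (heckeAlgebra.T hl hlN hlS) = a l) (b : Bool) (γ : Gamma0 M) :
    ∑ i, u (Additive.ofMul
      (Disc.transCocyc hqM hKM (Disc.isTrans_sideTrans hqK b) γ i)) = 0 := by
  classical
  let K := FractionRing O
  let ι : O →+* K := algebraMap O K
  have hι : Function.Injective ι := IsFractionRing.injective O K
  have hK : CharZero K := charZero_of_injective_ringHom hι
  let uK : Additive (Gamma0 (M * q)) →+ K := ι.toAddMonoidHom.comp u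
  have huK : ∀ l : ℕ, l.Prime → l ∉ S → heckeHom K (M * q) l uK = ι (a l) • uK := fun l hl hlS => by
    rw [heckeHom_eq_int, heckeHom_comp, ← heckeHom_eq_int O, hu l hl hlS]
    refine AddMonoidHom.ext fun y => ?_
    show ι (a l * u y) = ι (a l) * ι (u y)
    rw [map_mul]
  set χ : (ZMod M)ˣ →* Kˣ := 1 with hχ
  have htriv : ∀ γ (v : K), (gamChar χ γ : K) • v = v := triv_one M
  have := Disc.finite_index_gamma0 M q
  obtain ⟨x, hx⟩ := (tH1EquivHom (triv_chiUp (q := q) χ htriv)).surjective uK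
  have hnz : ∀ v : Additive (Gamma0 M) →+ K,
      (∀ l : ℕ, l.Prime → l ∉ S → heckeHom K M l v = ι (a l) • v) → v = 0 := fun v hv =>
    eigenClass_eq_zero_of_noChar hS ι hι a hl₀ hl₀S hl₀1 hne hno hv
  have hdeg : ∀ l : ℕ, l.Prime → l ∉ S →
      (∀ y, (natHecke χ l).app K (degCor χ K y) =
        degCor χ K ((natHecke (chiUp χ q) l).app K y)) ∧
      ∀ y, (natHecke χ l).app K (degCor χ K (degAL χ K hqM y)) =
        degCor χ K (degAL χ K hqM ((natHecke (chiUp χ q) l).app K y)) := fun l hl hlS =>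
    have H := degIntertwines_natHecke (χ := χ) hqM (fun _ : Unit => l) (fun _ => hl)
      (fun _ e => hlS (e ▸ hqS))
    ⟨H.cor () K, H.corAL () K⟩
  have hTx : ∀ l : ℕ, l.Prime → l ∉ S →
      (natHecke (chiUp χ q) l).app K x = ι (a l) • x := fun l hl hlS =>
    (tH1EquivHom (triv_chiUp (q := q) χ htriv)).injective (by
      rw [tH1EquivHom_natHecke _ _ hl, map_smul, hx, huK l hl hlS])
  have h0 : ∀ l, degDown hqM χ K l x = 0 := by
    intro l
    refine (tH1EquivHom htriv).injective ?_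
    rw [map_zero]
    refine hnz _ fun s hs hsS => ?_
    rw [← tH1EquivHom_natHecke χ htriv hs, ← map_smul]
    refine congrArg (tH1EquivHom htriv) ?_
    fin_cases l
    · show (natHecke χ s).app K (degCor χ K x) = ι (a s) • degCor χ K x
      rw [(hdeg s hs hsS).1, hTx s hs hsS, map_smul]
    · show (natHecke χ s).app K (degCor χ K (degAL χ K hqM x)) =
        ι (a s) • degCor χ K (degAL χ K hqM x)
      rw [(hdeg s hs hsS).2, hTx s hs hsS, map_smul, map_smul]
  refine hι ?_
  rw [map_sum, map_zero]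
  have h := congrArg (tH1EquivHom htriv)
    (Disc.trSys_op_eq_zero hqM hKM (Disc.isTrans_sideTrans hqK b) χ x h0)
  rw [map_zero] at h
  have h' := DFunLike.congr_fun h (Additive.ofMul γ)
  obtain ⟨f, rfl⟩ := tClass_surjective (gamChar (chiUp χ q)) x
  rw [TSys.op_class] at h'
  refine Eq.trans ?_ h'
  show ∑ i, ι (u _) = ∑ i, ((1 : Kˣ) : K) • f.1 (Disc.transCocyc hqM hKM _ γ i)
  refine Finset.sum_congr rfl fun i _ => ?_
  rw [Units.val_one, one_smul]
  exact (DFunLike.congr_fun hx _).symm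

end Traces

end FLTA.RT

end
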