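import Fermat.Agent.RT.Lift.SetupFacts
import Fermat.Agent.LevelRaising.Irreducible
import Fermat.Agent.RepTheory.DVRExtension

/-!
# The roots at the stabilised primes and non-Eisenstein primes

At a prime of the tuple Frobenius has distinct eigenvalues and norm `1`; at the auxiliary prime
(`p = 3`) its norm is `-1` and its trace is nonzero.  In both cases the chosen root is simple.
-/

set_option autoImplicit false

noncomputable section

open IsLocalRing WeierstrassCurve Polynomial

namespace FLTA.RT

open FLTA.LevelLowering (planeRep planeRep_frobenius)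

variable {W : WeierstrassCurve ℤ} {hΔ : W.Δ ≠ 0} {p : ℕ} [Fact p.Prime] {M : ℕ}

namespace LiftData

variable {F : LiftFrame W hΔ p M} (D : LiftData W p M)
include D

/-- The residual characteristic polynomial at the Frobenius of a good prime and the chosen root. -/
theorem root_rel {l : ℕ} (hl : l.Prime) (hlp : l ≠ p) (hl2 : l ≠ 2) (hg : W.IsGoodPrimeFor l) :
    ∃ β : ResidueField F.E.R,
      residue F.E.R (F.alphaAt l) + β = (W.apOfModel l : ResidueField F.E.R) ∧
      residue F.E.R (F.alphaAt l) * β = (l : ResidueField F.E.R) ∧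
      LinearMap.charpoly (F.rhobar.ρ (F.frob l)) =
        (X - C (residue F.E.R (F.alphaAt l))) * (X - C β) := by
  obtain ⟨ht, hd⟩ := planeRep_frobenius hΔ D.ne_two hl hl2 hg hlp (F.liesOver _ hl)
    (F.isFrobenius _ hl)
  have hcp : LinearMap.charpoly (F.rhobar.ρ (F.frob l)) =
      X ^ 2 - C (W.apOfModel l : ResidueField F.E.R) * X + C (l : ResidueField F.E.R) := by
    show LinearMap.charpoly (((planeRep hΔ (p := p)).baseChangeAlong F.φ).ρ (F.frob l)) = _
    rw [RepTheory.residual_charpoly_baseChangeAlong,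
      RepTheory.charpoly_of_finrank_two (planeRep hΔ (p := p)).finrank_eq, ht, hd]
    simp
  obtain ⟨β, hβ⟩ := (F.split (F.frob l)).choose_spec
  have hα : residue F.E.R (F.alphaAt l) = (F.split (F.frob l)).choose :=
    Function.surjInv_eq residue_surjective _
  rw [← hα] at hβ
  have h := hcp.symm.trans hβ
  have h1 := congrArg (fun P => P.coeff 1) h
  have h0 := congrArg (fun P => P.coeff 0) h
  simp [coeff_X_pow, mul_sub, sub_mul, coeff_X, ← map_mul] at h1 h0
  exact ⟨β, by linear_combination h1, h0.symm, hβ⟩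

/-- The chosen root at a prime of the tuple or at the auxiliary prime. -/
theorem stab_root {n r : ℕ} {qv : Fin r → ℕ} (h : F.IsTWTuple n qv) {l : ℕ}
    (hl : l ∈ F.stabSet qv) :
    let α := residue F.E.R (F.alphaAt l)
    let a := (W.apOfModel l : ResidueField F.E.R)
    let c := ((l : ℕ) : ResidueField F.E.R)
    l ≠ p ∧ l ≠ 2 ∧ W.IsGoodPrimeFor l ∧
      α * α - a * α + c = 0 ∧ α + α - a ≠ 0 ∧ α * α - 1 ≠ 0 ∧ (c + 1) * α - a ≠ 0 := by
  intro α a c
  have := F.charP_res
  rcases Finset.mem_union.mp hl with hl' | hl'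
  · obtain ⟨i, -, rfl⟩ := Finset.mem_image.mp hl'
    obtain ⟨hlp, hl2, -, -, hg, -⟩ := D.avoided_props (h.prime i) (h.notMem i)
    refine ⟨hlp, hl2, hg, ?_⟩
    obtain ⟨β, hs, hm, hβ⟩ := D.root_rel (F := F) (h.prime i) hlp hl2 hg
    have hc : c = 1 := by
      obtain ⟨d, hd⟩ := h.pow_dvd i
      have hq : qv i = p ^ (n + 1) * d + 1 := by have := (h.prime i).one_le; omega
      show ((qv i : ℕ) : ResidueField F.E.R) = 1
      rw [hq, Nat.cast_add, Nat.cast_mul, Nat.cast_pow, CharP.cast_eq_zero, zero_pow (by omega)]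
      simp
    obtain ⟨α', β', hne, hcp⟩ := h.distinct i _ (F.liesOver _ (h.prime i)) _
      (F.isFrobenius _ (h.prime i))
    have hαβ : α ≠ β := by
      intro he
      apply hne
      have e := hβ.symm.trans hcp
      have e1 := congrArg (fun P => P.coeff 1) e
      have e0 := congrArg (fun P => P.coeff 0) e
      simp [mul_sub, sub_mul, coeff_X, ← map_mul] at e1 e0
      have : (α' - β') ^ 2 = 0 := by
        linear_combination (α' + β' + α + β) * e1 + 4 * e0 + (α - β) * he
      exact sub_eq_zero.mp (sq_eq_zero_iff.mp this)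
    refine ⟨by linear_combination α * hs - hm, fun h0 => hαβ (by linear_combination h0 - hs),
      fun h0 => hαβ ?_, fun h0 => hαβ ?_⟩
    · linear_combination α * (hm.trans hc) * (-1 : ResidueField F.E.R) + β * h0
    · rw [hc] at h0
      linear_combination h0 - hs
  · obtain ⟨hlp', hd, -⟩ := Nat.mem_primeFactors.mp hl'
    rcases F.aux_spec with ⟨-, e⟩ | ⟨h3, ha, ha2, ha3, -, hg, hap⟩
    · rw [e] at hd
      exact absurd (Nat.dvd_one.mp hd) hlp'.ne_one
    · obtain rfl := (Nat.prime_dvd_prime_iff_eq hlp' ha).mp hd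
      have hlp : F.aux ≠ p := fun e => by rw [e, h3] at ha3; simp at ha3
      refine ⟨hlp, ha2, hg, ?_⟩
      obtain ⟨β, hs, hm, -⟩ := D.root_rel (F := F) ha hlp ha2 hg
      have hc : c = -1 := by
        have h3' : ((3 : ℕ) : ResidueField F.E.R) = 0 := by
          rw [← h3]
          exact F.natCast_res_eq_zero
        have e : F.aux = 3 * (F.aux / 3) + 2 := by omega
        show ((F.aux : ℕ) : ResidueField F.E.R) = -1
        rw [e, Nat.cast_add, Nat.cast_mul, h3']
        push_cast at h3'
        linear_combination h3'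
      have ha0 : a ≠ 0 := by
        show (W.apOfModel F.aux : ResidueField F.E.R) ≠ 0
        rw [F.intCast_res, map_ne_zero_iff _ F.φ.injective, Ne,
          ZMod.intCast_zmod_eq_zero_iff_dvd]
        exact hap
      have ha1 : a * a = 1 := by
        show (W.apOfModel F.aux : ResidueField F.E.R) * (W.apOfModel F.aux : ResidueField F.E.R) = 1
        rw [F.intCast_res, ← map_mul, ← map_one F.φ]
        congr 1
        have key : ∀ x : ZMod 3, x ≠ 0 → x * x = 1 := by decide
        subst h3
        exact key _ fun e => ha0 (by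
          show (W.apOfModel F.aux : ResidueField F.E.R) = 0
          rw [F.intCast_res, e, map_zero])
      have h2 : (2 : ResidueField F.E.R) ≠ 0 := by
        exact_mod_cast F.natCast_res_ne_zero (m := 2) (by rw [h3]; decide)
      have h3' : (3 : ResidueField F.E.R) = 0 := by
        exact_mod_cast (congrArg (Nat.cast : ℕ → ResidueField F.E.R) h3).symm.trans
          F.natCast_res_eq_zero
      have hα0 : α ≠ 0 := fun e => by
        rw [show residue F.E.R (F.alphaAt F.aux) = α from rfl, e, zero_mul] at hm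
        exact neg_ne_zero.mpr one_ne_zero (hc.symm.trans hm.symm)
      refine ⟨by linear_combination α * hs - hm, fun h0 => h2 ?_, fun h0 => ?_, fun h0 => ha0 ?_⟩
      · linear_combination (2 * α - a) * h0 - 4 * α * hs + 4 * hm + 4 * hc - ha1 - h3'
      · have : a * α = 0 := by linear_combination h0 - α * hs + hm + hc
        exact (mul_ne_zero ha0 hα0) this
      · linear_combination α * hc - h0

/-- A prime `l ≡ 1 mod M'` outside `S` and the avoided set with `a_l ≢ l + 1`. -/
theorem exists_nonEisenstein (F : LiftFrame W hΔ p M) {M' : ℕ} (hM : M' ≠ 0) (S : Finset ℕ) :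
    ∃ l : ℕ, l.Prime ∧ l ∉ S ∪ F.avoided ∧ (l : ZMod M') = 1 ∧
      IsUnit ((W.apOfModel l : ResidueField F.E.R) - ((l : ResidueField F.E.R) + 1)) := by
  have : (W.map (Int.castRingHom ℚ)).IsElliptic :=
    ⟨by rw [WeierstrassCurve.map_Δ, isUnit_iff_ne_zero]; simpa using hΔ⟩
  obtain ⟨l, hl, hlS, -, -, hl1, hne⟩ := FLTA.LevelRaising.exists_good_prime_one_mod_ne
    (W.map (Int.castRingHom ℚ)) (W := W) ⟨1, one_smul _ _⟩ Fact.out D.ne_two D.curve.irreducible
    hM (S ∪ F.avoided)
  refine ⟨l, hl, hlS, hl1, IsUnit.mk0 _ fun h => hne ?_⟩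
  apply F.φ.injective
  rw [map_add, map_one, map_natCast, map_intCast]
  exact sub_eq_zero.mp h

end LiftData

end FLTA.RT

end
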