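import Fermat.Agent.RT.Lift.Frame
import Fermat.Agent.RT.DeformBase
import Fermat.Agent.Galois.Places
import Fermat.Agent.RT.LocalSite
import Fermat.Prelude.Def_GaloisRep_StrictOrdinary

/-!
# Strictly ordinary representations over a domain have vanishing defect of strictness

With triangular basis at the place over `p` the inertia element is `(d, *; 0, 1)` and Frobenius is
`(x, *; 0, z)`, so `lam = (d - 1) z`; strictness and `x z ≡ a` modulo every `p ^ n` give `z ^ 2 = 1`.
-/

set_option autoImplicit false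

noncomputable section

open IsLocalRing WeierstrassCurve

namespace FLTA.RT.LiftFrame

local notation "Γℚ" => AlgebraicClosure ℚ ≃ₐ[ℚ] AlgebraicClosure ℚ

variable {W : WeierstrassCurve ℤ} {hΔ : W.Δ ≠ 0} {p : ℕ} [Fact p.Prime] {M : ℕ}
  (F : LiftFrame W hΔ p M)

/-- A strictly ordinary representation with cyclotomic determinant has defect zero. -/
theorem strictDefect_eq_zero_of_strict {A : Type} [CommRing A] [IsLocalRing A]
    [IsNoetherianRing A] {ρ : GaloisRepAdic A} (hdet : ρ.DetIsCyclotomic p)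
    (hs : ρ.IsStrictOrdinaryAt p) : F.strictDefect ρ = 0 := by
  have hP := F.liesOver p Fact.out
  obtain ⟨L, ⟨b, rfl⟩, hD, hI, hS⟩ := hs.2 (F.place p) hP
  have hφ : F.frob p ∈ (F.place p).decompositionSubgroup ℚ :=
    (FLTA.Galois.isFrobeniusAt_iff.mp (F.isFrobenius p Fact.out)).1
  set G := LinearMap.toMatrixAlgEquiv b (ρ.ρ F.inert) with hG
  set P := LinearMap.toMatrixAlgEquiv b (ρ.ρ (F.frob p)) with hPm
  have line : ∀ v ∈ A ∙ b 0, b.repr v 1 = 0 := fun v hv => by
    obtain ⟨c, rfl⟩ := Submodule.mem_span_singleton.mp hv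
    simp
  have mem0 : b 0 ∈ A ∙ b 0 := Submodule.mem_span_singleton_self _
  have g10 : G 1 0 = 0 := by
    have h0 := line _ (hI _ F.inert_mem (b 0))
    simp at h0
    simpa [hG, LinearMap.toMatrixAlgEquiv_apply] using h0
  have g11 : G 1 1 = 1 := by
    have h1 := line _ (hI _ F.inert_mem (b 1))
    simp [sub_eq_zero] at h1
    simpa [hG, LinearMap.toMatrixAlgEquiv_apply] using h1
  have p10 : P 1 0 = 0 := by
    simpa [hPm, LinearMap.toMatrixAlgEquiv_apply] using line _ (hD _ hφ _ mem0)
  obtain ⟨x, z, hx, hz, hxz⟩ := hS _ hφ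
  have px : P 0 0 = x := by
    simp [hPm, LinearMap.toMatrixAlgEquiv_apply, hx _ mem0]
  have pz : P 1 1 = z := by
    have h := line _ (hz (b 1))
    simp [sub_eq_zero] at h
    simpa [hPm, LinearMap.toMatrixAlgEquiv_apply] using h
  have hdetM : ∀ σ, LinearMap.det (ρ.ρ σ) = (LinearMap.toMatrixAlgEquiv b (ρ.ρ σ)).det := fun σ =>
    (LinearMap.det_toMatrix b (ρ.ρ σ)).symm
  have htr : ∀ f : Module.End A ρ.V,
      LinearMap.trace A ρ.V f = (LinearMap.toMatrixAlgEquiv b f).trace :=
    fun f => LinearMap.trace_eq_matrix_trace A b f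
  have hdP : LinearMap.det (ρ.ρ (F.frob p)) = x * z := by
    rw [hdetM, ← hPm, Matrix.det_fin_two, p10, px, pz]
    ring
  -- `x z ^ 2 = x`
  have hxz2 : x * z * z = x := by
    refine sub_eq_zero.mp (LocalGalois.eq_zero_of_forall_mem_pow fun n => ?_)
    obtain ⟨a, ha⟩ := exists_isExp (p := p) n (F.frob p)
    have h1 := Ideal.mul_mem_right z _ (hdet.2 n (F.frob p) a ha)
    have h2 := hxz n a ha
    have h : x * z * z - x ∈ Ideal.span {((p ^ n : ℕ) : A)} := by
      rw [hdP] at h1
      have := sub_mem h1 h2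
      convert this using 1
      ring
    refine (Ideal.span_le.mpr ?_) h
    rintro _ rfl
    rw [Nat.cast_pow]
    exact Ideal.pow_mem_pow hdet.1 n
  have hxu : IsUnit (x * z) := by
    rw [← hdP]
    exact LinearMap.isUnit_det _ ((Group.isUnit (F.frob p)).map ρ.ρ)
  have hz2 : z * z = 1 := by
    have h : x * (z * z - 1) = 0 := by linear_combination hxz2
    exact sub_eq_zero.mp ((isUnit_of_mul_isUnit_left hxu).mul_right_eq_zero.mp h)
  have hd : (ρ.det F.inert : A) = G 0 0 := by
    show LinearMap.det (ρ.ρ F.inert) = _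
    rw [hdetM, ← hG, Matrix.det_fin_two, g10, g11]
    ring
  rw [strictDefect, lam, GaloisRepAdic.trace, GaloisRepAdic.trace, map_mul, htr, htr, map_mul,
    ← hG, ← hPm, hd]
  simp only [Matrix.trace_fin_two, Matrix.mul_apply, Fin.sum_univ_two, g10, g11, p10, px, pz]
  linear_combination (G 0 0 - 1) ^ 2 * hz2

end FLTA.RT.LiftFrame

end
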