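import Fermat.Agent.RT.Lift.ModulesFlat
import Fermat.Agent.RT.AtP.NewClass
import Fermat.Agent.RT.Lift.NewDichotomy
import Fermat.Agent.RT.Lift.StrictDefect
import Fermat.Agent.RT.Lift.LevelPoint
import Fermat.Agent.RT.Lift.SetupRoots
import Fermat.Agent.RT.Lift.ModulesAwayLevel

/-!
# At a multiplicative `p` every ordinary point is flat or strict

An eigen system of a point either occurs at the level without `p`, and then the point is flat, or
its eigen class has zero traces to that level, and then the point is strictly ordinary.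
-/

set_option autoImplicit false

noncomputable section

open IsLocalRing Polynomial CuspForm WeierstrassCurve CongruenceSubgroup

namespace FLTA.RT.LiftFrame

attribute [local instance] Datum.factIntegral

set_option synthInstance.maxHeartbeats 400000
set_option maxHeartbeats 1000000

local notation "Γℚ" => AlgebraicClosure ℚ ≃ₐ[ℚ] AlgebraicClosure ℚ

variable {W : WeierstrassCurve ℤ} {hΔ : W.Δ ≠ 0} {p : ℕ} [Fact p.Prime] {M : ℕ}
  (F : LiftFrame W hΔ p M) {r : ℕ} {qv : Fin r → ℕ}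

/-- The dichotomy at a representation over an extension. -/
theorem isFlatAt_or_strictDefect_of_char (D : LiftData W p M) {N' : ℕ} [NeZero N']
    (hpN' : ¬ p ∣ N') {N : ℕ} [NeZero N] (hN : N = N' * p)
    (hNS : ∀ l : ℕ, l.Prime → l ∣ N → l ∈ F.badSet qv) {E' : RepTheory.FiniteDVRExt F.E.R}
    (χ : CuspForm.heckeAlgebra N 2 (↑(F.badSet qv) : Set ℕ) →+* E'.R)
    (hres : ∀ (l : ℕ) (hl : l.Prime) (hlN : ¬ l ∣ N) (hlS : l ∉ (↑(F.badSet qv) : Set ℕ)),
      residue E'.R (χ (heckeAlgebra.T hl hlN hlS)) = (W.apOfModel l : ResidueField E'.R))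
    (ρ : GaloisRepAdic E'.R) (hdet : ρ.DetIsCyclotomic p) (hord : ρ.IsOrdinaryAt p)
    (hρ : ∀ (l : ℕ) (hl : l.Prime) (hlN : ¬ l ∣ N) (hlS : l ∉ (↑(F.badSet qv) : Set ℕ)),
      ∀ P : ValuationSubring (AlgebraicClosure ℚ), P.LiesOverPrime l →
        ∀ σ : Γℚ, P.IsFrobeniusAt σ l → ρ.trace σ = χ (heckeAlgebra.T hl hlN hlS)) :
    ρ.IsFlatAt p ∨ F.strictDefect ρ = 0 := by
  classical
  subst hN
  have hp : p.Prime := Fact.out
  have : NeZero p := ⟨hp.ne_zero⟩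
  have hN'S : ∀ l : ℕ, l.Prime → l ∣ N' → l ∈ (F.badSet qv) := fun l hl hd => hNS l hl (hd.mul_right p)
  have hgood : ∀ l : ℕ, l.Prime → l ∉ (↑(F.badSet qv) : Set ℕ) → ¬ l ∣ N' * p := fun l hl hlS hd =>
    hlS (Finset.mem_coe.mpr (hNS l hl hd))
  let a : ℕ → E'.R := fun l => if h : l.Prime ∧ l ∉ (↑(F.badSet qv) : Set ℕ) then
    χ (heckeAlgebra.T h.1 (hgood l h.1 h.2) h.2) else 0
  have ha : ∀ (l : ℕ) (hl : l.Prime) (hlN : ¬ l ∣ N' * p) (hlS : l ∉ (↑(F.badSet qv) : Set ℕ)),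
      a l = χ (heckeAlgebra.T hl hlN hlS) := fun l hl _ hlS => dif_pos ⟨hl, hlS⟩
  have hne : ∀ (l : ℕ), l.Prime → l ∉ (↑(F.badSet qv) : Set ℕ) →
      IsUnit ((W.apOfModel l : ResidueField F.E.R) - ((l : ResidueField F.E.R) + 1)) →
      a l ≠ (l : E'.R) + 1 := fun l hl hlS hu e => hu.ne_zero <| by
    refine (ResidueField.map (algebraMap F.E.R E'.R)).injective ?_
    rw [map_zero, map_sub, map_add, map_one, map_intCast, map_natCast,
      ← hres l hl (hgood l hl hlS) hlS, ← ha l hl (hgood l hl hlS) hlS, e, map_add, map_one,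
      map_natCast, sub_self]
  by_cases hold : ∃ χ' : CuspForm.heckeAlgebra N' 2 (↑(F.badSet qv) : Set ℕ) →+* E'.R,
      ∀ (l : ℕ) (hl : l.Prime) (hlN : ¬ l ∣ N') (hlS : l ∉ (↑(F.badSet qv) : Set ℕ)),
        χ' (heckeAlgebra.T hl hlN hlS) = a l
  · obtain ⟨χ', hχ'⟩ := hold
    refine Or.inl (F.isFlatAt_of_old D ρ hdet N' hpN' hN'S χ' (fun l hl hlN hlS => ?_)
      fun l hl hlN hlS P hP σ hσ => ?_)
    · rw [hχ', ha l hl (hgood l hl hlS) hlS]
      exact hres l hl _ _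
    · rw [hχ', ha l hl (hgood l hl hlS) hlS]
      exact hρ l hl _ _ P hP σ hσ
  · refine Or.inr (F.strictDefect_eq_zero_of_strict hdet ?_)
    have hcop : Nat.Coprime p N' := hp.coprime_iff_not_dvd.mpr hpN'
    obtain ⟨l₀, hl₀, hl₀S, hl₀1, hu₀⟩ := D.exists_nonEisenstein F (NeZero.ne N') (F.badSet qv)
    have hl₀S' : l₀ ∉ (↑(F.badSet qv) : Set ℕ) := fun h =>
      hl₀S (Finset.mem_union_left _ (Finset.mem_coe.mp h))
    obtain ⟨u, hu0, hupar, hu⟩ := exists_eigenClass_of_char χ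
    have huT : ∀ l : ℕ, l.Prime → l ∉ (↑(F.badSet qv) : Set ℕ) →
        Periods.heckeHom E'.R (N' * p) l u = a l • u := fun l hl hlS => by
      rw [ha l hl (hgood l hl hlS) hlS]
      exact hu l hl (hgood l hl hlS) hlS
    have htr := sum_transCocyc_eq_zero_of_noChar hcop (dvd_refl N') hcop
      (Finset.mem_coe.mpr (F.self_mem_badSet qv))
      (fun s hs hd => Finset.mem_coe.mpr (hN'S s hs hd)) a hl₀ hl₀S' hl₀1
      (hne l₀ hl₀ hl₀S' hu₀) u huT hold
    let : Algebra ℤ_[p] E'.R :=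
      ((algebraMap F.E.R E'.R).comp (algebraMap ℤ_[p] F.E.R)).toAlgebra
    have : IsScalarTower ℤ_[p] F.E.R E'.R := IsScalarTower.of_algebraMap_eq fun _ => rfl
    have : Module.Finite ℤ_[p] E'.R := Module.Finite.trans F.E.R E'.R
    let ι : E'.R →+* FractionRing E'.R := algebraMap E'.R (FractionRing E'.R)
    have hι : Function.Injective ι := IsFractionRing.injective _ _
    have : CharZero (FractionRing E'.R) := charZero_of_injective_ringHom hι
    have hpar0 : u ∈ FLTA.Gamma0.homPar0 ℤ (Gamma0 (N' * p)) E'.R := fun γ hγ => hι <|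
      (isParHom0_of_isParabolicHom (k := FractionRing E'.R) (by norm_num)
        (φ := ι.toAddMonoidHom.comp u)
        (fun g hg => by show ι (u _) = 0; rw [hupar g hg, map_zero]) γ hγ).trans (map_zero ι).symm
    have hcp : ∀ ℓ : ℕ, ℓ.Prime → ℓ ∉ (F.badSet qv) →
        ∀ P : ValuationSubring (AlgebraicClosure ℚ), P.LiesOverPrime ℓ →
          ∀ σ : Γℚ, P.IsFrobeniusAt σ ℓ →
            LinearMap.charpoly (ρ.ρ σ) = X ^ 2 - C (a ℓ) * X + C (ℓ : E'.R) := by
      intro ℓ hℓ hℓS P hP σ hσ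
      have hℓS' : ℓ ∉ (↑(F.badSet qv) : Set ℕ) := fun h => hℓS (Finset.mem_coe.mp h)
      have hℓp : p ≠ ℓ := fun e => hℓS (e ▸ F.self_mem_badSet qv)
      rw [RepTheory.charpoly_of_finrank_two ρ.finrank_eq,
        LocalGalois.det_frobenius_eq ρ hdet hℓ Fact.out hℓp hP hσ]
      show X ^ 2 - C (ρ.trace σ) * X + _ = _
      rw [hρ ℓ hℓ (hgood ℓ hℓ hℓS') hℓS' P hP σ hσ, ha ℓ hℓ (hgood ℓ hℓ hℓS') hℓS']
    refine AtP.isStrictOrdinaryAt_of_traces hcop (ne_two_of_data D) (F.badSet qv) a ρ hcp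
      (Datum.residual_isAbsolutelyIrreducible_of_frobenius F.rhobar (F.rhobar_absIrr D)
        (F.badSet qv) (fun l => (W.apOfModel l : ResidueField F.E.R))
        (fun l hl hlS P hP σ hσ => F.flat_rhobar_charpoly D hl hlS hP hσ) ρ
        (ResidueField.map (algebraMap F.E.R E'.R)) a (fun l hl hlS => ?_) hcp)
      hdet hord u hpar0 hu0 (fun ℓ hℓ hℓS _ => ?_) htr
    · have hlS' : l ∉ (↑(F.badSet qv) : Set ℕ) := fun h => hlS (Finset.mem_coe.mp h)
      rw [map_intCast, ha l hl (hgood l hl hlS') hlS']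
      exact hres l hl _ _
    · rw [← Periods.heckeHom_eq_int E'.R]
      exact huT ℓ hℓ fun h => hℓS (Finset.mem_coe.mp h)

/-- **`flat_or_strict` at a point of a level algebra.** -/
theorem flat_or_strict_point (D : LiftData W p M) {N' : ℕ} [NeZero N'] (hpN' : ¬ p ∣ N')
    {N : ℕ} [NeZero N] (hN : N = N' * p) (hNS : ∀ l : ℕ, l.Prime → l ∣ N → l ∈ F.badSet qv)
    {A : Type} [CommRing A] [IsLocalRing A] [Algebra F.E.R A]
    (T : {l : ℕ // l.Prime ∧ l ∉ F.badSet qv} → A)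
    (hT : ∀ l, T l - (W.apOfModel l.1 : A) ∈ maximalIdeal A)
    (Ψ : CuspForm.heckeAlgebra N 2 (↑(F.badSet qv) : Set ℕ) →+* A)
    (hΨT : ∀ (l : ℕ) (hl : l.Prime) (hlN : ¬ l ∣ N) (hlS : l ∉ (↑(F.badSet qv) : Set ℕ)),
      Ψ (heckeAlgebra.T hl hlN hlS) = T ⟨l, hl, by simpa using hlS⟩)
    {ρ : GaloisRepAdic A} (hdet : ρ.DetIsCyclotomic p)
    (hρ : ∀ (l : {l : ℕ // l.Prime ∧ l ∉ F.badSet qv})
      (P : ValuationSubring (AlgebraicClosure ℚ)), P.LiesOverPrime l.1 →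
        ∀ σ : Γℚ, P.IsFrobeniusAt σ l.1 → ρ.trace σ = T l)
    (E' : RepTheory.FiniteDVRExt F.E.R) (ψ : A →ₐ[F.E.R] E'.R)
    (hψ : IsLocalHom (ψ : A →+* E'.R))
    (hord : (ρ.baseChangeAlong (ψ : A →+* E'.R) hψ).IsOrdinaryAt p) :
    (ρ.baseChangeAlong (ψ : A →+* E'.R) hψ).IsFlatAt p ∨ ψ (F.strictDefect ρ) = 0 := by
  refine (F.isFlatAt_or_strictDefect_of_char D hpN' hN hNS
    ((ψ : A →+* E'.R).comp Ψ) (fun l hl hlN hlS => ?_) _
    (Avoid.detIsCyclotomic_baseChangeAlong _ hψ hdet) hord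
    fun l hl hlN hlS P hP σ hσ => ?_).imp id fun h => ?_
  · have hm := map_nonunit (ψ : A →+* E'.R) _ (hT ⟨l, hl, by simpa using hlS⟩)
    rw [← residue_eq_zero_iff, map_sub, map_sub, map_intCast, map_intCast, sub_eq_zero] at hm
    rw [RingHom.comp_apply, hΨT]
    exact hm
  · rw [RepTheory.trace_baseChangeAlong, hρ ⟨l, hl, by simpa using hlS⟩ P hP σ hσ,
      RingHom.comp_apply, hΨT]
  · have hd : ∀ σ, (ψ : A →+* E'.R) (LinearMap.det (ρ.ρ σ)) =
        LinearMap.det ((ρ.baseChangeAlong (ψ : A →+* E'.R) hψ).ρ σ) := fun σ =>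
      (det_baseChangeAlong _ hψ ρ σ).symm
    exact ((map_strictDefect (F := F) (ψ : A →+* E'.R)
      (fun σ => (RepTheory.trace_baseChangeAlong _ hψ ρ σ).symm) hd).1).trans h

/-- At a multiplicative `p` the classical levels are `N' * p` with `p ∤ N'`. -/
theorem exists_classicalAt_eq_mul {n : ℕ} (D : LiftData W p M) (hm : F.Mult)
    (hq : F.IsTWTuple n qv) (j : ℕ) :
    ∃ N' : ℕ, N' ≠ 0 ∧ ¬ p ∣ N' ∧ F.classicalAt j qv = N' * p := by
  obtain ⟨N', hN'⟩ := F.dvd_classicalAt_of_mult hm j qv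
  rw [mul_comm] at hN'
  refine ⟨N', fun h => D.classicalAt_ne_zero (F := F) j hq.prime (by rw [hN', h, zero_mul]),
    fun hd => F.not_sq_dvd_classicalAt D.squarefree hq Fact.out
      (Finset.mem_insert_self p _) (by rw [hN', pow_two]; exact Nat.mul_dvd_mul_right hd p), hN'⟩

end FLTA.RT.LiftFrame

end
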