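import Fermat.Agent.RT.Lift.ModulesAwayLevel
import Fermat.Agent.RT.Lift.Rings
import Fermat.Agent.RT.AtP.Residual
import Fermat.Agent.RT.DatumExists
import Fermat.Agent.S33

/-!
# The level modules of lifting: ordinarity at a multiplicative `p`

A Hecke–Galois datum at the classical level whose Hecke values are congruent to those of the curve
is ordinary at `p`: `p` divides the level exactly and `E[p]` is ordinary there.
-/

set_option autoImplicit false

noncomputable section

open IsLocalRing Polynomial CuspForm WeierstrassCurve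

namespace FLTA.RT.LiftFrame

attribute [local instance] Datum.factIntegral

set_option synthInstance.maxHeartbeats 400000

variable {W : WeierstrassCurve ℤ} {hΔ : W.Δ ≠ 0} {p : ℕ} [Fact p.Prime] {M : ℕ}
  (F : LiftFrame W hΔ p M) {n r j : ℕ} {qv : Fin r → ℕ} [NeZero (F.classicalAt j qv)]
  {θ : CuspForm.heckeAlgebra (F.classicalAt j qv) 2 (↑(F.badSet qv) : Set ℕ) →+*
    ResidueField F.E.R}
  {T : Type} [CommRing T] [IsLocalRing T] [IsNoetherianRing T]
  [IsAdicComplete (maximalIdeal T) T] [Algebra F.E.R T] [IsLocalHom (algebraMap F.E.R T)]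
  [Module.Finite F.E.R T] [Module.Free F.E.R T]

/-- **Multiplicative reduction at `p`**: the datum is ordinary at `p`. -/
theorem isOrdinaryAt_datum (D : LiftData W p M) (hm : F.Mult) (hq : F.IsTWTuple n qv)
    (hNS : ∀ l : ℕ, l.Prime → l ∣ F.classicalAt j qv → l ∈ F.badSet qv)
    (H : CuspForm.HeckeGaloisRepDatum (F.classicalAt j qv) (↑(F.badSet qv) : Set ℕ) F.E.R θ T)
    (hres : ∀ (l : ℕ) (hl : l.Prime) (hlN : ¬ l ∣ F.classicalAt j qv)
      (hlS : l ∉ (↑(F.badSet qv) : Set ℕ)),
      residue T (H.π (heckeAlgebra.T hl hlN hlS)) = (W.apOfModel l : ResidueField T)) :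
    H.ρ.IsOrdinaryAt p := by
  classical
  have hp : p.Prime := Fact.out
  have hp2 := ne_two_of_data D
  have hpS : p ∈ F.badSet qv := Finset.mem_union_left _ (Finset.mem_insert_self _ _)
  have hgood : ∀ l : ℕ, l.Prime → l ∉ F.badSet qv → l ≠ 2 ∧ l ≠ p ∧ W.IsGoodPrimeFor l := by
    intro l hl hlS
    simp only [badSet, avoided, Finset.mem_union, Finset.mem_insert, Nat.mem_primeFactors,
      not_or] at hlS
    obtain ⟨⟨hlp, hl2, -, hlΔ⟩, -⟩ := hlS
    exact ⟨hl2, hlp, fun h =>
      hlΔ ⟨hl, Int.natCast_dvd.mp h, Int.natAbs_ne_zero.mpr hΔ⟩⟩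
  have hN : ∀ l : ℕ, l.Prime → l ∉ F.badSet qv → ¬ l ∣ F.classicalAt j qv :=
    fun l hl hlS h => hlS (hNS l hl h)
  let a : ℕ → T := fun l => if h : l.Prime ∧ l ∉ F.badSet qv then
    H.π (heckeAlgebra.T h.1 (hN l h.1 h.2) (fun hh => h.2 (Finset.mem_coe.mp hh))) else 0
  have hord : (GaloisRepAdic.ofResidualGaloisRep H.ρ.residual).IsOrdinaryAt p :=
    AtP.residual_isOrdinaryAt hΔ hp2 D.curve.irreducible hm (D.curve.semistable p hp hm)
      (F.badSet qv) hgood H.ρ ((ResidueField.map (algebraMap F.E.R T)).comp F.φ) a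
      (fun l hl hlS => by simp only [a, dif_pos (And.intro hl hlS)]; exact hres l hl _ _)
      (fun l hl hlS A hA τ hτ => by
        simp only [a, dif_pos (And.intro hl hlS)]
        exact H.charpoly_frob l hl (hN l hl hlS) (fun hh => hlS (Finset.mem_coe.mp hh)) A hA τ hτ)
  exact Fermat.Agent.S33.result hp hp2 F.natCast_mem
    ⟨F.dvd_classicalAt_of_mult hm j qv,
      F.not_sq_dvd_classicalAt D.squarefree hq hp (by simp [avoided])⟩
    hNS H hord

end FLTA.RT.LiftFrame

end
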