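import Fermat.Agent.RT.Lift.Setup
import Fermat.Agent.RT.Lift.EllipticFree
import Fermat.Agent.RT.RaiseResidual
import Fermat.Agent.RepTheory.Basic

/-!
# Facts about the twisted level modules of lifting

The diamond ring, the residue map killing the characters, the primes occurring in the levels,
commutation of the operators, lifting of cocycles and refined parabolicity.
-/

set_option autoImplicit false

noncomputable section

open IsLocalRing WeierstrassCurve Polynomial CongruenceSubgroup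

namespace FLTA.RT

open FLTA.Periods

variable {W : WeierstrassCurve ℤ} {hΔ : W.Δ ≠ 0} {p : ℕ} [Fact p.Prime] {M : ℕ}

namespace LiftFrame

variable (F : LiftFrame W hΔ p M) (n j : ℕ) {r : ℕ} (qv : Fin r → ℕ)

local notation "κ" => ResidueField F.E.R

theorem natCast_res_eq_zero : (p : κ) = 0 := by
  rw [← map_natCast (residue F.E.R), residue_eq_zero_iff]
  exact F.natCast_mem

theorem charP_res : CharP κ p := by
  obtain ⟨c, hc⟩ := CharP.exists κ
  rcases (Fact.out : p.Prime).eq_one_or_self_of_dvd c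
      ((CharP.cast_eq_zero_iff κ c p).mp F.natCast_res_eq_zero) with rfl | rfl
  · exact absurd rfl (CharP.char_ne_one κ 1)
  · exact hc

theorem natCast_res_ne_zero {m : ℕ} (h : ¬ p ∣ m) : (m : κ) ≠ 0 := by
  have := F.charP_res
  rwa [Ne, CharP.cast_eq_zero_iff κ p]

theorem intCast_res (a : ℤ) : (a : κ) = F.φ (a : ZMod p) := (map_intCast F.φ a).symm

theorem isUnit_natCast {m : ℕ} (h : ¬ p ∣ m) : IsUnit (m : F.E.R) :=
  isUnit_natCast_of_coprime F.natCast_mem
    ((Fact.out : p.Prime).coprime_iff_not_dvd.mpr h).symm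

/-- The residue map of the diamond ring. -/
def diamondToRes (n r : ℕ) : F.Diamond r n →+* κ :=
  Ideal.Quotient.lift (F.diamondRel r n) ((residue F.E.R).comp MvPowerSeries.constantCoeff)
    fun x hx => by
      rw [← RingHom.mem_ker]
      refine (Ideal.span_le.mpr ?_) hx
      rintro _ ⟨j, rfl⟩
      simp [RingHom.mem_ker]

theorem diamondToRes_mk (x : MvPowerSeries (Fin r) F.E.R) :
    F.diamondToRes n r (Ideal.Quotient.mk _ x) = residue F.E.R (MvPowerSeries.constantCoeff x) :=
  rfl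

theorem diamondToRes_surjective : Function.Surjective (F.diamondToRes n r) := fun x => by
  obtain ⟨c, rfl⟩ := residue_surjective x
  exact ⟨Ideal.Quotient.mk _ (MvPowerSeries.C c), by
    rw [diamondToRes_mk, MvPowerSeries.constantCoeff_C]⟩

theorem diamondToRes_algebraMap (c : F.E.R) :
    F.diamondToRes n r (algebraMap F.E.R (F.Diamond r n) c) = residue F.E.R c := by
  rw [show algebraMap F.E.R (F.Diamond r n) c =
    Ideal.Quotient.mk _ (MvPowerSeries.C c) from rfl, diamondToRes_mk,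
    MvPowerSeries.constantCoeff_C]

theorem diamondToRes_gen (i : Fin r) : F.diamondToRes n r (F.gen n i) = 1 := by
  rw [gen, diamondToRes_mk]
  simp

theorem moduleFinite_diamond : Module.Finite F.E.R (F.Diamond r n) :=
  Avoid.finite_dia (k := n + 1) F.natCast_mem

theorem isNoetherianRing_diamond : IsNoetherianRing (F.Diamond r n) :=
  have := F.moduleFinite_diamond n (r := r)
  isNoetherian_of_tower F.E.R (inferInstance : IsNoetherian F.E.R (F.Diamond r n))

theorem isAdicComplete_diamond :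
    IsAdicComplete (maximalIdeal (F.Diamond r n)) (F.Diamond r n) :=
  have := F.moduleFinite_diamond n (r := r)
  RepTheory.isAdicComplete_maximalIdeal_of_finite F.E.R (F.Diamond r n)

theorem natCast_mem_diamond : (p : F.Diamond r n) ∈ maximalIdeal (F.Diamond r n) := by
  rw [← map_natCast (algebraMap F.E.R (F.Diamond r n)), mem_maximalIdeal, mem_nonunits_iff]
  intro h
  have h1 := h.map (F.diamondToRes n r)
  rw [diamondToRes_algebraMap, map_natCast, F.natCast_res_eq_zero] at h1
  exact not_isUnit_zero h1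

theorem isUnit_natCast_diamond {m : ℕ} (h : ¬ p ∣ m) : IsUnit (m : F.Diamond r n) := by
  rw [← map_natCast (algebraMap F.E.R (F.Diamond r n))]
  exact (F.isUnit_natCast h).map _

/-! ### The characters -/

omit [Fact p.Prime] in
/-- A character sending a generator to a `p^m`-th root of unity has values of order dividing `p^m`. -/
theorem charOfRoot_pow {R : Type} [CommRing R] {l : ℕ} {x : R} {m : ℕ}
    (hx : x ^ p ^ m = 1) (u : (ZMod l)ˣ) : charOfRoot l x u ^ p ^ m = 1 := by
  classical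
  rw [charOfRoot]
  split_ifs with h
  · obtain ⟨hg, hf⟩ := h.choose_spec.choose_spec
    obtain ⟨i, rfl⟩ := Subgroup.mem_zpowers_iff.mp (hg u)
    rw [map_zpow, ← zpow_natCast, ← zpow_mul, mul_comm, zpow_mul, zpow_natCast]
    have h1 : h.choose_spec.choose h.choose ^ p ^ m = 1 := Units.ext (by
      rw [Units.val_pow_eq_pow_val, hf, hx, Units.val_one])
    rw [h1, one_zpow]
  · simp

theorem eps_pow (l : ℕ) (u : (ZMod l)ˣ) : F.eps n qv l u ^ p ^ (n + 1) = 1 := by
  classical
  rw [eps]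
  split_ifs with h
  · exact charOfRoot_pow (F.gen_pow n _) u
  · simp

theorem kap_pow (Q₀ : Finset ℕ) (l : ℕ) : kap Q₀ (F.eps n qv) l ^ p ^ (n + 1) = 1 := by
  rw [kap, ← Finset.prod_pow]
  refine Finset.prod_eq_one fun s _ => ?_
  rw [epsAt]
  split_ifs with h
  · exact F.eps_pow n qv s _
  · simp

theorem diamondToRes_of_pow {u : (F.Diamond r n)ˣ} {m : ℕ} (hu : u ^ p ^ m = 1) :
    F.diamondToRes n r (u : F.Diamond r n) = 1 := by
  have := F.charP_res
  have : ExpChar κ p := ExpChar.prime Fact.out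
  have h := congrArg (fun z : (F.Diamond r n)ˣ => F.diamondToRes n r z) hu
  simp only [Units.val_pow_eq_pow_val, map_pow, Units.val_one, map_one] at h
  have h1 := (ExpChar.pow_prime_pow_mul_eq_one_iff p m 1 _).mp (by rwa [mul_one])
  simpa using h1

theorem diamondToRes_eps (l : ℕ) (u : (ZMod l)ˣ) :
    F.diamondToRes n r (F.eps n qv l u : F.Diamond r n) = 1 :=
  F.diamondToRes_of_pow n (F.eps_pow n qv l u)

theorem diamondToRes_kap (Q₀ : Finset ℕ) (l : ℕ) :
    F.diamondToRes n r (kap Q₀ (F.eps n qv) l : F.Diamond r n) = 1 :=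
  F.diamondToRes_of_pow n (F.kap_pow n qv Q₀ l)

variable [NeZero (F.levelAt j qv)]

omit [NeZero (F.levelAt j qv)] in
theorem chi_pow (u : (ZMod (F.levelAt j qv))ˣ) : F.chi n j qv u ^ p ^ (n + 1) = 1 := by
  rw [chi, sigProd_apply, ← Finset.prod_pow]
  refine Finset.prod_eq_one fun s _ => ?_
  rw [← pow_mul, mul_comm, pow_mul]
  unfold sigChar
  split_ifs with h
  · rw [MonoidHom.comp_apply, F.eps_pow n qv s _, one_pow]
  · simp

omit [NeZero (F.levelAt j qv)] in
theorem diamondToRes_chi (u : (ZMod (F.levelAt j qv))ˣ) :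
    F.diamondToRes n r (F.chi n j qv u : F.Diamond r n) = 1 :=
  F.diamondToRes_of_pow n (F.chi_pow n j qv u)

/-- The coefficient character is trivial on the residue field. -/
theorem gamChar_triv {V : Type} [AddCommGroup V] [Module (F.Diamond r n) V] [Module κ V]
    (hV : ∀ (c : F.Diamond r n) (v : V), c • v = F.diamondToRes n r c • v)
    (γ : Gamma0 (F.levelAt j qv)) (v : V) :
    (gamChar (F.chi n j qv) γ : F.Diamond r n) • v = v := by
  rw [hV, show F.diamondToRes n r (gamChar (F.chi n j qv) γ : F.Diamond r n) = 1 from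
    F.diamondToRes_chi n j qv (aUnit (F.levelAt j qv) γ), one_smul]

end LiftFrame

/-! ### The primes -/

namespace LiftData

variable {F : LiftFrame W hΔ p M} (D : LiftData W p M)
include D

omit [Fact p.Prime] in
theorem ne_zero : M ≠ 0 := D.squarefree.ne_zero

omit [Fact p.Prime] in
theorem ne_two : p ≠ 2 := by rcases D.curve.hp with h | h <;> omega

theorem base_ne_zero : F.base ≠ 0 := by
  have ha : F.aux ≠ 0 := by
    rcases F.aux_spec with ⟨-, h⟩ | ⟨-, h, -⟩
    · omega
    · exact h.ne_zero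
  rw [LiftFrame.base]
  refine mul_ne_zero ?_ ha
  split
  · exact Nat.lcm_ne_zero D.ne_zero (Fact.out : p.Prime).ne_zero
  · exact D.ne_zero

theorem level_ne_zero (j : ℕ) : F.level j ≠ 0 :=
  mul_ne_zero D.base_ne_zero
    (Finset.prod_ne_zero_iff.mpr fun i _ => ((F.site_iff _).mp ⟨i, rfl⟩).1.ne_zero)

theorem levelAt_ne_zero (j : ℕ) {r : ℕ} {qv : Fin r → ℕ} (hqv : ∀ i, (qv i).Prime) :
    F.levelAt j qv ≠ 0 :=
  mul_ne_zero (D.level_ne_zero j) (Finset.prod_ne_zero_iff.mpr fun i _ => (hqv i).ne_zero)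

theorem classicalAt_ne_zero (j : ℕ) {r : ℕ} {qv : Fin r → ℕ} (hqv : ∀ i, (qv i).Prime) :
    F.classicalAt j qv ≠ 0 := by
  refine mul_ne_zero (D.levelAt_ne_zero j hqv) (Finset.prod_ne_zero_iff.mpr fun l hl => ?_)
  obtain ⟨i, -, rfl⟩ := Finset.mem_image.mp hl
  exact (hqv i).ne_zero

/-- A prime outside the avoided set is good and prime to every level. -/
theorem avoided_props {l : ℕ} (hl : l.Prime) (h : l ∉ F.avoided) :
    l ≠ p ∧ l ≠ 2 ∧ ¬ l ∣ M ∧ ¬ l ∣ F.aux ∧ W.IsGoodPrimeFor l ∧ ∀ j, ¬ l ∣ F.level j := by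
  simp only [LiftFrame.avoided, LiftFrame.unipSet, LiftFrame.siteSet, Finset.mem_insert,
    Finset.mem_union, Finset.mem_erase, Finset.mem_image, Finset.mem_univ, true_and,
    Nat.mem_primeFactors, not_or, not_exists] at h
  obtain ⟨h1, h2, ⟨h3, h4⟩, h5⟩ := h
  have ha : F.aux ≠ 0 := by
    rcases F.aux_spec with ⟨-, h⟩ | ⟨-, h, -⟩
    · omega
    · exact h.ne_zero
  have hne : M * F.aux ≠ 0 := mul_ne_zero D.ne_zero ha
  have hMa : ¬ l ∣ M * F.aux := fun hd => h3 ⟨h1, hl, hd, hne⟩
  have hM : ¬ l ∣ M := fun hd => hMa (hd.mul_right _)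
  have haux : ¬ l ∣ F.aux := fun hd => hMa (hd.mul_left _)
  refine ⟨h1, h2, hM, haux,
    fun hd => h5 ⟨hl, Int.natCast_dvd.mp hd, Int.natAbs_ne_zero.mpr hΔ⟩, fun j hd => ?_⟩
  rcases hl.dvd_mul.mp hd with hd | hd
  · rw [LiftFrame.base] at hd
    rcases hl.dvd_mul.mp hd with hd | hd
    · split at hd
      · rcases hl.dvd_mul.mp (hd.trans (Nat.lcm_dvd_mul M p)) with h' | h'
        · exact hM h'
        · exact h1 ((Nat.prime_dvd_prime_iff_eq hl Fact.out).mp h')
      · exact hM hd
    · exact haux hd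
  · obtain ⟨i, -, hi⟩ := (hl.prime.dvd_finsetProd_iff _).mp hd
    exact h4 i ((Nat.prime_dvd_prime_iff_eq hl ((F.site_iff _).mp ⟨i, rfl⟩).1).mp hi).symm

variable (F) in
/-- The good primes of the algebra. -/
theorem badSet_props {r : ℕ} {qv : Fin r → ℕ} (hqv : ∀ i, (qv i).Prime) {l : ℕ} (hl : l.Prime)
    (h : l ∉ F.badSet qv) :
    l ≠ p ∧ l ≠ 2 ∧ W.IsGoodPrimeFor l ∧ (∀ i, l ≠ qv i) ∧
      ∀ j, ¬ l ∣ F.levelAt j qv ∧ ¬ l ∣ F.classicalAt j qv := by
  rw [LiftFrame.badSet, Finset.notMem_union] at h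
  obtain ⟨h1, h2, -, -, h5, h6⟩ := D.avoided_props hl h.1
  have hq : ∀ i, l ≠ qv i := fun i hi =>
    h.2 (Finset.mem_image.mpr ⟨i, Finset.mem_univ _, hi.symm⟩)
  have hlev : ∀ j, ¬ l ∣ F.levelAt j qv := fun j hd => by
    rcases hl.dvd_mul.mp hd with hd | hd
    · exact h6 j hd
    · obtain ⟨i, -, hi⟩ := (hl.prime.dvd_finsetProd_iff _).mp hd
      exact hq i ((Nat.prime_dvd_prime_iff_eq hl (hqv i)).mp hi)
  refine ⟨h1, h2, h5, hq, fun j => ⟨hlev j, fun hd => ?_⟩⟩
  rcases hl.dvd_mul.mp hd with hd | hd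
  · exact hlev j hd
  · obtain ⟨s, hs, hd⟩ := (hl.prime.dvd_finsetProd_iff _).mp hd
    obtain ⟨i, -, rfl⟩ := Finset.mem_image.mp hs
    exact hq i ((Nat.prime_dvd_prime_iff_eq hl (hqv i)).mp hd)

end LiftData

namespace LiftFrame

variable (F : LiftFrame W hΔ p M)

theorem aux_dvd_level (j : ℕ) : F.aux ∣ F.level j := (dvd_mul_left _ _).mul_right _

theorem stabSet_props (j : ℕ) {r : ℕ} {qv : Fin r → ℕ} (hqv : ∀ i, (qv i).Prime) {l : ℕ}
    (hl : l ∈ F.stabSet qv) : l.Prime ∧ l ∣ F.levelAt j qv ∧ l ∈ F.badSet qv := by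
  rcases Finset.mem_union.mp hl with h | h
  · obtain ⟨i, -, rfl⟩ := Finset.mem_image.mp h
    exact ⟨hqv i, dvd_mul_of_dvd_right (Finset.dvd_prod_of_mem qv (Finset.mem_univ i)) _,
      Finset.mem_union_right _ (Finset.mem_image_of_mem qv (Finset.mem_univ i))⟩
  · obtain ⟨hlp, hd, ha⟩ := Nat.mem_primeFactors.mp h
    refine ⟨hlp, (hd.trans (F.aux_dvd_level j)).mul_right _, Finset.mem_union_left _ ?_⟩
    by_cases hlp' : l = p
    · rw [hlp']
      exact Finset.mem_insert_self _ _
    · refine Finset.mem_insert_of_mem (Finset.mem_insert_of_mem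
        (Finset.mem_union_left _ (Finset.mem_union_left _ ?_)))
      rw [LiftFrame.unipSet, Finset.mem_erase]
      by_cases hM : M = 0
      · exact absurd hM (by
          rintro rfl
          rcases F.aux_spec with ⟨-, e⟩ | ⟨-, -, -, -, hd', -⟩
          · rw [e] at hd
            exact hlp.ne_one (Nat.dvd_one.mp hd)
          · exact hd' (dvd_zero _))
      · exact ⟨hlp', Nat.mem_primeFactors.mpr ⟨hlp, dvd_mul_of_dvd_right hd M, mul_ne_zero hM ha⟩⟩

theorem idx_prime {r : ℕ} {qv : Fin r → ℕ} (hqv : ∀ i, (qv i).Prime) :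
    ∀ s : F.Idx qv, ((Sum.elim Subtype.val Subtype.val s : ℕ)).Prime
  | .inl l => l.2.1
  | .inr l => (F.stabSet_props 0 hqv l.2).1

/-- The operators commute on every coefficient module. -/
theorem ops_comm (n j : ℕ) {r : ℕ} {qv : Fin r → ℕ} [NeZero (F.levelAt j qv)]
    (hqv : ∀ i, (qv i).Prime) (V : Type) [AddCommGroup V]
    [Module (F.Diamond r n) V] (s t : F.Idx qv) (x : tH1 (gamChar (F.chi n j qv)) V) :
    (F.ops n j qv s).app V ((F.ops n j qv t).app V x) =
      (F.ops n j qv t).app V ((F.ops n j qv s).app V x) := by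
  have hs := F.idx_prime hqv s
  have ht := F.idx_prime hqv t
  rcases s with l | l <;> rcases t with l' | l' <;>
    simp only [LiftFrame.ops, LiftFrame.natT, Sum.elim_inl, Sum.elim_inr, NatEnd.smul_app,
      map_smul] at hs ht ⊢ <;>
    rw [natHecke_comm _ hs ht]
  rw [smul_comm]

theorem commAtRing_ops (n j : ℕ) {r : ℕ} {qv : Fin r → ℕ} [NeZero (F.levelAt j qv)]
    (hqv : ∀ i, (qv i).Prime) : CommAtRing (F.ops n j qv) :=
  fun s t => LinearMap.ext fun x => F.ops_comm n j hqv _ s t x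

/-- At `p = 3` the auxiliary prime is `≡ 2 mod 3` and divides every level. -/
theorem elliptic_cases :
    5 ≤ p ∨ (p = 3 ∧ F.aux.Prime ∧ F.aux % 3 = 2) := by
  rcases F.aux_spec with ⟨h, -⟩ | ⟨h, ha, -, h2, -⟩
  · exact Or.inl (by omega)
  · exact Or.inr ⟨h, ha, h2⟩

/-- Twisted cocycles of every level lift. -/
theorem hasLifts (n j : ℕ) {r : ℕ} (qv : Fin r → ℕ) [NeZero (F.levelAt j qv)] :
    HasLifts (gamChar (F.chi n j qv)) := by
  have hp : p.Prime := Fact.out
  rcases F.aux_spec with ⟨h5, -⟩ | ⟨h3, ha, -, ha2, -⟩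
  · exact hasLifts_gamChar _ hp (by omega)
      (by exact_mod_cast F.isUnit_natCast_diamond n (r := r) (m := 2) (by rw [h5]; decide))
      (by exact_mod_cast F.isUnit_natCast_diamond n (r := r) (m := 3) (by rw [h5]; decide))
      fun u => ⟨n + 1, F.chi_pow n j qv u⟩
  · refine hasLifts_subgroup _ (neg_one_mem_Gamma0 _) _
      (by exact_mod_cast F.isUnit_natCast_diamond n (r := r) (m := 2) (by rw [h3]; decide))
      (fun γ hγ => eq_one_of_pow_coprime (m := 2) (n := p ^ (n + 1)) ?_ hγ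
        (F.chi_pow n j qv _))
      (Or.inl (matU_smul_coset_ne ha ((F.aux_dvd_level j).mul_right _) ha2))
    exact Nat.Coprime.pow_right _ (by rw [h3]; decide)

/-- Parabolic homomorphisms of a level containing the auxiliary prime are refined parabolic,
with values in a ring in which the numbers prime to `p` do not kill. -/
theorem isParHom0_of_parabolic {L : ℕ} (hL : F.aux ∣ L) {k : Type}
    [CommRing k] [IsDomain k] (hk : ∀ m : ℕ, ¬ p ∣ m → (m : k) ≠ 0)
    (φ : Additive (Gamma0 L) →+ k) (hφ : ModularCurve.Period.IsParabolicHom (Gamma0 L) φ) :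
    FLTA.Gamma0.IsParHom0 (Gamma0 L) φ := by
  rcases F.aux_spec with ⟨h5, -⟩ | ⟨h3, ha, -, ha2, -⟩
  · have h12 : (12 : k) ≠ 0 := by exact_mod_cast hk 12 (by rw [h5]; decide)
    have hinj := IsFractionRing.injective k (FractionRing k)
    have h12' : (12 : FractionRing k) ≠ 0 := by
      rw [← map_ofNat (algebraMap k (FractionRing k)) 12]
      exact fun h => h12 (hinj (h.trans (map_zero _).symm))
    have h := isParHom0_of_isParabolicHom h12'
      (φ := (algebraMap k (FractionRing k)).toAddMonoidHom.comp φ) (fun γ hγ => by simp [hφ γ hγ])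
    exact fun γ hγ => hinj (by simpa using h γ hγ)
  · refine isParHom0_of_isParabolicHom_elliptic ha hL ha2 (fun a e => ?_) hφ
    have h2 : ((2 : ℕ) : k) ≠ 0 := hk 2 (by rw [h3]; decide)
    rw [← two_mul] at e
    exact (mul_eq_zero.mp (by exact_mod_cast e)).resolve_left h2

end LiftFrame

end FLTA.RT

end
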