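import Fermat.Agent.RT.Lift.ModulesAway
import Fermat.Agent.RT.Lift.ModulesFlat
import Fermat.Agent.RT.Lift.ModulesFlatOrStrict
import Fermat.Agent.RT.Main.ModulesGeneric
import Fermat.Agent.RT.Main.ModulesAlg
import Fermat.Agent.RT.Lift.Rings
import Fermat.Agent.RT.Lift.SetupFacts
import Fermat.Agent.RT.Lift.ModulesOrdinary

/-!
# A level of lifting from an algebra of operators

A free module over the diamond ring with operators at the good primes, residual to `a_l(W)`, coming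
from the Hecke algebra of the classical level and separated by its points, carries a Galois
representation with all the properties of a level.
-/

set_option autoImplicit false
set_option linter.style.haveILetI false

noncomputable section

open IsLocalRing Polynomial WeierstrassCurve CuspForm
open scoped TensorProduct

namespace FLTA.RT

attribute [local instance] Datum.factIntegral

local notation "Γℚ" => AlgebraicClosure ℚ ≃ₐ[ℚ] AlgebraicClosure ℚ

set_option synthInstance.maxHeartbeats 400000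
set_option maxHeartbeats 2000000

/-- Ordinarity passes along local ring maps. -/
theorem isOrdinaryAt_baseChangeAlong_of_ordinary {A B : Type} [CommRing A] [IsLocalRing A]
    [CommRing B] [IsLocalRing B] (f : A →+* B) (hf : IsLocalHom f) {p : ℕ} {ρ : GaloisRepAdic A}
    (h : ρ.IsOrdinaryAt p) : (ρ.baseChangeAlong f hf).IsOrdinaryAt p := by
  intro P hP
  obtain ⟨L, ⟨b, rfl⟩, hD, hI⟩ := h P hP
  letI : Algebra A B := f.toAlgebra
  let b' : Module.Basis (Fin 2) B (B ⊗[A] ρ.V) := Algebra.TensorProduct.basis B b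
  have h0 : b' 0 = (1 : B) ⊗ₜ[A] b 0 := Algebra.TensorProduct.basis_apply _ _
  have hmem : ∀ (x : B) (v : ρ.V), v ∈ Submodule.span A {b 0} →
      x ⊗ₜ[A] v ∈ Submodule.span B {b' 0} := fun x v hv => by
    obtain ⟨c, rfl⟩ := Submodule.mem_span_singleton.mp hv
    refine Submodule.mem_span_singleton.mpr ⟨c • x, ?_⟩
    rw [h0, TensorProduct.smul_tmul', smul_eq_mul, mul_one, TensorProduct.tmul_smul]
    rfl
  refine ⟨Submodule.span B {b' 0}, ⟨b', rfl⟩, fun σ hσ v hv => ?_, fun σ hσ v => ?_⟩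
  · change B ⊗[A] ρ.V at v
    obtain ⟨c, rfl⟩ := Submodule.mem_span_singleton.mp hv
    show (ρ.ρ σ).baseChange B (c • b' 0) ∈ Submodule.span B {b' 0}
    rw [map_smul]
    refine Submodule.smul_mem _ c ?_
    have e : (ρ.ρ σ).baseChange B (b' 0) = (1 : B) ⊗ₜ[A] ρ.ρ σ (b 0) := by
      rw [h0, LinearMap.baseChange_tmul]
    rw [e]
    exact hmem 1 _ (hD σ hσ _ (Submodule.mem_span_singleton_self _))
  · change B ⊗[A] ρ.V at v
    show (ρ.ρ σ).baseChange B v - v ∈ Submodule.span B {b' 0}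
    induction v using TensorProduct.induction_on with
    | zero => simp
    | tmul x u =>
      rw [LinearMap.baseChange_tmul, ← TensorProduct.tmul_sub]
      exact hmem x _ (hI σ hσ u)
    | add x y hx hy => rw [map_add, add_sub_add_comm]; exact add_mem hx hy

variable {W : WeierstrassCurve ℤ} {hΔ : W.Δ ≠ 0} {p : ℕ} [Fact p.Prime] {M : ℕ}

/-- The local ring of an algebra of operators. -/
theorem LiftFrame.isLocalRing_of_ops (F : LiftFrame W hΔ p M) {d n r : ℕ} (hd : 0 < d)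
    {qv : Fin r → ℕ} {U : Type} [AddCommGroup U] [Module (F.Diamond r n) U]
    (b : Module.Basis (Fin d) (F.Diamond r n) U) (A : Type) [CommRing A]
    [Algebra (F.Diamond r n) A] [Algebra F.E.R A] [IsScalarTower F.E.R (F.Diamond r n) A]
    (φ : A →ₐ[F.Diamond r n] Module.End (F.Diamond r n) U) (hφ : Function.Injective φ)
    (T : {l : ℕ // l.Prime ∧ l ∉ F.badSet qv} → A)
    (hgenT : Algebra.adjoin (F.Diamond r n) (Set.range T) = ⊤)
    (hresT : ∀ l, ∃ k : ℕ, ∀ x : U, ((φ (T l) - (W.apOfModel l.1 : F.Diamond r n) • 1) ^ k) x ∈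
      maximalIdeal (F.Diamond r n) • (⊤ : Submodule (F.Diamond r n) U)) :
    Module.Finite F.E.R A ∧ ∃ _ : IsLocalRing A,
      IsNoetherianRing A ∧ IsAdicComplete (maximalIdeal A) A ∧
      IsLocalHom (algebraMap F.E.R A) ∧ Function.Surjective (residue A ∘ algebraMap F.E.R A) ∧
      Algebra.adjoin F.E.R (Set.range T ∪ Set.range ((IsScalarTower.toAlgHom F.E.R (F.Diamond r n) A).comp
        (Ideal.Quotient.mkₐ F.E.R (F.diamondRel r n)))) = ⊤ ∧
      ∀ l, T l - algebraMap F.E.R A (W.apOfModel l.1 : F.E.R) ∈ maximalIdeal A := by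
  have := F.moduleFinite_diamond n (r := r)
  have : IsNoetherianRing (F.Diamond r n) := F.isNoetherianRing_diamond n
  have : Module.Finite (F.Diamond r n) U := Module.Finite.of_basis b
  have : Module.Free (F.Diamond r n) U := Module.Free.of_basis b
  have : Module.Finite (F.Diamond r n) A := Module.Finite.of_injective φ.toLinearMap hφ
  have hfin : Module.Finite F.E.R A := Module.Finite.trans (F.Diamond r n) A
  have : Nontrivial U := by
    have : Nonempty (Fin d) := ⟨⟨0, hd⟩⟩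
    exact b.repr.toEquiv.nontrivial
  have : Nontrivial A := ⟨⟨1, 0, fun e => one_ne_zero
    ((map_one φ).symm.trans ((congrArg φ e).trans (map_zero φ)))⟩⟩
  let dia : MvPowerSeries (Fin r) F.E.R →ₐ[F.E.R] A :=
    (IsScalarTower.toAlgHom F.E.R (F.Diamond r n) A).comp
      (Ideal.Quotient.mkₐ F.E.R (F.diamondRel r n))
  have hTres : ∀ l, ∀ P : Ideal A, P.IsMaximal →
      T l - algebraMap F.E.R A (W.apOfModel l.1 : F.E.R) ∈ P := fun l P hP => by
    obtain ⟨k, hk⟩ := hresT l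
    refine Avoid.mem_of_pow_range_le φ hφ (k := k) (fun x => ?_) P
    rw [map_intCast, map_sub, map_intCast]
    convert hk x using 4
    rw [← map_intCast (algebraMap (F.Diamond r n) (Module.End (F.Diamond r n) U)),
      Algebra.algebraMap_eq_smul_one]
  have hgen : Algebra.adjoin F.E.R (Set.range T ∪ Set.range dia) = ⊤ := by
    refine eq_top_iff.mpr fun t _ => ?_
    have ht : t ∈ Algebra.adjoin (F.Diamond r n) (Set.range T) := by rw [hgenT]; trivial
    induction ht using Algebra.adjoin_induction with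
    | mem x hx => exact Algebra.subset_adjoin (Or.inl hx)
    | algebraMap s =>
      obtain ⟨s, rfl⟩ := Ideal.Quotient.mk_surjective s
      exact Algebra.subset_adjoin (Or.inr ⟨s, rfl⟩)
    | add x y _ _ hx hy => exact add_mem (hx trivial) (hy trivial)
    | mul x y _ _ hx hy => exact mul_mem (hx trivial) (hy trivial)
  have hres : ∀ x ∈ Set.range T ∪ Set.range dia,
      ∃ a : F.E.R, ∀ P : Ideal A, P.IsMaximal → x - algebraMap F.E.R A a ∈ P := by
    rintro _ (⟨l, rfl⟩ | ⟨y, rfl⟩)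
    · exact ⟨_, hTres l⟩
    · exact Avoid.exists_algebraMap_sub_mem dia (Avoid.residue_surjective_mvPowerSeries (Fin r)) y
  have hloc : IsLocalRing A := Avoid.isLocalRing_of_generated hgen hres
  have hlh : IsLocalHom (algebraMap F.E.R A) := RepTheory.isLocalHom_algebraMap_of_finite F.E.R A
  exact ⟨hfin, hloc, isNoetherian_of_tower F.E.R (inferInstance : IsNoetherian F.E.R A),
    RepTheory.isAdicComplete_maximalIdeal_of_finite F.E.R A, hlh,
    Avoid.residue_surjective_of_generated hgen hres, hgen,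
    fun l => hTres l _ (maximalIdeal.isMaximal A)⟩

/-- A representation over an extension with the traces of the point `ψ`. -/
def LiftFrame.IsRepOfPoint (F : LiftFrame W hΔ p M) {r : ℕ} (qv : Fin r → ℕ) {A : Type}
    [CommRing A] [Algebra F.E.R A] (T : {l : ℕ // l.Prime ∧ l ∉ F.badSet qv} → A)
    (E' : RepTheory.FiniteDVRExt F.E.R) (ψ : A →ₐ[F.E.R] E'.R) (ρ : GaloisRepAdic E'.R) : Prop :=
  ρ.DetIsCyclotomic p ∧ ∀ (l : {l : ℕ // l.Prime ∧ l ∉ F.badSet qv})
    (P : ValuationSubring (AlgebraicClosure ℚ)), P.LiesOverPrime l.1 →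
      ∀ σ : Γℚ, P.IsFrobeniusAt σ l.1 → ρ.trace σ = ψ (T l)

/-- The data at the classical level are ordinary at a multiplicative `p`. -/
def LiftFrame.DatumOrdinary (F : LiftFrame W hΔ p M) (j : ℕ) {r : ℕ} (qv : Fin r → ℕ)
    [NeZero (F.classicalAt j qv)] : Prop :=
  F.Mult → ∀ (θ : CuspForm.heckeAlgebra (F.classicalAt j qv) 2 (↑(F.badSet qv) : Set ℕ) →+*
      ResidueField F.E.R)
    (_ : ∀ (l : ℕ) (hl : l.Prime) (hlM : ¬ l ∣ F.classicalAt j qv)
      (hlS : l ∉ (↑(F.badSet qv) : Set ℕ)),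
      θ (heckeAlgebra.T hl hlM hlS) = (W.apOfModel l : ResidueField F.E.R))
    (H : HeckeGaloisRepDatum (F.classicalAt j qv) (↑(F.badSet qv) : Set ℕ) F.E.R θ
      (heckeLocal (F.classicalAt j qv) (↑(F.badSet qv) : Set ℕ) F.E.R θ)),
    H.π = heckeLocal.π (F.classicalAt j qv) (↑(F.badSet qv) : Set ℕ) F.E.R θ →
    H.ρ.IsOrdinaryAt p

/-- The representation over an algebra of operators and its properties. -/
theorem LiftData.exists_rep_of_ops (D : LiftData W p M) (F : LiftFrame W hΔ p M) {n j r : ℕ}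
    {qv : Fin r → ℕ} [NeZero (F.classicalAt j qv)] (hq : F.IsTWTuple n qv)
    (hord : F.DatumOrdinary j qv)
    (A : Type) [CommRing A] [IsLocalRing A] [IsNoetherianRing A]
    [IsAdicComplete (maximalIdeal A) A] [Algebra F.E.R A] [IsLocalHom (algebraMap F.E.R A)]
    [Module.Finite F.E.R A] (hA' : Function.Surjective (residue A ∘ algebraMap F.E.R A))
    (T : {l : ℕ // l.Prime ∧ l ∉ F.badSet qv} → A)
    (dia : MvPowerSeries (Fin r) F.E.R →ₐ[F.E.R] A)
    (hgen : Algebra.adjoin F.E.R (Set.range T ∪ Set.range dia) = ⊤)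
    (hT : ∀ l, T l - algebraMap F.E.R A (W.apOfModel l.1 : F.E.R) ∈ maximalIdeal A)
    (Ψ : CuspForm.heckeAlgebra (F.classicalAt j qv) 2 (↑(F.badSet qv) : Set ℕ) →+* A)
    (hΨT : ∀ (l : ℕ) (hl : l.Prime) (hlM : ¬ l ∣ F.classicalAt j qv)
      (hlS : l ∉ (↑(F.badSet qv) : Set ℕ)),
      Ψ (heckeAlgebra.T hl hlM hlS) = T ⟨l, hl, by simpa using hlS⟩) :
    ∃ ρ : GaloisRepAdic A, F.cond qv ρ ∧
      ρ.residual.IsEquiv (F.rhobar.baseChangeAlong (ResidueField.map (algebraMap F.E.R A))) ∧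
      Algebra.adjoin F.E.R (Set.range ρ.trace ∪ Set.range dia) = ⊤ ∧
      (∀ (l : {l : ℕ // l.Prime ∧ l ∉ F.badSet qv})
        (P : ValuationSubring (AlgebraicClosure ℚ)), P.LiesOverPrime l.1 →
          ∀ σ : Γℚ, P.IsFrobeniusAt σ l.1 → ρ.trace σ = T l) ∧
      (∀ (E' : RepTheory.FiniteDVRExt F.E.R) (ψ : A →ₐ[F.E.R] E'.R)
        (hψ : IsLocalHom (ψ : A →+* E'.R)),
        F.IsRepOfPoint qv T E' ψ (ρ.baseChangeAlong (ψ : A →+* E'.R) hψ)) ∧
      (∀ i : Fin F.k, j ≤ (i : ℕ) → ρ.IsUnramifiedAt (F.site i)) ∧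
      (∀ i : Fin F.k, (i : ℕ) < j → ρ.IsUnipotentOnInertiaAt (F.site i)) ∧
      (F.Mult → ∀ (E' : RepTheory.FiniteDVRExt F.E.R) (ψ : A →ₐ[F.E.R] E'.R)
        (hψ : IsLocalHom (ψ : A →+* E'.R)),
        (ρ.baseChangeAlong (ψ : A →+* E'.R) hψ).IsFlatAt p ∨ ψ (F.strictDefect ρ) = 0) := by
  have hp2 := D.ne_two
  have hNS : ∀ l : ℕ, l.Prime → l ∣ F.classicalAt j qv → l ∈ F.badSet qv := fun l hl hd => by
    by_contra hb
    exact ((D.badSet_props F hq.prime hl hb).2.2.2.2 j).2 hd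
  have hpS : p ∈ F.badSet qv := F.self_mem_badSet qv
  have hgood : ∀ l : {l : ℕ // l.Prime ∧ l ∉ F.badSet qv},
      ¬ l.1 ∣ F.classicalAt j qv ∧ l.1 ∉ (↑(F.badSet qv) : Set ℕ) :=
    fun l => ⟨fun hd => l.2.2 (hNS _ l.2.1 hd), fun hh => l.2.2 (Finset.mem_coe.mp hh)⟩
  obtain ⟨θ, Φ, hθ, hΦ⟩ := Avoid.exists_residual_heckeLocal_hom hNS hA' Ψ
  have hΦT : ∀ (l : {l : ℕ // l.Prime ∧ l ∉ F.badSet qv}) (hlM : ¬ l.1 ∣ F.classicalAt j qv)
      (hlS : l.1 ∉ (↑(F.badSet qv) : Set ℕ)),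
      Φ (heckeLocal.π _ _ F.E.R θ (heckeAlgebra.T l.2.1 hlM hlS)) = T l :=
    fun l hlM hlS => (hΦ ⟨l.1, l.2.1, hlM, hlS⟩).trans (hΨT l.1 l.2.1 hlM hlS)
  have hθT : ∀ (l : ℕ) (hl : l.Prime) (hlM : ¬ l ∣ F.classicalAt j qv)
      (hlS : l ∉ (↑(F.badSet qv) : Set ℕ)),
      θ (heckeAlgebra.T hl hlM hlS) = (W.apOfModel l : ResidueField F.E.R) := by
    intro l hl hlM hlS
    refine (ResidueField.map (algebraMap F.E.R A)).injective ?_
    rw [hθ, hΨT l hl hlM hlS, ← map_intCast (residue F.E.R), ResidueField.map_residue,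
      ← sub_eq_zero, ← map_sub, residue_eq_zero_iff]
    exact hT _
  have hbar : ∀ (l : ℕ) (hl : l.Prime) (hlM : ¬ l ∣ F.classicalAt j qv)
      (hlS : l ∉ (↑(F.badSet qv) : Set ℕ)),
      ∀ P : ValuationSubring (AlgebraicClosure ℚ), P.LiesOverPrime l →
        ∀ σ : Γℚ, P.IsFrobeniusAt σ l →
          (F.rhobar.ρ σ).charpoly = X ^ 2 - C (θ (heckeAlgebra.T hl hlM hlS)) * X
            + C (l : ResidueField F.E.R) := by
    intro l hl hlM hlS P hP σ hσ
    rw [hθT l hl hlM hlS]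
    exact F.flat_rhobar_charpoly D hl (fun hh => hlS (Finset.mem_coe.mpr hh)) hP hσ
  have hirr := F.rhobar_absIrr D
  obtain ⟨H, hH⟩ := Datum.exists_heckeDatum (F.classicalAt j qv) (F.badSet qv) F.E.R θ hp2 hpS hNS
    F.natCast_mem F.rhobar hirr hbar
  have hloc := Avoid.isLocalHom_of_finite Φ
  have hT' := Datum.residue_surjective_pi (F.classicalAt j qv) (↑(F.badSet qv) : Set ℕ) F.E.R θ
  have hc : F.cond qv (H.ρ.baseChangeAlong _ hloc) :=
    F.cond_of_datum D hp2 hT' inferInstance hA' hpS hNS H Φ hloc hq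
      fun hm => hord hm θ hθT H hH
  have hatt := Avoid.isAttached_baseChangeAlong Φ H hH hloc
  have hattT : ∀ (l : {l : ℕ // l.Prime ∧ l ∉ F.badSet qv})
      (P : ValuationSubring (AlgebraicClosure ℚ)), P.LiesOverPrime l.1 →
        ∀ σ : Γℚ, P.IsFrobeniusAt σ l.1 → (H.ρ.baseChangeAlong _ hloc).trace σ = T l :=
    fun l P hP σ hσ =>
      (Avoid.trace_of_isAttached Φ hatt l.2.1 (hgood l).1 (hgood l).2 hP hσ).trans
        (hΦT l (hgood l).1 (hgood l).2)
  have hgenΦ : Algebra.adjoin F.E.R (Set.range Φ ∪ Set.range dia) = ⊤ := by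
    refine eq_top_iff.mpr (hgen ▸ Algebra.adjoin_mono (Set.union_subset_union_left _ ?_))
    rintro _ ⟨l, rfl⟩
    exact ⟨_, hΦT l (hgood l).1 (hgood l).2⟩
  have hdet := F.detIsCyclotomic_of_cond hc
  refine ⟨_, hc, Avoid.residual_isEquiv_of_isAttached Φ hatt hNS F.rhobar hirr hbar,
    Avoid.adjoin_trace_union_eq_top Φ hatt hNS _ hgenΦ, hattT, fun E' ψ hψ =>
      ⟨Avoid.detIsCyclotomic_baseChangeAlong _ hψ hdet, fun l P hP σ hσ => ?_⟩,
    fun i hi => F.isUnramifiedAt_site hT' inferInstance hA' hpS hNS H Φ hloc hq i hi,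
    fun i hi => F.isUnipotentOnInertiaAt_site D hT' inferInstance hA' hpS hNS H Φ hloc hq i hi,
    fun hm E' ψ hψ => ?_⟩
  · rw [RepTheory.trace_baseChangeAlong, hattT l P hP σ hσ]
    rfl
  · obtain ⟨N', hN'0, hpN', hN'⟩ := F.exists_classicalAt_eq_mul D hm hq j
    haveI : NeZero N' := ⟨hN'0⟩
    refine F.flat_or_strict_point D hpN' hN' hNS T (fun l => ?_) Ψ hΨT hdet hattT E' ψ hψ
      (isOrdinaryAt_baseChangeAlong_of_ordinary _ hψ ((F.cond_iff_of_mult hm qv _).mp hc).1.2.1)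
    rw [← map_intCast (algebraMap F.E.R A)]
    exact hT l

/-- The ring-theoretic and Galois data of a level algebra. -/
structure LiftFrame.AlgData (F : LiftFrame W hΔ p M) (j : ℕ) {r : ℕ} (qv : Fin r → ℕ) (A : Type)
    [CommRing A] [Algebra F.E.R A] (T : {l : ℕ // l.Prime ∧ l ∉ F.badSet qv} → A)
    (dia : MvPowerSeries (Fin r) F.E.R →ₐ[F.E.R] A) : Type 1 where
  [isLocalRing : IsLocalRing A]
  [isNoetherianRing : IsNoetherianRing A]
  [isAdicComplete : IsAdicComplete (maximalIdeal A) A]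
  [isLocalHom : IsLocalHom (algebraMap F.E.R A)]
  [moduleFinite : Module.Finite F.E.R A]
  residue_surjective : Function.Surjective (residue A ∘ algebraMap F.E.R A)
  ρ : GaloisRepAdic A
  isOfType : F.cond qv ρ
  residual_isEquiv : ρ.residual.IsEquiv
    (F.rhobar.baseChangeAlong (ResidueField.map (algebraMap F.E.R A)))
  generated : Algebra.adjoin F.E.R (Set.range ρ.trace ∪ Set.range dia) = ⊤
  trace_frob : ∀ (l : {l : ℕ // l.Prime ∧ l ∉ F.badSet qv})
    (P : ValuationSubring (AlgebraicClosure ℚ)), P.LiesOverPrime l.1 →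
      ∀ σ : Γℚ, P.IsFrobeniusAt σ l.1 → ρ.trace σ = T l
  point_rep : ∀ (E' : RepTheory.FiniteDVRExt F.E.R) (ψ : A →ₐ[F.E.R] E'.R)
    (hψ : IsLocalHom (ψ : A →+* E'.R)),
    F.IsRepOfPoint qv T E' ψ (ρ.baseChangeAlong (ψ : A →+* E'.R) hψ)
  unramified_site : ∀ i : Fin F.k, j ≤ (i : ℕ) → ρ.IsUnramifiedAt (F.site i)
  unipotent_site : ∀ i : Fin F.k, (i : ℕ) < j → ρ.IsUnipotentOnInertiaAt (F.site i)
  flat_or_strict : F.Mult → ∀ (E' : RepTheory.FiniteDVRExt F.E.R) (ψ : A →ₐ[F.E.R] E'.R)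
    (hψ : IsLocalHom (ψ : A →+* E'.R)),
    (ρ.baseChangeAlong (ψ : A →+* E'.R) hψ).IsFlatAt p ∨ ψ (F.strictDefect ρ) = 0

/-- The data are ordinary at a multiplicative `p`. -/
theorem LiftData.datumOrdinary (D : LiftData W p M) (F : LiftFrame W hΔ p M) {n : ℕ} (j : ℕ)
    {r : ℕ} {qv : Fin r → ℕ} [NeZero (F.classicalAt j qv)] (hq : F.IsTWTuple n qv) :
    F.DatumOrdinary j qv := by
  intro hm θ hθ H hH
  refine F.isOrdinaryAt_datum D hm hq (fun l hl hd => ?_) H fun l hl hlN hlS => ?_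
  · by_contra hb
    exact ((D.badSet_props F hq.prime hl hb).2.2.2.2 j).2 hd
  · rw [hH]
    have h := Datum.residue_point
      (AlgHom.id F.E.R (heckeLocal (F.classicalAt j qv) (↑(F.badSet qv) : Set ℕ) F.E.R θ))
      (heckeAlgebra.T hl hlN hlS)
    rw [AlgHom.id_apply] at h
    rw [h, hθ, map_intCast]

/-- An algebra of operators has the data of a level. -/
theorem LiftData.nonempty_algData (D : LiftData W p M) (F : LiftFrame W hΔ p M) {d n j r : ℕ}
    (hd : 0 < d) {qv : Fin r → ℕ} [NeZero (F.classicalAt j qv)] (hq : F.IsTWTuple n qv) {U : Type}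
    [AddCommGroup U] [Module (F.Diamond r n) U] (b : Module.Basis (Fin d) (F.Diamond r n) U)
    (A : Type) [CommRing A]
    [Algebra (F.Diamond r n) A] [Algebra F.E.R A] [IsScalarTower F.E.R (F.Diamond r n) A]
    (φ : A →ₐ[F.Diamond r n] Module.End (F.Diamond r n) U) (hφ : Function.Injective φ)
    (T : {l : ℕ // l.Prime ∧ l ∉ F.badSet qv} → A)
    (hgenT : Algebra.adjoin (F.Diamond r n) (Set.range T) = ⊤)
    (hresT : ∀ l, ∃ k : ℕ, ∀ x : U, ((φ (T l) - (W.apOfModel l.1 : F.Diamond r n) • 1) ^ k) x ∈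
      maximalIdeal (F.Diamond r n) • (⊤ : Submodule (F.Diamond r n) U))
    (Ψ : CuspForm.heckeAlgebra (F.classicalAt j qv) 2 (↑(F.badSet qv) : Set ℕ) →+* A)
    (hΨT : ∀ (l : ℕ) (hl : l.Prime) (hlM : ¬ l ∣ F.classicalAt j qv)
      (hlS : l ∉ (↑(F.badSet qv) : Set ℕ)),
      Ψ (heckeAlgebra.T hl hlM hlS) = T ⟨l, hl, by simpa using hlS⟩) :
    Nonempty (F.AlgData j qv A T ((IsScalarTower.toAlgHom F.E.R (F.Diamond r n) A).comp
      (Ideal.Quotient.mkₐ F.E.R (F.diamondRel r n)))) := by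
  obtain ⟨hfin, hloc, hnoeth, hcompl, hlh, hres, hgen, hT⟩ :=
    F.isLocalRing_of_ops hd b A φ hφ T hgenT hresT
  obtain ⟨ρ, h1, h2, h3, h4, h5, h6, h7, h8⟩ := D.exists_rep_of_ops F hq
    (D.datumOrdinary F j hq) A hres T _ hgen hT Ψ hΨT
  exact ⟨{ residue_surjective := hres, ρ := ρ, isOfType := h1, residual_isEquiv := h2
           generated := h3, trace_frob := h4, point_rep := h5, unramified_site := h6
           unipotent_site := h7, flat_or_strict := h8 }⟩

end FLTA.RT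

end
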