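import Fermat.Agent.RT.Lift.RankChain
import Fermat.Agent.RT.PointVector
import Fermat.Agent.RT.Diamond.IntegralEigen

/-!
# The eigenclass of a point of a level algebra of lifting

A point of the algebra of `level j` at a Taylor–Wiles tuple has, after one further finite extension,
a class which survives over the fraction field, with the eigenvalues of the point at good primes and
a `U`-eigenvalue at a chosen prime of the tuple which reduces to the chosen root.
-/

set_option autoImplicit false
set_option synthInstance.maxHeartbeats 400000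
set_option linter.style.haveILetI false
set_option maxHeartbeats 2000000

noncomputable section

open IsLocalRing WeierstrassCurve CongruenceSubgroup
open scoped Matrix

namespace FLTA.RT

open FLTA.Periods

/-- A class with an eigenvalue of `T_l` not congruent to the degree survives over the fraction
field. -/
theorem eq_zero_of_toFieldClass {O : Type} [CommRing O] [IsDomain O] {L : ℕ} [NeZero L]
    (χ : (ZMod L)ˣ →* Oˣ) {l : ℕ} (hl : l.Prime) (hlL : ¬ l ∣ L) {c : O}
    (hc : IsUnit (c - ((l + 1 : ℕ) : O))) (z : tH1 (gamChar χ) O)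
    (hT : (natHecke χ l).app O z = c • z)
    (hz : Diamond.toFieldClass (K := FractionRing O) χ z = 0) : z = 0 := by
  have := Fact.mk hl
  have : NeZero l := ⟨hl.ne_zero⟩
  have h0 : tH1Map (gamChar χ) (Algebra.linearMap O (FractionRing O)) z = 0 :=
    (tH1Base (V := FractionRing O) (algebraMap O (FractionRing O)) χ
      fun a w => Algebra.smul_def a w).injective (hz.trans (map_zero _).symm)
  have hk := (isWeight_T χ hlL (coprime_of_not_dvd hlL)).sub_card_eq_zero_of_map_eq_zero
    (hwT_mem_range _ _) _ (IsFractionRing.injective O _) z h0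
  rw [show Fintype.card (OnePoint (ZMod l)) = l + 1 from
    Fintype.card_option.trans (by rw [ZMod.card])] at hk
  rw [natHecke_of_not_dvd χ hlL] at hT
  change (isWeight_T χ hlL _).op O z = _ at hT
  rw [hT, ← sub_smul] at hk
  obtain ⟨w, hw⟩ := hc
  rw [← hw] at hk
  rw [← one_smul O z, ← Units.inv_mul w, mul_smul, hk, smul_zero]

variable {W : WeierstrassCurve ℤ} {hΔ : W.Δ ≠ 0} {p : ℕ} [Fact p.Prime] {M : ℕ}

/-- `U` at a prime from the normalised operator. -/
theorem LiftFrame.coe_inv_kap_smul_opAt (F : LiftFrame W hΔ p M) (n j : ℕ) {r : ℕ} (qv : Fin r → ℕ)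
    [NeZero (F.levelAt j qv)] (hqv : ∀ i, (qv i).Prime) {l : ℕ} (hl : l.Prime)
    (x : F.Mod n j qv) :
    ((((((kap (F.twistSet qv) (F.eps n qv) l)⁻¹ : (F.Diamond r n)ˣ) : F.Diamond r n) •
        F.opAt n j qv l) x : F.Mod n j qv) : tH1 (gamChar (F.chi n j qv)) (F.Diamond r n)) =
      (natHecke (F.chi n j qv) l).app (F.Diamond r n) x := by
  rw [LinearMap.smul_apply, Submodule.coe_smul, F.coe_opAt n j qv hqv hl]
  exact inv_smul_smul (kap (F.twistSet qv) (F.eps n qv) l)
    ((natHecke (F.chi n j qv) l).app (F.Diamond r n)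
      (x : tH1 (gamChar (F.chi n j qv)) (F.Diamond r n)))

/-- The diamonds at a point, in a further extension. -/
def LiftFrame.pointRing (F : LiftFrame W hΔ p M) (n j : ℕ) {r : ℕ} (qv : Fin r → ℕ)
    [NeZero (F.levelAt j qv)] (E' : RepTheory.FiniteDVRExt F.E.R)
    (ψ : F.Alg n j qv →ₐ[F.E.R] E'.R) (E'' : RepTheory.FiniteDVRExt E'.R) :
    F.Diamond r n →+* E''.R :=
  ((algebraMap E'.R E''.R).comp (ψ : F.Alg n j qv →+* E'.R)).comp
    (algebraMap (F.Diamond r n) (F.Alg n j qv))

/-- The residue of the diamonds at a point is the residue of the diamond ring. -/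
theorem LiftFrame.residue_pointRing (F : LiftFrame W hΔ p M) (n j : ℕ) {r : ℕ} (qv : Fin r → ℕ)
    [NeZero (F.levelAt j qv)] (E' : RepTheory.FiniteDVRExt F.E.R)
    (ψ : F.Alg n j qv →ₐ[F.E.R] E'.R) (E'' : RepTheory.FiniteDVRExt E'.R) (x : F.Diamond r n) :
    residue E''.R (F.pointRing n j qv E' ψ E'' x) =
      ResidueField.map ((algebraMap E'.R E''.R).comp (algebraMap F.E.R E'.R))
        (F.diamondToRes n r x) := by
  set ι := ResidueField.map ((algebraMap E'.R E''.R).comp (algebraMap F.E.R E'.R))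
  set φ := F.pointRing n j qv E' ψ E''
  let χ := (residue E''.R).comp φ
  have : Finite (F.Diamond r n ⧸ RingHom.ker χ) :=
    Finite.of_injective χ.kerLift χ.kerLift_injective
  have : (RingHom.ker χ).IsPrime := RingHom.ker_isPrime χ
  have hmax : (RingHom.ker χ).IsMaximal := Ideal.Quotient.maximal_of_isField _
    (Finite.isField_of_domain (R := F.Diamond r n ⧸ RingHom.ker χ))
  have hm : RingHom.ker χ = maximalIdeal (F.Diamond r n) := IsLocalRing.eq_maximalIdeal hmax
  have hm' : RingHom.ker (F.diamondToRes n r) = maximalIdeal (F.Diamond r n) :=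
    IsLocalRing.eq_maximalIdeal
      (RingHom.ker_isMaximal_of_surjective _ (F.diamondToRes_surjective n))
  obtain ⟨c, hc⟩ := residue_surjective (F.diamondToRes n r x)
  have h1 : x - algebraMap F.E.R (F.Diamond r n) c ∈ RingHom.ker χ := by
    rw [hm, ← hm', RingHom.mem_ker, map_sub, F.diamondToRes_algebraMap, hc, sub_self]
  rw [RingHom.mem_ker, map_sub, sub_eq_zero] at h1
  rw [← hc, ResidueField.map_residue]
  refine h1.trans (congrArg (residue E''.R) ?_)
  show algebraMap E'.R E''.R (ψ (algebraMap F.E.R (F.Alg n j qv) c)) = _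
  rw [ψ.commutes]
  rfl

/-- **The eigenclass of a point.** -/
theorem LiftData.exists_point_class (D : LiftData W p M) (F : LiftFrame W hΔ p M) {n j r : ℕ}
    {qv : Fin r → ℕ} [NeZero (F.levelAt j qv)] (h : F.IsTWTuple n qv) (i : Fin r)
    (E' : RepTheory.FiniteDVRExt F.E.R) (ψ : F.Alg n j qv →ₐ[F.E.R] E'.R) :
    ∃ (E'' : RepTheory.FiniteDVRExt E'.R) (β : E''.R)
      (z : tH1 (gamChar (charMap (F.pointRing n j qv E' ψ E'') (F.chi n j qv))) E''.R),
      (∀ l : {l : ℕ // l.Prime ∧ l ∉ F.badSet qv},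
        F.pointRing n j qv E' ψ E'' (kap (F.twistSet qv) (F.eps n qv) l.1 : F.Diamond r n) •
            (natHecke (charMap (F.pointRing n j qv E' ψ E'') (F.chi n j qv)) l.1).app E''.R z =
          algebraMap E'.R E''.R (ψ (F.algT n j qv l)) • z) ∧
      (natHecke (charMap (F.pointRing n j qv E' ψ E'') (F.chi n j qv)) (qv i)).app E''.R z = β • z ∧
      residue E''.R β =
        residue E''.R (algebraMap E'.R E''.R (algebraMap F.E.R E'.R (F.alphaAt (qv i)))) ∧
      (∀ l : {l : ℕ // l.Prime ∧ l ∉ F.badSet qv},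
        residue E''.R (algebraMap E'.R E''.R (ψ (F.algT n j qv l))) =
          (W.apOfModel l.1 : ResidueField E''.R)) ∧
      Diamond.toFieldClass (K := FractionRing E''.R)
        (charMap (F.pointRing n j qv E' ψ E'') (F.chi n j qv)) z ≠ 0 := by
  classical
  haveI := group_fg_Gamma0 (F.levelAt j qv)
  haveI := F.isNoetherianRing_diamond n (r := r)
  haveI := F.isAdicComplete_diamond n (r := r)
  haveI := finite_tH1 (χ := gamChar (F.chi n j qv)) (F.Diamond r n)
  have hqv := h.prime
  obtain ⟨d, ⟨b⟩⟩ : ∃ d : ℕ,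
      Nonempty (Module.Basis (Fin d) (F.Diamond r n) (F.Mod n j qv)) :=
    ⟨F.liftRank j, D.exists_basis_liftRank F n j h⟩
  -- `U` at the prime
  let s : F.Idx qv := .inr ⟨qv i, Finset.mem_union_left _
    (Finset.mem_image_of_mem qv (Finset.mem_univ i))⟩
  let κq : (F.Diamond r n)ˣ := kap (F.twistSet qv) (F.eps n qv) (qv i)
  let u : Module.End (F.Diamond r n) (F.Mod n j qv) :=
    ((κq⁻¹ : (F.Diamond r n)ˣ) : F.Diamond r n) • F.opAt n j qv (qv i)
  have hu : ∀ x : F.Mod n j qv,
      ((u x : F.Mod n j qv) : tH1 (gamChar (F.chi n j qv)) (F.Diamond r n)) =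
        (natHecke (F.chi n j qv) (qv i)).app (F.Diamond r n) x :=
    F.coe_inv_kap_smul_opAt n j qv hqv (hqv i)
  obtain ⟨E'', v, β, hv0, hvT, hvU⟩ := exists_eigenVec_extend b (O := E'.R)
    (Set.range fun l : {l : ℕ // l.Prime ∧ l ∉ F.badSet qv} => F.opAt n j qv l.1) u
    (by
      rintro a (rfl | ⟨l, rfl⟩) a' (rfl | ⟨l', rfl⟩)
      · rfl
      · exact ((F.commute_opAt n j qv hqv (hqv i) l'.2.1).smul_left _).eq
      · exact ((F.commute_opAt n j qv hqv l.2.1 (hqv i)).smul_right _).eq
      · exact (F.commute_opAt n j qv hqv l.2.1 l'.2.1).eq)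
    (ψ : F.Alg n j qv →+* E'.R)
  have hφdef : (algebraMap E'.R E''.R).comp ((ψ : F.Alg n j qv →+* E'.R).comp
      (algebraMap (F.Diamond r n) (F.Alg n j qv))) = F.pointRing n j qv E' ψ E'' := rfl
  simp only [hφdef] at hvT hvU
  letI : Algebra (F.Diamond r n) E''.R := (F.pointRing n j qv E' ψ E'').toAlgebra
  have hφm : ∀ x ∈ maximalIdeal (F.Diamond r n),
      F.pointRing n j qv E' ψ E'' x ∈ maximalIdeal E''.R := fun x hx => by
    rw [← residue_eq_zero_iff, F.residue_pointRing n j qv E' ψ E'']
    have : x ∈ RingHom.ker (F.diamondToRes n r) := by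
      rwa [IsLocalRing.eq_maximalIdeal
        (RingHom.ker_isMaximal_of_surjective _ (F.diamondToRes_surjective n))]
    rw [RingHom.mem_ker.mp this, map_zero]
  have hres : ∀ l : {l : ℕ // l.Prime ∧ l ∉ F.badSet qv},
      residue E''.R (algebraMap E'.R E''.R (ψ (F.algT n j qv l))) =
        (W.apOfModel l.1 : ResidueField E''.R) := fun l => by
    obtain ⟨k, hk⟩ := F.exists_pow_opAt_sub n j qv hqv l
    have h1 := residue_eigenvalue b (F.pointRing n j qv E' ψ E'') hφm hv0 (F.opAt n j qv l.1)
      (hvT _ ⟨l, rfl⟩) _ hk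
    exact h1.trans ((congrArg (residue E''.R) (map_intCast _ _)).trans (map_intCast _ _))
  haveI : Module.Finite (F.Diamond r n) E''.R := by
    refine (RingHom.finite_algebraMap (A := F.Diamond r n) (B := E''.R)).mp ?_
    show (F.pointRing n j qv E' ψ E'').Finite
    refine RingHom.Finite.of_comp_finite (f := algebraMap F.E.R (F.Diamond r n)) ?_
    rw [show (F.pointRing n j qv E' ψ E'').comp (algebraMap F.E.R (F.Diamond r n)) =
        (algebraMap E'.R E''.R).comp (algebraMap F.E.R E'.R) from
      RingHom.ext fun c => congrArg (algebraMap E'.R E''.R) (ψ.commutes c)]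
    exact (RingHom.finite_algebraMap.mpr inferInstance).comp
      (RingHom.finite_algebraMap.mpr inferInstance)
  let z : tH1 (gamChar (charMap (F.pointRing n j qv E' ψ E'') (F.chi n j qv))) E''.R :=
    vecClassBase (F.chi n j qv) b v
  have hTz : ∀ l : {l : ℕ // l.Prime ∧ l ∉ F.badSet qv},
      F.pointRing n j qv E' ψ E'' (kap (F.twistSet qv) (F.eps n qv) l.1 : F.Diamond r n) •
          (natHecke (charMap (F.pointRing n j qv E' ψ E'') (F.chi n j qv)) l.1).app E''.R z =
        algebraMap E'.R E''.R (ψ (F.algT n j qv l)) • z := by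
    intro l
    refine Eq.trans ?_ (tH1Base_app_vecClass (F.chi n j qv) b (F.natT n j qv l.1)
      (F.opAt n j qv l.1) (fun x => F.coe_opAt n j qv hqv l.2.1 x) v _ (hvT _ ⟨l, rfl⟩))
    rw [LiftFrame.natT, NatEnd.smul_app, tH1Base_smul, tH1Base_natHecke]
    rfl
  refine ⟨E'', β, z, hTz, ?_, ?_, hres, ?_⟩
  · refine Eq.trans ?_ (tH1Base_app_vecClass (F.chi n j qv) b (natHecke (F.chi n j qv) (qv i))
      u hu v _ hvU)
    rw [tH1Base_natHecke]
    rfl
  · obtain ⟨k, hk⟩ := exists_pow_sub_mem (F.commAtRing_ops n j hqv) (F.sys n qv) s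
    refine (residue_eigenvalue b (F.pointRing n j qv E' ψ E'') hφm hv0 u hvU
      (F.sys n qv s) (k := k) fun x => ?_).trans ?_
    · rw [Submodule.mem_smul_top_iff,
        coe_pow_sub_smul_one (f := opsAt (F.ops n j qv) (F.Diamond r n) s) hu _ k x]
      have hx : (x : tH1 (gamChar (F.chi n j qv)) (F.Diamond r n)) ∈
          LinearMap.range (localIdem (opsAt (F.ops n j qv) (F.Diamond r n)) (F.sys n qv)) := by
        rw [← F.idem_app n j qv hqv]
        exact x.2
      have h1 := hk _ hx
      rw [← F.idem_app n j qv hqv] at h1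
      exact h1
    · exact congrArg (fun w => residue E''.R (algebraMap E'.R E''.R w))
        (ψ.commutes (F.alphaAt (qv i)))
  · intro hz
    obtain ⟨l₀, hl₀, hl₀S, hl₀1, hunit⟩ := D.exists_nonEisenstein F (NeZero.ne (F.levelAt j qv))
      (F.twistSet qv)
    have hl₀bad : l₀ ∉ F.badSet qv := by rwa [LiftFrame.badSet, Finset.union_comm]
    have hl₀N := not_dvd_of_natCast_eq_one hl₀ hl₀1
    have hkap : kap (F.twistSet qv) (F.eps n qv) l₀ = 1 := by
      refine kap_eq_one _ (fun s hs => ?_) hl₀1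
      obtain ⟨m, -, rfl⟩ := Finset.mem_image.mp hs
      exact (Finset.dvd_prod_of_mem _ (Finset.mem_univ m)).trans (dvd_mul_left _ _)
    have h1 := hTz ⟨l₀, hl₀, hl₀bad⟩
    simp only [hkap, Units.val_one, map_one, one_smul] at h1
    have hz0 : z = 0 := eq_zero_of_toFieldClass _ hl₀ hl₀N (by
      by_contra hh
      rw [← mem_nonunits_iff, ← mem_maximalIdeal, ← residue_eq_zero_iff, map_sub, hres,
        map_natCast, ← map_intCast (ResidueField.map
          ((algebraMap E'.R E''.R).comp (algebraMap F.E.R E'.R))),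
        ← map_natCast (ResidueField.map ((algebraMap E'.R E''.R).comp (algebraMap F.E.R E'.R))),
        ← map_sub, map_eq_zero] at hh
      exact hunit.ne_zero (by rw [← hh]; push_cast; rfl)) z h1 hz
    exact hv0 (eq_zero_of_vecClass b (F.hasLifts n j qv)
      (eqAtRing_localEnd_sq (F.commAtRing_ops n j hqv) _) v
      ((tH1Base (algebraMap (F.Diamond r n) E''.R) (F.chi n j qv)
        fun a w => Algebra.smul_def a w).injective (hz0.trans (map_zero _).symm)))

end FLTA.RT

end
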