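import Fermat.Agent.RT.Lift.ModulesFlat
import Fermat.Agent.RT.Lift.ModulesPointClass
import Fermat.Agent.RT.Lift.ModulesClassical
import Fermat.Agent.RT.Lift.StrictDefect
import Fermat.Agent.RT.Lift.RankChain
import Fermat.Agent.RT.Lift.LevelPoint
import Fermat.Agent.RT.Main.ModulesPointStrictInput
import Fermat.Agent.RT.Main.ModulesAssembly
import Fermat.Agent.RT.AtP.NewClass
import Fermat.Agent.RT.PointDescend
import Fermat.Agent.RT.PointTraceless
import Fermat.Agent.RT.DeformExtend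

/-!
# The new part at `p` of the first level is strictly ordinary

A class killed by both corestrictions at `p` is killed by the defect of strictness: at a point of
the algebra with an eigenvector in the new part the representation is strictly ordinary, and the
algebra is reduced.
-/

set_option autoImplicit false
set_option linter.style.haveILetI false
set_option synthInstance.maxHeartbeats 400000
set_option maxHeartbeats 2000000

noncomputable section

open IsLocalRing WeierstrassCurve CongruenceSubgroup Polynomial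
open scoped Matrix

namespace FLTA.RT

open FLTA.Periods
open FLTA.Gamma0 (homPar0)

local notation "Γℚ" => AlgebraicClosure ℚ ≃ₐ[ℚ] AlgebraicClosure ℚ

variable {W : WeierstrassCurve ℤ} {hΔ : W.Δ ≠ 0} {p : ℕ} [Fact p.Prime] {M : ℕ}

/-- The classes killed by both corestrictions at `p`, up to naming of the level. -/
theorem exists_newPart {R : Type} [CommRing R] {L L' : ℕ} [NeZero L] [NeZero L'] [NeZero p]
    [NeZero (L * p)] [((Gamma0 (L * p)).subgroupOf (Gamma0 L)).FiniteIndex] (hL : L' = L * p)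
    (hpL : Nat.Coprime p L) (Q : Finset ℕ) (ε : ∀ r : ℕ, (ZMod r)ˣ →* Rˣ)
    (hQ : ∀ r ∈ Q, r ∣ L) :
    ∃ K : Submodule R (tH1 (gamChar (sigProd L' Q ε)) R),
      (∀ x, x ∈ K ↔ ∀ y' : tH1 (gamChar (chiUp (sigProd L Q ε) p)) R, HEq y' x →
        ∀ i, degDown hpL (sigProd L Q ε) R i y' = 0) ∧
      ∀ l : ℕ, l.Prime → l ≠ p → ∀ x ∈ K, (natHecke (sigProd L' Q ε) l).app R x ∈ K := by
  subst hL
  set χ₀ : (ZMod L)ˣ →* Rˣ := sigProd L Q ε with hχ₀
  have hsig : chiUp χ₀ p = sigProd (L * p) Q ε := by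
    refine MonoidHom.ext fun x => ?_
    show sigProd L Q ε (ZMod.unitsMap (dvd_mul_right L p) x) = _
    rw [sigProd_apply, sigProd_apply]
    exact Finset.prod_congr rfl fun r hr => by rw [sigChar_unitsMap _ (hQ r hr)]
  rw [← hsig]
  refine ⟨⨅ i, LinearMap.ker (degDown hpL χ₀ R i), fun x => ?_, fun l hl hlp x hx => ?_⟩
  · simp only [Submodule.mem_iInf, LinearMap.mem_ker]
    exact ⟨fun h y' hy' => eq_of_heq hy' ▸ h, fun h => h x HEq.rfl⟩
  · simp only [Submodule.mem_iInf, LinearMap.mem_ker] at hx ⊢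
    have hd := degIntertwines_natHecke (χ := χ₀) hpL (fun _ : Unit => l) (fun _ => hl)
      (fun _ => hlp)
    intro i
    fin_cases i
    · show degCor χ₀ R ((natHecke (chiUp χ₀ p) l).app R x) = 0
      rw [← hd.cor () R, show degCor χ₀ R x = 0 from hx 0, map_zero]
    · show degCor χ₀ R (degAL χ₀ R hpL ((natHecke (chiUp χ₀ p) l).app R x)) = 0
      rw [← hd.corAL () R, show degCor χ₀ R (degAL χ₀ R hpL x) = 0 from hx 1, map_zero]

namespace LiftData

variable (D : LiftData W p M) (F : LiftFrame W hΔ p M) {n j r : ℕ} {qv : Fin r → ℕ}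

include D in
/-- An eigen homomorphism with residually non-Eisenstein values is parabolic. -/
theorem mem_homPar0_of_congr {L : ℕ} [NeZero L] {B K : Type}
    [CommRing B] [IsLocalRing B] [Field K] [CharZero K] [Algebra B K]
    (hB : Function.Injective (algebraMap B K)) (t : ResidueField F.E.R →+* ResidueField B)
    (u : Additive (Gamma0 L) →+ K) (a : ℕ → B) (qv : Fin r → ℕ)
    (ha : ∀ l : ℕ, l.Prime → l ∉ F.badSet qv →
      residue B (a l) = t (W.apOfModel l : ResidueField F.E.R))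
    (hu : ∀ l : ℕ, l.Prime → l ∉ F.badSet qv → ¬ l ∣ L →
      heckeHom K L l u = algebraMap B K (a l) • u) :
    u ∈ homPar0 ℤ (Gamma0 L) K := by
  obtain ⟨l, hl, hlT, hl1, hunit⟩ := D.exists_nonEisenstein F (NeZero.ne L) (F.twistSet qv)
  haveI := Fact.mk hl
  have hlb : l ∉ F.badSet qv := by rwa [LiftFrame.badSet, Finset.union_comm]
  have hlL := not_dvd_of_natCast_eq_one hl hl1
  have hne : a l ≠ (l : B) + 1 := fun h => hunit.ne_zero (t.injective (by
    have hcr := ha l hl hlb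
    rw [h, map_add, map_one, map_natCast] at hcr
    rw [map_sub, map_add, map_one, map_natCast, map_zero, ← hcr, sub_self]))
  have h12 : (12 : K) ≠ 0 := by norm_num
  refine isParHom0_of_isParabolicHom h12 fun γ hγ => ?_
  have h := isParabolicHom_of_eisenstein K (fun a ha => by simpa using ha) hlL hl1 u γ hγ
  rw [hu l hl hlb hlL, AddMonoidHom.sub_apply, AddMonoidHom.smul_apply, AddMonoidHom.smul_apply,
    nsmul_eq_mul, smul_eq_mul, ← sub_mul] at h
  refine (mul_eq_zero.mp h).resolve_left (sub_ne_zero.mpr fun e => hne (hB ?_))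
  rw [e, map_add, map_one, map_natCast]
  push_cast
  rfl

include D in
/-- **A point with a traceless eigen homomorphism is strict.** -/
theorem strictDefect_eq_zero_of_traceless (qv : Fin r → ℕ) {A : Type} [CommRing A] [IsLocalRing A]
    [Algebra F.E.R A] {ρ : GaloisRepAdic A} (hdet : ρ.DetIsCyclotomic p)
    (hord : ρ.IsOrdinaryAt p)
    (E' : RepTheory.FiniteDVRExt F.E.R) (ψ : A →ₐ[F.E.R] E'.R)
    (hψ : IsLocalHom (ψ : A →+* E'.R)) {N : ℕ} [NeZero N] [NeZero (N * p)] (hpN : Nat.Coprime p N)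
    (hNS : ∀ l : ℕ, l.Prime → l ∉ F.badSet qv → ¬ l ∣ N * p)
    (hres : ∀ l : ℕ, l.Prime → l ∉ F.badSet qv →
      residue E'.R (ψ (ρ.trace (F.frob l))) = (W.apOfModel l : ResidueField E'.R))
    (htr : ∀ (l : ℕ), l.Prime → l ∉ F.badSet qv →
      ∀ P : ValuationSubring (AlgebraicClosure ℚ), P.LiesOverPrime l →
        ∀ τ : Γℚ, P.IsFrobeniusAt τ l → ρ.trace τ = ρ.trace (F.frob l))
    (u : Additive (Gamma0 (N * p)) →+ FractionRing E'.R) (hu0 : u ≠ 0)
    (hu : ∀ l : ℕ, l.Prime → l ∉ F.badSet qv → heckeHom (FractionRing E'.R) (N * p) l u =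
      algebraMap E'.R (FractionRing E'.R) (ψ (ρ.trace (F.frob l))) • u)
    (hutr : ∀ (bl : Bool) (γ : Gamma0 N), ∑ i, u (Additive.ofMul
      (Disc.transCocyc hpN dvd_rfl (Disc.isTrans_sideTrans (q := p) hpN bl) γ i)) = 0) :
    ψ (F.strictDefect ρ) = 0 := by
  classical
  let K := FractionRing E'.R
  haveI : NeZero p := ⟨(Fact.out : p.Prime).ne_zero⟩
  have hinj : Function.Injective (algebraMap E'.R K) := IsFractionRing.injective E'.R K
  haveI : CharZero K := charZero_of_injective_ringHom hinj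
  let a : ℕ → E'.R := fun l => ψ (ρ.trace (F.frob l))
  have hres' : ∀ l : ℕ, l.Prime → l ∉ F.badSet qv →
      residue E'.R (a l) = ResidueField.map (algebraMap F.E.R E'.R)
        (W.apOfModel l : ResidueField F.E.R) := fun l hl hb => by
    rw [map_intCast]; exact hres l hl hb
  have hpar : u ∈ homPar0 ℤ (Gamma0 (N * p)) K :=
    D.mem_homPar0_of_congr F hinj _ u a qv hres' fun l hl hb _ => hu l hl hb
  obtain ⟨d, hd, w, hw⟩ := exists_integral_hom (B := E'.R) u
  have hwx : ∀ x, algebraMap E'.R K (w x) = d * u x := fun x => DFunLike.congr_fun hw x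
  have hw0 : w ≠ 0 := fun h => hu0 (AddMonoidHom.ext fun x => (mul_eq_zero.mp (by
    rw [← hwx, h, AddMonoidHom.zero_apply, map_zero])).resolve_left hd)
  have hwpar : w ∈ homPar0 ℤ (Gamma0 (N * p)) E'.R := fun γ hγ =>
    hinj (by rw [hwx, hpar γ hγ, mul_zero, map_zero])
  have hwT : ∀ l : ℕ, l.Prime → l ∉ F.badSet qv → ¬ l ∣ N * p →
      heckeHom ℤ (N * p) l w = a l • w := fun l hl hb _ => by
    have h1 := hu l hl hb
    rw [heckeHom_eq_int] at h1
    refine AddMonoidHom.ext fun x => hinj ?_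
    have h3 := DFunLike.congr_fun (congrArg (heckeHom ℤ (N * p) l) hw) x
    rw [heckeHom_comp] at h3
    refine h3.trans ?_
    have h4 : d • u = (DistribSMul.toAddMonoidHom K d).comp u := rfl
    rw [h4, heckeHom_comp]
    show d * heckeHom ℤ (N * p) l u x = algebraMap E'.R K (a l * w x)
    rw [show heckeHom ℤ (N * p) l u x = algebraMap E'.R K (a l) * u x from
      DFunLike.congr_fun h1 x, map_mul, hwx]
    ring
  have hwtr : ∀ (bl : Bool) (γ : Gamma0 N), ∑ i, w (Additive.ofMul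
      (Disc.transCocyc hpN dvd_rfl (Disc.isTrans_sideTrans (q := p) hpN bl) γ i)) = 0 :=
    fun bl γ => hinj (by simp only [map_sum, hwx, ← Finset.mul_sum, hutr bl γ, mul_zero, map_zero])
  let ρ' := ρ.baseChangeAlong (ψ : A →+* E'.R) hψ
  letI : Algebra ℤ_[p] E'.R :=
    ((algebraMap F.E.R E'.R).comp (algebraMap ℤ_[p] F.E.R)).toAlgebra
  haveI : IsScalarTower ℤ_[p] F.E.R E'.R := IsScalarTower.of_algebraMap_eq fun _ => rfl
  haveI : Module.Finite ℤ_[p] E'.R := Module.Finite.trans F.E.R E'.R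
  have hdet' : ρ'.DetIsCyclotomic p := Avoid.detIsCyclotomic_baseChangeAlong _ hψ hdet
  have hcp : ∀ l : ℕ, l.Prime → l ∉ F.badSet qv →
      ∀ P : ValuationSubring (AlgebraicClosure ℚ), P.LiesOverPrime l →
        ∀ σ : Γℚ, P.IsFrobeniusAt σ l →
          LinearMap.charpoly (ρ'.ρ σ) = X ^ 2 - C (a l) * X + C (l : E'.R) := by
    intro l hl hb P hP σ hσ
    have hlp : p ≠ l := fun e => hb (e ▸ F.self_mem_badSet qv)
    rw [RepTheory.charpoly_of_finrank_two ρ'.finrank_eq,
      LocalGalois.det_frobenius_eq ρ' hdet' hl Fact.out hlp hP hσ]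
    show X ^ 2 - C (ρ'.trace σ) * X + _ = _
    rw [RepTheory.trace_baseChangeAlong, htr l hl hb P hP σ hσ]
    rfl
  have hs : ρ'.IsStrictOrdinaryAt p :=
    AtP.isStrictOrdinaryAt_of_traces hpN (LiftFrame.ne_two_of_data D) (F.badSet qv) a ρ' hcp
      (Datum.residual_isAbsolutelyIrreducible_of_frobenius F.rhobar (F.rhobar_absIrr D)
        (F.badSet qv) (fun l => (W.apOfModel l : ResidueField F.E.R))
        (fun l hl hb P hP σ hσ => F.flat_rhobar_charpoly D hl hb hP hσ) ρ'
        (ResidueField.map (algebraMap F.E.R E'.R)) a hres' hcp)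
      hdet' (isOrdinaryAt_extend _ _ _ hord) w hwpar hw0 hwT hwtr
  have hd' : ∀ σ, (ψ : A →+* E'.R) (LinearMap.det (ρ.ρ σ)) = LinearMap.det (ρ'.ρ σ) := fun σ =>
    (det_baseChangeAlong _ hψ ρ σ).symm
  exact ((LiftFrame.map_strictDefect (F := F) (ψ : A →+* E'.R)
    (fun σ => (RepTheory.trace_baseChangeAlong _ hψ ρ σ).symm) hd').1).trans
      (F.strictDefect_eq_zero_of_strict hdet' hs)

include D in
/-- **The new part at `p` is killed by the defect of strictness.** -/
theorem strictDefect_apply_eq_zero [NeZero (F.levelAt j qv)] (hq : F.IsTWTuple n qv)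
    {A : Type} [CommRing A] [IsLocalRing A] [Algebra F.E.R A] [Algebra (F.Diamond r n) A]
    [Module.Finite F.E.R A]
    (htower : ∀ c, algebraMap F.E.R A c =
      algebraMap (F.Diamond r n) A (algebraMap F.E.R (F.Diamond r n) c))
    (θ : A →ₐ[F.Diamond r n] Module.End (F.Diamond r n) (F.Mod n j qv))
    (hθ : Function.Injective θ)
    (hsep : ∀ a : A, a ≠ 0 →
      ∃ (E' : RepTheory.FiniteDVRExt F.E.R) (ψ : A →ₐ[F.E.R] E'.R), ψ a ≠ 0)
    (ρ : GaloisRepAdic A) (hdet : ρ.DetIsCyclotomic p) (hord : ρ.IsOrdinaryAt p)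
    (htr : ∀ (l : {l : ℕ // l.Prime ∧ l ∉ F.badSet qv})
      (P : ValuationSubring (AlgebraicClosure ℚ)), P.LiesOverPrime l.1 →
        ∀ τ : Γℚ, P.IsFrobeniusAt τ l.1 → θ (ρ.trace τ) = F.opAt n j qv l.1)
    {L : ℕ} [NeZero L] [NeZero (L * p)] [NeZero p]
    [((Gamma0 (L * p)).subgroupOf (Gamma0 L)).FiniteIndex] (hL : F.levelAt j qv = L * p)
    (hpL : Nat.Coprime p L) (hmem : ∀ a, θ a ∈ F.Alg n j qv) (y : F.Mod n j qv)
    (hy : ∀ y' : tH1 (gamChar (chiUp (sigProd L (F.twistSet qv) (F.eps n qv)) p)) (F.Diamond r n),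
      HEq y' (y : tH1 (gamChar (F.chi n j qv)) (F.Diamond r n)) →
      ∀ i, degDown hpL (sigProd L (F.twistSet qv) (F.eps n qv)) (F.Diamond r n) i y' = 0) :
    θ (F.strictDefect ρ) y = 0 := by
  classical
  haveI := group_fg_Gamma0 (F.levelAt j qv)
  haveI := F.isNoetherianRing_diamond n (r := r)
  haveI := F.isAdicComplete_diamond n (r := r)
  haveI := finite_tH1 (χ := gamChar (F.chi n j qv)) (F.Diamond r n)
  haveI := F.moduleFinite_diamond n (r := r)
  haveI := IsScalarTower.of_algebraMap_eq (R := F.E.R) (S := F.Diamond r n) (A := A) htower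
  haveI : IsReduced A := ⟨fun x hx => by_contra fun hne => by
    obtain ⟨E', ψ, hψ⟩ := hsep x hne
    exact hψ (IsNilpotent.eq_zero (hx.map ψ))⟩
  have hqv := hq.prime
  obtain ⟨b⟩ := D.exists_basis_liftRank F n j hq
  let χ' := F.chi n j qv
  have hQ : ∀ s ∈ F.twistSet qv, s.Prime ∧ s ∣ L ∧ ¬ s * s ∣ L := by
    intro s hs
    obtain ⟨h1, h2, h3⟩ := D.twistSet_props F hq j s hs
    refine ⟨h1, (h1.dvd_mul.mp (hL ▸ h2)).resolve_right fun h => ?_,
      fun h => h3 (hL ▸ h.mul_right p)⟩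
    obtain ⟨i, -, rfl⟩ := Finset.mem_image.mp hs
    exact (D.avoided_props (F := F) h1 (hq.notMem i)).1
      ((Nat.prime_dvd_prime_iff_eq h1 Fact.out).mp h)
  obtain ⟨K, hK, hKop⟩ := exists_newPart (R := F.Diamond r n) hL hpL (F.twistSet qv) (F.eps n qv)
    fun s hs => (hQ s hs).2.1
  -- the new part, stable under the algebra
  let Y : Submodule (F.Diamond r n) (F.Mod n j qv) := K.comap (Submodule.subtype _)
  have halg : ∀ f ∈ F.Alg n j qv, ∀ z ∈ Y, f z ∈ Y := by
    intro f hf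
    induction hf using Algebra.adjoin_induction with
    | mem f hf =>
      obtain ⟨l, rfl⟩ := hf
      intro z hz
      show ((F.opAt n j qv l.1 z : F.Mod n j qv) : tH1 (gamChar χ') (F.Diamond r n)) ∈ K
      rw [F.coe_opAt n j qv hqv l.2.1, LiftFrame.natT, NatEnd.smul_app]
      exact K.smul_mem _ (hKop l.1 l.2.1 (fun e => l.2.2 (by rw [e]; exact F.self_mem_badSet qv)) _ hz)
    | algebraMap c => intro z hz; rw [Module.algebraMap_end_apply]; exact Y.smul_mem _ hz
    | add f g _ _ hf hg => intro z hz; exact Y.add_mem (hf z hz) (hg z hz)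
    | mul f g _ _ hf hg => intro z hz; exact hf _ (hg z hz)
  have hsepR : ∀ x : F.Diamond r n,
      (∀ φ : F.Diamond r n →ₐ[F.E.R] AlgebraicClosure (FractionRing F.E.R), φ x = 0) → x = 0 :=
    fun x hx => Avoid.eq_zero_of_forall_point (O := F.E.R) (k := n + 1) F.natCast_mem x hx
  refine apply_eq_zero_of_points (O := F.E.R) (R := F.Diamond r n) b θ Y
    (fun a => halg _ (hmem a)) hsepR (F.strictDefect ρ) ?_ y ((hK _).2 hy)
  intro E' ψ v hv0 hvY heig
  letI : Algebra (F.Diamond r n) E'.R :=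
    ((ψ : A →+* E'.R).comp (algebraMap (F.Diamond r n) A)).toAlgebra
  haveI := IsScalarTower.of_algebraMap_eq (R := F.E.R) (S := F.Diamond r n) (A := E'.R) fun c => by
      show algebraMap F.E.R E'.R c = ψ (algebraMap (F.Diamond r n) A (algebraMap F.E.R _ c))
      rw [← htower, ψ.commutes]
  haveI : Module.Finite (F.Diamond r n) E'.R :=
    Module.Finite.of_restrictScalars_finite F.E.R (F.Diamond r n) E'.R
  have hψ : IsLocalHom (ψ : A →+* E'.R) := Avoid.isLocalHom_of_finite ψ
  let φR : F.Diamond r n →ₐ[F.E.R] E'.R :=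
    { algebraMap (F.Diamond r n) E'.R with
      commutes' := fun c => by
        show ψ (algebraMap (F.Diamond r n) A (algebraMap F.E.R _ c)) = algebraMap F.E.R E'.R c
        rw [← htower, ψ.commutes] }
  have hφloc : IsLocalHom (algebraMap (F.Diamond r n) E'.R) :=
    ⟨fun x hx => (Avoid.isLocalHom_of_finite φR).map_nonunit x hx⟩
  have htr' : ∀ (l : ℕ), l.Prime → l ∉ F.badSet qv →
      ∀ P : ValuationSubring (AlgebraicClosure ℚ), P.LiesOverPrime l →
        ∀ τ : Γℚ, P.IsFrobeniusAt τ l → ρ.trace τ = ρ.trace (F.frob l) :=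
    fun l hl hb P hP τ hτ => hθ ((htr ⟨l, hl, hb⟩ P hP τ hτ).trans
      (htr ⟨l, hl, hb⟩ _ (F.liesOver l hl) _ (F.isFrobenius l hl)).symm)
  have hop : ∀ (l : ℕ) (hl : l.Prime) (hb : l ∉ F.badSet qv),
      (LinearMap.toMatrix b b (F.opAt n j qv l)).map (algebraMap (F.Diamond r n) E'.R) *ᵥ v =
        ψ (ρ.trace (F.frob l)) • v := fun l hl hb => by
    rw [← htr ⟨l, hl, hb⟩ _ (F.liesOver l hl) _ (F.isFrobenius l hl)]
    exact heig _
  have hres : ∀ l : ℕ, l.Prime → l ∉ F.badSet qv →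
      residue E'.R (ψ (ρ.trace (F.frob l))) = (W.apOfModel l : ResidueField E'.R) := fun l hl hb => by
    obtain ⟨k, hk⟩ := F.exists_pow_opAt_sub n j qv hqv ⟨l, hl, hb⟩
    have h1 := residue_eigenvalue b (algebraMap (F.Diamond r n) E'.R)
      (fun x hx => map_nonunit _ _ hx) hv0 (F.opAt n j qv l) (hop l hl hb) _ hk
    exact h1.trans ((congrArg (residue E'.R) (map_intCast _ _)).trans (map_intCast _ _))
  let z := vecClassBase χ' b v
  have hTz : ∀ (l : ℕ) (hl : l.Prime) (hb : l ∉ F.badSet qv),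
      algebraMap (F.Diamond r n) E'.R (kap (F.twistSet qv) (F.eps n qv) l) •
          (natHecke (charMap (algebraMap (F.Diamond r n) E'.R) χ') l).app E'.R z =
        ψ (ρ.trace (F.frob l)) • z := by
    intro l hl hb
    refine Eq.trans ?_ (tH1Base_app_vecClass χ' b (F.natT n j qv l) (F.opAt n j qv l)
      (fun x => F.coe_opAt n j qv hqv hl x) v _ (hop l hl hb))
    rw [LiftFrame.natT, NatEnd.smul_app, tH1Base_smul, tH1Base_natHecke]
    rfl
  have hz : Diamond.toFieldClass (K := FractionRing E'.R)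
      (charMap (algebraMap (F.Diamond r n) E'.R) χ') z ≠ 0 := by
    intro hz
    obtain ⟨l₀, hl₀, hl₀S, hl₀1, hunit⟩ := D.exists_nonEisenstein F (NeZero.ne (F.levelAt j qv))
      (F.twistSet qv)
    have hb : l₀ ∉ F.badSet qv := by rwa [LiftFrame.badSet, Finset.union_comm]
    have hkap : kap (F.twistSet qv) (F.eps n qv) l₀ = 1 :=
      kap_eq_one _ (fun s hs => (D.twistSet_props F hq j s hs).2.1) hl₀1
    have h1 := hTz l₀ hl₀ hb
    simp only [hkap, Units.val_one, map_one, one_smul] at h1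
    have hz0 : z = 0 := eq_zero_of_toFieldClass _ hl₀ (not_dvd_of_natCast_eq_one hl₀ hl₀1) (by
      by_contra hh
      rw [← mem_nonunits_iff, ← mem_maximalIdeal, ← residue_eq_zero_iff, map_sub, hres l₀ hl₀ hb,
        map_natCast, ← map_intCast (ResidueField.map (algebraMap F.E.R E'.R)),
        ← map_natCast (ResidueField.map (algebraMap F.E.R E'.R)), ← map_sub, map_eq_zero] at hh
      exact hunit.ne_zero (by rw [← hh]; push_cast; rfl)) z h1 hz
    exact hv0 (eq_zero_of_vecClass b (F.hasLifts n j qv)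
      (eqAtRing_localEnd_sq (F.commAtRing_ops n j hqv) _) v
      ((tH1Base (algebraMap (F.Diamond r n) E'.R) χ' fun a w => Algebra.smul_def a w).injective
        (hz0.trans (map_zero _).symm)))
  have hspan : v ∈ Submodule.span E'.R
      ((fun u i => algebraMap (F.Diamond r n) E'.R (b.repr u i)) '' (Y : Set (F.Mod n j qv))) :=
    hvY
  obtain ⟨N, hN, hNp, hpN, hdvd, u, hu0, hu, hutr⟩ := exists_traceless_hom_of_span hL hpL
    (F.twistSet qv) (F.eps n qv) hQ (fun s _ w => ⟨_, D.odd.pow, F.eps_pow n qv s w⟩) b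
    (Y : Set (F.Mod n j qv)) (fun z hzY => (hK _).1 hzY) v hspan
    {l | l ∉ F.badSet qv} (fun l => ψ (ρ.trace (F.frob l))) hz
    fun l hl hb _ => hTz l hl hb
  have hbad : ∀ l : ℕ, l.Prime → l ∉ F.badSet qv → ¬ l ∣ L * p := fun l hl hb hd =>
    hb (D.mem_badSet_of_dvd_levelAt F hqv hl (hL.symm ▸ hd))
  refine D.strictDefect_eq_zero_of_traceless F qv hdet hord E' ψ hψ hpN (fun l hl hb hd => ?_) hres
    htr' u hu0 (fun l hl hb => hu l hl hb (hbad l hl hb)) hutr
  rcases hl.dvd_mul.mp hd with h | h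
  · rcases hl.dvd_mul.mp (h.trans hdvd) with h' | h'
    · exact hbad l hl hb (h'.mul_right p)
    · obtain ⟨s, hs, hls⟩ := (hl.prime.dvd_finsetProd_iff _).mp h'
      exact hb (Finset.mem_union_right _
        ((Nat.prime_dvd_prime_iff_eq hl (hQ s hs).1).mp hls ▸ hs))
  · exact hb ((Nat.prime_dvd_prime_iff_eq hl Fact.out).mp h ▸ F.self_mem_badSet qv)

end LiftData

end FLTA.RT

end
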