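import Fermat.Agent.RT.Lift.SetupRoots
import Fermat.Agent.RT.Main.ModulesRankOps
import Fermat.Agent.RT.HeckeLocalDegeneracy

/-!
# The operators on the level modules of lifting and the reduction of their rank

The normalised operators preserve the factor, commute there and are residually `a_l`; the rank of
the level module is the dimension of the residual factor on homomorphisms.
-/

set_option autoImplicit false
set_option linter.style.haveILetI false

noncomputable section

open IsLocalRing WeierstrassCurve CongruenceSubgroup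

namespace FLTA.RT

open FLTA.Periods

variable {W : WeierstrassCurve ℤ} {hΔ : W.Δ ≠ 0} {p : ℕ} [Fact p.Prime] {M : ℕ}

namespace LiftFrame

variable (F : LiftFrame W hΔ p M) (n j : ℕ) {r : ℕ} (qv : Fin r → ℕ) [NeZero (F.levelAt j qv)]

/-- The factor is the image of the idempotent of the operators. -/
theorem idem_app (hqv : ∀ i, (qv i).Prime) :
    (F.idem n j qv).app (F.Diamond r n) =
      localIdem (opsAt (F.ops n j qv) (F.Diamond r n)) (F.sys n qv) :=
  haveI := group_fg_Gamma0 (F.levelAt j qv)
  haveI := F.isNoetherianRing_diamond n (r := r)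
  haveI := F.isAdicComplete_diamond n (r := r)
  localEnd_app_ring (F.commAtRing_ops n j hqv) _

/-- The normalised operators commute with the operators of the factor. -/
theorem natT_ops_comm (hqv : ∀ i, (qv i).Prime) {l : ℕ} (hl : l.Prime) (s : F.Idx qv)
    (V : Type) [AddCommGroup V] [Module (F.Diamond r n) V]
    (x : tH1 (gamChar (F.chi n j qv)) V) :
    (F.natT n j qv l).app V ((F.ops n j qv s).app V x) =
      (F.ops n j qv s).app V ((F.natT n j qv l).app V x) := by
  have hs := F.idx_prime hqv s
  rcases s with m | m <;>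
    simp only [LiftFrame.ops, LiftFrame.natT, Sum.elim_inl, Sum.elim_inr, NatEnd.smul_app,
      map_smul] at hs ⊢ <;>
    rw [natHecke_comm _ hl hs]
  rw [smul_comm]

/-- The normalised operators preserve the factor. -/
theorem natT_mem (hqv : ∀ i, (qv i).Prime) {l : ℕ} (hl : l.Prime)
    {x : tH1 (gamChar (F.chi n j qv)) (F.Diamond r n)}
    (hx : x ∈ eImage (F.idem n j qv) (F.Diamond r n)) :
    (F.natT n j qv l).app (F.Diamond r n) x ∈ eImage (F.idem n j qv) (F.Diamond r n) := by
  haveI := group_fg_Gamma0 (F.levelAt j qv)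
  haveI := F.isNoetherianRing_diamond n (r := r)
  haveI := F.isAdicComplete_diamond n (r := r)
  haveI := finite_tH1 (χ := gamChar (F.chi n j qv)) (F.Diamond r n)
  rw [eImage, F.idem_app n j qv hqv] at hx ⊢
  obtain ⟨y, rfl⟩ := hx
  have hc : Commute ((F.natT n j qv l).app (F.Diamond r n))
      (localIdem (opsAt (F.ops n j qv) (F.Diamond r n)) (F.sys n qv)) :=
    commute_localIdem (F.commAtRing_ops n j hqv) (F.sys n qv) fun s =>
      LinearMap.ext fun z => F.natT_ops_comm n j qv hqv hl s _ z
  exact ⟨_, (LinearMap.congr_fun hc.eq y).symm⟩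

theorem coe_opAt (hqv : ∀ i, (qv i).Prime) {l : ℕ} (hl : l.Prime) (x : F.Mod n j qv) :
    ((F.opAt n j qv l x : F.Mod n j qv) : tH1 (gamChar (F.chi n j qv)) (F.Diamond r n)) =
      (F.natT n j qv l).app (F.Diamond r n) x := by
  rw [opAt, restrictEnd, dif_pos fun x hx => F.natT_mem n j qv hqv hl hx]
  rfl

theorem commute_opAt (hqv : ∀ i, (qv i).Prime) {l l' : ℕ} (hl : l.Prime) (hl' : l'.Prime) :
    Commute (F.opAt n j qv l) (F.opAt n j qv l') :=
  LinearMap.ext fun x => Subtype.ext (by
    simp only [Module.End.mul_apply, F.coe_opAt n j qv hqv hl, F.coe_opAt n j qv hqv hl']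
    simp only [LiftFrame.natT, NatEnd.smul_app, map_smul]
    rw [natHecke_comm _ hl hl', smul_comm])

theorem exists_pow_opAt_sub (hqv : ∀ i, (qv i).Prime)
    (l : {l : ℕ // l.Prime ∧ l ∉ F.badSet qv}) :
    ∃ k : ℕ, ∀ x : F.Mod n j qv,
      ((F.opAt n j qv l.1 - (W.apOfModel l.1 : F.Diamond r n) • 1) ^ k) x ∈
        maximalIdeal (F.Diamond r n) • (⊤ : Submodule (F.Diamond r n) (F.Mod n j qv)) := by
  haveI := group_fg_Gamma0 (F.levelAt j qv)
  haveI := F.isNoetherianRing_diamond n (r := r)
  haveI := F.isAdicComplete_diamond n (r := r)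
  haveI := finite_tH1 (χ := gamChar (F.chi n j qv)) (F.Diamond r n)
  obtain ⟨k, hk⟩ := exists_pow_sub_mem (F.commAtRing_ops n j hqv) (F.sys n qv) (.inl l)
  refine ⟨k, fun x => ?_⟩
  rw [Submodule.mem_smul_top_iff]
  have hx : (x : tH1 (gamChar (F.chi n j qv)) (F.Diamond r n)) ∈
      LinearMap.range (localIdem (opsAt (F.ops n j qv) (F.Diamond r n)) (F.sys n qv)) := by
    rw [← F.idem_app n j qv hqv]
    exact x.2
  rw [coe_pow_sub_smul_one (f := opsAt (F.ops n j qv) (F.Diamond r n) (.inl l))
    (F.coe_opAt n j qv hqv l.2.1) _ k x]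
  have h := hk _ hx
  rw [← F.idem_app n j qv hqv] at h
  exact h

/-- The primes of the operators. -/
def primeOf : F.Idx qv → ℕ := Sum.elim Subtype.val Subtype.val

/-- The residual system. -/
def resSys : F.Idx qv → ResidueField F.E.R :=
  Sum.elim (fun l => (W.apOfModel l.1 : ResidueField F.E.R))
    (fun l => residue F.E.R (F.alphaAt l.1))

omit [NeZero (F.levelAt j qv)] in
theorem diamondToRes_sys (s : F.Idx qv) :
    F.diamondToRes n r (F.sys n qv s) = F.resSys qv s := by
  rcases s with l | l
  · exact map_intCast _ _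
  · exact F.diamondToRes_algebraMap n _

end LiftFrame

/-- The residual image of the idempotent kills the obstruction to lifting. -/
theorem LiftData.killsObstruction_idem (D : LiftData W p M) (F : LiftFrame W hΔ p M) (n j : ℕ)
    {r : ℕ} {qv : Fin r → ℕ} [NeZero (F.levelAt j qv)] (hqv : ∀ i, (qv i).Prime) :
    KillsObstruction (F.idem n j qv) := by
  haveI := group_fg_Gamma0 (F.levelAt j qv)
  haveI := F.isNoetherianRing_diamond n (r := r)
  haveI := F.isAdicComplete_diamond n (r := r)
  letI : Algebra (F.Diamond r n) (ResidueField F.E.R) := (F.diamondToRes n r).toAlgebra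
  haveI : IsLocalHom (algebraMap (F.Diamond r n) (ResidueField F.E.R)) :=
    IsLocalHom.of_surjective _ (F.diamondToRes_surjective n)
  obtain ⟨l, hl, hlS, hl1, hu⟩ := D.exists_nonEisenstein F (NeZero.ne (F.levelAt j qv))
    (F.twistSet qv)
  have hlbad : l ∉ F.badSet qv := by rwa [LiftFrame.badSet, Finset.union_comm]
  have hlL := not_dvd_of_natCast_eq_one hl hl1
  refine killsObstruction_localEnd (F.commAtRing_ops n j hqv) _ (F.hasLifts n j qv) hl hlL
    (.inl ⟨l, hl, hlbad⟩) ?_ ?_
  · have hkap : kap (F.twistSet qv) (F.eps n qv) l = 1 := by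
      refine kap_eq_one _ (fun s hs => ?_) hl1
      obtain ⟨i, -, rfl⟩ := Finset.mem_image.mp hs
      exact (Finset.dvd_prod_of_mem _ (Finset.mem_univ i)).trans (dvd_mul_left _ _)
    show (kap (F.twistSet qv) (F.eps n qv) l : F.Diamond r n) • natHecke (F.chi n j qv) l = _
    rw [hkap, Units.val_one]
    generalize natHecke (F.chi n j qv) l = a
    obtain ⟨f, hf⟩ := a
    refine (NatEnd.mk.injEq _ _ _ _).mpr ?_
    funext V _ _
    exact one_smul _ _
  · refine isUnit_of_map_unit (algebraMap (F.Diamond r n) (ResidueField F.E.R)) _ ?_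
    rw [map_sub, map_add, map_one, map_natCast]
    show IsUnit (algebraMap _ (ResidueField F.E.R) ((W.apOfModel l : ℤ) : F.Diamond r n) - _)
    rw [map_intCast]
    exact hu

/-- The rank of the level module is the rank of the residual factor on homomorphisms. -/
theorem LiftData.exists_basis_mod (D : LiftData W p M) (F : LiftFrame W hΔ p M) (n j : ℕ)
    {r : ℕ} {qv : Fin r → ℕ} [NeZero (F.levelAt j qv)] (hqv : ∀ i, (qv i).Prime) {d : ℕ}
    (hd : Module.finrank (ResidueField F.E.R)
      (LinearMap.range (localIdem (gamHecke (ResidueField F.E.R) (F.levelAt j qv) (F.primeOf qv))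
        (F.resSys qv))) = d) :
    Nonempty (Module.Basis (Fin d) (F.Diamond r n) (F.Mod n j qv)) := by
  haveI := group_fg_Gamma0 (F.levelAt j qv)
  haveI := F.isNoetherianRing_diamond n (r := r)
  haveI := F.isAdicComplete_diamond n (r := r)
  letI : Algebra (F.Diamond r n) (ResidueField F.E.R) := (F.diamondToRes n r).toAlgebra
  haveI : Module.Finite (F.Diamond r n)
      (eImage (localEnd (F.ops n j qv) (F.sys n qv)) (F.Diamond r n)) :=
    finite_eImage (e := localEnd (F.ops n j qv) (F.sys n qv)) (F.Diamond r n)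
  have hO : Function.Surjective (algebraMap (F.Diamond r n) (ResidueField F.E.R)) :=
    F.diamondToRes_surjective n
  have hcomm := F.commAtRing_ops n j hqv
  have hlift := F.hasLifts n j qv
  have htriv : ∀ γ (v : ResidueField F.E.R),
      ((gamChar (F.chi n j qv) γ : (F.Diamond r n)ˣ) : F.Diamond r n) • v = v := fun γ v => by
    rw [Algebra.smul_def, RingHom.algebraMap_toAlgebra, gamChar_apply, F.diamondToRes_chi, one_mul]
  refine exists_basis_eImage hlift (eqAtRing_localEnd_sq hcomm _)
    (D.killsObstruction_idem F n j hqv) hO htriv ?_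
  rw [← hd]
  show Module.finrank _ (homImage (localEnd (F.ops n j qv) (F.sys n qv)) hO htriv) = _
  rw [homImage_localEnd hcomm _ hlift hO htriv
    (gamHecke (ResidueField F.E.R) (F.levelAt j qv) (F.primeOf qv)) fun s x => ?_]
  · rw [show (fun s => algebraMap (F.Diamond r n) (ResidueField F.E.R) (F.sys n qv s)) =
      F.resSys qv from funext (F.diamondToRes_sys n qv)]
  have key : ∀ l : ℕ, l.Prime →
      tH1EquivHom htriv ((natHecke (F.chi n j qv) l).app (ResidueField F.E.R) x) =
        heckeHom (ResidueField F.E.R) (F.levelAt j qv) l (tH1EquivHom htriv x) := fun l hl => by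
    rw [tH1EquivHom_natHecke _ htriv hl, heckeHom_eq_int,
      heckeHom_eq_int (𝕜 := ResidueField F.E.R)]
  rcases s with l | l
  · show tH1EquivHom htriv ((kap (F.twistSet qv) (F.eps n qv) l.1 : F.Diamond r n) •
      (natHecke (F.chi n j qv) l.1).app (ResidueField F.E.R) x) = _
    rw [map_smul, key _ l.2.1]
    refine AddMonoidHom.ext fun y => ?_
    rw [AddMonoidHom.smul_apply]
    rw [Algebra.smul_def, RingHom.algebraMap_toAlgebra, F.diamondToRes_kap, one_mul]
    rfl
  · exact key _ (F.stabSet_props 0 hqv l.2).1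

end FLTA.RT

end
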