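import Fermat.Agent.RT.Lift.ModulesRaiseMaps
import Fermat.Agent.RT.Lift.RankOps
import Fermat.Agent.RT.Lift.ModulesAwayLevel
import Fermat.Agent.LT2.PatchedOld

/-!
# One raising step on the twisted level modules

The normalised degeneracy maps between the level modules at a site `q` and at the next index: they
commute with the normalised operators, their composites are `q + 1` and the normalised `T_q`, the
restrictions are injective modulo the maximal ideal, the corestrictions are surjective, and on the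
common kernel of the corestrictions the normalised `U_q` is an involution.
-/

set_option autoImplicit false

noncomputable section

open IsLocalRing WeierstrassCurve CongruenceSubgroup

namespace FLTA.RT

open FLTA.Periods FLTA.LevelRaising

namespace Lift

variable {R : Type} [CommRing R] {N q : ℕ} [NeZero N] [NeZero q] [NeZero (N * q)] [Fact q.Prime]
  [((Gamma0 (N * q)).subgroupOf (Gamma0 N)).FiniteIndex] (χ : (ZMod N)ˣ →* Rˣ) (h : Nat.Coprime q N)

/-- `χ(q) U_q ^ 2 = 1` where both corestrictions vanish. -/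
theorem sq_natHecke_of_degDown_eq_zero (hqN : ¬ q ∣ N) (y : tH1 (gamChar (chiUp χ q)) R)
    (hy : ∀ i, degDown h χ R i y = 0) :
    (χ (ZMod.unitOfCoprime q h) : R) •
      (natHecke (chiUp χ q) q).app R ((natHecke (chiUp χ q) q).app R y) = y := by
  have h0 : degCor χ R y = 0 := hy 0
  have h1 : degCor χ R (degAL χ R h y) = 0 := hy 1
  have e := eq_sub_of_add_eq (LT2.upOp_add_degAL χ R hqN h y)
  rw [h1, map_zero, zero_sub] at e
  have e' := eq_sub_of_add_eq (LT2.upOp_add_degAL χ R hqN h (degAL χ R h y))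
  rw [LT2.degAL_degAL χ h, map_smul, h0, smul_zero, map_zero, zero_sub] at e'
  rw [e, map_neg, e', neg_neg, smul_smul, ← Units.val_mul, mul_inv_cancel, Units.val_one, one_smul]

end Lift

namespace LiftFrame

variable {W : WeierstrassCurve ℤ} {hΔ : W.Δ ≠ 0} {p : ℕ} [Fact p.Prime] {M : ℕ}
  (F : LiftFrame W hΔ p M) (n : ℕ) {r : ℕ} (qv : Fin r → ℕ)

/-- The operators of the factor at the level `L`. -/
def opsFam {L : ℕ} [NeZero L] (χ : (ZMod L)ˣ →* (F.Diamond r n)ˣ) :
    F.Idx qv → NatEnd (gamChar χ) :=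
  Sum.elim (fun l => (kap (F.twistSet qv) (F.eps n qv) l.1 : F.Diamond r n) • natHecke χ l.1)
    (fun l => natHecke χ l.1)

/-- The maps of one step and their properties. -/
structure RaiseStep (j q : ℕ) [NeZero (F.levelAt j qv)] [NeZero (F.levelAt (j + 1) qv)] where
  up : Fin 2 → F.Mod n j qv →ₗ[F.Diamond r n] F.Mod n (j + 1) qv
  down : Fin 2 → F.Mod n (j + 1) qv →ₗ[F.Diamond r n] F.Mod n j qv
  up_op : ∀ (l : {l : ℕ // l.Prime ∧ l ∉ F.badSet qv}) s x,
    up s (F.opAt n j qv l.1 x) = F.opAt n (j + 1) qv l.1 (up s x)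
  down_op : ∀ (l : {l : ℕ // l.Prime ∧ l ∉ F.badSet qv}) s y,
    down s (F.opAt n (j + 1) qv l.1 y) = F.opAt n j qv l.1 (down s y)
  down_up : ∀ s s' x, down s (up s' x) =
    if s = s' then ((q : F.Diamond r n) + 1) • x else F.opAt n j qv q x
  up_injective : ∀ x : Fin 2 → F.Mod n j qv,
    ∑ s, up s (x s) ∈ maximalIdeal (F.Diamond r n) •
      (⊤ : Submodule (F.Diamond r n) (F.Mod n (j + 1) qv)) →
    ∀ s, x s ∈ maximalIdeal (F.Diamond r n) • (⊤ : Submodule (F.Diamond r n) (F.Mod n j qv))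
  down_surjective : ∀ c : Fin 2 → F.Mod n j qv, ∃ y, ∀ s, down s y = c s
  involution : ∀ y, (∀ s, down s y = 0) →
    F.opAt n (j + 1) qv q (F.opAt n (j + 1) qv q y) = y

variable {n qv}

theorem twistSet_props (D : LiftData W p M) (hq : F.IsTWTuple n qv) (j : ℕ) {s : ℕ}
    (hs : s ∈ F.twistSet qv) :
    s.Prime ∧ s ∣ F.levelAt j qv ∧ ¬ s * s ∣ F.levelAt j qv := by
  classical
  obtain ⟨i, -, rfl⟩ := Finset.mem_image.mp hs
  refine ⟨hq.prime i, (Finset.dvd_prod_of_mem _ (Finset.mem_univ i)).trans (dvd_mul_left _ _),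
    fun hd => ?_⟩
  rw [levelAt, ← Finset.mul_prod_erase _ qv (Finset.mem_univ i), mul_left_comm] at hd
  rcases (hq.prime i).dvd_mul.mp (Nat.dvd_of_mul_dvd_mul_left (hq.prime i).pos hd) with h2 | h2
  · exact (D.avoided_props (F := F) (hq.prime i) (hq.notMem i)).2.2.2.2.2 j h2
  · obtain ⟨k, hk, hd'⟩ := ((hq.prime i).prime.dvd_finsetProd_iff _).mp h2
    exact (Finset.mem_erase.mp hk).1
      (hq.injective ((Nat.prime_dvd_prime_iff_eq (hq.prime i) (hq.prime k)).mp hd')).symm

theorem twistSet_eps_eq_one {l : ℕ} (hl : ∀ i, qv i ≠ l) :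
    F.eps n qv l = 1 := by
  classical
  rw [eps, dif_neg fun ⟨i, hi⟩ => hl i hi]

theorem sub_one_mem_of_diamondToRes {c : F.Diamond r n}
    (h : F.diamondToRes n r c = 1) : c - 1 ∈ maximalIdeal (F.Diamond r n) := by
  rw [mem_maximalIdeal, mem_nonunits_iff]
  intro hu
  have h1 := hu.map (F.diamondToRes n r)
  rw [map_sub, h, map_one, sub_self] at h1
  exact not_isUnit_zero h1

variable (n qv)

set_option maxHeartbeats 800000 in
/-- The step, for levels given up to equality. -/
theorem exists_raise_maps (D : LiftData W p M) (hqv : F.IsTWTuple n qv) {L L' q : ℕ} [NeZero L]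
    [NeZero L'] (hq : q.Prime) (hqL : ¬ q ∣ L) (hL : L' = L * q) (hauxL : F.aux ∣ L)
    (hQ : ∀ s ∈ F.twistSet qv, s.Prime ∧ s ∣ L) (hqbad : q ∈ F.badSet qv)
    (hqstab : q ∉ F.stabSet qv)
    (χ : (ZMod L)ˣ →* (F.Diamond r n)ˣ) (hχ : χ = sigProd L (F.twistSet qv) (F.eps n qv))
    (χ' : (ZMod L')ˣ →* (F.Diamond r n)ˣ) (hχ' : χ' = sigProd L' (F.twistSet qv) (F.eps n qv))
    (hcomm : CommAtRing (F.opsFam n qv χ)) (hcomm' : CommAtRing (F.opsFam n qv χ'))
    (hlift : HasLifts (gamChar χ)) (hlift' : HasLifts (gamChar χ')) :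
    ∃ (up : Fin 2 → eImage (localEnd (F.opsFam n qv χ) (F.sys n qv)) (F.Diamond r n) →ₗ[F.Diamond r n]
        eImage (localEnd (F.opsFam n qv χ') (F.sys n qv)) (F.Diamond r n))
      (down : Fin 2 → eImage (localEnd (F.opsFam n qv χ') (F.sys n qv)) (F.Diamond r n) →ₗ[F.Diamond r n]
        eImage (localEnd (F.opsFam n qv χ) (F.sys n qv)) (F.Diamond r n)),
      (∀ s (i : F.Idx qv)
        (x x' : eImage (localEnd (F.opsFam n qv χ) (F.sys n qv)) (F.Diamond r n)),
        (x' : tH1 (gamChar χ) (F.Diamond r n)) = (F.opsFam n qv χ i).app (F.Diamond r n) x.1 →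
        (up s x').1 = (F.opsFam n qv χ' i).app (F.Diamond r n) (up s x).1) ∧
      (∀ s (i : F.Idx qv)
        (y y' : eImage (localEnd (F.opsFam n qv χ') (F.sys n qv)) (F.Diamond r n)),
        (y' : tH1 (gamChar χ') (F.Diamond r n)) = (F.opsFam n qv χ' i).app (F.Diamond r n) y.1 →
        (down s y').1 = (F.opsFam n qv χ i).app (F.Diamond r n) (down s y).1) ∧
      (∀ s s' (x : eImage (localEnd (F.opsFam n qv χ) (F.sys n qv)) (F.Diamond r n)),
        (down s (up s' x)).1 = if s = s' then ((q : F.Diamond r n) + 1) • x.1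
        else (kap (F.twistSet qv) (F.eps n qv) q : F.Diamond r n) •
          (natHecke χ q).app (F.Diamond r n) x.1) ∧
      (∀ x : Fin 2 → eImage (localEnd (F.opsFam n qv χ) (F.sys n qv)) (F.Diamond r n),
        ∑ s, up s (x s) ∈ maximalIdeal (F.Diamond r n) • (⊤ : Submodule (F.Diamond r n) _) →
        ∀ s, x s ∈ maximalIdeal (F.Diamond r n) • (⊤ : Submodule (F.Diamond r n) _)) ∧
      (∀ c : Fin 2 → eImage (localEnd (F.opsFam n qv χ) (F.sys n qv)) (F.Diamond r n),
        ∃ y, ∀ s, down s y = c s) ∧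
      (∀ y, (∀ s, down s y = 0) →
        (kap (F.twistSet qv) (F.eps n qv) q : F.Diamond r n) •
          (natHecke χ' q).app (F.Diamond r n)
            ((kap (F.twistSet qv) (F.eps n qv) q : F.Diamond r n) •
              (natHecke χ' q).app (F.Diamond r n) y.1) = y.1) ∧
      ∀ y, (∀ s, down s y = 0) → ∀ [NeZero q] [((Gamma0 (L * q)).subgroupOf (Gamma0 L)).FiniteIndex]
        (h : Nat.Coprime q L) (y' : tH1 (gamChar (chiUp χ q)) (F.Diamond r n)),
          HEq y' y.1 → ∀ i, degDown h χ (F.Diamond r n) i y' = 0 := by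
  subst hL
  have := Fact.mk hq
  have : NeZero q := ⟨hq.ne_zero⟩
  have hQd : ∀ s ∈ F.twistSet qv, s ∣ L := fun s hs => (hQ s hs).2
  haveI := F.isNoetherianRing_diamond n (r := r)
  haveI := F.isAdicComplete_diamond n (r := r)
  have hup : chiUp χ q = χ' := by rw [hχ, Lift.chiUp_sigProd hQd, hχ']
  subst hup
  have : ((Gamma0 (L * q)).subgroupOf (Gamma0 L)).FiniteIndex := inferInstance
  haveI := group_fg_Gamma0 L
  haveI := group_fg_Gamma0 (L * q)
  have h : Nat.Coprime q L := hq.coprime_iff_not_dvd.mpr hqL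
  have hprime := F.idx_prime hqv.prime
  have hne : ∀ s : F.Idx qv, (Sum.elim Subtype.val Subtype.val s : ℕ) ≠ q := by
    rintro (l | l) e
    · exact l.2.2 ((show l.1 = q from e) ▸ hqbad)
    · exact hqstab ((show l.1 = q from e) ▸ l.2)
  have hd : DegIntertwines h (F.opsFam n qv χ) (F.opsFam n qv (chiUp χ q)) := by
    have hd0 := degIntertwines_natHecke (χ := χ) h
      (fun s : F.Idx qv => (Sum.elim Subtype.val Subtype.val s : ℕ)) hprime hne
    constructor
    · rintro (l | l) V _ _ x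
      · exact (congrArg (fun v => (kap (F.twistSet qv) (F.eps n qv) l.1 : F.Diamond r n) • v)
          (hd0.incl (.inl l) V x)).trans ((degIncl χ V).map_smul _ _).symm
      · exact hd0.incl (.inr l) V x
    · rintro (l | l) V _ _ x
      · exact (congrArg (fun v => (kap (F.twistSet qv) (F.eps n qv) l.1 : F.Diamond r n) • v)
          (hd0.conj (.inl l) V x)).trans ((degConj χ V).map_smul _ _).symm
      · exact hd0.conj (.inr l) V x
    · rintro (l | l) V _ _ y
      · exact (congrArg (fun v => (kap (F.twistSet qv) (F.eps n qv) l.1 : F.Diamond r n) • v)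
          (hd0.cor (.inl l) V y)).trans ((degCor χ V).map_smul _ _).symm
      · exact hd0.cor (.inr l) V y
    · rintro (l | l) V _ _ y
      · exact (congrArg (fun v => (kap (F.twistSet qv) (F.eps n qv) l.1 : F.Diamond r n) • v)
          (hd0.corAL (.inl l) V y)).trans
            (((degCor χ V).comp (degAL χ V h)).map_smul _ _).symm
      · exact hd0.corAL (.inr l) V y
  -- a non-Eisenstein prime
  obtain ⟨ℓ, hℓ, hℓS, hℓ1, hu⟩ := D.exists_nonEisenstein F (NeZero.ne (L * q)) (F.twistSet qv)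
  have hℓbad : ℓ ∉ F.badSet qv := by rwa [LiftFrame.badSet, Finset.union_comm]
  have hℓN : ¬ ℓ ∣ L := fun hh => not_dvd_of_natCast_eq_one hℓ hℓ1 (hh.mul_right q)
  have := Fact.mk hℓ
  have hℓ1L : (ℓ : ZMod L) = 1 := by
    have e1 := congrArg (ZMod.castHom (dvd_mul_right L q) (ZMod L)) hℓ1
    rwa [map_natCast, map_one] at e1
  have hkap : kap (F.twistSet qv) (F.eps n qv) ℓ = 1 := kap_eq_one _ hQd hℓ1L
  have hs₀ : F.opsFam n qv χ (.inl ⟨ℓ, hℓ, hℓbad⟩) = natHecke χ ℓ := by
    show (kap (F.twistSet qv) (F.eps n qv) ℓ : F.Diamond r n) • natHecke χ ℓ = _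
    rw [hkap, Units.val_one]
    generalize natHecke χ ℓ = a
    obtain ⟨f, hf⟩ := a
    refine (NatEnd.mk.injEq _ _ _ _).mpr ?_
    funext V _ _
    exact one_smul _ _
  have ha : IsUnit (F.sys n qv (.inl ⟨ℓ, hℓ, hℓbad⟩) - ((ℓ : F.Diamond r n) + 1)) := by
    letI : Algebra (F.Diamond r n) (ResidueField F.E.R) := (F.diamondToRes n r).toAlgebra
    haveI : IsLocalHom (algebraMap (F.Diamond r n) (ResidueField F.E.R)) :=
      IsLocalHom.of_surjective _ (F.diamondToRes_surjective n)
    refine isUnit_of_map_unit (algebraMap (F.Diamond r n) (ResidueField F.E.R)) _ ?_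
    rw [map_sub, map_add, map_one, map_natCast]
    show IsUnit (algebraMap _ (ResidueField F.E.R) ((W.apOfModel ℓ : ℤ) : F.Diamond r n) - _)
    rw [map_intCast]
    exact hu
  have hχm : ∀ γ, (gamChar χ γ : F.Diamond r n) - 1 ∈ maximalIdeal (F.Diamond r n) := fun γ => by
    refine F.sub_one_mem_of_diamondToRes (F.diamondToRes_of_pow n (m := n + 1) ?_)
    rw [gamChar_apply, hχ, sigProd_apply, ← Finset.prod_pow]
    refine Finset.prod_eq_one fun s hs => ?_
    rw [← pow_mul, mul_comm, pow_mul, sigChar_of_dvd _ (hQd s hs), F.eps_pow n qv s _, one_pow]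
  have hell : ∀ φ : Additive (Gamma0 L) →+
        (F.Diamond r n ⧸ maximalIdeal (F.Diamond r n)),
      ModularCurve.Period.IsParabolicHom (Gamma0 L) φ → FLTA.Gamma0.IsParHom0 (Gamma0 L) φ :=
    fun φ hφ => by
      let := Ideal.Quotient.field (maximalIdeal (F.Diamond r n))
      refine F.isParHom0_of_parabolic hauxL (fun m hm h0 => ?_) φ hφ
      have hu := (F.isUnit_natCast_diamond n (r := r) hm).map
        (Ideal.Quotient.mk (maximalIdeal (F.Diamond r n)))
      rw [map_natCast, h0] at hu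
      exact not_isUnit_zero hu
  refine ⟨Lift.raiseUp (F.twistSet qv) (F.eps n qv) h hcomm hcomm' hlift hlift' hd (F.sys n qv),
    Lift.raiseDown (F.twistSet qv) (F.eps n qv) h hcomm hcomm' hlift hlift' hd (F.sys n qv),
    fun s i x x' hx => Lift.raiseUp_op h hcomm hcomm' hlift hlift' hd _ s i hx,
    fun s i y y' hy => Lift.raiseDown_op h hcomm hcomm' hlift hlift' hd _ s i hy,
    fun s s' x => Lift.raiseDown_raiseUp hχ hQd h hcomm hcomm' hlift hlift' hd _ hqL s s' x,
    fun x hx => Lift.raiseUp_injective_mod h hcomm hcomm' hlift hlift' hd _ (Fact.out : p.Prime)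
      D.ne_two (F.natCast_mem_diamond n) hq hqL hχm hℓN hℓ1 hs₀ ha hell x hx,
    fun c => Lift.raiseDown_surjective h hcomm hcomm' hlift hlift' hd _ (Fact.out : p.Prime)
      D.ne_two (F.natCast_mem_diamond n) hq hqL hχm hℓN hℓ1 hs₀ ha hell c,
    fun y hy => ?_, fun y hy _ _ _ y' hy' => ?_⟩
  swap
  · obtain rfl := eq_of_heq hy'
    exact Lift.degDown_eq_zero_of_raiseDown h hcomm hcomm' hlift hlift' hd _ y hy
  rw [map_smul]
  refine (smul_smul (kap (F.twistSet qv) (F.eps n qv) q : F.Diamond r n)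
    (kap (F.twistSet qv) (F.eps n qv) q : F.Diamond r n) _).trans ?_
  rw [← Units.val_mul, ← pow_two, ← sigProd_unitOfCoprime _ hQd h, ← hχ]
  exact Lift.sq_natHecke_of_degDown_eq_zero χ h hqL y.1
    (Lift.degDown_eq_zero_of_raiseDown h hcomm hcomm' hlift hlift' hd _ y hy)

theorem levelAt_succ (i : Fin F.k) :
    F.levelAt ((i : ℕ) + 1) qv = F.levelAt i qv * F.site i := by
  classical
  have hs : Finset.univ.filter (fun k : Fin F.k => (k : ℕ) < (i : ℕ) + 1) =
      insert i (Finset.univ.filter fun k : Fin F.k => (k : ℕ) < (i : ℕ)) := by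
    ext k
    simp only [Finset.mem_filter, Finset.mem_univ, true_and, Finset.mem_insert, Fin.ext_iff]
    omega
  rw [levelAt, levelAt, level, level, hs, Finset.prod_insert (by simp)]
  ring

theorem site_not_dvd_levelAt (hqv : F.IsTWTuple n qv) (i : Fin F.k) :
    ¬ F.site i ∣ F.levelAt i qv := fun h =>
  F.site_not_dvd_classicalAt hqv i le_rfl (h.mul_right _)

theorem site_not_mem_stabSet (D : LiftData W p M) (hqv : F.IsTWTuple n qv) (i : Fin F.k) :
    F.site i ∉ F.stabSet qv := fun h => by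
  have := (F.stabSet_props i hqv.prime h).2.1
  exact F.site_not_dvd_levelAt n qv hqv i this

/-- **The raising step.** -/
theorem nonempty_raiseStep (D : LiftData W p M) (hqv : F.IsTWTuple n qv) (i : Fin F.k)
    [NeZero (F.levelAt i qv)] [NeZero (F.levelAt ((i : ℕ) + 1) qv)] :
    Nonempty (F.RaiseStep n qv i (F.site i)) := by
  obtain ⟨up, down, h1, h2, h3, h4, h5, h6, -⟩ := F.exists_raise_maps n qv D hqv
    (F.site_isPrime i) (F.site_not_dvd_levelAt n qv hqv i) (F.levelAt_succ qv i)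
    ((F.aux_dvd_level i).mul_right _)
    (fun s hs => ⟨(F.twistSet_props D hqv i hs).1,
      (F.twistSet_props D hqv i hs).2.1⟩)
    (Finset.mem_union_left _ (F.site_mem_avoided i)) (F.site_not_mem_stabSet n qv D hqv i)
    (F.chi n i qv) rfl (F.chi n ((i : ℕ) + 1) qv) rfl
    (F.commAtRing_ops n i hqv.prime) (F.commAtRing_ops n ((i : ℕ) + 1) hqv.prime)
    (F.hasLifts n i qv) (F.hasLifts n ((i : ℕ) + 1) qv)
  refine ⟨⟨up, down, fun l s x => Subtype.ext ?_, fun l s y => Subtype.ext ?_,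
    fun s s' x => Subtype.ext ?_, h4, h5, fun y hy => Subtype.ext ?_⟩⟩
  · rw [F.coe_opAt n _ qv hqv.prime l.2.1]
    exact h1 s (.inl l) x _ (F.coe_opAt n i qv hqv.prime l.2.1 x)
  · rw [F.coe_opAt n _ qv hqv.prime l.2.1]
    exact h2 s (.inl l) y _ (F.coe_opAt n _ qv hqv.prime l.2.1 y)
  · refine (h3 s s' x).trans ?_
    split
    · rfl
    · exact (F.coe_opAt n i qv hqv.prime (F.site_isPrime i) x).symm
  · rw [F.coe_opAt n _ qv hqv.prime (F.site_isPrime i), F.coe_opAt n _ qv hqv.prime (F.site_isPrime i)]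
    exact h6 y hy

end LiftFrame

end FLTA.RT

end
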