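import Fermat.Agent.RT.Lift.RankChain
import Fermat.Agent.RT.Lift.ModulesRaiseStep

/-!
# Twisted modules of lifting at a level without `p`

The factor of the residual system on twisted classes of an arbitrary level containing the auxiliary
prime and the tuple: commutation, lifting, the obstruction, and its rank.
-/

set_option autoImplicit false
set_option linter.style.haveILetI false

noncomputable section

open IsLocalRing WeierstrassCurve CongruenceSubgroup

namespace FLTA.RT

open FLTA.Periods

variable {W : WeierstrassCurve ℤ} {hΔ : W.Δ ≠ 0} {p : ℕ} [Fact p.Prime] {M : ℕ}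

namespace LiftFrame

variable (F : LiftFrame W hΔ p M) (n : ℕ) {r : ℕ} (qv : Fin r → ℕ) {L : ℕ}

/-- The twist at the level `L`. -/
abbrev chiLev (L : ℕ) : (ZMod L)ˣ →* (F.Diamond r n)ˣ := sigProd L (F.twistSet qv) (F.eps n qv)

theorem chiLev_pow (u : (ZMod L)ˣ) : F.chiLev n qv L u ^ p ^ (n + 1) = 1 := by
  rw [sigProd_apply, ← Finset.prod_pow]
  refine Finset.prod_eq_one fun s _ => ?_
  rw [← pow_mul, mul_comm, pow_mul]
  unfold sigChar
  split_ifs with h
  · rw [MonoidHom.comp_apply, F.eps_pow n qv s _, one_pow]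
  · simp

variable [NeZero L]

/-- Twisted cocycles of a level containing the auxiliary prime lift. -/
theorem hasLifts_lev (hauxL : F.aux ∣ L) : HasLifts (gamChar (F.chiLev n qv L)) := by
  have hp : p.Prime := Fact.out
  rcases F.aux_spec with ⟨h5, -⟩ | ⟨h3, ha, -, ha2, -⟩
  · exact hasLifts_gamChar _ hp (by omega)
      (by exact_mod_cast F.isUnit_natCast_diamond n (r := r) (m := 2) (by rw [h5]; decide))
      (by exact_mod_cast F.isUnit_natCast_diamond n (r := r) (m := 3) (by rw [h5]; decide))
      fun u => ⟨n + 1, F.chiLev_pow n qv u⟩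
  · refine hasLifts_subgroup _ (neg_one_mem_Gamma0 _) _
      (by exact_mod_cast F.isUnit_natCast_diamond n (r := r) (m := 2) (by rw [h3]; decide))
      (fun γ hγ => eq_one_of_pow_coprime (m := 2) (n := p ^ (n + 1)) ?_ hγ
        (F.chiLev_pow n qv _))
      (Or.inl (matU_smul_coset_ne ha hauxL ha2))
    exact Nat.Coprime.pow_right _ (by rw [h3]; decide)

/-- The operators commute. -/
theorem commAtRing_lev (hqv : ∀ i, (qv i).Prime) :
    CommAtRing (F.opsFam n qv (F.chiLev n qv L)) := fun s t => LinearMap.ext fun x => by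
  have hs := F.idx_prime hqv s
  have ht := F.idx_prime hqv t
  show (F.opsFam n qv (F.chiLev n qv L) s).app (F.Diamond r n)
      ((F.opsFam n qv (F.chiLev n qv L) t).app (F.Diamond r n) x) =
    (F.opsFam n qv (F.chiLev n qv L) t).app (F.Diamond r n)
      ((F.opsFam n qv (F.chiLev n qv L) s).app (F.Diamond r n) x)
  rcases s with l | l <;> rcases t with l' | l' <;>
    simp only [opsFam, Sum.elim_inl, Sum.elim_inr, NatEnd.smul_app, map_smul] at hs ht ⊢ <;>
    rw [natHecke_comm _ hs ht]
  rw [smul_comm]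

end LiftFrame

namespace LiftData

variable (D : LiftData W p M) (F : LiftFrame W hΔ p M) (n : ℕ) {r : ℕ} {qv : Fin r → ℕ} {L : ℕ}
  [NeZero L]
include D

/-- A good prime `≡ 1` modulo `L` with non-Eisenstein value. -/
theorem exists_unit_lev (hQ : ∀ i, qv i ∣ L) :
    ∃ (l : ℕ) (hl : l.Prime) (hlbad : l ∉ F.badSet qv), (l : ZMod L) = 1 ∧
      kap (F.twistSet qv) (F.eps n qv) l = 1 ∧
      IsUnit (F.sys n qv (.inl ⟨l, hl, hlbad⟩) - ((l : F.Diamond r n) + 1)) := by
  obtain ⟨l, hl, hlS, hl1, hu⟩ := D.exists_nonEisenstein F (NeZero.ne L) (F.twistSet qv)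
  have hlbad : l ∉ F.badSet qv := by rwa [LiftFrame.badSet, Finset.union_comm]
  refine ⟨l, hl, hlbad, hl1, kap_eq_one _ (fun s hs => ?_) hl1, ?_⟩
  · obtain ⟨i, -, rfl⟩ := Finset.mem_image.mp hs
    exact hQ i
  · haveI : IsLocalHom (F.diamondToRes n r) :=
      IsLocalHom.of_surjective _ (F.diamondToRes_surjective n)
    refine isUnit_of_map_unit (F.diamondToRes n r) _ ?_
    rw [map_sub, map_add, map_one, map_natCast, F.diamondToRes_sys]
    exact hu

/-- The residual image of the idempotent kills the obstruction to lifting. -/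
theorem killsObstruction_lev (hqv : ∀ i, (qv i).Prime) (hauxL : F.aux ∣ L) (hQ : ∀ i, qv i ∣ L) :
    KillsObstruction (localEnd (F.opsFam n qv (F.chiLev n qv L)) (F.sys n qv)) := by
  haveI := group_fg_Gamma0 L
  haveI := F.isNoetherianRing_diamond n (r := r)
  haveI := F.isAdicComplete_diamond n (r := r)
  obtain ⟨l, hl, hlbad, hl1, hkap, hu⟩ := D.exists_unit_lev F n hQ (L := L)
  refine killsObstruction_localEnd (F.commAtRing_lev n qv hqv) _ (F.hasLifts_lev n qv hauxL) hl
    (not_dvd_of_natCast_eq_one hl hl1) (.inl ⟨l, hl, hlbad⟩) ?_ hu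
  show (kap (F.twistSet qv) (F.eps n qv) l : F.Diamond r n) • natHecke _ l = _
  rw [hkap, Units.val_one]
  generalize natHecke (F.chiLev n qv L) l = a
  obtain ⟨f, hf⟩ := a
  refine (NatEnd.mk.injEq _ _ _ _).mpr ?_
  funext V _ _
  exact one_smul _ _

/-- The factor is free of rank the rank of the residual factor on homomorphisms. -/
theorem exists_basis_lev (hqv : ∀ i, (qv i).Prime) (hauxL : F.aux ∣ L) (hQ : ∀ i, qv i ∣ L) {d : ℕ}
    (hd : Module.finrank (ResidueField F.E.R)
      (LinearMap.range (localIdem (gamHecke (ResidueField F.E.R) L (F.primeOf qv))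
        (F.resSys qv))) = d) :
    Nonempty (Module.Basis (Fin d) (F.Diamond r n)
      (eImage (localEnd (F.opsFam n qv (F.chiLev n qv L)) (F.sys n qv)) (F.Diamond r n))) := by
  haveI := group_fg_Gamma0 L
  haveI := F.isNoetherianRing_diamond n (r := r)
  haveI := F.isAdicComplete_diamond n (r := r)
  letI : Algebra (F.Diamond r n) (ResidueField F.E.R) := (F.diamondToRes n r).toAlgebra
  haveI : Module.Finite (F.Diamond r n)
      (eImage (localEnd (F.opsFam n qv (F.chiLev n qv L)) (F.sys n qv)) (F.Diamond r n)) :=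
    finite_eImage (e := localEnd (F.opsFam n qv (F.chiLev n qv L)) (F.sys n qv)) (F.Diamond r n)
  have hO : Function.Surjective (algebraMap (F.Diamond r n) (ResidueField F.E.R)) :=
    F.diamondToRes_surjective n
  have hcomm := F.commAtRing_lev n qv hqv (L := L)
  have hlift := F.hasLifts_lev n qv hauxL
  have htriv : ∀ γ (v : ResidueField F.E.R),
      ((gamChar (F.chiLev n qv L) γ : (F.Diamond r n)ˣ) : F.Diamond r n) • v = v := fun γ v => by
    rw [Algebra.smul_def, RingHom.algebraMap_toAlgebra, gamChar_apply,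
      F.diamondToRes_of_pow n (F.chiLev_pow n qv _), one_mul]
  refine exists_basis_eImage hlift (eqAtRing_localEnd_sq hcomm _)
    (D.killsObstruction_lev F n hqv hauxL hQ) hO htriv ?_
  rw [← hd]
  rw [homImage_localEnd hcomm _ hlift hO htriv
    (gamHecke (ResidueField F.E.R) L (F.primeOf qv)) fun s x => ?_]
  · rw [show (fun s => algebraMap (F.Diamond r n) (ResidueField F.E.R) (F.sys n qv s)) =
      F.resSys qv from funext (F.diamondToRes_sys n qv)]
  have key : ∀ l : ℕ, l.Prime →
      tH1EquivHom htriv ((natHecke (F.chiLev n qv L) l).app (ResidueField F.E.R) x) =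
        heckeHom (ResidueField F.E.R) L l (tH1EquivHom htriv x) := fun l hl => by
    rw [tH1EquivHom_natHecke _ htriv hl, heckeHom_eq_int,
      heckeHom_eq_int (𝕜 := ResidueField F.E.R)]
  rcases s with l | l
  · show tH1EquivHom htriv ((kap (F.twistSet qv) (F.eps n qv) l.1 : F.Diamond r n) •
      (natHecke (F.chiLev n qv L) l.1).app (ResidueField F.E.R) x) = _
    rw [map_smul, key _ l.2.1]
    refine AddMonoidHom.ext fun y => ?_
    rw [AddMonoidHom.smul_apply]
    rw [Algebra.smul_def, RingHom.algebraMap_toAlgebra, F.diamondToRes_kap, one_mul]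
    rfl
  · exact key _ (F.stabSet_props 0 hqv l.2).1

omit n [NeZero L] in
/-- Raising any level by the primes of the tuple does not change the residual factor. -/
theorem factorRank_prod_lev {n : ℕ} (h : F.IsTWTuple n qv) (hL : L ≠ 0) (hauxL : F.aux ∣ L)
    (hqL : ∀ i, ¬ qv i ∣ L) (S : Finset ℕ) (hS : S ⊆ F.twistSet qv) :
    F.factorRank (L * ∏ l ∈ S, l) S = F.factorRank L ∅ := by
  classical
  induction S using Finset.induction with
  | empty => rw [Finset.prod_empty, mul_one]
  | insert q S hqS ih =>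
    have hq : q ∈ F.twistSet qv := hS (Finset.mem_insert_self _ _)
    have hS' : S ⊆ F.twistSet qv := fun x hx => hS (Finset.mem_insert_of_mem hx)
    have hprime : ∀ x ∈ F.twistSet qv, x.Prime ∧ ¬ x ∣ L := by
      intro x hx
      obtain ⟨i, -, rfl⟩ := Finset.mem_image.mp hx
      exact ⟨h.prime i, hqL i⟩
    rw [Finset.prod_insert hqS, mul_comm q, ← mul_assoc,
      D.factorRank_insert F h ?_ (hauxL.mul_right _) hq hqS ?_, ih hS']
    · exact mul_ne_zero hL
        (Finset.prod_ne_zero_iff.mpr fun x hx => (hprime x (hS' hx)).1.ne_zero)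
    · intro hd
      rcases (hprime q hq).1.dvd_mul.mp hd with hd | hd
      · exact (hprime q hq).2 hd
      · obtain ⟨x, hx, hxd⟩ := ((hprime q hq).1.prime.dvd_finsetProd_iff _).mp hd
        exact hqS ((Nat.prime_dvd_prime_iff_eq (hprime q hq).1 (hprime x (hS' hx)).1).mp hxd ▸ hx)

omit [NeZero L] in
/-- A basis of the factor at a level raised by the tuple. -/
theorem exists_basis_levProd (h : F.IsTWTuple n qv) (hauxL : F.aux ∣ L)
    (hqL : ∀ i, ¬ qv i ∣ L) {L' : ℕ} [NeZero L'] (hL' : L' = L * ∏ i, qv i) :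
    Nonempty (Module.Basis (Fin (F.factorRank L ∅)) (F.Diamond r n)
      (eImage (localEnd (F.opsFam n qv (F.chiLev n qv L')) (F.sys n qv)) (F.Diamond r n))) := by
  classical
  subst hL'
  have hL : L ≠ 0 := left_ne_zero_of_mul (NeZero.ne (L * ∏ i, qv i))
  refine D.exists_basis_lev F n h.prime (hauxL.mul_right _)
    (fun i => dvd_mul_of_dvd_right (Finset.dvd_prod_of_mem qv (Finset.mem_univ i)) _) ?_
  have hlev : L * ∏ i, qv i = L * ∏ l ∈ F.twistSet qv, l := by
    rw [LiftFrame.twistSet, Finset.prod_image fun a _ b _ e => h.injective e]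
  rw [← D.factorRank_prod_lev F h hL hauxL hqL _ (Finset.Subset.refl _), ← hlev, F.factorRank_eq]
  haveI := finite_addHom (L := L * ∏ i, qv i) (O := ResidueField F.E.R) (ResidueField F.E.R)
  have hmem : ∀ l : F.Idx qv, (F.primeOf qv l).Prime ∧
      (F.primeOf qv l ∉ F.avoided ∨ F.primeOf qv l ∣ F.aux) := by
    rintro (l | l)
    · exact ⟨l.2.1, Or.inl fun hh => l.2.2 (Finset.mem_union_left _ hh)⟩
    · refine ⟨(F.stabSet_props 0 h.prime l.2).1, ?_⟩
      rcases Finset.mem_union.mp l.2 with hl | hl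
      · obtain ⟨i, -, hi⟩ := Finset.mem_image.mp hl
        exact Or.inl fun hh => h.notMem i (hi ▸ hh)
      · exact Or.inr (Nat.mem_primeFactors.mp hl).2.1
  let f : F.Idx qv → F.RIdx := fun l => ⟨F.primeOf qv l, hmem l⟩
  have hf : Function.Surjective f := by
    rintro ⟨l, hl, hl'⟩
    by_cases hs : l ∈ F.stabSet qv
    · exact ⟨.inr ⟨l, hs⟩, rfl⟩
    · refine ⟨.inl ⟨l, hl, fun hh => ?_⟩, rfl⟩
      rcases Finset.mem_union.mp hh with hh | hh
      · refine hs (Finset.mem_union_right _ (Nat.mem_primeFactors.mpr ⟨hl, ?_, ?_⟩))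
        · exact hl'.resolve_left fun h' => h' hh
        · rcases F.aux_spec with ⟨-, e⟩ | ⟨-, e, -⟩
          · omega
          · exact e.ne_zero
      · exact hs (Finset.mem_union_left _ hh)
  have hsys : F.rootSys (F.twistSet qv) ∘ f = F.resSys qv := funext fun l => by
    rcases l with l | l
    · refine if_neg fun hh => hh.elim (fun h' => l.2.2 (Finset.mem_union_right _ h')) fun h' => ?_
      exact (D.avoided_props (F := F) l.2.1 fun hh => l.2.2 (Finset.mem_union_left _ hh)).2.2.2.1 h'
    · exact if_pos ((Finset.mem_union.mp l.2).imp id fun h' => (Nat.mem_primeFactors.mp h').2.1)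
  have hT : ∀ s t : F.RIdx, Commute
      (gamHecke (ResidueField F.E.R) (L * ∏ i, qv i) (Subtype.val : F.RIdx → ℕ) s)
      (gamHecke (ResidueField F.E.R) (L * ∏ i, qv i) (Subtype.val : F.RIdx → ℕ) t) :=
    fun s t => commute_heckeHom s.2.1 t.2.1
  have e := localIdem_reindex (O := ResidueField F.E.R)
    (A := Module.End (ResidueField F.E.R)
      (Additive (Gamma0 (L * ∏ i, qv i)) →+ ResidueField F.E.R))
    (T := gamHecke (ResidueField F.E.R) (L * ∏ i, qv i) (Subtype.val : F.RIdx → ℕ)) hT
    (F.rootSys (F.twistSet qv)) f hf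
  rw [hsys] at e
  exact congrArg (fun z => Module.finrank (ResidueField F.E.R) (LinearMap.range z)) e

end LiftData

end FLTA.RT

end
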