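import Fermat.Agent.RT.Lift.ModulesOldLevel
import Fermat.Agent.RT.AtP.Tp
import Fermat.Agent.RT.CoeffPoints
import Fermat.Agent.Periods.CharExtend
import Fermat.Agent.RepTheory.DVRExtension
import Mathlib.RingTheory.Finiteness.Nakayama

/-!
# The old part at a multiplicative `p` is a proper part

The level without `p`, the rank of the old part at `p`, and its bound: if the old part were
everything, `T_p ^ 2 - (p + 1) ^ 2` would be invertible on the factor of the level without `p`,
while `T_p` is the sign of the reduction modulo the maximal ideal.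
-/

set_option autoImplicit false
set_option linter.style.haveILetI false
set_option synthInstance.maxHeartbeats 200000
set_option maxHeartbeats 1000000

noncomputable section

open IsLocalRing WeierstrassCurve CongruenceSubgroup Polynomial

namespace FLTA.RT

open FLTA.Periods

variable {W : WeierstrassCurve ℤ} {hΔ : W.Δ ≠ 0} {p : ℕ} [Fact p.Prime] {M : ℕ}

section Generic

/-- Coordinates of an element of `I • ⊤`. -/
theorem repr_mem_of_mem_smul_top {R V ι : Type*} [CommRing R] [AddCommGroup V] [Module R V]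
    (I : Ideal R) (b : Module.Basis ι R V) {x : V} (hx : x ∈ I • (⊤ : Submodule R V)) (i : ι) :
    b.repr x i ∈ I := by
  induction hx using Submodule.smul_induction_on' with
  | smul a ha v _ =>
    rw [map_smul, Finsupp.smul_apply, smul_eq_mul]
    exact I.mul_mem_right _ ha
  | add u _ v _ hu hv => rw [map_add, Finsupp.add_apply]; exact add_mem hu hv

/-- A map of free modules of equal rank, injective modulo the maximal ideal, is bijective. -/
theorem bijective_of_injective_mod {R V V' : Type*} [CommRing R] [IsLocalRing R] [AddCommGroup V]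
    [Module R V] [AddCommGroup V'] [Module R V'] {m : ℕ} (b : Module.Basis (Fin m) R V)
    (b' : Module.Basis (Fin m) R V') (f : V →ₗ[R] V')
    (h : ∀ x, f x ∈ maximalIdeal R • (⊤ : Submodule R V') →
      x ∈ maximalIdeal R • (⊤ : Submodule R V)) : Function.Bijective f := by
  have hdet : IsUnit (LinearMap.toMatrix b b' f).det := by
    refine Classical.byContradiction fun hu => ?_
    have h0 : ((residue R).mapMatrix (LinearMap.toMatrix b b' f)).det = 0 := by
      rw [← RingHom.map_det]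
      exact (residue_eq_zero_iff _).mpr ((mem_maximalIdeal _).mpr hu)
    obtain ⟨v, hv0, hv⟩ := Matrix.exists_mulVec_eq_zero_iff.mpr h0
    choose w hw using fun i => residue_surjective (v i)
    have hx : b.equivFun.symm w ∈ maximalIdeal R • (⊤ : Submodule R V) := by
      refine h _ ?_
      rw [← b'.sum_repr (f _)]
      refine Submodule.sum_mem _ fun i _ => Submodule.smul_mem_smul ?_ Submodule.mem_top
      rw [← residue_eq_zero_iff, ← LinearMap.toMatrix_mulVec_repr b b', ← Module.Basis.equivFun_apply,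
        LinearEquiv.apply_symm_apply, RingHom.map_mulVec]
      have e : residue R ∘ w = v := funext hw
      rw [e]
      exact congrFun hv i
    refine hv0 (funext fun i => ?_)
    rw [← hw i, Pi.zero_apply, residue_eq_zero_iff]
    have h1 := repr_mem_of_mem_smul_top _ b hx i
    rwa [← Module.Basis.equivFun_apply, LinearEquiv.apply_symm_apply] at h1
  exact (LinearEquiv.ofIsUnitDet hdet).bijective

/-- If the symmetric block `[[c, T], [T, c]]` is surjective and `c` is a unit, so is `T² - c²`. -/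
theorem surjective_sq_sub_of_block {R V : Type*} [CommRing R] [AddCommGroup V] [Module R V]
    (T : Module.End R V) {c : R} (hc : IsUnit c)
    (h : ∀ a b : V, ∃ x y : V, c • x + T y = a ∧ T x + c • y = b) (a : V) :
    ∃ x, T (T x) - c ^ 2 • x = a := by
  obtain ⟨u, rfl⟩ := hc
  obtain ⟨x, y, h1, h2⟩ := h (((u⁻¹ : Rˣ) : R) • a) 0
  refine ⟨-x, ?_⟩
  have h3 := congrArg T h2
  rw [map_add, map_smul, map_zero] at h3
  have h4 := congrArg (fun z => (u : R) • z) h1
  simp only [smul_add, smul_smul, Units.mul_inv, one_smul] at h4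
  rw [← h4, map_neg, map_neg, smul_neg, ← pow_two, eq_neg_of_add_eq_zero_left h3]
  abel

/-- A residual point of a commutative algebra of endomorphisms of a finite module over a local
ring: it has the value `c` where `θ t - c` is nilpotent modulo the maximal ideal, and another one
where `θ t - c` is surjective. -/
theorem exists_residual_char {H R U : Type} [CommRing H] [CommRing R] [IsLocalRing R]
    [IsNoetherianRing R] [AddCommGroup U] [Module R U] [Module.Finite R U] [Nontrivial U]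
    (θ : H →+* Module.End R U) :
    ∃ (K : Type) (_ : Field K) (_ : IsAlgClosed K) (π : H →+* K) (ι : R →+* K),
      (∀ c ∈ maximalIdeal R, ι c = 0) ∧
      (∀ t c (k : ℕ), LinearMap.range ((θ t - c • 1) ^ k) ≤ maximalIdeal R • ⊤ → π t = ι c) ∧
      ∀ t c, Function.Surjective ⇑((θ t - c • 1 : Module.End R U)) → π t ≠ ι c := by
  classical
  let B := Algebra.adjoin R (Set.range θ)
  letI : CommRing B :=
    { (inferInstance : Ring B) with
      mul_comm := by
        have h : IsMulCommutative B := Algebra.isMulCommutative_adjoin R (s := Set.range θ) (by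
            rintro _ ⟨t, rfl⟩ _ ⟨t', rfl⟩
            exact ((Commute.all t t').map θ).eq)
        exact h.is_comm.comm }
  haveI : IsNoetherian R (Module.End R U) := inferInstance
  haveI : Module.Finite R B :=
    Module.Finite.of_injective B.val.toLinearMap Subtype.val_injective
  haveI : Algebra.IsIntegral R B := Algebra.IsIntegral.of_finite R B
  haveI : Nontrivial B := ⟨1, 0, fun h01 => by
    obtain ⟨u, hu⟩ := exists_ne (0 : U)
    exact hu (LinearMap.congr_fun (congrArg Subtype.val h01) u)⟩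
  obtain ⟨𝔪, h𝔪⟩ := Ideal.exists_maximal B
  letI := Ideal.Quotient.field 𝔪
  let π : B →+* AlgebraicClosure (B ⧸ 𝔪) :=
    (algebraMap (B ⧸ 𝔪) _).comp (Ideal.Quotient.mk 𝔪)
  have hπ0 : ∀ b, π b = 0 → b ∈ 𝔪 := fun b hb =>
    Ideal.Quotient.eq_zero_iff_mem.mp ((algebraMap (B ⧸ 𝔪) _).injective (hb.trans (map_zero _).symm))
  have hπm : ∀ c ∈ maximalIdeal R, π (algebraMap R B c) = 0 := fun c hc => by
    rw [← IsLocalRing.eq_maximalIdeal
      (Ideal.isMaximal_comap_of_isIntegral_of_isMaximal (R := R) 𝔪)] at hc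
    show algebraMap (B ⧸ 𝔪) _ (Ideal.Quotient.mk 𝔪 _) = 0
    rw [Ideal.Quotient.eq_zero_iff_mem.mpr (Ideal.mem_comap.mp hc), map_zero]
  let θB : H →+* B := θ.codRestrict B fun t => Algebra.subset_adjoin ⟨t, rfl⟩
  have hval : ∀ t c, ((θB t - algebraMap R B c : B) : Module.End R U) = θ t - c • 1 := fun t c => by
    show θ t - algebraMap R (Module.End R U) c = _
    rw [Algebra.algebraMap_eq_smul_one]
  refine ⟨AlgebraicClosure (B ⧸ 𝔪), inferInstance, inferInstance, π.comp θB,
    π.comp (algebraMap R B), hπm, fun t c k hk => ?_, fun t c hs he => ?_⟩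
  · obtain ⟨P, hP, -, hcoef, haev⟩ :=
      LinearMap.exists_monic_and_natDegree_eq_and_coeff_mem_pow_and_aeval_eq_zero R
        ((θ t - c • 1) ^ k) _ hk
    have hB : Polynomial.aeval ((θB t - algebraMap R B c) ^ k) P = 0 := Subtype.ext (by
      rw [Polynomial.aeval_subalgebra_coe, SubmonoidClass.coe_pow, hval, haev]
      rfl)
    have h0 := congrArg π hB
    rw [map_zero, Polynomial.aeval_def, Polynomial.eval₂_eq_sum_range, map_sum,
      Finset.sum_range_succ, Finset.sum_eq_zero, zero_add, hP.coeff_natDegree, map_one, one_mul,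
      map_pow, map_pow] at h0
    · exact sub_eq_zero.mp ((map_sub π _ _).symm.trans
        (eq_zero_of_pow_eq_zero (n := k) (eq_zero_of_pow_eq_zero h0)))
    · intro i hi
      rw [map_mul, hπm _ (Ideal.pow_le_self (Nat.sub_ne_zero_of_lt (Finset.mem_range.mp hi))
        (hcoef i)), zero_mul]
  · have hu : θB t - algebraMap R B c ∈ 𝔪 := hπ0 _ ((map_sub π _ _).trans (sub_eq_zero.mpr he))
    haveI : IsScalarTower R B U := ⟨fun r b x => rfl⟩
    haveI : Module.Finite B U := Module.Finite.of_restrictScalars_finite R B U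
    obtain ⟨d, hd, hd0⟩ := Submodule.exists_sub_one_mem_and_smul_eq_zero_of_fg_of_le_smul 𝔪
      (⊤ : Submodule B U) Module.Finite.fg_top fun y _ => by
        obtain ⟨x, rfl⟩ := hs y
        rw [← hval]
        exact Submodule.smul_mem_smul hu (Submodule.mem_top (x := x))
    have : d = 0 := Subtype.ext (LinearMap.ext fun x => hd0 x Submodule.mem_top)
    rw [this, zero_sub, neg_mem_iff] at hd
    exact h𝔪.ne_top ((Ideal.eq_top_iff_one _).mpr hd)

/-- A residual character of level `L` with the values of a curve with multiplicative reduction at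
`p ∤ L` squares to `1` at `T_p`. -/
theorem sq_eq_one_of_residual_char {W : WeierstrassCurve ℤ} (hΔ : W.Δ ≠ 0) {p : ℕ} [Fact p.Prime]
    (hp2 : p ≠ 2) (hirr : W.ModRepIsIrreducible p) (hΔp : (p : ℤ) ∣ W.Δ) (hc₄ : ¬ (p : ℤ) ∣ W.c₄)
    (L : ℕ) [NeZero L] (hpL : ¬ p ∣ L) {S₀ : Set ℕ} (hpS₀ : p ∉ S₀) {K : Type} [Field K]
    [IsAlgClosed K] [CharP K p] (π : CuspForm.heckeAlgebra L 2 S₀ →+* K) (S : Finset ℕ)
    (hS : ∀ l : ℕ, l.Prime → l ∉ S → ¬ l ∣ L ∧ l ≠ 2 ∧ l ≠ p ∧ W.IsGoodPrimeFor l)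
    (hT : ∀ (l : ℕ) (hl : l.Prime) (hlL : ¬ l ∣ L), l ∉ S →
      ∃ hlS : l ∉ S₀, π (CuspForm.heckeAlgebra.T hl hlL hlS) = (W.apOfModel l : K)) :
    π (CuspForm.heckeAlgebra.T Fact.out hpL hpS₀) ^ 2 = 1 := by
  obtain ⟨Ψ, hΨ⟩ := exists_char_extension_anemic (N := L) π
  letI : Algebra (ZMod p) K := ZMod.algebra K p
  obtain ⟨E, χ, j, hj⟩ := RepTheory.exists_dvr_lift (p := p) (R := fullHecke L)
    ⟨(IsAlgClosed.lift : AlgebraicClosure (ZMod p) →ₐ[ZMod p] K).toRingHom⟩ Ψ
  have hΨT : ∀ (l : ℕ) (hl : l.Prime) (hlN : ¬ l ∣ L) (hlS : l ∉ S₀),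
      Ψ (CuspForm.heckeAlgebra.T hl hlN (Set.notMem_empty l)) =
        π (CuspForm.heckeAlgebra.T hl hlN hlS) := fun l hl hlN hlS =>
    RingHom.congr_fun hΨ (CuspForm.heckeAlgebra.T hl hlN hlS)
  have hpE : (p : E.R) ∈ maximalIdeal E.R := by
    rw [← map_natCast (algebraMap ℤ_[p] E.R)]
    exact map_nonunit _ _ (by
      rw [PadicInt.maximalIdeal_eq_span_p]; exact Ideal.mem_span_singleton_self _)
  haveI : Module.IsTorsionFree ℤ_[p] E.R :=
    Module.isTorsionFree_iff_algebraMap_injective.mpr E.injective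
  haveI : Module.Free ℤ_[p] E.R := Module.free_of_finite_type_torsion_free'
  have key := AtP.heckeT_congr_nodeSign hΔ hp2 hirr hΔp hc₄ L hpL hpE χ S hS
    (fun l hl hlN hlS => by
      obtain ⟨hlS₀, h⟩ := hT l hl hlN hlS
      exact j.injective (by rw [hj, map_intCast, hΨT l hl hlN hlS₀, h]))
  rw [← hΨT _ _ _ hpS₀, ← hj, key, map_intCast, ← Int.cast_pow, EllTate.nodeSign_sq, Int.cast_one]

end Generic

namespace LiftFrame

variable (F : LiftFrame W hΔ p M)

/-- The bottom level without `p`. -/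
def oldBase : ℕ := F.level 0 / p

open Classical in
/-- The rank of the old part at `p` of the first level. -/
def oldRank : ℕ := if F.Mult then 2 * F.factorRank F.oldBase ∅ else 0

theorem p_dvd_base (hm : F.Mult) : p ∣ F.base := by
  rw [base, if_pos hm]
  exact (Nat.dvd_lcm_right M p).mul_right _

end LiftFrame

namespace LiftData

variable (D : LiftData W p M) (F : LiftFrame W hΔ p M)
include D

/-- At a multiplicative `p` the bottom level is `oldBase * p` with `p ∤ oldBase`. -/
theorem oldBase_spec (hm : F.Mult) :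
    F.level 0 = F.oldBase * p ∧ ¬ p ∣ F.oldBase ∧ F.aux ∣ F.oldBase ∧ F.oldBase ≠ 0 := by
  classical
  have hp : p.Prime := Fact.out
  have hlev : F.level 0 = F.base := by simp [LiftFrame.level]
  have hpa : ¬ p ∣ F.aux := by
    rcases F.aux_spec with ⟨-, h⟩ | ⟨h3, ha, -, hmod, -⟩
    · rw [h]; exact hp.not_dvd_one
    · intro hd
      have := (Nat.prime_dvd_prime_iff_eq hp ha).mp hd
      omega
  obtain ⟨c, hc, hpc⟩ : ∃ c, Nat.lcm M p = c * p ∧ ¬ p ∣ c := by
    by_cases hM : p ∣ M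
    · obtain ⟨c, rfl⟩ := hM
      refine ⟨c, ?_, fun hd => ?_⟩
      · rw [Nat.lcm_eq_left (dvd_mul_right p c), mul_comm]
      · obtain ⟨e, rfl⟩ := hd
        exact hp.not_isUnit (D.squarefree p ⟨e, by ring⟩)
    · exact ⟨M, ((hp.coprime_iff_not_dvd.mpr hM).symm).lcm_eq_mul, hM⟩
  have hold : F.oldBase = c * F.aux := by
    rw [LiftFrame.oldBase, hlev, LiftFrame.base, if_pos hm, hc,
      show c * p * F.aux = c * F.aux * p by ring, Nat.mul_div_cancel _ hp.pos]
  refine ⟨?_, ?_, ?_, ?_⟩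
  · rw [hold, hlev, LiftFrame.base, if_pos hm, hc]; ring
  · rw [hold]
    exact fun h => (hp.dvd_mul.mp h).elim hpc hpa
  · rw [hold]; exact dvd_mul_left _ _
  · intro h0
    apply D.level_ne_zero (F := F) 0
    have : F.level 0 = F.oldBase * p := by
      rw [hold, hlev, LiftFrame.base, if_pos hm, hc]; ring
    rw [this, h0, zero_mul]

/-- No prime of a tuple divides the level without `p`. -/
theorem not_dvd_oldBase {n r : ℕ} {qv : Fin r → ℕ} (hm : F.Mult) (h : F.IsTWTuple n qv)
    (i : Fin r) : ¬ qv i ∣ F.oldBase := fun hd =>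
  (D.avoided_props (F := F) (h.prime i) (h.notMem i)).2.2.2.2.2 0
    ((D.oldBase_spec F hm).1 ▸ hd.mul_right p)

/-- **`T_p² - (p + 1)²` is not surjective on the factor of the level without `p`.** -/
theorem not_surjective_sq_sub (hm : F.Mult) [NeZero F.oldBase]
    (qv : Fin 0 → ℕ) {d : ℕ}
    (b : Module.Basis (Fin d) (F.Diamond 0 0)
      (eImage (localEnd (F.opsFam 0 qv
        (F.chiLev 0 qv F.oldBase)) (F.sys 0 qv)) (F.Diamond 0 0)))
    (hd : 0 < d)
    (Tp : Module.End (F.Diamond 0 0)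
      (eImage (localEnd (F.opsFam 0 qv
        (F.chiLev 0 qv F.oldBase)) (F.sys 0 qv)) (F.Diamond 0 0)))
    (hTp : ∀ x, (Tp x).1 = (kap (F.twistSet qv) (F.eps 0 qv) p :
      F.Diamond 0 0) •
        (natHecke (F.chiLev 0 qv F.oldBase) p).app (F.Diamond 0 0) x.1) :
    ¬ ∀ y, ∃ x, Tp (Tp x) - ((p : F.Diamond 0 0) + 1) ^ 2 • x = y := by
  classical
  intro hsurj
  obtain ⟨hlev0, hpL, hauxL, -⟩ := D.oldBase_spec F hm
  have hqv : ∀ i, (qv i).Prime := fun i => i.elim0
  let K := AlgebraicClosure (FractionRing F.E.R)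
  haveI := group_fg_Gamma0 F.oldBase
  haveI := F.isNoetherianRing_diamond 0 (r := 0)
  haveI := F.isAdicComplete_diamond 0 (r := 0)
  haveI := finite_tH1 (χ := gamChar (F.chiLev 0 qv F.oldBase)) (F.Diamond 0 0)
  let Mm := eImage (localEnd (F.opsFam 0 qv (F.chiLev 0 qv F.oldBase)) (F.sys 0 qv)) (F.Diamond 0 0)
  haveI : Module.Finite (F.Diamond 0 0) Mm := Module.Finite.of_basis b
  have hcomm := F.commAtRing_lev 0 qv hqv (L := F.oldBase)
  have hidem := localEnd_app_ring hcomm (F.sys 0 qv)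
  have hT0 : F.twistSet qv = ∅ := by simp [LiftFrame.twistSet]
  have hdvd : F.oldBase ∣ F.levelAt 0 qv := by
    rw [LiftFrame.levelAt, hlev0, mul_assoc]; exact dvd_mul_right _ _
  obtain ⟨l₀, hl₀, hl₀bad, hl₀1, hkap₀, hu₀⟩ :=
    D.exists_unit_lev F 0 (L := F.oldBase) (qv := qv) (fun i => i.elim0)
  have hfac : ∀ x, ∃ y, (localEnd (F.opsFam 0 qv (F.chiLev 0 qv F.oldBase)) (F.sys 0 qv)).app (F.Diamond 0 0) x =
      (natHecke (F.chiLev 0 qv F.oldBase) l₀).app (F.Diamond 0 0) y -
        ((l₀ : F.Diamond 0 0) + 1) • y := by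
    intro x
    obtain ⟨z, hz, he⟩ := exists_mul_sub_eq_localIdem hcomm (F.sys 0 qv)
      (.inl ⟨l₀, hl₀, hl₀bad⟩) hu₀
    refine ⟨z x, ?_⟩
    have hcz : Commute (opsAt (F.opsFam 0 qv (F.chiLev 0 qv F.oldBase)) (F.Diamond 0 0)
        (.inl ⟨l₀, hl₀, hl₀bad⟩)) z :=
      Algebra.commute_of_mem_adjoin_of_forall_mem_commute hz fun b hb => by
        obtain ⟨s, rfl⟩ := hb
        exact hcomm _ s
    have hc2 := (hcz.sub_left
      (Algebra.commute_algebraMap_left ((l₀ : F.Diamond 0 0) + 1) z)).eq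
    rw [hidem, he, ← hc2, Module.End.mul_apply, LinearMap.sub_apply,
      Module.algebraMap_end_apply]
    refine congrArg (· - _) ?_
    show (kap (F.twistSet qv) (F.eps 0 qv) l₀ : F.Diamond 0 0) •
      (natHecke (F.chiLev 0 qv F.oldBase) l₀).app (F.Diamond 0 0) (z x) = _
    rw [hkap₀, Units.val_one, one_smul]
  let S₀ : Set ℕ := {q | q ∣ F.oldBase}
  have hcomm' : ∀ l : ℕ, l.Prime → l ∉ S₀ → ∀ x,
      (localEnd (F.opsFam 0 qv (F.chiLev 0 qv F.oldBase)) (F.sys 0 qv)).app (F.Diamond 0 0) ((natHecke (F.chiLev 0 qv F.oldBase) l).app (F.Diamond 0 0) x) =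
        (natHecke (F.chiLev 0 qv F.oldBase) l).app (F.Diamond 0 0)
          ((localEnd (F.opsFam 0 qv (F.chiLev 0 qv F.oldBase)) (F.sys 0 qv)).app (F.Diamond 0 0) x) := by
    intro l hl _ x
    rw [hidem]
    have hc : Commute ((natHecke (F.chiLev 0 qv F.oldBase) l).app (F.Diamond 0 0))
        (localIdem (opsAt (F.opsFam 0 qv (F.chiLev 0 qv F.oldBase)) (F.Diamond 0 0))
          (F.sys 0 qv)) :=
      commute_localIdem hcomm (F.sys 0 qv) fun s => LinearMap.ext fun z => by
        have hs := F.idx_prime hqv s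
        show (natHecke (F.chiLev 0 qv F.oldBase) l).app (F.Diamond 0 0)
            ((F.opsFam 0 qv _ s).app (F.Diamond 0 0) z) =
          (F.opsFam 0 qv _ s).app (F.Diamond 0 0)
            ((natHecke (F.chiLev 0 qv F.oldBase) l).app (F.Diamond 0 0) z)
        rcases s with m | m <;>
          simp only [LiftFrame.opsFam, Sum.elim_inl, Sum.elim_inr, NatEnd.smul_app,
            map_smul] at hs ⊢ <;>
          rw [natHecke_comm _ hl hs]
    exact (LinearMap.congr_fun hc.eq x).symm
  obtain ⟨θ, hθ, -, -⟩ := @exists_ringHom_eImage F.oldBase _ S₀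
    (F.Diamond 0 0) _ K _ F.oldBase _ _ (F.chiLev 0 qv F.oldBase) (localEnd (F.opsFam 0 qv (F.chiLev 0 qv F.oldBase)) (F.sys 0 qv)) (F.twistSet qv) (F.eps 0 qv)
    (by simp [hT0]) (by simp [hT0]) rfl (by simp [hT0]) (fun _ _ hd => hd) l₀ hl₀
    (not_dvd_of_natCast_eq_one hl₀ hl₀1) hl₀1 hfac (F.hasLifts_lev 0 qv hauxL)
    (eqAtRing_localEnd_sq hcomm _) (D.killsObstruction_lev F 0 hqv hauxL fun i => i.elim0)
    _ (fun ψ : F.Diamond 0 0 →ₐ[F.E.R] K => ψ.toRingHom)
    (fun x hx => Avoid.eq_zero_of_forall_point (O := F.E.R) (k := 0 + 1) F.natCast_mem x hx)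
    hcomm' _
  haveI : Nontrivial Mm := ⟨b ⟨0, hd⟩, 0, b.ne_zero _⟩
  obtain ⟨K', _, _, π, ι, hι, hnil, hsur⟩ := exists_residual_char θ
  have hpK : (p : K') = 0 := by
    rw [← map_natCast ι]
    exact hι _ (F.natCast_mem_diamond 0)
  haveI : CharP K' p := (CharP.charP_iff_prime_eq_zero Fact.out).mpr hpK
  have hsq := sq_eq_one_of_residual_char hΔ D.ne_two D.curve.irreducible hm
    (D.curve.semistable p Fact.out hm) F.oldBase hpL (S₀ := S₀) hpL π (F.badSet qv)
    (fun l hl hlS => by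
      obtain ⟨h1, h2, h3, -, h4⟩ := D.badSet_props F hqv hl hlS
      exact ⟨fun h => (h4 0).1 (h.trans hdvd), h2, h1, h3⟩)
    (fun l hl hlN hlbad => ⟨hlN, by
      obtain ⟨k, hk⟩ := exists_pow_sub_mem hcomm (F.sys 0 qv) (.inl ⟨l, hl, hlbad⟩)
      rw [hnil _ (W.apOfModel l : F.Diamond 0 0) k ?_, map_intCast]
      rintro _ ⟨y, rfl⟩
      rw [Submodule.mem_smul_top_iff]
      have hy : (y : tH1 (gamChar (F.chiLev 0 qv F.oldBase)) (F.Diamond 0 0)) ∈ LinearMap.range
          (localIdem (opsAt (F.opsFam 0 qv (F.chiLev 0 qv F.oldBase)) (F.Diamond 0 0))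
            (F.sys 0 qv)) := by
        rw [← hidem]; exact y.2
      have h := hk _ hy
      rw [← hidem] at h
      rw [coe_pow_sub_smul_one (g := θ (CuspForm.heckeAlgebra.T hl hlN hlN))
        (f := opsAt (F.opsFam 0 qv (F.chiLev 0 qv F.oldBase)) (F.Diamond 0 0)
          (.inl ⟨l, hl, hlbad⟩))
        (hθ l hl hlN hlN) (W.apOfModel l : F.Diamond 0 0) k y]
      exact h⟩)
  have hTpθ : ∀ x : Mm, θ (CuspForm.heckeAlgebra.T Fact.out hpL hpL) x = Tp x := fun x =>
    Subtype.ext ((hθ p Fact.out hpL hpL x).trans (hTp x).symm)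
  refine hsur (CuspForm.heckeAlgebra.T Fact.out hpL hpL ^ 2) (((p : F.Diamond 0 0) + 1) ^ 2)
    (fun y => ?_) ?_
  · obtain ⟨x, rfl⟩ := hsurj y
    refine ⟨x, ?_⟩
    rw [LinearMap.sub_apply, map_pow, pow_two, Module.End.mul_apply, LinearMap.smul_apply,
      Module.End.one_apply, hTpθ, hTpθ]
  · rw [map_pow, hsq, map_pow, map_add, map_natCast, hpK, map_one, zero_add, one_pow]

/-- **The old part at `p` is a proper part.** -/
theorem oldRank_lt : F.oldRank < F.liftRank 0 := by
  classical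
  by_cases hm : F.Mult
  swap
  · rw [LiftFrame.oldRank, if_neg hm]
    exact D.liftRank_pos F 0
  rw [LiftFrame.oldRank, if_pos hm]
  rcases Nat.eq_zero_or_pos (F.factorRank F.oldBase ∅) with h0 | hd
  · rw [h0, mul_zero]
    exact D.liftRank_pos F 0
  set d := F.factorRank F.oldBase ∅ with hddef
  refine Classical.byContradiction fun hlt => ?_
  obtain ⟨hlev, hpL, hauxL, hL0⟩ := D.oldBase_spec F hm
  let qv : Fin 0 → ℕ := LiftFrame.noPrimes
  have htw : F.IsTWTuple 0 qv :=
    ⟨fun i => i.elim0, fun i => i.elim0, fun i => i.elim0, fun i => i.elim0, fun i => i.elim0⟩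
  haveI : NeZero F.oldBase := ⟨hL0⟩
  haveI : NeZero (F.levelAt 0 qv) := ⟨D.levelAt_ne_zero 0 htw.prime⟩
  have hp : p.Prime := Fact.out
  have hlevAt : F.levelAt 0 qv = F.oldBase * p := by
    rw [LiftFrame.levelAt, Fin.prod_univ_zero, mul_one, hlev]
  obtain ⟨up, down, -, -, h3, h4, h5, -, -⟩ := F.exists_raise_maps 0 qv D htw hp hpL hlevAt hauxL
    (fun s hs => by simp [LiftFrame.twistSet] at hs)
    (Finset.mem_union_left _ (Finset.mem_insert_self _ _))
    (fun hs => hpL (by
      rcases Finset.mem_union.mp hs with h | h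
      · simp [LiftFrame.twistSet] at h
      · exact (Nat.mem_primeFactors.mp h).2.1.trans hauxL))
    (F.chiLev 0 qv F.oldBase) rfl (F.chi 0 0 qv) rfl
    (F.commAtRing_lev 0 qv htw.prime) (F.commAtRing_ops 0 0 htw.prime)
    (F.hasLifts_lev 0 qv hauxL) (F.hasLifts 0 0 qv)
  obtain ⟨b⟩ := D.exists_basis_levProd F 0 htw hauxL (fun i => i.elim0) (L' := F.oldBase)
    (by rw [Fin.prod_univ_zero, mul_one])
  obtain ⟨b0⟩ := D.exists_basis_liftRank F 0 0 htw (qv := qv)
  let bb := (Pi.basis fun _ : Fin 2 => b).reindex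
    ((Equiv.sigmaEquivProd (Fin 2) (Fin d)).trans finProdFinEquiv)
  let Φ := LinearMap.pi down
  have hΦ : Function.Surjective Φ := fun c => by
    obtain ⟨y, hy⟩ := h5 c
    exact ⟨y, funext hy⟩
  -- equal ranks
  have hrank : F.liftRank 0 = 2 * d := by
    refine le_antisymm (not_lt.mp hlt) ?_
    let g : (Fin (F.liftRank 0) → F.Diamond 0 0) →ₗ[F.Diamond 0 0] (Fin (2 * d) → F.Diamond 0 0) :=
      bb.equivFun.toLinearMap ∘ₗ Φ ∘ₗ b0.equivFun.symm.toLinearMap
    exact le_of_fin_surjective (F.Diamond 0 0) g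
      (bb.equivFun.surjective.comp (hΦ.comp b0.equivFun.symm.surjective))
  let Ψ := ∑ s, (up s).comp (LinearMap.proj (R := F.Diamond 0 0) (φ := fun _ : Fin 2 =>
    eImage (localEnd (F.opsFam 0 qv (F.chiLev 0 qv F.oldBase)) (F.sys 0 qv)) (F.Diamond 0 0)) s)
  have hΨ : ∀ x, Ψ x = ∑ s, up s (x s) := fun x => by
    simp only [Ψ, LinearMap.sum_apply, LinearMap.comp_apply, LinearMap.proj_apply]
  let b1 : Module.Basis (Fin (2 * d)) (F.Diamond 0 0)
      (eImage (localEnd (F.opsFam 0 qv (F.chi 0 0 qv)) (F.sys 0 qv)) (F.Diamond 0 0)) :=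
    b0.reindex (finCongr hrank)
  have hΨb : Function.Bijective Ψ := bijective_of_injective_mod bb b1 Ψ fun x hx => by
    have h := h4 x (hΨ x ▸ hx)
    rw [← Finset.univ_sum_single x]
    refine Submodule.sum_mem _ fun s _ => ?_
    have hs : LinearMap.single (F.Diamond 0 0) (fun _ : Fin 2 =>
        eImage (localEnd (F.opsFam 0 qv (F.chiLev 0 qv F.oldBase)) (F.sys 0 qv)) (F.Diamond 0 0))
          s (x s) ∈ maximalIdeal (F.Diamond 0 0) • (⊤ : Submodule (F.Diamond 0 0) _) := by
      have h1 := Submodule.mem_map_of_mem (f := LinearMap.single (F.Diamond 0 0) (fun _ : Fin 2 =>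
        eImage (localEnd (F.opsFam 0 qv (F.chiLev 0 qv F.oldBase)) (F.sys 0 qv)) (F.Diamond 0 0))
          s) (h s)
      rw [Submodule.map_smul''] at h1
      exact Submodule.smul_mono le_rfl le_top h1
    exact hs
  let Tp := down 0 ∘ₗ up 1
  have hTp : ∀ x, (Tp x).1 = (kap (F.twistSet qv) (F.eps 0 qv) p : F.Diamond 0 0) •
      (natHecke (F.chiLev 0 qv F.oldBase) p).app (F.Diamond 0 0) x.1 := fun x =>
    (h3 0 1 x).trans (if_neg (by decide))
  refine D.not_surjective_sq_sub F hm qv b hd Tp hTp (surjective_sq_sub_of_block Tp ?_ ?_)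
  · refine Classical.byContradiction fun hu => ?_
    refine (maximalIdeal.isMaximal (F.Diamond 0 0)).ne_top ((Ideal.eq_top_iff_one _).mpr ?_)
    have h1 := sub_mem ((mem_maximalIdeal ((p : F.Diamond 0 0) + 1)).mpr hu)
      (F.natCast_mem_diamond 0)
    rwa [add_sub_cancel_left] at h1
  · intro a a'
    obtain ⟨y, hy⟩ := hΦ ![a, a']
    obtain ⟨x, rfl⟩ := hΨb.2 y
    refine ⟨x 0, x 1, ?_, ?_⟩
    · have h := congrFun hy 0
      rw [LinearMap.pi_apply, hΨ, Fin.sum_univ_two, map_add] at h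
      refine Eq.trans ?_ h
      congr 1
      exact Subtype.ext (by rw [h3, if_pos rfl]; rfl)
    · have h := congrFun hy 1
      rw [LinearMap.pi_apply, hΨ, Fin.sum_univ_two, map_add] at h
      refine Eq.trans ?_ h
      congr 1
      · exact Subtype.ext (by rw [hTp, h3, if_neg (by decide)])
      · exact Subtype.ext (by rw [h3, if_pos rfl]; rfl)

end LiftData

end FLTA.RT

end
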