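import Fermat.Agent.RT.RaiseLocal
import Fermat.Agent.RT.CoeffChain

/-!
# The normalised degeneracy maps between the twisted modules of levels `N` and `N q`

The twist is `∏ (ε r ∘ a)²` over primes `r ∣ N`, the operators are `c s • T_{l s}` with `l s ≠ q`.
With `κ = ∏ ε r (q)` the maps are `(incl, κ⁻¹ conj)` and `(cor, (u κ)⁻¹ cor ∘ w)`, so that the
composite is `[[q + 1, κ T_q], [κ T_q, q + 1]]`.
-/

set_option autoImplicit false
set_option linter.unusedSectionVars false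

noncomputable section

open CongruenceSubgroup FLTA.Periods FLTA.LevelRaising IsLocalRing

namespace FLTA.RT.Lift

variable {R : Type} [CommRing R] [IsLocalRing R] [IsNoetherianRing R]
  [IsAdicComplete (maximalIdeal R) R] {N q : ℕ} [NeZero N] [hqp : Fact q.Prime] [NeZero q]
  [((Gamma0 (N * q)).subgroupOf (Gamma0 N)).FiniteIndex] {Q₀ : Finset ℕ}
  {ε : ∀ r : ℕ, (ZMod r)ˣ →* Rˣ} {χ : (ZMod N)ˣ →* Rˣ} {σ : Type*} {c : σ → R} {l : σ → ℕ}

/-- The twist read at the higher level. -/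
theorem chiUp_sigProd (hQ : ∀ r ∈ Q₀, r ∣ N) :
    chiUp (sigProd N Q₀ ε) q = sigProd (N * q) Q₀ ε := by
  refine MonoidHom.ext fun x => ?_
  rw [chiUp, MonoidHom.comp_apply, sigProd_apply, sigProd_apply]
  exact Finset.prod_congr rfl fun r hr => by rw [sigChar_unitsMap _ (hQ r hr)]

/-- The operators of level `N` and `N q` are intertwined. -/
theorem degIntertwines_smul (h : Nat.Coprime q N) (hl : ∀ s, (l s).Prime) (hlq : ∀ s, l s ≠ q) :
    DegIntertwines (χ := χ) h (fun s => c s • natHecke χ (l s))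
      (fun s => c s • natHecke (chiUp χ q) (l s)) := by
  have hd := degIntertwines_natHecke (χ := χ) h l hl hlq
  constructor
  · intro s V _ _ x
    simp only [NatEnd.smul_app, LinearMap.smul_apply, map_smul, hd.incl]
  · intro s V _ _ x
    simp only [NatEnd.smul_app, LinearMap.smul_apply, map_smul, hd.conj]
  · intro s V _ _ y
    simp only [NatEnd.smul_app, LinearMap.smul_apply, map_smul, hd.cor]
  · intro s V _ _ y
    simp only [NatEnd.smul_app, LinearMap.smul_apply, map_smul, hd.corAL]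

theorem inv_pair_mul {G : Type*} [CommGroup G] (u k : G) : (u * k)⁻¹ * (u * k ^ 2) = k := by
  rw [pow_two, ← mul_assoc u, inv_mul_cancel_left]

theorem inv_pair_mul_inv {G : Type*} [CommGroup G] (u k : G) :
    (u * k)⁻¹ * k⁻¹ * (u * k ^ 2) = 1 := by
  rw [pow_two, ← mul_inv, ← mul_assoc u, inv_mul_cancel]

variable (hχ : χ = sigProd N Q₀ ε) (hQ : ∀ r ∈ Q₀, r ∣ N) (h : Nat.Coprime q N)

/-- The scalar on the second restriction. -/
def upUnit (Q₀ : Finset ℕ) (ε : ∀ r : ℕ, (ZMod r)ˣ →* Rˣ) (q : ℕ) : Fin 2 → Rˣ :=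
  ![1, (kap Q₀ ε q)⁻¹]

/-- The scalar on the second corestriction. -/
def downUnit (χ : (ZMod N)ˣ →* Rˣ) (Q₀ : Finset ℕ) (ε : ∀ r : ℕ, (ZMod r)ˣ →* Rˣ)
    (h : Nat.Coprime q N) : Fin 2 → Rˣ :=
  ![1, (gamChar χ (alGamma h) * kap Q₀ ε q)⁻¹]

variable {T : σ → NatEnd (gamChar χ)} {T' : σ → NatEnd (gamChar (chiUp χ q))}
  (hT : CommAtRing T) (hT' : CommAtRing T') (hlift : HasLifts (gamChar χ))
  (hlift' : HasLifts (gamChar (chiUp χ q))) (hd : DegIntertwines h T T') (a : σ → R)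

variable (Q₀ ε) in
/-- The normalised restrictions. -/
def raiseUp (i : Fin 2) : eImage (localEnd T a) R →ₗ[R] eImage (localEnd T' a) R :=
  (upUnit Q₀ ε q i : R) • locUp hT hT' hlift hlift' hd a i

variable (Q₀ ε) in
/-- The normalised corestrictions. -/
def raiseDown (i : Fin 2) : eImage (localEnd T' a) R →ₗ[R] eImage (localEnd T a) R :=
  (downUnit χ Q₀ ε h i : R) • locDown hT hT' hlift hlift' hd a i

theorem coe_raiseUp (i : Fin 2) (x : eImage (localEnd T a) R) :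
    (raiseUp Q₀ ε h hT hT' hlift hlift' hd a i x : tH1 (gamChar (chiUp χ q)) R) =
      (upUnit Q₀ ε q i : R) • degUp q χ R i x.1 := rfl

theorem coe_raiseDown (i : Fin 2) (y : eImage (localEnd T' a) R) :
    (raiseDown Q₀ ε h hT hT' hlift hlift' hd a i y : tH1 (gamChar χ) R) =
      (downUnit χ Q₀ ε h i : R) • degDown h χ R i y.1 := rfl

/-- The maps commute with the operators. -/
theorem raiseUp_op (i : Fin 2) (s : σ) {x x' : eImage (localEnd T a) R}
    (hx : (x' : tH1 (gamChar χ) R) = (T s).app R x.1) :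
    (raiseUp Q₀ ε h hT hT' hlift hlift' hd a i x' : tH1 (gamChar (chiUp χ q)) R) =
      (T' s).app R (raiseUp Q₀ ε h hT hT' hlift hlift' hd a i x).1 := by
  simp only [coe_raiseUp, hx, map_smul]
  congr 1
  fin_cases i
  · exact (hd.incl s R x.1).symm
  · exact (hd.conj s R x.1).symm

/-- The maps commute with the operators. -/
theorem raiseDown_op (i : Fin 2) (s : σ) {y y' : eImage (localEnd T' a) R}
    (hy : (y' : tH1 (gamChar (chiUp χ q)) R) = (T' s).app R y.1) :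
    (raiseDown Q₀ ε h hT hT' hlift hlift' hd a i y' : tH1 (gamChar χ) R) =
      (T s).app R (raiseDown Q₀ ε h hT hT' hlift hlift' hd a i y).1 := by
  simp only [coe_raiseDown, hy, map_smul]
  congr 1
  fin_cases i
  · exact (hd.cor s R y.1).symm
  · exact (hd.corAL s R y.1).symm

include hχ hQ in
/-- **The composite.** -/
theorem raiseDown_raiseUp (hqN : ¬ q ∣ N) (i j : Fin 2) (x : eImage (localEnd T a) R) :
    (raiseDown Q₀ ε h hT hT' hlift hlift' hd a i
        (raiseUp Q₀ ε h hT hT' hlift hlift' hd a j x) : tH1 (gamChar χ) R) =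
      if i = j then ((q : R) + 1) • x.1
      else (kap Q₀ ε q : R) • (natHecke χ q).app R x.1 := by
  have hc : IsWeight (gamChar χ) (repsT hqN) (hwT χ h) := isWeight_T χ hqN h
  have hχq : χ (ZMod.unitOfCoprime q h) = kap Q₀ ε q ^ 2 := by
    rw [hχ, sigProd_unitOfCoprime ε hQ h]
  have hop : (natHecke χ q).app R x.1 = hc.op R x.1 := by
    rw [natHecke_of_not_dvd χ hqN]
    rfl
  obtain ⟨a00, a01, a10, a11⟩ := degDown_degUp (h := h) hqN hc x.1
  rw [coe_raiseDown, coe_raiseUp, map_smul, smul_smul, hop, ← Units.val_mul]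
  fin_cases i <;> fin_cases j
  · simp [upUnit, downUnit, a00, Nat.cast_succ]
  · show ((1 : Rˣ) * (kap Q₀ ε q)⁻¹ : Rˣ).val • degDown h χ R 0 (degUp q χ R 1 x.1) = _
    rw [a01, smul_smul, ← Units.val_mul, hχq]
    simp [pow_two]
  · show (((gamChar χ (alGamma h) * kap Q₀ ε q)⁻¹ * 1 : Rˣ) : R) •
      degDown h χ R 1 (degUp q χ R 0 x.1) = _
    rw [a10, smul_smul, ← Units.val_mul, smul_smul, ← Units.val_mul, hχq]
    rw [if_neg (by decide)]
    congr 2
    rw [mul_one, mul_assoc, inv_pair_mul]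
  · show (((gamChar χ (alGamma h) * kap Q₀ ε q)⁻¹ * (kap Q₀ ε q)⁻¹ : Rˣ) : R) •
      degDown h χ R 1 (degUp q χ R 1 x.1) = _
    rw [a11, smul_smul, ← Units.val_mul, smul_smul, ← Units.val_mul, hχq, if_pos rfl,
      Nat.cast_succ, mul_assoc, inv_pair_mul_inv, Units.val_one, one_smul]

variable {p : ℕ} (hp : p.Prime) (hp2 : p ≠ 2) (hpR : (p : R) ∈ maximalIdeal R) (hq : q.Prime)
  (hqN : ¬ q ∣ N) (hχm : ∀ γ, (gamChar χ γ : R) - 1 ∈ maximalIdeal R) {ℓ : ℕ} [hℓ : Fact ℓ.Prime]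
  (hℓN : ¬ ℓ ∣ N) (hℓ1 : (ℓ : ZMod (N * q)) = 1) {s₀ : σ}
  (hs₀ : T s₀ = natHecke χ ℓ) (ha : IsUnit (a s₀ - ((ℓ : R) + 1)))
  (hell : ∀ φ : Additive (Gamma0 N) →+ (R ⧸ maximalIdeal R),
    ModularCurve.Period.IsParabolicHom (Gamma0 N) φ → FLTA.Gamma0.IsParHom0 (Gamma0 N) φ)

include hp hp2 hpR hq hqN hχm hℓ hℓN hℓ1 hs₀ ha hell in
/-- **Injectivity modulo the maximal ideal.** -/
theorem raiseUp_injective_mod (x : Fin 2 → eImage (localEnd T a) R)
    (hx : ∑ i, raiseUp Q₀ ε h hT hT' hlift hlift' hd a i (x i) ∈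
      maximalIdeal R • (⊤ : Submodule R (eImage (localEnd T' a) R))) (i : Fin 2) :
    x i ∈ maximalIdeal R • (⊤ : Submodule R (eImage (localEnd T a) R)) := by
  have hs : ∀ (V : Type) [AddCommGroup V] [Module R V] (x : tH1 (gamChar χ) V),
      (T s₀).app V x = (isWeight_T χ hℓN (coprime_of_not_dvd hℓN)).op V x := fun V _ _ x => by
    haveI : NeZero ℓ := ⟨hℓ.out.ne_zero⟩
    rw [hs₀, natHecke_of_not_dvd χ hℓN]
    rfl
  have := locUp_injective_mod hT hT' hlift hlift' hd a hp hp2 hpR hq hqN hχm hℓN hℓ1 hs ha hell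
    (fun j => (upUnit Q₀ ε q j : R) • x j) (by simpa [raiseUp] using hx) i
  simpa [smul_smul] using Submodule.smul_mem _ (((upUnit Q₀ ε q i)⁻¹ : Rˣ) : R) this

include hp hp2 hpR hq hqN hχm hℓ hℓN hℓ1 hs₀ ha hell in
/-- **Surjectivity.** -/
theorem raiseDown_surjective (b : Fin 2 → eImage (localEnd T a) R) :
    ∃ y, ∀ i, raiseDown Q₀ ε h hT hT' hlift hlift' hd a i y = b i := by
  have hs : ∀ (V : Type) [AddCommGroup V] [Module R V] (x : tH1 (gamChar χ) V),
      (T s₀).app V x = (isWeight_T χ hℓN (coprime_of_not_dvd hℓN)).op V x := fun V _ _ x => by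
    haveI : NeZero ℓ := ⟨hℓ.out.ne_zero⟩
    rw [hs₀, natHecke_of_not_dvd χ hℓN]
    rfl
  obtain ⟨y, hy⟩ := locDown_surjective hT hT' hlift hlift' hd a hp hp2 hpR hq hqN hχm hℓN hℓ1 hs
    ha hell (fun j => (((downUnit χ Q₀ ε h j)⁻¹ : Rˣ) : R) • b j)
  refine ⟨y, fun i => ?_⟩
  rw [raiseDown, LinearMap.smul_apply, hy, smul_smul, ← Units.val_mul, mul_inv_cancel,
    Units.val_one, one_smul]

/-- The kernel of the corestrictions. -/
theorem degDown_eq_zero_of_raiseDown (y : eImage (localEnd T' a) R)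
    (hy : ∀ i, raiseDown Q₀ ε h hT hT' hlift hlift' hd a i y = 0) (i : Fin 2) :
    degDown h χ R i y.1 = 0 := by
  have := congrArg (fun z => (((downUnit χ Q₀ ε h i)⁻¹ : Rˣ) : R) • z.1) (hy i)
  simpa [coe_raiseDown, smul_smul] using this

end FLTA.RT.Lift
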