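import Fermat.Agent.RT.Lift.RankOps
import Fermat.Agent.RT.Lift.ModulesRaiseStep
import Fermat.Agent.RT.CoeffPointTrace
import Fermat.Agent.RT.LocalExtra
import Fermat.Agent.RT.Main.DiamondRing

/-!
# Hecke operators at the sites and traces of Frobenius

For an algebra with a representation acting on a twisted level module of lifting through the
traces at the good primes: the normalised `T_q` at a prime `q` outside `p` and the level is the
trace of Frobenius at `q`, its square is never `(q + 1) ^ 2`, and where the normalised `U_q` at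
`q ∥` the level is an involution the square of the trace is `(q + 1) ^ 2`.
-/

set_option autoImplicit false
set_option linter.style.haveILetI false

noncomputable section

open IsLocalRing WeierstrassCurve CongruenceSubgroup

namespace FLTA.RT

open FLTA.Periods

local notation "Γℚ" => AlgebraicClosure ℚ ≃ₐ[ℚ] AlgebraicClosure ℚ

namespace LiftFrame

variable {W : WeierstrassCurve ℤ} {hΔ : W.Δ ≠ 0} {p : ℕ} [Fact p.Prime] {M : ℕ}
  (F : LiftFrame W hΔ p M) (n j : ℕ) {r : ℕ} (qv : Fin r → ℕ) [NeZero (F.levelAt j qv)]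

/-- An algebra with a representation acting through the traces at the good primes. -/
def ActsByTraces {A : Type} [CommRing A] [IsLocalRing A]
    (α : A →+* Module.End (F.Diamond r n) (F.Mod n j qv)) (ρ : GaloisRepAdic A) : Prop :=
  ρ.DetIsCyclotomic p ∧ ∀ (l : {l : ℕ // l.Prime ∧ l ∉ F.badSet qv})
    (P : ValuationSubring (AlgebraicClosure ℚ)), P.LiesOverPrime l.1 →
      ∀ τ : Γℚ, P.IsFrobeniusAt τ l.1 → ∀ x, α (ρ.trace τ) x = F.opAt n j qv l.1 x

theorem finite_mod : Module.Finite (F.Diamond r n) (F.Mod n j qv) := by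
  haveI := group_fg_Gamma0 (F.levelAt j qv)
  haveI := F.isNoetherianRing_diamond n (r := r)
  haveI := F.isAdicComplete_diamond n (r := r)
  haveI := finite_tH1 (χ := gamChar (F.chi n j qv)) (F.Diamond r n)
  exact finite_eImage (F.Diamond r n)

omit [NeZero (F.levelAt j qv)] in
/-- Finite local algebras over the coefficients are `p`-adic. -/
theorem exists_pow_le_span (A : Type) [CommRing A] [IsLocalRing A] [Algebra F.E.R A]
    [Module.Finite F.E.R A] (n : ℕ) :
    ∃ k : ℕ, maximalIdeal A ^ k ≤ Ideal.span {(p : A) ^ n} := by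
  letI : Algebra ℤ_[p] A := ((algebraMap F.E.R A).comp (algebraMap ℤ_[p] F.E.R)).toAlgebra
  haveI : IsScalarTower ℤ_[p] F.E.R A := IsScalarTower.of_algebraMap_eq fun _ => rfl
  haveI : Module.Finite ℤ_[p] A := Module.Finite.trans F.E.R A
  exact exists_pow_le_span_natCast A n

omit [NeZero (F.levelAt j qv)] in
/-- Integral points in one extension separate the diamond ring. -/
theorem exists_points : ∃ E : RepTheory.FiniteDVRExt F.E.R,
    ∀ x : F.Diamond r n, (∀ ψ : F.Diamond r n →ₐ[F.E.R] E.R, ψ x = 0) → x = 0 := by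
  haveI := F.moduleFinite_diamond n (r := r)
  haveI : IsReduced (F.Diamond r n) := Avoid.isReduced_dia (k := n + 1) F.natCast_mem
  haveI : Module.IsTorsionFree F.E.R (F.Diamond r n) :=
    Avoid.isTorsionFree_dia (k := n + 1) F.natCast_mem
  obtain ⟨E, hE⟩ := RepTheory.exists_points_of_isReduced (O := F.E.R) (F.Diamond r n)
  refine ⟨E, fun x hx => ?_⟩
  by_contra hne
  obtain ⟨ψ, hψ⟩ := hE x hne
  exact hψ (hx ψ)

omit [NeZero (F.levelAt j qv)] in
theorem exists_point_ring : ∃ (O : Type) (_ : CommRing O) (_ : IsDomain O) (_ : CharZero O)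
    (_ : IsLocalRing O) (_ : IsNoetherianRing O) (_ : Algebra ℤ_[p] O) (_ : Module.Free ℤ_[p] O)
    (_ : (p : O) ∈ maximalIdeal O) (ι : Type) (pt : ι → F.Diamond r n →+* O),
      ∀ x : F.Diamond r n, (∀ i, pt i x = 0) → x = 0 := by
  obtain ⟨E, hE⟩ := F.exists_points n (r := r)
  letI : Algebra ℤ_[p] E.R := ((algebraMap F.E.R E.R).comp (algebraMap ℤ_[p] F.E.R)).toAlgebra
  haveI : IsScalarTower ℤ_[p] F.E.R E.R := IsScalarTower.of_algebraMap_eq fun _ => rfl
  haveI : Module.Finite ℤ_[p] E.R := Module.Finite.trans F.E.R E.R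
  have hinj : Function.Injective (algebraMap ℤ_[p] E.R) := E.injective.comp F.E.injective
  haveI : FaithfulSMul ℤ_[p] E.R := (faithfulSMul_iff_algebraMap_injective _ _).mpr hinj
  haveI : Module.IsTorsionFree ℤ_[p] E.R := inferInstance
  refine ⟨E.R, inferInstance, inferInstance, inferInstance, inferInstance, inferInstance,
    inferInstance, Module.free_of_finite_type_torsion_free', ?_,
    F.Diamond r n →ₐ[F.E.R] E.R, fun ψ => ψ.toRingHom, hE⟩
  rw [← map_natCast (algebraMap F.E.R E.R)]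
  exact map_nonunit (algebraMap F.E.R E.R) _ F.natCast_mem

variable {n j qv} (D : LiftData W p M) (hqv : F.IsTWTuple n qv)

omit [NeZero (F.levelAt j qv)] in
include D hqv in
/-- A non-Eisenstein prime `≡ 1` modulo the classical level, and the factor it cuts out. -/
theorem exists_factor [NeZero (F.levelAt j qv)] :
    ∃ l₀ : ℕ, l₀.Prime ∧ ¬ l₀ ∣ F.levelAt j qv * ∏ l ∈ F.twistSet qv, l ∧
      (l₀ : ZMod (F.levelAt j qv * ∏ l ∈ F.twistSet qv, l)) = 1 ∧
      (∀ x, ∃ y, (F.idem n j qv).app (F.Diamond r n) x =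
        (natHecke (F.chi n j qv) l₀).app (F.Diamond r n) y -
          ((l₀ : F.Diamond r n) + 1) • y) := by
  haveI := group_fg_Gamma0 (F.levelAt j qv)
  haveI := F.isNoetherianRing_diamond n (r := r)
  haveI := F.isAdicComplete_diamond n (r := r)
  have hne : F.levelAt j qv * ∏ l ∈ F.twistSet qv, l ≠ 0 :=
    D.classicalAt_ne_zero j hqv.prime
  obtain ⟨l₀, hl₀, hl₀S, hl₁, hu⟩ := D.exists_nonEisenstein F hne (F.twistSet qv)
  have hl₀bad : l₀ ∉ F.badSet qv := by rwa [LiftFrame.badSet, Finset.union_comm]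
  refine ⟨l₀, hl₀, not_dvd_of_natCast_eq_one hl₀ hl₁, hl₁, fun x => ?_⟩
  have hkap : kap (F.twistSet qv) (F.eps n qv) l₀ = 1 := by
    refine kap_eq_one _ (fun s hs => (F.twistSet_props D hqv j hs).2.1) ?_
    have h1 := congrArg (ZMod.castHom (dvd_mul_right (F.levelAt j qv) _)
      (ZMod (F.levelAt j qv))) hl₁
    exact (map_natCast _ l₀).symm.trans (h1.trans (map_one _))
  have ha : IsUnit (F.sys n qv (.inl ⟨l₀, hl₀, hl₀bad⟩) - ((l₀ : F.Diamond r n) + 1)) := by
    letI : Algebra (F.Diamond r n) (ResidueField F.E.R) := (F.diamondToRes n r).toAlgebra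
    haveI : IsLocalHom (algebraMap (F.Diamond r n) (ResidueField F.E.R)) :=
      IsLocalHom.of_surjective _ (F.diamondToRes_surjective n)
    refine isUnit_of_map_unit (algebraMap (F.Diamond r n) (ResidueField F.E.R)) _ ?_
    rw [map_sub, map_add, map_one, map_natCast]
    show IsUnit (algebraMap _ (ResidueField F.E.R) ((W.apOfModel l₀ : ℤ) : F.Diamond r n) - _)
    rw [map_intCast]
    exact hu
  haveI := finite_tH1 (χ := gamChar (F.chi n j qv)) (F.Diamond r n)
  have hcomm := F.commAtRing_ops n j hqv.prime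
  obtain ⟨z, hz, he⟩ := exists_mul_sub_eq_localIdem hcomm (F.sys n qv)
    (.inl ⟨l₀, hl₀, hl₀bad⟩) ha
  refine ⟨z x, ?_⟩
  have hcz : Commute (opsAt (F.ops n j qv) (F.Diamond r n) (.inl ⟨l₀, hl₀, hl₀bad⟩)) z :=
    Algebra.commute_of_mem_adjoin_of_forall_mem_commute hz fun b hb => by
      obtain ⟨s, rfl⟩ := hb
      exact hcomm _ s
  have hc2 := (hcz.sub_left (Algebra.commute_algebraMap_left ((l₀ : F.Diamond r n) + 1) z)).eq
  rw [F.idem_app n j qv hqv.prime, he, ← hc2, Module.End.mul_apply, LinearMap.sub_apply,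
    Module.algebraMap_end_apply]
  refine congrArg (· - _) ?_
  show (kap (F.twistSet qv) (F.eps n qv) l₀ : F.Diamond r n) •
    (natHecke (F.chi n j qv) l₀).app (F.Diamond r n) (z x) = _
  rw [hkap, Units.val_one, one_smul]

variable {A : Type} [CommRing A] [IsLocalRing A] [IsNoetherianRing A]
  [Algebra F.E.R A] [Module.Finite F.E.R A]
  {α : A →+* Module.End (F.Diamond r n) (F.Mod n j qv)} {ρ : GaloisRepAdic A}
  (hρ : F.ActsByTraces n j qv α ρ)

omit [Algebra F.E.R A] [Module.Finite F.E.R A] in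
include D hqv hρ in
/-- The hypotheses at the good primes. -/
theorem good_hyps (ℓ : ℕ) (hℓ : ℓ.Prime) (hℓS : ℓ ∉ F.badSet qv)
    (P : ValuationSubring (AlgebraicClosure ℚ)) (hP : P.LiesOverPrime ℓ) (τ : Γℚ)
    (hτ : P.IsFrobeniusAt τ ℓ) : LinearMap.det (ρ.ρ τ) = (ℓ : A) ∧
      ∀ x : F.Mod n j qv, (α (ρ.trace τ) x : tH1 (gamChar (F.chi n j qv)) (F.Diamond r n)) =
        (kap (F.twistSet qv) (F.eps n qv) ℓ : F.Diamond r n) •
          (natHecke (F.chi n j qv) ℓ).app (F.Diamond r n) x.1 := by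
  refine ⟨LocalGalois.det_frobenius_eq ρ hρ.1 hℓ Fact.out (D.badSet_props F hqv.prime hℓ hℓS).1.symm hP hτ,
    fun x => ?_⟩
  rw [hρ.2 ⟨ℓ, hℓ, hℓS⟩ P hP τ hτ x, F.coe_opAt n j qv hqv.prime hℓ]
  rfl

omit [NeZero (F.levelAt j qv)] in
include D hqv in
theorem mem_badSet_of_dvd_levelAt (ℓ : ℕ) (hℓ : ℓ.Prime) (h : ℓ ∣ F.levelAt j qv) :
    ℓ ∈ F.badSet qv :=
  Classical.byContradiction fun h' => ((D.badSet_props F hqv.prime hℓ h').2.2.2.2 j).1 h

omit [NeZero (F.levelAt j qv)] in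
include D hqv in
theorem eps_odd (s : ℕ) (_hs : s ∈ F.twistSet qv) (u : (ZMod s)ˣ) :
    ∃ m, Odd m ∧ F.eps n qv s u ^ m = 1 :=
  ⟨p ^ (n + 1), ((Fact.out : p.Prime).odd_of_ne_two D.ne_two).pow, F.eps_pow n qv s u⟩

include D hqv hρ in
/-- **The normalised `T_q` is the trace of Frobenius at `q`.** -/
theorem opAt_eq_trace {q : ℕ} (hq : q.Prime) (hqL : ¬ q ∣ F.levelAt j qv) (hqp : q ≠ p)
    {P : ValuationSubring (AlgebraicClosure ℚ)} (hP : P.LiesOverPrime q) {τ : Γℚ}
    (hτ : P.IsFrobeniusAt τ q) (x : F.Mod n j qv) :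
    α (ρ.trace τ) x = F.opAt n j qv q x := by
  obtain ⟨O, _, _, _, _, _, _, _, hpO, ι, pt, hsep⟩ := F.exists_point_ring n (r := r)
  obtain ⟨l₀, hl₀, hl₀L, hl₀1, hfac⟩ := F.exists_factor (j := j) D hqv
  haveI : Module.Finite (F.Diamond r n) (eImage (F.idem n j qv) (F.Diamond r n)) :=
    F.finite_mod n j qv
  haveI := group_fg_Gamma0 (F.levelAt j qv)
  haveI := F.isNoetherianRing_diamond n (r := r)
  haveI := F.isAdicComplete_diamond n (r := r)
  refine heckeAct_eq_trace α ρ (F.exists_pow_le_span A) (F.twistSet qv) (F.eps n qv)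
    (fun s hs => F.twistSet_props D hqv j hs) (F.eps_odd D hqv) rfl hl₀ hl₀L hl₀1 hfac
    (F.hasLifts n j qv) (eqAtRing_localEnd_sq (F.commAtRing_ops n j hqv.prime) _)
    (D.killsObstruction_idem F n j hqv.prime) hpO pt hsep (F.badSet qv)
    (Finset.mem_union_left _ (Finset.mem_insert_self _ _))
    (F.mem_badSet_of_dvd_levelAt D hqv) (F.good_hyps D hqv hρ) hq hqL hqp hP hτ
    (LocalGalois.det_frobenius_eq ρ hρ.1 hq Fact.out hqp.symm hP hτ) x _ ?_
  rw [F.coe_opAt n j qv hqv.prime hq]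
  rfl

include D hqv hρ in
/-- **The Hecke bound at `q`.** -/
theorem eq_zero_of_trace_sq {q : ℕ} (hq : q.Prime) (hqL : ¬ q ∣ F.levelAt j qv) (hqp : q ≠ p)
    {P : ValuationSubring (AlgebraicClosure ℚ)} (hP : P.LiesOverPrime q) {τ : Γℚ}
    (hτ : P.IsFrobeniusAt τ q) (x : F.Mod n j qv)
    (hx : α (ρ.trace τ ^ 2 - ((q : A) + 1) ^ 2) x = 0) : x = 0 := by
  obtain ⟨O, _, _, _, _, _, _, _, -, ι, pt, hsep⟩ := F.exists_point_ring n (r := r)
  obtain ⟨l₀, hl₀, hl₀L, hl₀1, hfac⟩ := F.exists_factor (j := j) D hqv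
  haveI : Module.Finite (F.Diamond r n) (eImage (F.idem n j qv) (F.Diamond r n)) :=
    F.finite_mod n j qv
  haveI := group_fg_Gamma0 (F.levelAt j qv)
  haveI := F.isNoetherianRing_diamond n (r := r)
  haveI := F.isAdicComplete_diamond n (r := r)
  refine eq_zero_of_heckeAct_sq (e := F.idem n j qv) (F.twistSet qv) (F.eps n qv)
    (fun s hs => F.twistSet_props D hqv j hs) (F.eps_odd D hqv) rfl hl₀ hl₀L hl₀1 hfac
    (F.hasLifts n j qv) (eqAtRing_localEnd_sq (F.commAtRing_ops n j hqv.prime) _)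
    (D.killsObstruction_idem F n j hqv.prime) pt hsep hq hqL x (F.opAt n j qv q x)
    (F.opAt n j qv q (F.opAt n j qv q x)) (by rw [F.coe_opAt n j qv hqv.prime hq]; rfl)
    (by rw [F.coe_opAt n j qv hqv.prime hq]; rfl) ?_
  have h := hx
  rw [map_sub, map_pow, LinearMap.sub_apply, pow_two, Module.End.mul_apply,
    F.opAt_eq_trace D hqv hρ hq hqL hqp hP hτ, F.opAt_eq_trace D hqv hρ hq hqL hqp hP hτ,
    sub_eq_zero, ← Nat.cast_succ, ← Nat.cast_pow, map_natCast, Module.End.natCast_apply] at h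
  exact h

include D hqv hρ in
/-- **Where the normalised `U_q` is an involution the trace is `± (q + 1)`.** -/
theorem trace_sq_apply_eq_zero {q : ℕ} (hq : q.Prime) (hqT : q ∉ F.twistSet qv)
    (hqL : q ∣ F.levelAt j qv) (hqL2 : ¬ q * q ∣ F.levelAt j qv) (hqp : q ≠ p)
    {P : ValuationSubring (AlgebraicClosure ℚ)} (hP : P.LiesOverPrime q) {τ : Γℚ}
    (hτ : P.IsFrobeniusAt τ q) (x : F.Mod n j qv)
    (hx : F.opAt n j qv q (F.opAt n j qv q x) = x) :
    α (ρ.trace τ ^ 2 - ((q : A) + 1) ^ 2) x = 0 := by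
  obtain ⟨O, _, _, _, _, _, _, _, hpO, ι, pt, hsep⟩ := F.exists_point_ring n (r := r)
  obtain ⟨l₀, hl₀, hl₀L, hl₀1, hfac⟩ := F.exists_factor (j := j) D hqv
  haveI : Module.Finite (F.Diamond r n) (eImage (F.idem n j qv) (F.Diamond r n)) :=
    F.finite_mod n j qv
  haveI := group_fg_Gamma0 (F.levelAt j qv)
  haveI := F.isNoetherianRing_diamond n (r := r)
  haveI := F.isAdicComplete_diamond n (r := r)
  haveI := Fact.mk hq
  refine trace_sq_of_involution α ρ (F.exists_pow_le_span A) (F.twistSet qv) (F.eps n qv)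
    (fun s hs => F.twistSet_props D hqv j hs) (F.eps_odd D hqv) rfl hl₀ hl₀L hl₀1 hfac
    (F.hasLifts n j qv) (eqAtRing_localEnd_sq (F.commAtRing_ops n j hqv.prime) _)
    (D.killsObstruction_idem F n j hqv.prime) hpO pt hsep (F.badSet qv)
    (Finset.mem_union_left _ (Finset.mem_insert_self _ _))
    (F.mem_badSet_of_dvd_levelAt D hqv) (F.good_hyps D hqv hρ) hqT hqL hqL2
    (F.twistSet_eps_eq_one fun i hi => hqT (Finset.mem_image.mpr ⟨i, Finset.mem_univ _, hi⟩))
    hqp hP hτ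
    (LocalGalois.det_frobenius_eq ρ hρ.1 hq Fact.out hqp.symm hP hτ) x (F.opAt n j qv q x) ?_ ?_
  · rw [F.coe_opAt n j qv hqv.prime hq]; rfl
  · conv_lhs => rw [← hx]
    rw [F.coe_opAt n j qv hqv.prime hq]; rfl

end LiftFrame

end FLTA.RT

end
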