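import Fermat.Agent.RT.Lift.Shape
import Fermat.Agent.RT.ComponentPoint

/-!
# The components along the chain of levels

The component at `j`: the sites `i < j` are special on the side of `s`, the other ones are
unramified, and `lam = 0`.  It is prime, of dimension at most that of power series in `r`
variables, and lies below every prime containing its relations.  It has a point `x` at which all
traces of Frobenius are `s (q + 1)`, the inertia at the sites `i < j` is nonzero and `zp ≠ 0`.
-/

set_option autoImplicit false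
set_option linter.overlappingInstances false
set_option linter.style.haveILetI false
set_option linter.unusedSectionVars false

noncomputable section

namespace FLTA.RT.LiftShape

open IsLocalRing MvPowerSeries Component

variable {O : Type} [CommRing O] [IsDomain O] [IsDiscreteValuationRing O]
  [IsAdicComplete (maximalIdeal O) O] (Z : LiftShape O)

/-- The cone sites at `j`. -/
abbrev ConeSite (j : ℕ) : Type := {i : Z.Sc // (i.1 : ℕ) < j}

/-- A coordinate of a cone site. -/
def IsCone (j : ℕ) : Z.Coord → Prop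
  | .v i _ => (i.1 : ℕ) < j
  | .w i _ => (i.1 : ℕ) < j
  | _ => False

/-- The coordinates which vanish on the component. -/
def IsFixed (j : ℕ) : Z.Coord → Prop
  | .v i _ => ¬ (i.1 : ℕ) < j
  | .ut _ => True
  | .w _ _ => False
  | .t i => (i.1 : ℕ) < j
  | .z i => ¬ (i.1 : ℕ) < j
  | .u _ _ => True
  | .lam _ => True
  | .zp _ => False
  | .extra _ => False

/-- The coordinates outside the cones. -/
abbrev Rest (j : ℕ) : Type := {x : Z.Coord // ¬ Z.IsCone j x}

open Classical in
/-- The coordinates as cone triples and the rest. -/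
def split (j : ℕ) :
    Z.Coord ≃ ((Z.ConeSite j × Fin 3) ⊕ (Z.ConeSite j × Fin 3)) ⊕ Z.Rest j where
  toFun
    | .v i a => if h : (i.1 : ℕ) < j then .inl (.inl (⟨i, h⟩, a)) else .inr ⟨.v i a, h⟩
    | .w i a => if h : (i.1 : ℕ) < j then .inl (.inr (⟨i, h⟩, a)) else .inr ⟨.w i a, h⟩
    | .ut i => .inr ⟨.ut i, not_false⟩
    | .t i => .inr ⟨.t i, not_false⟩
    | .z i => .inr ⟨.z i, not_false⟩
    | .u i a => .inr ⟨.u i a, not_false⟩
    | .lam h => .inr ⟨.lam h, not_false⟩
    | .zp h => .inr ⟨.zp h, not_false⟩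
    | .extra a => .inr ⟨.extra a, not_false⟩
  invFun
    | .inl (.inl x) => .v x.1.1 x.2
    | .inl (.inr x) => .w x.1.1 x.2
    | .inr x => x.1
  left_inv x := by
    cases x with
    | v i a => dsimp only; by_cases h : (i.1 : ℕ) < j <;> simp [h]
    | w i a => dsimp only; by_cases h : (i.1 : ℕ) < j <;> simp [h]
    | _ => rfl
  right_inv x := by
    rcases x with (⟨⟨i, h⟩, a⟩ | ⟨⟨i, h⟩, a⟩) | ⟨x, hx⟩
    · simp [h]
    · simp [h]
    · cases x with
      | v i a => simp [show ¬ (i.1 : ℕ) < j from hx]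
      | w i a => simp [show ¬ (i.1 : ℕ) < j from hx]
      | _ => rfl

open Classical in
/-- The constants. -/
def restConst (j : ℕ) (l : Z.Rest j) : Option O := if Z.IsFixed j l.1 then some 0 else none

/-- The constants of the cones. -/
def conePi (j : ℕ) (i : Z.ConeSite j) : O := Z.pi i.1.1

lemma restConst_eq_none_iff {j : ℕ} (l : Z.Rest j) :
    Z.restConst j l = none ↔ ¬ Z.IsFixed j l.1 := by
  unfold restConst
  split_ifs with h <;> simp [h]

lemma smallConst (j : ℕ) : SmallConst (Z.conePi j) (Z.restConst j) :=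
  ⟨fun i => Z.pi_mem i.1.2, fun l c hc => by
    unfold restConst at hc
    split_ifs at hc
    cases hc
    exact zero_mem _⟩

variable {ϖ : O} (hϖ : maximalIdeal O = Ideal.span {ϖ})

/-- **The component at `j`.** -/
def component (j : ℕ) : Ideal Z.P₀ := Component.component (Z.split j) (Z.smallConst j) hϖ

theorem component_isPrime (j : ℕ) : (Z.component hϖ j).IsPrime :=
  Component.component_isPrime _ _

open Classical in
/-- The number of parameters of a site. -/
def weight (i : Fin Z.k) : ℕ := if Z.sc i then 3 else 1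

open Classical in
/-- The number of parameters at `p`. -/
def pWeight : ℕ := if Z.mult then 1 else 0

lemma card_free_le (j : ℕ) [Fintype (Z.ConeSite j)] :
    Fintype.card (Z.ConeSite j) * 3 + Nat.card {l // Z.restConst j l = none} ≤
      Z.g + Z.pWeight + ∑ i, Z.weight i := by
  classical
  let f : (Z.ConeSite j × Fin 3) ⊕ {l // Z.restConst j l = none} →
      ((Z.Sc × Fin 3) ⊕ Z.Ns) ⊕ (PLift Z.mult ⊕ Fin Z.g) := Sum.elim
    (fun x => .inl (.inl (x.1.1, x.2)))
    fun l => match l.1.1, l.1.2, (Z.restConst_eq_none_iff l.1).mp l.2 with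
      | .w i a, _, _ => .inl (.inl (i, a))
      | .t i, _, _ => .inl (.inr i)
      | .z i, _, _ => .inl (.inr i)
      | .zp h, _, _ => .inr (.inl ⟨h⟩)
      | .extra a, _, _ => .inr (.inr a)
      | .v _ _, hc, hf => (hf hc).elim
      | .ut _, _, hf => (hf trivial).elim
      | .u _ _, _, hf => (hf trivial).elim
      | .lam _, _, hf => (hf trivial).elim
  have hf : Function.Injective f := by
    rintro (⟨⟨i, hi⟩, a⟩ | ⟨⟨x, hx⟩, hn⟩) (⟨⟨i', hi'⟩, a'⟩ | ⟨⟨x', hx'⟩, hn'⟩) h
    · simp [f] at h
      obtain ⟨rfl, rfl⟩ := h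
      rfl
    · have h' := (Z.restConst_eq_none_iff _).mp hn'
      cases x' <;> first | exact (h' hx').elim | (simp [f] at h; try simp [IsFixed, IsCone] at h' hx'; try grind)
    · have h' := (Z.restConst_eq_none_iff _).mp hn
      cases x <;> first | exact (h' hx).elim | (simp [f] at h; try simp [IsFixed, IsCone] at h' hx; try grind)
    · have h₁ := (Z.restConst_eq_none_iff _).mp hn
      have h₂ := (Z.restConst_eq_none_iff _).mp hn'
      cases x <;> cases x' <;>
        first | exact (h₁ hx).elim | exact (h₂ hx').elim |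
          (simp [f] at h; try simp [IsFixed] at h₁ h₂; try grind)
  have := Nat.card_le_card_of_injective f hf
  rw [Nat.card_sum, Nat.card_sum, Nat.card_sum, Nat.card_sum, Nat.card_prod, Nat.card_prod,
    Nat.card_eq_fintype_card (α := Z.ConeSite j), Nat.card_fin, Nat.card_fin] at this
  have hp : Nat.card (PLift Z.mult) = Z.pWeight := by
    rw [pWeight]
    split_ifs with h
    · haveI : Unique (PLift Z.mult) := ⟨⟨⟨h⟩⟩, fun _ => rfl⟩
      exact Nat.card_unique
    · haveI : IsEmpty (PLift Z.mult) := ⟨fun x => h x.down⟩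
      exact Nat.card_of_isEmpty
  have hw : ∑ i, Z.weight i = Nat.card Z.Sc * 3 + Nat.card Z.Ns := by
    simp only [weight, Finset.sum_ite, Finset.sum_const, smul_eq_mul, mul_one,
      Nat.card_eq_fintype_card, Fintype.card_subtype]
  omega

include hϖ in
/-- **Dimension.** -/
theorem ringKrullDim_component_le (j : ℕ) {r : ℕ} (hr : Z.g + Z.pWeight + ∑ i, Z.weight i ≤ r) :
    ringKrullDim (Z.P₀ ⧸ Z.component hϖ j) ≤ ringKrullDim (MvPowerSeries (Fin r) O) := by
  classical
  haveI := Fintype.ofFinite Z.Coord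
  haveI : Fintype (Z.Rest j) := Fintype.ofFinite _
  exact Component.ringKrullDim_component_le (Z.smallConst j) hϖ Z.two_isUnit
    ((Z.card_free_le j).trans hr)

/-- The relations of the component hold modulo `Q`. -/
structure Rels (j : ℕ) (Q : Ideal Z.P₀) : Prop where
  fixed : ∀ x, Z.IsFixed j x → X x ∈ Q
  cone : ∀ i : Z.Sc, (i.1 : ℕ) < j → IsConePoint (Ideal.Quotient.mk Q (C (Z.pi i.1)))
    (fun a => Ideal.Quotient.mk Q (X (Coord.v i a))) fun a => Ideal.Quotient.mk Q (X (Coord.w i a))

include hϖ in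
/-- **Separation.** The component lies below every prime containing its relations. -/
theorem component_le {j : ℕ} {Q : Ideal Z.P₀} [Q.IsPrime] (h : Z.Rels j Q) :
    Z.component hϖ j ≤ Q := by
  classical
  haveI := Fintype.ofFinite Z.Coord
  haveI : Fintype (Z.Rest j) := Fintype.ofFinite _
  refine Component.component_le (Z.smallConst j) hϖ Z.two_isUnit ⟨fun i => h.cone i.1 i.2,
    fun l c hc => ?_⟩
  unfold restConst at hc
  split_ifs at hc with hf
  cases hc
  rw [map_zero, sub_zero]
  exact h.fixed l.1 hf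

/-- The component satisfies its relations. -/
theorem rels_component (j : ℕ) : Z.Rels j (Z.component hϖ j) := by
  have h := Component.satisfiesRels_component (e := Z.split j) (Z.smallConst j) hϖ
  refine ⟨fun x hx => ?_, fun i hi => h.cone ⟨i, hi⟩⟩
  have hnc : ¬ Z.IsCone j x := by cases x <;> simp_all [IsCone, IsFixed]
  have := h.const ⟨x, hnc⟩ 0 (if_pos hx)
  rwa [map_zero, sub_zero] at this

include hϖ in
/-- **The point.** -/
theorem exists_point (j : ℕ) :
    ∃ x : Z.P₀ →+* O, (∀ c, x (C c) = c) ∧ Z.component hϖ j ≤ RingHom.ker x ∧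
      (∀ i : Z.Sc, (i.1 : ℕ) < j → x (X (Coord.v i 0)) = ϖ) ∧
      (∀ i : Z.Ns, (i.1 : ℕ) < j → x (X (Coord.z i)) = ϖ) ∧
      (∀ h : Z.mult, x (X (Coord.zp h)) = ϖ) ∧
      (∀ i, x (Z.frobTrace i) = Z.c₀ i) := by
  classical
  haveI := Fintype.ofFinite Z.Coord
  haveI : Fintype (Z.Rest j) := Fintype.ofFinite _
  have hϖm : ϖ ∈ maximalIdeal O := hϖ ▸ Ideal.mem_span_singleton_self ϖ
  let free : Z.Rest j → O := fun l => match l.1 with
    | .w i a => ![0, 0, Z.pi i.1] a
    | .z _ => ϖ
    | .zp _ => ϖ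
    | _ => 0
  have hfree : ∀ l, free l ∈ maximalIdeal O := fun ⟨x, _⟩ => by
    cases x with
    | w i a =>
      show ![0, 0, Z.pi i.1] a ∈ _
      fin_cases a <;> simp [-mem_maximalIdeal, Z.pi_mem i.2]
    | z _ => exact hϖm
    | zp _ => exact hϖm
    | _ => exact zero_mem _
  obtain ⟨x, hC, hker, hv, hw, hl⟩ :=
    Component.exists_point (e := Z.split j) (Z.smallConst j) hϖ Z.two_isUnit free hfree
  have hrels := Z.rels_component hϖ j
  have hfix : ∀ y, Z.IsFixed j y → x (X y) = 0 := fun y hy => hker (hrels.fixed y hy)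
  have hrest : ∀ y (hy : ¬ Z.IsCone j y), ¬ Z.IsFixed j y → x (X y) = free ⟨y, hy⟩ :=
    fun y hy hy' => hl ⟨y, hy⟩ ((Z.restConst_eq_none_iff _).mpr hy')
  haveI : IsLocalHom x := IsLocalRing.local_hom_TFAE x |>.out 0 3 |>.mpr fun y hy => by
    have hsurj : Function.Surjective x := fun c => ⟨C c, hC c⟩
    haveI := Ideal.comap_isMaximal_of_surjective x hsurj (K := maximalIdeal O)
    exact (IsLocalRing.eq_maximalIdeal (I := (maximalIdeal O).comap x) inferInstance).ge hy
  refine ⟨x, hC, hker, fun i hi => hv ⟨i, hi⟩, fun i hi => ?_, fun h => hrest (.zp h) id id,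
    fun i => ?_⟩
  · exact hrest (.z i) id (not_not.mpr hi)
  · by_cases hsc : Z.sc i
    · refine Z.map_frobTrace_eq x ⟨i, hsc⟩ ?_ (by rw [hC, sub_self]; exact zero_mem _)
      by_cases hij : (i : ℕ) < j
      · have hcone : Local.Q3 (fun a => x (X (Coord.w ⟨i, hsc⟩ a))) = Z.pi i ^ 2 := by
          have h0 := (hrels.cone ⟨i, hsc⟩ hij).map (Ideal.Quotient.lift _ x hker)
          have h1 : x (X (Coord.w ⟨i, hsc⟩ 2)) ^ 2 + 4 * x (X (Coord.w ⟨i, hsc⟩ 0)) *
              x (X (Coord.w ⟨i, hsc⟩ 1)) = x (C (Z.pi i)) ^ 2 := h0.frob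
          rw [hC] at h1
          exact h1
        rw [hcone, hC, Z.c₀_sq, Z.pi_sq]
        ring
      · simp only [Local.Q3, hrest (.w ⟨i, hsc⟩ _) hij id, hC]
        simp only [free, Matrix.cons_val_zero, Matrix.cons_val_one, Matrix.cons_val]
        rw [Z.c₀_sq, Z.pi_sq]
        ring
    · rw [Z.frobTrace_ns ⟨i, hsc⟩, map_add, hC]
      by_cases hij : (i : ℕ) < j
      · rw [hfix (.t ⟨i, hsc⟩) hij, add_zero]
      · rw [hrest (.t ⟨i, hsc⟩) id hij]
        show Z.c₀ i + 0 = _
        rw [add_zero]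

end FLTA.RT.LiftShape
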