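import Fermat.Agent.RT.Lift.CurvePoint
import Fermat.Agent.RT.Lift.Eval
import Fermat.Agent.RT.Lift.ShapeComponent
import Fermat.Agent.RT.Main.FalseSites
import Fermat.Agent.RT.SiteRelations
import Fermat.Agent.RT.Main.FalseBasis
import Fermat.Agent.EllTate.SiteSign
import Fermat.Agent.Mazur.Constituents
import Fermat.Agent.GaloisReps.ResidualAttach

/-!
# The shape of a frame and bases at the sites

The signs are the node signs of the curve, the constant at `p` is `λ` of its Tate module.  Every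
universal ring has bases at the sites in residual normal form.
-/

set_option autoImplicit false
set_option linter.overlappingInstances false
set_option linter.style.haveILetI false

noncomputable section

namespace FLTA.RT

open IsLocalRing WeierstrassCurve GaloisRep Matrix
open FLTA.LevelLowering (planeRep)
open FLTA.EllTate FLTA.RT.LocalGalois
open FLTA.RepTheory (FiniteDVRExt)

local notation "Γℚ" => AlgebraicClosure ℚ ≃ₐ[ℚ] AlgebraicClosure ℚ

namespace LiftFrame

variable {W : WeierstrassCurve ℤ} {hΔ : W.Δ ≠ 0} {p : ℕ} [Fact p.Prime] {M : ℕ}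
  (F : LiftFrame W hΔ p M)

theorem site_prime (i : Fin F.k) : (F.site i).Prime := ((F.site_iff _).mp ⟨i, rfl⟩).1

theorem site_ne_p (i : Fin F.k) : F.site i ≠ p := ((F.site_iff _).mp ⟨i, rfl⟩).2.1

theorem site_dvd (i : Fin F.k) : (F.site i : ℤ) ∣ W.Δ := ((F.site_iff _).mp ⟨i, rfl⟩).2.2.1

theorem natCast_p_mem : (p : F.E.R) ∈ maximalIdeal F.E.R := F.natCast_mem

theorem two_isUnit (hp2 : p ≠ 2) : IsUnit (2 : F.E.R) := by
  rw [← IsLocalRing.notMem_maximalIdeal]
  intro h2
  obtain ⟨a, b, hab⟩ := (Int.isCoprime_iff_gcd_eq_one (m := (p : ℤ)) (n := 2)).mpr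
    ((Nat.coprime_primes (Fact.out : p.Prime) Nat.prime_two).mpr hp2)
  have h := congrArg (Int.cast : ℤ → F.E.R) hab
  push_cast at h
  exact (maximalIdeal.isMaximal F.E.R).ne_top ((Ideal.eq_top_iff_one _).mpr (h ▸ add_mem
    (Ideal.mul_mem_left _ _ F.natCast_mem) (Ideal.mul_mem_left _ _ h2)))

/-- The determinant at an inertia element with `χ ≢ 1` minus one is a unit. -/
theorem det_inert_sub_one_isUnit {R : Type} [CommRing R] [IsLocalRing R] {ρ : GaloisRepAdic R}
    (hdet : ρ.DetIsCyclotomic p) : IsUnit (LinearMap.det (ρ.ρ F.inert) - 1) := by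
  by_contra hu
  have h := hdet.2 1 F.inert (ExtCitation.cycloExp p F.inert) fun μ hμ =>
    Mazur.cycloExp_apply F.inert (by rwa [pow_one] at hμ)
  have hle : Ideal.span {((p ^ 1 : ℕ) : R)} ≤ maximalIdeal R := Ideal.span_le.mpr (by
    rintro _ rfl
    rw [pow_one]
    exact hdet.1)
  have h1 : ((ExtCitation.cycloExp p F.inert : ℕ) : R) - 1 ∈ maximalIdeal R := by
    have := sub_mem (show LinearMap.det (ρ.ρ F.inert) - 1 ∈ maximalIdeal R from hu) (hle h)
    simpa using this
  apply F.cycloExp_inert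
  by_contra hne
  have hint : ((ExtCitation.cycloExp p F.inert : ℕ) : ℤ) - 1 ≠ 0 := fun h0 => hne (by
    rw [show ExtCitation.cycloExp p F.inert = 1 by omega, Nat.cast_one])
  have hcop : IsCoprime (p : ℤ) ((ExtCitation.cycloExp p F.inert : ℕ) - 1 : ℤ) := by
    rw [Prime.coprime_iff_not_dvd (Nat.prime_iff_prime_int.mp Fact.out)]
    intro hd
    apply hne
    have := (ZMod.intCast_zmod_eq_zero_iff_dvd _ p).mpr hd
    push_cast at this
    exact sub_eq_zero.mp this
  obtain ⟨a, b, hab⟩ := hcop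
  have h2 := congrArg (Int.cast : ℤ → R) hab
  push_cast at h2
  exact (maximalIdeal.isMaximal R).ne_top ((Ideal.eq_top_iff_one _).mpr (h2 ▸ add_mem
    (Ideal.mul_mem_left _ _ hdet.1) (Ideal.mul_mem_left _ _ h1)))

omit F in
theorem det_eq {R : Type} [CommRing R] [IsLocalRing R] (ρ : GaloisRepAdic R) (σ : Γℚ) :
    (ρ.det σ : R) = LinearMap.det (ρ.ρ σ) := rfl

variable (H : LiftData W p M)

include H

omit [Fact p.Prime] in
theorem ne_two' : p ≠ 2 := by rcases H.curve.hp with h | h <;> omega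

/-- The trace of the curve at a site. -/
theorem curveRep_trace_site (i : Fin F.k) :
    F.curveRep.trace (F.frob (F.site i)) =
      (nodeSign W (F.site i) : F.E.R) * ((F.site i : F.E.R) + 1) := by
  rw [F.curveRep_trace, trace_frobenius_of_mult hΔ (F.site_prime i) (F.site_ne_p i)
    (F.liesOver _ (F.site_prime i)) (F.site_dvd i)
    (H.curve.semistable _ (F.site_prime i) (F.site_dvd i)) H.curve.irreducible (ne_two' H)
    (F.isFrobenius _ (F.site_prime i))]
  simp

theorem detIsCyclotomic_curveRep : F.curveRep.DetIsCyclotomic p :=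
  Avoid.detIsCyclotomic_baseChangeAlong _ _ (detIsCyclotomic H.curve.irreducible (ne_two' H))

/-- Scalar residual Frobenius at a site forces `q ≡ 1`. -/
theorem site_sub_one_mem (i : Fin F.k) {c : ResidueField F.E.R}
    (hc : F.rhobar.ρ (F.frob (F.site i)) = c • (1 : Module.End _ F.rhobar.V)) :
    (F.site i : F.E.R) - 1 ∈ maximalIdeal F.E.R := by
  set Φ := F.frob (F.site i)
  have htr : ∀ σ, residue F.E.R (F.curveRep.trace σ) =
      LinearMap.trace (ResidueField F.E.R) _ (F.rhobar.ρ σ) := fun σ => by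
    have h := (Deformation.resCond_iff F.rhobar _).mp F.curveRep_resCond σ
    obtain ⟨y, hy⟩ := residue_surjective ((Deformation.barMat F.rhobar σ).trace)
    rw [← hy] at h
    rw [h, show (ResidueField.map (algebraMap F.E.R F.E.R)) (residue F.E.R y) = residue F.E.R y
      from rfl, hy]
    exact (LinearMap.trace_eq_matrix_trace _ _ _).symm
  have hdet : LinearMap.det (F.curveRep.ρ Φ) = (F.site i : F.E.R) :=
    det_frobenius_eq F.curveRep (detIsCyclotomic_curveRep F H) (F.site_prime i) Fact.out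
      (F.site_ne_p i).symm (F.liesOver _ (F.site_prime i)) (F.isFrobenius _ (F.site_prime i))
  have h2 : F.curveRep.trace (Φ * Φ) = F.curveRep.trace Φ ^ 2 - 2 * (F.site i : F.E.R) := by
    let b := Module.finBasisOfFinrankEq F.E.R F.curveRep.V F.curveRep.finrank_eq
    show LinearMap.trace _ _ (F.curveRep.ρ (Φ * Φ)) = _
    rw [← hdet, ← LinearMap.det_toMatrix b, GaloisRepAdic.trace,
      LinearMap.trace_eq_matrix_trace _ b, LinearMap.trace_eq_matrix_trace _ b, map_mul,
      LinearMap.toMatrix_mul]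
    simp only [trace_fin_two, det_fin_two, mul_apply, Fin.sum_univ_two]
    ring
  have hr : (Module.finrank (ResidueField F.E.R) F.rhobar.V : ResidueField F.E.R) = 2 := by
    rw [F.rhobar.finrank_eq]; norm_num
  have e1 : residue F.E.R (F.curveRep.trace Φ) = 2 * c := by
    rw [htr, hc, map_smul, LinearMap.trace_one, hr, smul_eq_mul, mul_comm]
  have e2 : residue F.E.R (F.curveRep.trace (Φ * Φ)) = 2 * c ^ 2 := by
    rw [htr, map_mul, hc, smul_mul_smul_comm, one_mul, map_smul, LinearMap.trace_one, hr,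
      smul_eq_mul]
    ring
  rw [h2, map_sub, map_mul, map_pow, e1, map_ofNat, map_natCast] at e2
  rw [F.curveRep_trace_site H, map_mul, map_add, map_one, map_natCast, map_intCast] at e1
  have hs : (nodeSign W (F.site i) : ResidueField F.E.R) ^ 2 = 1 := by
    rw [← Int.cast_pow, nodeSign_sq, Int.cast_one]
  have h4 : (2 : ResidueField F.E.R) * (((F.site i : ResidueField F.E.R) - 1) ^ 2) = 0 := by
    linear_combination 4 * e2 +
      2 * ((nodeSign W (F.site i) : ResidueField F.E.R) * ((F.site i : ResidueField F.E.R) + 1) +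
        2 * c) * e1 - 2 * ((F.site i : ResidueField F.E.R) + 1) ^ 2 * hs
  have h20 : (2 : ResidueField F.E.R) ≠ 0 := by
    have := ((F.two_isUnit (ne_two' H)).map (residue F.E.R)).ne_zero
    rwa [map_ofNat] at this
  rw [← residue_eq_zero_iff, map_sub, map_natCast, map_one]
  exact pow_eq_zero_iff two_ne_zero |>.mp ((mul_eq_zero.mp h4).resolve_left h20)

/-- `λ` of the curve is `± (χ(inert) - 1)`. -/
theorem lam_curveRep_sq (hm : F.Mult) :
    F.lam F.curveRep ^ 2 = ((F.curveRep.det F.inert : F.E.R) - 1) ^ 2 := by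
  have hp : p.Prime := Fact.out
  obtain ⟨L, ⟨b, rfl⟩, hD, hI, hDz⟩ := exists_ordinaryLine (F.liesOver p hp) hΔ (ne_two' H) hm
    (H.curve.semistable p hp hm) H.curve.irreducible
  set τ := F.inert
  set Φ := F.frob p
  have hΦ : Φ ∈ (F.place p).decompositionSubgroup ℚ := (F.isFrobenius p hp).mem_decompositionSubgroup
  obtain ⟨x, z, hz, hx, hv, -, -⟩ := hDz Φ hΦ
  have e0 : (tateRep W hΔ p).ρ Φ (b 0) = x • b 0 := hx _ (Submodule.mem_span_singleton_self _)
  obtain ⟨c, hc⟩ := Submodule.mem_span_singleton.mp (hv (b 1))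
  obtain ⟨a0, ha0⟩ := Submodule.mem_span_singleton.mp (hI τ F.inert_mem (b 0))
  obtain ⟨a1, ha1⟩ := Submodule.mem_span_singleton.mp (hI τ F.inert_mem (b 1))
  have mΦ : LinearMap.toMatrix b b ((tateRep W hΔ p).ρ Φ) = !![x, c; 0, z] := by
    ext i j
    fin_cases i <;> fin_cases j <;>
      simp [LinearMap.toMatrix_apply, e0, (sub_eq_iff_eq_add.mp hc.symm)]
  have mτ : LinearMap.toMatrix b b ((tateRep W hΔ p).ρ τ) = !![a0 + 1, a1; 0, 1] := by
    ext i j
    fin_cases i <;> fin_cases j <;>
      simp [LinearMap.toMatrix_apply, (sub_eq_iff_eq_add.mp ha0.symm),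
        (sub_eq_iff_eq_add.mp ha1.symm)]
  have hdet : (F.curveRep.det τ : F.E.R) = algebraMap ℤ_[p] F.E.R (a0 + 1) := by
    rw [det_eq]
    show LinearMap.det (F.curveRep.ρ τ) = _
    rw [curveRep, det_baseChangeAlong, ← LinearMap.det_toMatrix b, mτ, det_fin_two_of]
    ring_nf
  have htΦ : F.curveRep.trace Φ = algebraMap ℤ_[p] F.E.R (x + z) := by
    rw [F.curveRep_trace, GaloisRepAdic.trace, LinearMap.trace_eq_matrix_trace _ b, mΦ,
      trace_fin_two_of]
  have htτΦ : F.curveRep.trace (τ * Φ) = algebraMap ℤ_[p] F.E.R ((a0 + 1) * x + z) := by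
    rw [F.curveRep_trace, GaloisRepAdic.trace, map_mul, LinearMap.trace_eq_matrix_trace _ b,
      LinearMap.toMatrix_mul, mΦ, mτ]
    simp [trace_fin_two]
  have hz' : algebraMap ℤ_[p] F.E.R z ^ 2 = 1 := by rw [← map_pow, hz, map_one]
  rw [lam, hdet, htΦ, htτΦ]
  simp only [map_add, map_mul, map_one]
  linear_combination ((algebraMap ℤ_[p] F.E.R) a0) ^ 2 * hz'

/-- **The shape of a frame.** -/
def shape (g : ℕ) : LiftShape F.E.R where
  k := F.k
  g := g
  mult := F.Mult
  sc i := ∃ c : ResidueField F.E.R, F.rhobar.ρ (F.frob (F.site i)) = c • (1 : Module.End _ F.rhobar.V)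
  q := F.site
  s i := (nodeSign W (F.site i) : F.E.R)
  cp := F.lam F.curveRep
  s_sq i := by rw [← Int.cast_mul, ← sq, nodeSign_sq, Int.cast_one]
  q_sub_one_ne i h := (F.site_prime i).ne_one (Nat.cast_eq_one.mp h)
  q_add_one_ne i := by rw [← Nat.cast_add_one]; exact Nat.cast_ne_zero.mpr (Nat.succ_ne_zero _)
  scalar_q i := fun ⟨_, hc⟩ => F.site_sub_one_mem H i hc
  two_isUnit := F.two_isUnit (ne_two' H)
  cp_isUnit hm := by
    have hu := F.det_inert_sub_one_isUnit (detIsCyclotomic_curveRep F H)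
    have h : IsUnit (F.lam F.curveRep ^ 2) := by
      rw [F.lam_curveRep_sq H hm, det_eq]
      exact hu.pow 2
    exact (isUnit_pow_iff two_ne_zero).mp h

theorem sum_siteH (g : ℕ) :
    ∑ i, (F.shape H g).weight i = ∑ s ∈ F.siteSet, F.siteH s := by
  classical
  rw [siteSet, Finset.sum_image fun a _ b _ h => F.site_injective h]
  exact Finset.sum_congr rfl fun i _ => rfl

variable {r : ℕ} {qv : Fin r → ℕ}

omit H in
theorem detIsCyclotomic_cond {A : Type} [CommRing A] [IsLocalRing A] [Algebra F.E.R A]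
    {ρ : GaloisRepAdic A} (hρ : F.cond qv ρ) : ρ.DetIsCyclotomic p := by
  unfold cond at hρ
  split_ifs at hρ with h
  · exact hρ.1.1
  · exact hρ.1.1

/-- The matrices of a representation at the sites. -/
def siteMats (g : ℕ) {R : Type} [CommRing R] [IsLocalRing R] [Algebra F.E.R R]
    (ρ : GaloisRepAdic R) (b : ℕ → Module.Basis (Fin 2) R ρ.V) (z : R) (e : Fin g → R) :
    (F.shape H g).SiteMats R where
  T i := LinearMap.toMatrix (b (F.site i)) (b (F.site i)) (ρ.ρ (F.tame (F.site i)))
  P i := LinearMap.toMatrix (b (F.site i)) (b (F.site i)) (ρ.ρ (F.frob (F.site i)))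
  lamV := F.lam ρ
  zV := z
  extraV := e

omit H in
theorem site_residual (D : DeformationRingData F.E.R F.rhobar (F.cond qv)) (i : Fin F.k)
    {σ : Γℚ} (hσ : σ ∈ (F.place (F.site i)).inertiaSubgroupIn ℚ) (v : D.ρ.V) :
    D.ρ.ρ σ v - v ∈ maximalIdeal D.R • (⊤ : Submodule D.R D.ρ.V) :=
  Avoid.sub_mem_of_residual_equiv D.ρ F.rhobar _ D.residual_isEquiv
    (GaloisReps.isUnramifiedAt_baseChangeAlong F.φ (F.site_unramified i) _
      (F.liesOver _ (F.site_prime i)) σ hσ) v

omit H in
/-- **The tame relation** at a site on a universal ring. -/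
theorem tame_facts (D : DeformationRingData F.E.R F.rhobar (F.cond qv)) (i : Fin F.k)
    (b : Module.Basis (Fin 2) D.R D.ρ.V) :
    let T := LinearMap.toMatrix b b (D.ρ.ρ (F.tame (F.site i)))
    let P := LinearMap.toMatrix b b (D.ρ.ρ (F.frob (F.site i)))
    T.det = 1 ∧ P.det = (F.site i : D.R) ∧ P * T = T ^ F.site i * P := by
  intro T P
  have hdet := F.detIsCyclotomic_cond D.isOfType
  have hq := F.site_prime i
  have hτ := F.isTameGenerator _ hq (F.site_ne_p i)
  refine ⟨?_, ?_, ?_⟩
  · rw [LinearMap.det_toMatrix]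
    exact det_inertia_eq_one D.ρ hdet hq Fact.out (F.site_ne_p i).symm (F.liesOver _ hq) hτ.1
  · rw [LinearMap.det_toMatrix]
    exact det_frobenius_eq D.ρ hdet hq Fact.out (F.site_ne_p i).symm (F.liesOver _ hq)
      (F.isFrobenius _ hq)
  · have h := congrArg (LinearMap.toMatrixAlgEquiv b) (adic_tame_relation D.ρ.ρ hq (F.liesOver _ hq)
      Fact.out (F.site_ne_p i).symm hτ D.ρ.isAdicContinuous hdet.1
      (fun σ hσ => ⟨0, fun v => by simpa using F.site_residual D i hσ v⟩) (F.isFrobenius _ hq))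
    rw [map_mul, map_mul, map_pow] at h
    exact h

/-- `λ` reduces to `λ` of the curve. -/
theorem lam_sub_mem (D : DeformationRingData F.E.R F.rhobar (F.cond qv)) :
    F.lam D.ρ - algebraMap F.E.R D.R (F.lam F.curveRep) ∈ maximalIdeal D.R := by
  set ι := ResidueField.map (algebraMap F.E.R D.R)
  have ht : ∀ σ, residue D.R (D.ρ.trace σ) = ι (residue F.E.R (F.curveRep.trace σ)) := fun σ => by
    rw [(Deformation.resCond_iff F.rhobar _).mp (resCond_universal D) σ,
      (Deformation.resCond_iff F.rhobar _).mp F.curveRep_resCond σ]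
    obtain ⟨y, hy⟩ := residue_surjective ((Deformation.barMat F.rhobar σ).trace)
    rw [← hy]
    rfl
  have hexp : IsExp p 1 F.inert (ExtCitation.cycloExp p F.inert) := fun μ hμ =>
    Mazur.cycloExp_apply F.inert (by rwa [pow_one] at hμ)
  have hd : ∀ {A : Type} [CommRing A] [IsLocalRing A] {ρ : GaloisRepAdic A},
      ρ.DetIsCyclotomic p → residue A (ρ.det F.inert : A) = ExtCitation.cycloExp p F.inert := by
    intro A _ _ ρ hρ
    rw [← map_natCast (residue A), ← sub_eq_zero, ← map_sub, residue_eq_zero_iff,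
      det_eq]
    refine (Ideal.span_le.mpr ?_) (hρ.2 1 F.inert _ hexp)
    rintro _ rfl
    rw [pow_one]
    exact hρ.1
  rw [← residue_eq_zero_iff, map_sub, sub_eq_zero, ← ResidueField.map_residue]
  simp only [lam, map_sub, map_mul, ht, hd (F.detIsCyclotomic_cond D.isOfType),
    hd (detIsCyclotomic_curveRep F H), map_natCast]
  rfl

/-- **Bases at the sites.** -/
theorem exists_siteBases (g : ℕ) (D : DeformationRingData F.E.R F.rhobar (F.cond qv)) :
    ∃ b : ℕ → Module.Basis (Fin 2) D.R D.ρ.V, ∀ (z : D.R) (e : Fin g → D.R),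
      z ∈ maximalIdeal D.R → (∀ a, e a ∈ maximalIdeal D.R) →
        (F.siteMats H g D.ρ b z e).Good := by
  classical
  set ι := ResidueField.map (algebraMap F.E.R D.R)
  obtain ⟨b₀, hb₀⟩ := Avoid.exists_residual_basis D.ρ F.rhobar ι D.residual_isEquiv
    (Deformation.barBasis F.rhobar)
  have hscal : ∀ i : Fin F.k, ¬ (F.shape H g).sc i → ∀ c : D.R, ∃ a a',
      (LinearMap.toMatrix b₀ b₀ (D.ρ.ρ (F.frob (F.site i))) - c • 1) a a' ∉ maximalIdeal D.R := by
    intro i hi c
    by_contra hcon
    push Not at hcon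
    refine hi ?_
    obtain ⟨c', hc'⟩ := D.residue_surjective (residue D.R c)
    refine ⟨residue F.E.R c', ?_⟩
    refine (LinearMap.toMatrix (Deformation.barBasis F.rhobar)
      (Deformation.barBasis F.rhobar)).injective ?_
    ext a a'
    refine ι.injective ?_
    have h := congrFun (congrFun (hb₀ (F.frob (F.site i))) a) a'
    rw [Matrix.map_apply, Matrix.map_apply] at h
    rw [← h, map_smul, LinearMap.toMatrix_one, Matrix.smul_apply, smul_eq_mul, map_mul,
      show ι (residue F.E.R c') = residue D.R c from hc']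
    have h0 := (residue_eq_zero_iff _).mpr (hcon a a')
    rw [Matrix.sub_apply, Matrix.smul_apply, smul_eq_mul, map_sub, map_mul, sub_eq_zero] at h0
    rw [h0]
    congr 1
    simp [Matrix.one_apply, apply_ite ι, apply_ite (residue D.R)]
  let bs : ℕ → Module.Basis (Fin 2) D.R D.ρ.V := fun s =>
    if h : ∃ i : Fin F.k, F.site i = s ∧ ¬ (F.shape H g).sc i then
      (exists_adapted_basis D.ρ b₀ (F.frob (F.site h.choose))
        (hscal _ h.choose_spec.2)).choose
    else b₀
  have hbs : ∀ i : Fin F.k, ¬ (F.shape H g).sc i →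
      LinearMap.toMatrix (bs (F.site i)) (bs (F.site i)) (D.ρ.ρ (F.frob (F.site i))) =
        !![0, -LinearMap.det (D.ρ.ρ (F.frob (F.site i))); 1, D.ρ.trace (F.frob (F.site i))] := by
    intro i hi
    have h : ∃ i' : Fin F.k, F.site i' = F.site i ∧ ¬ (F.shape H g).sc i' := ⟨i, rfl, hi⟩
    have he : h.choose = i := F.site_injective h.choose_spec.1
    simp only [bs, dif_pos h]
    have := (exists_adapted_basis D.ρ b₀ (F.frob (F.site h.choose))
      (hscal _ h.choose_spec.2)).choose_spec
    simpa only [he] using this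
  have hbs' : ∀ i : Fin F.k, (F.shape H g).sc i → bs (F.site i) = b₀ := by
    intro i hi
    refine dif_neg ?_
    rintro ⟨i', h1, h2⟩
    exact h2 (F.site_injective h1 ▸ hi)
  refine ⟨bs, fun z e hz he => ⟨fun i => (F.tame_facts D i _).2.1, fun i => ?_, fun i a a' => ?_,
    fun i hi => ?_, fun i hi => ?_, fun hm => ?_, fun _ => hz, he⟩⟩
  · change Fin F.k at i
    show (LinearMap.toMatrix _ _ (D.ρ.ρ _)).trace - algebraMap F.E.R D.R _ ∈ _
    rw [← LinearMap.trace_eq_matrix_trace]
    show D.ρ.trace (F.frob (F.site i)) - algebraMap F.E.R D.R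
      ((nodeSign W (F.site i) : F.E.R) * ((F.site i : F.E.R) + 1)) ∈ _
    rw [← F.curveRep_trace_site H, ← residue_eq_zero_iff, map_sub, sub_eq_zero,
      (Deformation.resCond_iff F.rhobar _).mp (resCond_universal D), ← ResidueField.map_residue]
    congr 1
    have h := (Deformation.resCond_iff F.rhobar _).mp F.curveRep_resCond (F.frob (F.site i))
    obtain ⟨y, hy⟩ := residue_surjective
      ((Deformation.barMat F.rhobar (F.frob (F.site i))).trace)
    rw [← hy] at h ⊢
    exact h.symm
  · show LinearMap.toMatrix (bs (F.site i)) (bs (F.site i)) (D.ρ.ρ (F.tame (F.site i))) a a' - _ ∈ _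
    rw [← Matrix.sub_apply]
    exact toMatrix_sub_one_mem (bs (F.site i)) _ _ (F.site_residual D i
      (F.isTameGenerator _ (F.site_prime i) (F.site_ne_p i)).1) a a'
  · obtain ⟨c, hc⟩ := hi
    have hi' : (F.shape H g).sc i := ⟨c, hc⟩
    intro a
    show vec3 (LinearMap.toMatrix (bs (F.site i)) (bs (F.site i))
      (D.ρ.ρ (F.frob (F.site i)))) a ∈ _
    rw [hbs' i hi', ← residue_eq_zero_iff, LocalGalois.map_vec3, hb₀, hc, map_smul,
      LinearMap.toMatrix_one]
    fin_cases a <;> simp [vec3]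
  · show LinearMap.toMatrix (bs (F.site i)) (bs (F.site i)) (D.ρ.ρ (F.frob (F.site i))) =
      !![0, -(F.site i : D.R); 1,
        (LinearMap.toMatrix (bs (F.site i)) (bs (F.site i)) (D.ρ.ρ (F.frob (F.site i)))).trace]
    rw [← LinearMap.trace_eq_matrix_trace, hbs i hi, det_frobenius_eq D.ρ
      (F.detIsCyclotomic_cond D.isOfType) (F.site_prime i) Fact.out (F.site_ne_p i).symm
      (F.liesOver _ (F.site_prime i)) (F.isFrobenius _ (F.site_prime i))]
    rfl
  · show F.lam D.ρ - algebraMap F.E.R D.R (F.lam F.curveRep) ∈ _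
    exact F.lam_sub_mem H D

end LiftFrame

end FLTA.RT
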