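import Fermat.Agent.RT.Lift.Chain
import Fermat.Agent.RT.Lift.PointRels
import Fermat.Agent.RT.Lift.LevelPoint
import Fermat.Agent.RT.Lift.ShapeFrame

/-!
# The coordinates of a frame along the levels

`SiteChoice` is a tuple, a stage, a universal ring and generating values of the coordinates at every
`n`.  Its kernels contain the relations of the levels, so the components of the shape satisfy the
hypotheses of the support argument (`SiteChoice.chainInput`).
-/

set_option autoImplicit false
set_option linter.overlappingInstances false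
set_option linter.unusedSectionVars false
set_option linter.style.haveILetI false

noncomputable section

open IsLocalRing WeierstrassCurve GaloisRep MvPowerSeries

namespace FLTA.RT

/-- The relations of a level pass to ideals above an intersection of ideals which contain them. -/
theorem LiftShape.LevelRels.of_forall {O : Type} [CommRing O] [IsDomain O]
    [IsDiscreteValuationRing O] [IsAdicComplete (maximalIdeal O) O] {Z : LiftShape O} {j : ℕ}
    {ι : Sort*} {P : ι → Ideal Z.P₀} (h : ∀ i, Z.LevelRels j (P i)) {Q : Ideal Z.P₀}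
    (hle : ∀ a, (∀ i, a ∈ P i) → a ∈ Q) : Z.LevelRels j Q :=
  ⟨fun i => hle _ fun a => (h a).ut i, fun i c hi => hle _ fun a => (h a).v_out i c hi,
    fun i hi => hle _ fun a => (h a).v_nilp i hi,
    fun i c hi => hle _ fun a => (h a).v_discr i c hi,
    fun i c hi => hle _ fun a => (h a).v_eigen i c hi,
    fun i hi => hle _ fun a => (h a).z_out i hi,
    fun i c hi => hle _ fun a => (h a).u_out i c hi,
    fun i hi => hle _ fun a => (h a).z_discr i hi,
    fun i c hi => hle _ fun a => (h a).u_side i c hi,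
    fun hm => hle _ fun a => (h a).lam_zp hm⟩

namespace LiftFrame

variable {W : WeierstrassCurve ℤ} {hΔ : W.Δ ≠ 0} {p : ℕ} [Fact p.Prime] {M : ℕ}
  {F : LiftFrame W hΔ p M} {H : LiftData W p M} {B : F.LiftBottom}
  {D₀ : DeformationRingData F.E.R F.rhobar (F.cond noPrimes)} {g r : ℕ}

variable (F) in
/-- Tuples, stages, rings and generating values of the coordinates at every `n`. -/
structure SiteChoice (H : LiftData W p M) (B : F.LiftBottom) (g r : ℕ) : Type 1 where
  /-- the tuples -/
  qv : ℕ → Fin r → ℕ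
  isTWTuple : ∀ n, F.IsTWTuple n (qv n)
  /-- the stages -/
  stage : ∀ n, LiftStage B n (qv n)
  /-- the universal rings -/
  D : ∀ n, DeformationRingData F.E.R F.rhobar (F.cond (qv n))
  /-- the bases at the sites -/
  b : ∀ n, ℕ → Module.Basis (Fin 2) (D n).R (D n).ρ.V
  /-- the elements killed by flat points -/
  z : ∀ n, (D n).R
  /-- the extra elements -/
  e : ∀ n, Fin g → (D n).R
  good : ∀ n, (F.siteMats H g (D n).ρ (b n) (z n) (e n)).Good
  killed : ∀ n, F.Mult → F.KilledByFlat (D n).ρ (z n)
  gen : ∀ n, maximalIdeal (D n).R ≤ (maximalIdeal F.E.R).map (algebraMap F.E.R (D n).R) ⊔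
    Ideal.span (Set.range (F.siteMats H g (D n).ρ (b n) (z n) (e n)).val)

namespace SiteChoice

variable (X : F.SiteChoice H B g r)

/-- The values at `n`. -/
abbrev mats (n : ℕ) : (F.shape H g).SiteMats (X.D n).R :=
  F.siteMats H g (X.D n).ρ (X.b n) (X.z n) (X.e n)

theorem trace_P (n : ℕ) (i : Fin F.k) :
    ((X.mats n).P i).trace = (X.D n).ρ.trace (F.frob (F.site i)) :=
  (LinearMap.trace_eq_matrix_trace _ _ _).symm

variable (D₀) in
/-- The choice of level systems. -/
def toChoice : F.LiftChoice B D₀ (F.shape H g).Coord r where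
  qv := X.qv
  isTWTuple := X.isTWTuple
  stage := X.stage
  D := X.D
  ev n := (X.mats n).eval (X.good n)
  ev_surjective n :=
    (X.mats n).eval_surjective (X.D n).residue_surjective (X.good n) (X.gen n)
  frobT := (F.shape H g).frobTrace
  ev_frobT n i := ((X.mats n).eval_frobTrace (X.good n) i).trans (X.trace_P n i)

theorem levelRels_point (n j : ℕ) (hj : j ≤ F.k) (E' : RepTheory.FiniteDVRExt F.E.R)
    (ψ : ((X.stage n).level j hj).A →ₐ[F.E.R] E'.R) :
    (F.shape H g).LevelRels j (RingHom.ker ((ψ.comp (((X.toChoice D₀).toA n j hj).comp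
      ((X.toChoice D₀).ev n)) : (F.shape H g).P₀ →ₐ[F.E.R] E'.R) :
        (F.shape H g).P₀ →+* E'.R)) := by
  let Y := X.toChoice D₀
  let m := X.mats n
  let L := (X.stage n).level j hj
  let toA : (X.D n).R →ₐ[F.E.R] L.A := Y.toA n j hj
  have hl : IsLocalHom (toA : (X.D n).R →+* L.A) := Y.isLocalHom_toA n j hj
  have he : ((X.D n).ρ.baseChangeAlong (toA : (X.D n).R →+* L.A) hl).IsEquiv L.ρ :=
    Y.toA_isEquiv n j hj
  let f : (X.D n).R →ₐ[F.E.R] E'.R := ψ.comp toA
  have hpt := LiftShape.SiteMats.isPoint_eval (X.good n) f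
  have hmap : ∀ A : Matrix (Fin 2) (Fin 2) (X.D n).R, A.map f = (A.map toA).map ψ := fun A => by
    rw [Matrix.map_map]; rfl
  have hout : ∀ i : Fin F.k, j ≤ (i : ℕ) → (m.map f).T i = 1 := fun i hi => by
    show (m.T i).map f = 1
    rw [hmap]
    erw [L.map_toMatrix_of_out toA hl he (X.b n (F.site i)) i hi (F.site_prime i) _
      (F.isTameGenerator _ (F.site_prime i) (F.site_ne_p i)).1]
    exact Matrix.map_one _ (map_zero ψ) (map_one ψ)
  have hin : ∀ i : Fin F.k, (i : ℕ) < j →
      ((m.map f).T i - 1) * ((m.map f).T i - 1) = 0 := fun i hi => by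
    have h := congrArg (fun A : Matrix (Fin 2) (Fin 2) L.A => A.map ψ)
      (L.map_toMatrix_of_in toA hl he (X.b n (F.site i)) i hi (F.site_prime i) _
        (F.isTameGenerator _ (F.site_prime i) (F.site_ne_p i)).1)
    simp only [← AlgHom.mapMatrix_apply, map_mul, map_sub, map_one, map_zero] at h
    show ((m.T i).map f - 1) * ((m.T i).map f - 1) = 0
    rw [hmap]
    exact h
  refine LiftShape.SiteMats.levelRels_ker hpt j (fun i => ?_) (fun i hi => ?_) (fun i => ?_)
    (fun i => ?_) hout hin fun hm => ?_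
  · show ((m.P i).map f).det = _
    rw [← AlgHom.mapMatrix_apply, ← AlgHom.map_det, (X.good n).det_P, map_natCast]
  · have htr : ((m.map f).P i).trace = f (m.P i).trace := (AddMonoidHom.map_trace f _).symm
    rw [htr]
    show (m.P i).map f = _
    conv_lhs => rw [(X.good n).adapted i hi]
    ext a a'
    fin_cases a <;> fin_cases a' <;> simp [m]
  · have h1 := (map_ne_one_iff _ E'.injective).mpr ((F.shape H g).q_sub_one_ne i)
    have h2 := (map_ne_zero_iff _ E'.injective).mpr ((F.shape H g).q_add_one_ne i)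
    rw [map_natCast] at h1
    rw [map_add, map_one, map_natCast] at h2
    exact ⟨Nat.cast_ne_zero.mpr (F.site_prime i).ne_zero, h1, h2⟩
  · have h := congrArg (AlgHom.mapMatrix f) (F.tame_facts (X.D n) i (X.b n (F.site i))).2.2
    rw [map_mul, map_mul, map_pow] at h
    exact h
  · show f (X.z n) = 0 ∨ f (F.lam (X.D n).ρ) = algebraMap F.E.R E'.R (F.lam F.curveRep)
    rcases L.point_flat_or_strict toA hl he hm (X.killed n hm) E' ψ with h | h
    · exact Or.inl h
    refine Or.inr ?_
    have hfl : IsLocalHom (f : (X.D n).R →+* E'.R) := ⟨fun a ha =>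
      hl.map_nonunit a ((Avoid.isLocalHom_of_finite ψ).map_nonunit _ ha)⟩
    have hd := congrArg f ((det_eq_curveRep (ne_two' H) H (X.D n).isOfType F.inert))
    have hsq : f (F.lam (X.D n).ρ) ^ 2 = algebraMap F.E.R E'.R (F.lam F.curveRep) ^ 2 := by
      have h' : f (F.strictDefect (X.D n).ρ) = 0 := h
      rw [strictDefect, map_sub, map_pow, map_pow, map_sub, map_one, sub_eq_zero, det_eq, hd,
        AlgHom.commutes] at h'
      rw [h', ← map_pow, F.lam_curveRep_sq H hm, map_pow, map_sub, map_one, det_eq]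
    rcases sq_eq_sq_iff_eq_or_eq_neg.mp hsq with h0 | h0
    · exact h0
    exfalso
    have hmem : f (F.lam (X.D n).ρ - algebraMap F.E.R (X.D n).R (F.lam F.curveRep)) ∈
        maximalIdeal E'.R := map_nonunit (f : (X.D n).R →+* E'.R) _ (F.lam_sub_mem H (X.D n))
    rw [map_sub, h0, AlgHom.commutes] at hmem
    refine hmem (IsUnit.neg_iff _ |>.mp ?_)
    rw [neg_sub, sub_neg_eq_add, ← two_mul, ← map_ofNat (algebraMap F.E.R E'.R) 2, ← map_mul]
    exact ((F.two_isUnit (ne_two' H)).mul ((F.shape H g).cp_isUnit hm)).map _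

/-- The kernel of every level action contains the relations of its level. -/
theorem levelRels_act (n j : ℕ) (hj : j ≤ F.k) :
    (F.shape H g).LevelRels j (RingHom.ker ((X.toChoice D₀).act n j hj)) := by
  refine LiftShape.LevelRels.of_forall
    (ι := (E' : RepTheory.FiniteDVRExt F.E.R) ×
      (((X.stage n).level j hj).A →ₐ[F.E.R] E'.R))
    (fun x => X.levelRels_point (D₀ := D₀) n j hj x.1 x.2) fun a ha => ?_
  rw [RingHom.mem_ker, LiftChoice.act_apply]
  have h0 : (X.toChoice D₀).toA n j hj ((X.toChoice D₀).ev n a) = 0 := by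
    by_contra hne
    obtain ⟨E', ψ, hψ⟩ := ((X.stage n).level j hj).separated _ hne
    exact hψ (RingHom.mem_ker.mp (ha ⟨E', ψ⟩))
  exact (congrArg ((X.stage n).level j hj).α h0).trans (map_zero _)

theorem levelRels_of_forall {j : ℕ} (hj : j ≤ F.k) {Q : Ideal (F.shape H g).P₀}
    (hQ : ∀ a, (∀ n, (X.toChoice D₀).act n j hj a = 0) → a ∈ Q) :
    (F.shape H g).LevelRels j Q :=
  LiftShape.LevelRels.of_forall (fun n => X.levelRels_act n j hj) fun a ha =>
    hQ a fun n => RingHom.mem_ker.mp (ha n)

/-- The raising relation kills the new part. -/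
theorem act_discr (n : ℕ) (i : Fin F.k) (y : ((X.stage n).level ((i : ℕ) + 1) i.2).M)
    (hy : ∀ l, (X.stage n).down i l y = 0) :
    (X.toChoice D₀).act n ((i : ℕ) + 1) i.2 ((F.shape H g).discr i) y = 0 := by
  have hev : (X.mats n).eval (X.good n) ((F.shape H g).discr i) =
      (X.D n).ρ.trace (F.frob (F.site i)) ^ 2 - ((F.site i : (X.D n).R) + 1) ^ 2 := by
    show (X.mats n).eval (X.good n) ((F.shape H g).frobTrace i ^ 2 -
      C ((((F.shape H g).q i : F.E.R) + 1) ^ 2)) = _
    rw [map_sub, map_pow, (X.mats n).eval_frobTrace (X.good n), (X.mats n).eval_C (X.good n),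
      map_pow, map_add, map_one, map_natCast, X.trace_P]
    rfl
  let L := (X.stage n).level ((i : ℕ) + 1) i.2
  let toA : (X.D n).R →ₐ[F.E.R] L.A := (X.toChoice D₀).toA n ((i : ℕ) + 1) i.2
  show L.α (toA ((X.mats n).eval (X.good n) ((F.shape H g).discr i))) y = 0
  rw [hev, map_sub toA, map_pow toA, map_pow toA, map_add toA, map_one toA, map_natCast toA,
    show toA ((X.D n).ρ.trace (F.frob (F.site i))) = L.ρ.trace (F.frob (F.site i)) from
      (X.toChoice D₀).toA_trace n ((i : ℕ) + 1) i.2 _]
  exact (X.stage n).new_trace i y hy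

/-- At a multiplicative `p` the coordinate at `p` kills the new part at `p`. -/
theorem act_lam (hm : F.Mult) (n : ℕ) (y : ((X.stage n).level 0 (Nat.zero_le _)).M)
    (hy : (X.stage n).oldMap y = 0) :
    (X.toChoice D₀).act n 0 (Nat.zero_le _)
      (MvPowerSeries.X (LiftShape.Coord.lam (Z := F.shape H g) hm)) y = 0 := by
  let L := (X.stage n).level 0 (Nat.zero_le _)
  let toA : (X.D n).R →ₐ[F.E.R] L.A := (X.toChoice D₀).toA n 0 (Nat.zero_le _)
  have hl : IsLocalHom (toA : (X.D n).R →+* L.A) :=
    (X.toChoice D₀).isLocalHom_toA n 0 (Nat.zero_le _)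
  let c := algebraMap F.E.R (X.D n).R (F.lam F.curveRep)
  have hu : IsUnit (F.lam (X.D n).ρ + c) := by
    have h2 : IsUnit (2 * c) := by
      rw [← map_ofNat (algebraMap F.E.R (X.D n).R) 2, ← map_mul]
      exact ((F.two_isUnit (ne_two' H)).mul ((F.shape H g).cp_isUnit hm)).map _
    by_contra hn
    exact (sub_mem (show F.lam (X.D n).ρ + c ∈ maximalIdeal _ from hn)
      (F.lam_sub_mem H (X.D n))) (by rwa [show F.lam (X.D n).ρ + c - (F.lam (X.D n).ρ - c) = 2 * c
        by ring])
  obtain ⟨u, hu'⟩ := hu.exists_left_inv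
  have hfac : F.lam (X.D n).ρ - c = u * F.strictDefect (X.D n).ρ := by
    have hc : c ^ 2 = (((X.D n).ρ.det F.inert : (X.D n).R) - 1) ^ 2 := by
      rw [det_eq, det_eq_curveRep (ne_two' H) H (X.D n).isOfType, ← map_pow,
        F.lam_curveRep_sq H hm, map_pow, map_sub, map_one, det_eq]
    rw [strictDefect, ← hc]
    linear_combination -(F.lam (X.D n).ρ - c) * hu'
  have hval : (X.toChoice D₀).ev n (MvPowerSeries.X (LiftShape.Coord.lam (Z := F.shape H g) hm)) =
      F.lam (X.D n).ρ - c := (X.mats n).eval_X (X.good n) _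
  rw [LiftChoice.act_apply]
  erw [hval]
  show L.α (toA (F.lam (X.D n).ρ - c)) y = 0
  rw [hfac, map_mul, map_mul, Module.End.mul_apply]
  have hd : toA (F.strictDefect (X.D n).ρ) = F.strictDefect L.ρ :=
    (map_strictDefect (F := F) (toA : (X.D n).R →+* L.A)
      (L.map_trace toA hl ((X.toChoice D₀).toA_isEquiv n 0 (Nat.zero_le _)))
      (L.map_det toA hl ((X.toChoice D₀).toA_isEquiv n 0 (Nat.zero_le _)))).1
  rw [hd, (X.stage n).new_strict hm y hy, map_zero]

variable (D₀) in
/-- **The components separate.** -/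
def chainInput (hr : g + (F.shape H g).pWeight + ∑ i, (F.shape H g).weight i ≤ r) :
    (X.toChoice D₀).ChainInput where
  C j := (F.shape H g).component F.maximalIdeal_eq j
  C_prime j _ := (F.shape H g).component_isPrime F.maximalIdeal_eq j
  dim_le j _ := (F.shape H g).ringKrullDim_component_le F.maximalIdeal_eq j hr
  x i := RingHom.ker ((F.shape H g).exists_pointAt F.maximalIdeal_eq (i : ℕ)).choose
  x_prime _ := RingHom.ker_isPrime _
  le_x i := ((F.shape H g).exists_pointAt F.maximalIdeal_eq (i : ℕ)).choose_spec.1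
  disc_mem i := by
    have h := ((F.shape H g).exists_pointAt F.maximalIdeal_eq (i : ℕ)).choose_spec.2.discr_mem
      (Z := F.shape H g) F.maximalIdeal_eq i
    rw [LiftShape.discr, map_pow, map_add, map_one, map_natCast] at h
    exact h
  sep i Q hQ hle hf := by
    haveI := hQ
    refine (F.shape H g).component_succ_le F.maximalIdeal_eq
      ((F.shape H g).exists_pointAt F.maximalIdeal_eq (i : ℕ)).choose_spec.2 hle
      (X.levelRels_of_forall (D₀ := D₀) i.2 fun a ha => hf a fun n y _ => by
        rw [ha n]; rfl) fun i' hi' => ?_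
    rw [show i' = i from Fin.ext hi']
    exact hf _ fun n y hy => X.act_discr n i y hy
  sep_zero Q hQ hf := by
    haveI := hQ
    exact (F.shape H g).component_zero_le F.maximalIdeal_eq
      (X.levelRels_of_forall (D₀ := D₀) (Nat.zero_le _) fun a ha => hf a fun n y _ => by
        rw [ha n]; rfl)
      fun hm => hf _ fun n y hy => X.act_lam hm n y (hy hm)

end SiteChoice

end LiftFrame

end FLTA.RT

end
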