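import Fermat.Agent.RT.Lift.Inputs
import Fermat.Agent.RT.Main.ModulesSetup
import Fermat.Agent.RT.Main.DiamondRing

/-!
# The twisted level modules of lifting: definitions

At the raising index `j` and a tuple `qv` of level `n`: the level `level j * ∏ qv`, the classical
level of the twists, the coefficient character, the normalised operators (with `U` at the tuple and
at the auxiliary prime), the residual system, the local factor and its Hecke algebra.
-/

set_option autoImplicit false

noncomputable section

open IsLocalRing Polynomial WeierstrassCurve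

namespace FLTA.RT

open FLTA.Periods

local notation "Γℚ" => AlgebraicClosure ℚ ≃ₐ[ℚ] AlgebraicClosure ℚ

namespace LiftFrame

variable {W : WeierstrassCurve ℤ} {hΔ : W.Δ ≠ 0} {p : ℕ} [Fact p.Prime] {M : ℕ}
  (F : LiftFrame W hΔ p M) (n j : ℕ) {r : ℕ} (qv : Fin r → ℕ)

/-- The primes of the tuple, which carry the twist. -/
def twistSet (_F : LiftFrame W hΔ p M) : Finset ℕ := Finset.univ.image qv

/-- The primes at which a root of the Frobenius polynomial is chosen: tuple and auxiliary prime. -/
def stabSet : Finset ℕ := F.twistSet qv ∪ F.aux.primeFactors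

/-- The level `level j * ∏ qv` of the twisted classes. -/
def levelAt : ℕ := F.level j * ∏ i, qv i

/-- The classical level `level j * ∏ qv²` of the twists. -/
def classicalAt : ℕ := F.levelAt j qv * ∏ l ∈ F.twistSet qv, l

/-- The excluded primes, the same for all `j`. -/
def badSet : Finset ℕ := F.avoided ∪ F.twistSet qv

theorem diamondRel_eq : F.diamondRel r n = Avoid.diaRel F.E.R r (p ^ (n + 1)) := rfl

instance isLocalRing_diamond : IsLocalRing (F.Diamond r n) :=
  Avoid.isLocalRing_dia (k := n + 1) F.natCast_mem

/-- The group element `1 + y_i`. -/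
def gen (i : Fin r) : F.Diamond r n := Ideal.Quotient.mk _ (1 + MvPowerSeries.X i)

theorem gen_pow (i : Fin r) : F.gen n i ^ p ^ (n + 1) = 1 := by
  rw [gen, ← map_pow, ← map_one (Ideal.Quotient.mk (F.diamondRel r n)), Ideal.Quotient.eq]
  exact Ideal.subset_span ⟨i, rfl⟩

open Classical in
/-- The characters: `g ↦ 1 + y_i` at `qv i`, trivial elsewhere. -/
def eps (l : ℕ) : (ZMod l)ˣ →* (F.Diamond r n)ˣ :=
  if h : ∃ i, qv i = l then charOfRoot l (F.gen n h.choose) else 1

/-- The coefficient character. -/
def chi : (ZMod (F.levelAt j qv))ˣ →* (F.Diamond r n)ˣ :=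
  sigProd (F.levelAt j qv) (F.twistSet qv) (F.eps n qv)

/-- The operators: normalised `T_l` at good primes and `U` at the chosen roots. The index does not
depend on `j`. -/
abbrev Idx : Type := {l : ℕ // l.Prime ∧ l ∉ F.badSet qv} ⊕ {l : ℕ // l ∈ F.stabSet qv}

variable [NeZero (F.levelAt j qv)]

/-- The normalised operator at `l`. -/
def natT (l : ℕ) : NatEnd (gamChar (F.chi n j qv)) :=
  (kap (F.twistSet qv) (F.eps n qv) l : F.Diamond r n) • natHecke (F.chi n j qv) l

/-- The operators cutting out the factor. -/
def ops : F.Idx qv → NatEnd (gamChar (F.chi n j qv)) :=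
  Sum.elim (fun l => F.natT n j qv l.1) (fun l => natHecke (F.chi n j qv) l.1)

/-- A lift of a root of the residual characteristic polynomial of Frobenius at `l`. -/
def alphaAt (l : ℕ) : F.E.R :=
  Function.surjInv IsLocalRing.residue_surjective (F.split (F.frob l)).choose

/-- The residual eigen system. -/
def sys : F.Idx qv → F.Diamond r n :=
  Sum.elim (fun l => (W.apOfModel l.1 : F.Diamond r n))
    (fun l => algebraMap F.E.R (F.Diamond r n) (F.alphaAt l.1))

/-- The idempotent of the residual system. -/
def idem : NatEnd (gamChar (F.chi n j qv)) := localEnd (F.ops n j qv) (F.sys n qv)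

/-- The level module: the local factor over the diamond ring. -/
abbrev Mod : Type := eImage (F.idem n j qv) (F.Diamond r n)

/-- The normalised `T_l` on the factor, at any prime `l`. -/
def opAt (l : ℕ) : Module.End (F.Diamond r n) (F.Mod n j qv) :=
  restrictEnd (F.idem n j qv) (F.natT n j qv l)

/-- The algebra generated by the normalised `T_l` at good primes. -/
abbrev Alg : Subalgebra (F.Diamond r n) (Module.End (F.Diamond r n) (F.Mod n j qv)) :=
  Algebra.adjoin (F.Diamond r n)
    (Set.range fun l : {l : ℕ // l.Prime ∧ l ∉ F.badSet qv} => F.opAt n j qv l.1)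

/-- The normalised `T_l` in the algebra. -/
def algT (l : {l : ℕ // l.Prime ∧ l ∉ F.badSet qv}) : F.Alg n j qv :=
  ⟨F.opAt n j qv l.1, Algebra.subset_adjoin ⟨l, rfl⟩⟩

/-- The algebra as an algebra over the coefficient ring. -/
instance algebraAlg : Algebra F.E.R (F.Alg n j qv) :=
  ((algebraMap (F.Diamond r n) (F.Alg n j qv)).comp
    (algebraMap F.E.R (F.Diamond r n))).toAlgebra'
      fun c x => Algebra.commutes (algebraMap F.E.R (F.Diamond r n) c) x

/-- A representation over a finite extension attached to the point `ψ` of the algebra. -/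
def IsPointRep (E' : RepTheory.FiniteDVRExt F.E.R) (ψ : F.Alg n j qv →ₐ[F.E.R] E'.R)
    (ρ : GaloisRepAdic E'.R) : Prop :=
  ρ.DetIsCyclotomic p ∧ ∀ (l : {l : ℕ // l.Prime ∧ l ∉ F.badSet qv})
    (A : ValuationSubring (AlgebraicClosure ℚ)), A.LiesOverPrime l.1 →
      ∀ σ : Γℚ, A.IsFrobeniusAt σ l.1 → ρ.trace σ = ψ (F.algT n j qv l)

end LiftFrame

end FLTA.RT

end
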