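import Fermat.Agent.RT.Local.Model

/-!
# The coordinates of the lifting sites

A site with non-scalar residual Frobenius has, in a basis `e, P e`, the coordinates `t`, `z` and
`u`: `tr P = c + t`, `N₁₀ = z`, `N = z • (matrix of the side of s) + u`, where `c = s (q + 1)` and
`N = T - 1`.  A site with scalar residual Frobenius has `v = vec3 T`, `ut = tr T - 2`, `w = vec3 P`;
the trace of `P` is the root of `Y ^ 2 = 4 q + Q3 w` congruent to `c`.  In the multiplicative case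
at `p` there are `lam = λ - cp` and `zp`.  The extra coordinates are free.
-/

set_option autoImplicit false
set_option linter.overlappingInstances false

noncomputable section

namespace FLTA.RT

open IsLocalRing MvPowerSeries

/-- Sites with kinds, signs and residual constants, the kind at `p` and the number of extra
coordinates. -/
structure LiftShape (O : Type) [CommRing O] [IsLocalRing O] where
  /-- the number of sites -/
  k : ℕ
  /-- the number of extra coordinates -/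
  g : ℕ
  /-- multiplicative at `p` -/
  mult : Prop
  /-- scalar residual Frobenius -/
  sc : Fin k → Prop
  /-- the primes -/
  q : Fin k → ℕ
  /-- the signs -/
  s : Fin k → O
  /-- the constant at `p` -/
  cp : O
  s_sq : ∀ i, s i * s i = 1
  q_sub_one_ne : ∀ i, (q i : O) ≠ 1
  q_add_one_ne : ∀ i, (q i : O) + 1 ≠ 0
  scalar_q : ∀ i, sc i → (q i : O) - 1 ∈ maximalIdeal O
  two_isUnit : IsUnit (2 : O)
  cp_isUnit : mult → IsUnit cp

namespace LiftShape

variable {O : Type} [CommRing O] [IsLocalRing O] (Z : LiftShape O)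

/-- The scalar sites. -/
abbrev Sc : Type := {i : Fin Z.k // Z.sc i}

/-- The other sites. -/
abbrev Ns : Type := {i : Fin Z.k // ¬ Z.sc i}

/-- The coordinates. -/
inductive Coord : Type
  | v (i : Z.Sc) (a : Fin 3)
  | ut (i : Z.Sc)
  | w (i : Z.Sc) (a : Fin 3)
  | t (i : Z.Ns)
  | z (i : Z.Ns)
  | u (i : Z.Ns) (a : Fin 3)
  | lam (h : Z.mult)
  | zp (h : Z.mult)
  | extra (a : Fin Z.g)

/-- The coordinates as a sum. -/
def Coord.equivSum : Z.Coord ≃ (Z.Sc × Fin 3) ⊕ Z.Sc ⊕ (Z.Sc × Fin 3) ⊕ Z.Ns ⊕ Z.Ns ⊕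
    (Z.Ns × Fin 3) ⊕ PLift Z.mult ⊕ PLift Z.mult ⊕ Fin Z.g where
  toFun
    | .v i a => .inl (i, a)
    | .ut i => .inr (.inl i)
    | .w i a => .inr (.inr (.inl (i, a)))
    | .t i => .inr (.inr (.inr (.inl i)))
    | .z i => .inr (.inr (.inr (.inr (.inl i))))
    | .u i a => .inr (.inr (.inr (.inr (.inr (.inl (i, a))))))
    | .lam h => .inr (.inr (.inr (.inr (.inr (.inr (.inl ⟨h⟩))))))
    | .zp h => .inr (.inr (.inr (.inr (.inr (.inr (.inr (.inl ⟨h⟩)))))))
    | .extra a => .inr (.inr (.inr (.inr (.inr (.inr (.inr (.inr a)))))))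
  invFun
    | .inl x => .v x.1 x.2
    | .inr (.inl i) => .ut i
    | .inr (.inr (.inl x)) => .w x.1 x.2
    | .inr (.inr (.inr (.inl i))) => .t i
    | .inr (.inr (.inr (.inr (.inl i)))) => .z i
    | .inr (.inr (.inr (.inr (.inr (.inl x))))) => .u x.1 x.2
    | .inr (.inr (.inr (.inr (.inr (.inr (.inl h)))))) => .lam h.down
    | .inr (.inr (.inr (.inr (.inr (.inr (.inr (.inl h))))))) => .zp h.down
    | .inr (.inr (.inr (.inr (.inr (.inr (.inr (.inr a))))))) => .extra a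
  left_inv x := by cases x <;> rfl
  right_inv x := by rcases x with _ | _ | _ | _ | _ | _ | _ | _ | _ <;> rfl

instance : Finite Z.Coord := Finite.of_equiv _ (Coord.equivSum Z).symm

/-- The ring of coordinates. -/
abbrev P₀ : Type := MvPowerSeries Z.Coord O

/-- The trace of Frobenius at the curve: `s (q + 1)`. -/
def c₀ (i : Fin Z.k) : O := Z.s i * ((Z.q i : O) + 1)

/-- The constant of the cone at a scalar site. -/
def pi (i : Fin Z.k) : O := Z.s i * ((Z.q i : O) - 1)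

lemma s_isUnit (i : Fin Z.k) : IsUnit (Z.s i) := IsUnit.of_mul_eq_one _ (Z.s_sq i)

lemma pi_mem {i : Fin Z.k} (h : Z.sc i) : Z.pi i ∈ maximalIdeal O :=
  Ideal.mul_mem_left _ _ (Z.scalar_q i h)

lemma c₀_isUnit {i : Fin Z.k} (h : Z.sc i) : IsUnit (Z.c₀ i) := by
  refine (Z.s_isUnit i).mul (IsLocalRing.notMem_maximalIdeal.mp fun hm => ?_)
  have := sub_mem hm (Z.scalar_q i h)
  rw [show ((Z.q i : O) + 1) - ((Z.q i : O) - 1) = 2 by ring] at this
  exact IsLocalRing.notMem_maximalIdeal.mpr Z.two_isUnit this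

lemma c₀_ne_zero [IsDomain O] (i : Fin Z.k) : Z.c₀ i ≠ 0 :=
  mul_ne_zero (Z.s_isUnit i).ne_zero (Z.q_add_one_ne i)

lemma c₀_sq (i : Fin Z.k) : Z.c₀ i ^ 2 = ((Z.q i : O) + 1) ^ 2 := by
  show (Z.s i * ((Z.q i : O) + 1)) ^ 2 = _
  linear_combination ((Z.q i : O) + 1) ^ 2 * Z.s_sq i

lemma pi_sq (i : Fin Z.k) : Z.pi i ^ 2 = ((Z.q i : O) - 1) ^ 2 := by
  show (Z.s i * ((Z.q i : O) - 1)) ^ 2 = _
  linear_combination ((Z.q i : O) - 1) ^ 2 * Z.s_sq i

variable [IsDomain O] [IsDiscreteValuationRing O] [IsAdicComplete (maximalIdeal O) O]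

lemma exists_scalarTrace (i : Z.Sc) :
    ∃ Y : Z.P₀, Y ^ 2 = C (4 * (Z.q i.1 : O)) + Local.Q3 (fun a => X (Coord.w i a)) ∧
      Y - C (Z.c₀ i.1) ∈ maximalIdeal Z.P₀ := by
  obtain ⟨e, he⟩ := Z.c₀_isUnit i.2
  set ci : O := ((e⁻¹ : Oˣ) : O) with hci
  have hinv : Z.c₀ i.1 * ci = 1 := by rw [← he]; exact e.mul_inv
  set Y2 : Z.P₀ := C (4 * (Z.q i.1 : O)) + Local.Q3 (fun a => X (Coord.w i a)) with hY2
  have hu : C (ci ^ 2) * Y2 - 1 ∈ maximalIdeal Z.P₀ := by
    rw [Local.mem_maximalIdeal_iff]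
    simp only [hY2, Local.Q3, map_sub, map_mul, map_add, map_pow, map_one, constantCoeff_C,
      constantCoeff_X, mul_zero, add_zero, ne_eq, OfNat.ofNat_ne_zero, not_false_eq_true,
      zero_pow]
    rw [show ci ^ 2 * (4 * (Z.q i.1 : O)) - 1 = -(ci ^ 2 * Z.pi i.1 * Z.pi i.1) by
      linear_combination ci ^ 2 * Z.pi_sq i.1 - ci ^ 2 * Z.c₀_sq i.1 +
        (Z.c₀ i.1 * ci + 1) * hinv]
    exact neg_mem (Ideal.mul_mem_left _ _ (Z.pi_mem i.2))
  obtain ⟨r, hr, hr'⟩ := Local.exists_sqrt Z.two_isUnit hu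
  refine ⟨C (Z.c₀ i.1) * r, ?_, ?_⟩
  · rw [mul_pow, hr, ← mul_assoc, ← map_pow, ← map_mul, ← mul_pow, hinv, one_pow, map_one, one_mul]
  · rw [show C (Z.c₀ i.1) * r - C (Z.c₀ i.1) = C (Z.c₀ i.1) * (r - 1) by ring]
    exact Ideal.mul_mem_left _ _ hr'

open Classical in
/-- The trace of Frobenius at the site `i`. -/
def frobTrace (i : Fin Z.k) : Z.P₀ :=
  if h : Z.sc i then (Z.exists_scalarTrace ⟨i, h⟩).choose
  else C (Z.c₀ i) + X (Coord.t ⟨i, h⟩)

lemma frobTrace_ns (i : Z.Ns) : Z.frobTrace i.1 = C (Z.c₀ i.1) + X (Coord.t i) := dif_neg i.2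

lemma frobTrace_sq (i : Z.Sc) :
    Z.frobTrace i.1 ^ 2 = C (4 * (Z.q i.1 : O)) + Local.Q3 (fun a => X (Coord.w i a)) := by
  rw [frobTrace, dif_pos i.2]
  exact (Z.exists_scalarTrace i).choose_spec.1

lemma frobTrace_sub_mem (i : Fin Z.k) : Z.frobTrace i - C (Z.c₀ i) ∈ maximalIdeal Z.P₀ := by
  by_cases h : Z.sc i
  · rw [frobTrace, dif_pos h]
    exact (Z.exists_scalarTrace ⟨i, h⟩).choose_spec.2
  · rw [Z.frobTrace_ns ⟨i, h⟩, add_sub_cancel_left]
    exact Local.X_mem_maximalIdeal _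

/-- A local map to a local ring sends `frobTrace` at a scalar site to the root of its equation
congruent to `c₀`. -/
lemma map_frobTrace_eq {R : Type} [CommRing R] [IsLocalRing R] (f : Z.P₀ →+* R) [IsLocalHom f]
    (i : Z.Sc) {y : R} (hy : y ^ 2 = f (C (4 * (Z.q i.1 : O))) +
      Local.Q3 (fun a => f (X (Coord.w i a))))
    (hy' : y - f (C (Z.c₀ i.1)) ∈ maximalIdeal R) : f (Z.frobTrace i.1) = y := by
  have h1 : (f (Z.frobTrace i.1) - y) * (f (Z.frobTrace i.1) + y) = 0 := by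
    have := congrArg f (Z.frobTrace_sq i)
    rw [map_pow, map_add, Local.map_Q3] at this
    linear_combination this - hy
  have h2 : IsUnit (f (Z.frobTrace i.1) + y) := by
    refine IsLocalRing.notMem_maximalIdeal.mp fun hm => ?_
    have h3 : f (Z.frobTrace i.1 - C (Z.c₀ i.1)) ∈ maximalIdeal R :=
      map_nonunit f _ (Z.frobTrace_sub_mem i.1)
    have h4 := sub_mem (sub_mem hm h3) hy'
    rw [map_sub, show f (Z.frobTrace i.1) + y - (f (Z.frobTrace i.1) - f (C (Z.c₀ i.1))) -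
      (y - f (C (Z.c₀ i.1))) = f (C (2 * Z.c₀ i.1)) by rw [map_mul, map_ofNat, map_mul, map_ofNat]; ring] at h4
    exact IsLocalRing.notMem_maximalIdeal.mpr
      (((Z.two_isUnit.mul (Z.c₀_isUnit i.2)).map C).map f) h4
  exact sub_eq_zero.mp (h2.mul_left_eq_zero.mp h1)

end LiftShape

end FLTA.RT
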