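import Fermat.Agent.RT.Lift.Rings
import Fermat.Agent.RT.Lift.Diamond
import Fermat.Agent.RT.RaiseBottom
import Fermat.Agent.RT.RaiseLevels
import Fermat.Agent.RT.SupportDiamond
import Fermat.Agent.RT.Local.Series

/-!
# The level systems of lifting

A `LiftChoice` fixes at every `n` a Taylor–Wiles tuple, its stage and universal ring, and a
surjection from one ring of coordinates which contains elements evaluating to the traces of
Frobenius at the sites.  It gives actions of the coordinate ring on all level modules, compatible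
with the degeneracy maps and with the reduction to the bottom level, in bases lifting fixed bases
of the bottom modules, and lifts of the `z`-variables.
-/

set_option autoImplicit false
set_option linter.unusedSectionVars false

noncomputable section

open IsLocalRing WeierstrassCurve GaloisRep

namespace FLTA.RT

local notation "Γℚ" => AlgebraicClosure ℚ ≃ₐ[ℚ] AlgebraicClosure ℚ

namespace LiftFrame

variable {W : WeierstrassCurve ℤ} {hΔ : W.Δ ≠ 0} {p : ℕ} [Fact p.Prime] {M : ℕ}
  {F : LiftFrame W hΔ p M}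

/-- The diamond relations are those of patching. -/
theorem diamondRel_eq_diamondIdeal (r n : ℕ) :
    F.diamondRel r n = Patching.diamondIdeal F.E.R p r (n + 1) :=
  rfl

theorem diamondRel_le_pow (r n : ℕ) :
    F.diamondRel r n ≤ maximalIdeal (MvPowerSeries (Fin r) F.E.R) ^ n := by
  rw [diamondRel_eq_diamondIdeal]
  exact (Patching.diamondIdeal_le F.natCast_mem (n + 1)).trans
    (Ideal.pow_le_pow_right (Nat.le_succ n))

theorem diamondRel_le_aug (r n : ℕ) : F.diamondRel r n ≤ augPrime F.E.R r := by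
  rw [diamondRel_eq_diamondIdeal]
  exact diamondIdeal_le_augPrime F.E.R r p (n + 1)

instance instIsLocalRingDiamond (r n : ℕ) :
    IsLocalRing (MvPowerSeries (Fin r) F.E.R ⧸ F.diamondRel r n) := by
  have : Nontrivial (MvPowerSeries (Fin r) F.E.R ⧸ F.diamondRel r n) :=
    Ideal.Quotient.nontrivial_iff.mpr fun h => by
      have := diamondRel_le_aug (F := F) r n
      rw [h, top_le_iff] at this
      exact (augPrime_isPrime (O := F.E.R) (r := r)).ne_top this
  exact IsLocalRing.of_surjective' _ Ideal.Quotient.mk_surjective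

variable (F)

/-- At the empty tuple the diamond ring is the quotient by the augmentation. -/
def botEquiv (r : ℕ) : MvPowerSeries (Fin r) F.E.R ⧸ augPrime F.E.R r ≃+* F.Diamond 0 0 :=
  RingEquiv.ofBijective
    (((Ideal.Quotient.mk (F.diamondRel 0 0)).comp MvPowerSeries.C).comp
      (augEquiv F.E.R r).toRingHom)
    (by
      refine Function.Bijective.comp (g := ((Ideal.Quotient.mk (F.diamondRel 0 0)).comp
        MvPowerSeries.C)) ⟨fun a b h => ?_, fun y => ?_⟩ (augEquiv F.E.R r).bijective
      · have h1 := Ideal.Quotient.eq.mp h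
        have h2 := diamondRel_le_aug (F := F) 0 0 h1
        rw [mem_augPrime_iff, map_sub, MvPowerSeries.constantCoeff_C,
          MvPowerSeries.constantCoeff_C, sub_eq_zero] at h2
        exact h2
      · obtain ⟨f, rfl⟩ := Ideal.Quotient.mk_surjective y
        refine ⟨MvPowerSeries.constantCoeff f, ?_⟩
        show Ideal.Quotient.mk (F.diamondRel 0 0) (MvPowerSeries.C _) = _
        congr 1
        ext d
        have hd : d = 0 := Subsingleton.elim _ _
        simp [hd, MvPowerSeries.coeff_C])

theorem botEquiv_mk (r : ℕ) (s : MvPowerSeries (Fin r) F.E.R) :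
    F.botEquiv r (Ideal.Quotient.mk _ s) =
      Ideal.Quotient.mk (F.diamondRel 0 0) (MvPowerSeries.C (MvPowerSeries.constantCoeff s)) :=
  rfl

/-- Tuples, stages, rings and evaluations at every `n`. -/
structure LiftChoice (B : F.LiftBottom)
    (D₀ : DeformationRingData F.E.R F.rhobar (F.cond noPrimes)) (σ : Type) [Finite σ] (r : ℕ) :
    Type 1 where
  /-- the tuples -/
  qv : ℕ → Fin r → ℕ
  isTWTuple : ∀ n, F.IsTWTuple n (qv n)
  /-- the stages -/
  stage : ∀ n, LiftStage B n (qv n)
  /-- the universal rings -/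
  D : ∀ n, DeformationRingData F.E.R F.rhobar (F.cond (qv n))
  /-- the evaluations of the coordinates -/
  ev : ∀ n, MvPowerSeries σ F.E.R →ₐ[F.E.R] (D n).R
  ev_surjective : ∀ n, Function.Surjective (ev n)
  /-- the traces of Frobenius at the sites -/
  frobT : Fin F.k → MvPowerSeries σ F.E.R
  ev_frobT : ∀ n i, ev n (frobT i) = (D n).ρ.trace (F.frob (F.site i))

namespace LiftChoice

variable {F} {B : F.LiftBottom} {D₀ : DeformationRingData F.E.R F.rhobar (F.cond noPrimes)}
  {σ : Type} [Finite σ] {r : ℕ} (X : F.LiftChoice B D₀ σ r)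

/-- The map to the algebra of a level. -/
def toA (n j : ℕ) (hj : j ≤ F.k) : (X.D n).R →ₐ[F.E.R] ((X.stage n).level j hj).A :=
  (((X.stage n).level j hj).exists_hom (X.D n)).choose

theorem isLocalHom_toA (n j : ℕ) (hj : j ≤ F.k) :
    IsLocalHom (X.toA n j hj : (X.D n).R →+* ((X.stage n).level j hj).A) :=
  (((X.stage n).level j hj).exists_hom (X.D n)).choose_spec.choose

theorem toA_trace (n j : ℕ) (hj : j ≤ F.k) (τ : Γℚ) :
    X.toA n j hj ((X.D n).ρ.trace τ) = ((X.stage n).level j hj).ρ.trace τ :=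
  (((X.stage n).level j hj).exists_hom (X.D n)).choose_spec.choose_spec.2 τ

theorem toA_isEquiv (n j : ℕ) (hj : j ≤ F.k) :
    ((X.D n).ρ.baseChangeAlong (X.toA n j hj : (X.D n).R →+* ((X.stage n).level j hj).A)
      (X.isLocalHom_toA n j hj)).IsEquiv ((X.stage n).level j hj).ρ :=
  (((X.stage n).level j hj).exists_hom (X.D n)).choose_spec.choose_spec.1

/-- The action of the coordinate ring on a level module. -/
def act (n j : ℕ) (hj : j ≤ F.k) :
    MvPowerSeries σ F.E.R →+* Module.End (F.Diamond r n) ((X.stage n).level j hj).M :=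
  ((X.stage n).level j hj).α.comp
    ((X.toA n j hj).toRingHom.comp (X.ev n).toRingHom)

theorem act_apply (n j : ℕ) (hj : j ≤ F.k) (f : MvPowerSeries σ F.E.R) :
    X.act n j hj f = ((X.stage n).level j hj).α (X.toA n j hj (X.ev n f)) :=
  rfl

/-- The restriction to the bottom ring. -/
def res (n : ℕ) : (X.D n).R →ₐ[F.E.R] D₀.R :=
  (F.exists_restrict (X.D n) D₀).choose

theorem isLocalHom_res (n : ℕ) : IsLocalHom (X.res n : (X.D n).R →+* D₀.R) :=
  (F.exists_restrict (X.D n) D₀).choose_spec.1

theorem res_trace (n : ℕ) (τ : Γℚ) : X.res n ((X.D n).ρ.trace τ) = D₀.ρ.trace τ :=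
  (F.exists_restrict (X.D n) D₀).choose_spec.2 τ

/-- The map of the coordinates to the bottom ring at level `n`. -/
def π (n : ℕ) : MvPowerSeries σ F.E.R →+* D₀.R :=
  (X.res n).toRingHom.comp (X.ev n).toRingHom

theorem π_apply (n : ℕ) (f : MvPowerSeries σ F.E.R) : X.π n f = X.res n (X.ev n f) := rfl

theorem π_surjective (hp2 : p ≠ 2) (n : ℕ) : Function.Surjective (X.π n) := by
  have := X.isLocalHom_res n
  exact (F.restrict_surjective hp2 (X.D n) D₀ (X.res n) (X.res_trace n)).comp (X.ev_surjective n)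

theorem isLocalHom_ev (n : ℕ) : IsLocalHom (X.ev n : MvPowerSeries σ F.E.R →+* (X.D n).R) :=
  IsLocalHom.of_surjective _ (X.ev_surjective n)

theorem isLocalHom_π (n : ℕ) : IsLocalHom (X.π n) := by
  have := X.isLocalHom_ev n
  have := X.isLocalHom_res n
  exact RingHom.isLocalHom_comp (X.res n : (X.D n).R →+* D₀.R)
    (X.ev n : MvPowerSeries σ F.E.R →+* (X.D n).R)

/-- The point of the bottom algebra of a level. -/
def bot (D₀ : DeformationRingData F.E.R F.rhobar (F.cond noPrimes)) (j : ℕ) (hj : j ≤ F.k) :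
    D₀.R →ₐ[F.E.R] (B.level j hj).A :=
  ((B.level j hj).exists_hom D₀).choose

theorem isLocalHom_bot (j : ℕ) (hj : j ≤ F.k) :
    IsLocalHom (bot (B := B) D₀ j hj : D₀.R →+* (B.level j hj).A) :=
  ((B.level j hj).exists_hom D₀).choose_spec.choose

theorem bot_trace (j : ℕ) (hj : j ≤ F.k) (τ : Γℚ) :
    bot D₀ j hj (D₀.ρ.trace τ) = (B.level j hj).ρ.trace τ :=
  ((B.level j hj).exists_hom D₀).choose_spec.choose_spec.2 τ

/-- The bottom algebra is generated by the point. -/
theorem bot_surjective (j : ℕ) (hj : j ≤ F.k) :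
    Function.Surjective (bot (B := B) D₀ j hj) := by
  intro a
  have ha : a ∈ Algebra.adjoin F.E.R
      (Set.range (B.level j hj).ρ.trace ∪ Set.range (B.level j hj).diamond) := by
    rw [(B.level j hj).generated]; trivial
  have hle : Algebra.adjoin F.E.R
      (Set.range (B.level j hj).ρ.trace ∪ Set.range (B.level j hj).diamond) ≤
        (bot D₀ j hj).range := by
    refine Algebra.adjoin_le ?_
    rintro _ (⟨τ, rfl⟩ | ⟨s, rfl⟩)
    · exact ⟨D₀.ρ.trace τ, bot_trace j hj τ⟩
    · refine ⟨algebraMap F.E.R D₀.R (MvPowerSeries.constantCoeff s), ?_⟩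
      show bot D₀ j hj _ = _
      rw [(bot D₀ j hj).commutes, ← (B.level j hj).diamond.commutes]
      congr 1
      ext d
      have hd : d = 0 := Subsingleton.elim _ _
      simp [hd, MvPowerSeries.algebraMap_apply, MvPowerSeries.coeff_C]
  exact hle ha

/-- The action of the coordinates commutes with the degeneracy maps. -/
theorem up_act (hp2 : p ≠ 2) (n : ℕ) (i : Fin F.k) (l : Fin 2) (f : MvPowerSeries σ F.E.R)
    (x : ((X.stage n).level i i.2.le).M) :
    (X.stage n).up i l (X.act n i i.2.le f x) =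
      X.act n ((i : ℕ) + 1) i.2 f ((X.stage n).up i l x) := by
  have := X.isLocalHom_toA n i i.2.le
  have := X.isLocalHom_toA n ((i : ℕ) + 1) i.2
  exact map_act_of_trace F hp2 (X.D n) _ _ (X.toA n i i.2.le) (X.toA n ((i : ℕ) + 1) i.2)
    (RingHom.id _) (Ideal.map_id _).le (fun _ => rfl) ((X.stage n).up i l).toAddMonoidHom
    (fun s y => ((X.stage n).up i l).map_smul _ y)
    (fun τ y => by rw [X.toA_trace, X.toA_trace]; exact (X.stage n).up_trace i l τ y) _ x

theorem down_act (hp2 : p ≠ 2) (n : ℕ) (i : Fin F.k) (l : Fin 2) (f : MvPowerSeries σ F.E.R)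
    (x : ((X.stage n).level ((i : ℕ) + 1) i.2).M) :
    (X.stage n).down i l (X.act n ((i : ℕ) + 1) i.2 f x) =
      X.act n i i.2.le f ((X.stage n).down i l x) := by
  have := X.isLocalHom_toA n i i.2.le
  have := X.isLocalHom_toA n ((i : ℕ) + 1) i.2
  exact map_act_of_trace F hp2 (X.D n) _ _ (X.toA n ((i : ℕ) + 1) i.2) (X.toA n i i.2.le)
    (RingHom.id _) (Ideal.map_id _).le (fun _ => rfl) ((X.stage n).down i l).toAddMonoidHom
    (fun s y => ((X.stage n).down i l).map_smul _ y)
    (fun τ y => by rw [X.toA_trace, X.toA_trace]; exact (X.stage n).down_trace i l τ y) _ x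

/-- The reduction carries the action to the bottom action. -/
theorem red_act (hp2 : p ≠ 2) (n j : ℕ) (hj : j ≤ F.k) (f : MvPowerSeries σ F.E.R)
    (x : ((X.stage n).level j hj).M) :
    (X.stage n).red j hj (X.act n j hj f x) =
      (B.level j hj).α (bot D₀ j hj (X.π n f)) ((X.stage n).red j hj x) := by
  have := X.isLocalHom_toA n j hj
  have := X.isLocalHom_res n
  have := isLocalHom_bot (B := B) (D₀ := D₀) j hj
  have hloc : IsLocalHom (((bot D₀ j hj).comp (X.res n) : (X.D n).R →ₐ[F.E.R] (B.level j hj).A) :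
      (X.D n).R →+* (B.level j hj).A) :=
    ⟨fun a ha => (X.isLocalHom_res n).map_nonunit a
      ((isLocalHom_bot (B := B) (D₀ := D₀) j hj).map_nonunit _ ha)⟩
  refine map_act_of_trace F hp2 (X.D n) _ _ (X.toA n j hj) ((bot D₀ j hj).comp (X.res n))
    ((MvPowerSeries.C (σ := Fin 0)).comp MvPowerSeries.constantCoeff) ?_ (fun c => by simp)
    ((X.stage n).red j hj) ((X.stage n).red_smul j hj) (fun τ y => ?_) _ x
  · refine Ideal.map_le_iff_le_comap.mpr fun s hs => ?_
    rw [mem_maximalIdeal, mem_nonunits_iff, MvPowerSeries.isUnit_iff_constantCoeff] at hs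
    simpa [MvPowerSeries.isUnit_iff_constantCoeff] using hs
  · rw [X.toA_trace, AlgHom.comp_apply, X.res_trace, bot_trace]
    exact (X.stage n).red_trace j hj τ y

/-- The composites of the degeneracy maps as a matrix of coordinates. -/
def T (i : Fin F.k) : Matrix (Fin 2) (Fin 2) (MvPowerSeries σ F.E.R) :=
  !![(F.site i : MvPowerSeries σ F.E.R) + 1, X.frobT i;
    X.frobT i, (F.site i : MvPowerSeries σ F.E.R) + 1]

theorem T_det (i : Fin F.k) :
    (X.T i).det = ((F.site i : MvPowerSeries σ F.E.R) + 1) ^ 2 - X.frobT i ^ 2 := by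
  rw [T, Matrix.det_fin_two_of]
  ring

theorem toA_ev_T (n : ℕ) (i : Fin F.k) (k l : Fin 2) :
    X.toA n i i.2.le (X.ev n (X.T i k l)) =
      F.raiseMatrix ((X.stage n).level i i.2.le).ρ (F.site i) k l := by
  fin_cases k <;> fin_cases l <;>
    simp [T, raiseMatrix, map_natCast, X.ev_frobT, X.toA_trace]

theorem down_up_act (n : ℕ) (i : Fin F.k) (k l : Fin 2) (x : ((X.stage n).level i i.2.le).M) :
    (X.stage n).down i k ((X.stage n).up i l x) = X.act n i i.2.le (X.T i k l) x := by
  rw [(X.stage n).down_up, act_apply, X.toA_ev_T]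

theorem bot_π_T (n : ℕ) (i : Fin F.k) (k l : Fin 2) :
    bot D₀ i i.2.le (X.π n (X.T i k l)) =
      F.raiseMatrix (B.level i i.2.le).ρ (F.site i) k l := by
  fin_cases k <;> fin_cases l <;>
    simp [T, raiseMatrix, π_apply, map_natCast, X.ev_frobT, X.res_trace, bot_trace]

/-! ## The lifts of the `z`-variables -/

theorem res_trace_inertia_sub (n : ℕ) (i : Fin r) :
    X.res n ((X.D n).ρ.trace ((X.stage n).inertia i) - 2) = 0 := by
  rw [map_sub, X.res_trace, map_ofNat, GaloisRepAdic.trace]
  have hu := F.unramified_of_cond D₀.isOfType ((X.isTWTuple n).prime i) (fun hmem => by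
    refine (X.isTWTuple n).notMem i ?_
    simp only [ramSet, avoided, Finset.mem_insert, Finset.mem_union, Finset.mem_image,
      IsEmpty.exists_iff, or_false] at hmem ⊢
    tauto) _ (F.liesOver _ ((X.isTWTuple n).prime i)) _ ((X.stage n).inertia_mem i)
  rw [hu, LinearMap.trace_one, D₀.ρ.finrank_eq]
  norm_num

theorem trace_inertia_sub_mem (n : ℕ) (i : Fin r) :
    (X.D n).ρ.trace ((X.stage n).inertia i) - 2 ∈ maximalIdeal (X.D n).R := fun hu =>
  not_isUnit_zero (M₀ := D₀.R) (X.res_trace_inertia_sub n i ▸ hu.map (X.res n))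

theorem exists_zLift (n : ℕ) (i : ULift.{0} (Fin r)) :
    ∃ f ∈ maximalIdeal (MvPowerSeries σ F.E.R),
      X.ev n f = (X.D n).ρ.trace ((X.stage n).inertia i.down) - 2 := by
  obtain ⟨f, hf⟩ := X.ev_surjective n ((X.D n).ρ.trace ((X.stage n).inertia i.down) - 2)
  refine ⟨f, fun hu => ?_, hf⟩
  exact X.trace_inertia_sub_mem n i.down (hf ▸ hu.map (X.ev n))

/-- The lifts of the `z`-variables at level `n`. -/
def φ (n : ℕ) : ZSer F.E.R r →+* MvPowerSeries σ F.E.R :=
  Local.evalHom (maximalIdeal _) MvPowerSeries.C (fun i => (X.exists_zLift n i).choose)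
    fun i => (X.exists_zLift n i).choose_spec.1

theorem toA_ev_φ (n j : ℕ) (hj : j ≤ F.k) (s : ZSer F.E.R r) :
    X.toA n j hj (X.ev n (X.φ n s)) =
      ((X.stage n).level j hj).diamond (zToY F.E.R r s) := by
  set L := (X.stage n).level j hj
  let f : ZSer F.E.R r →+* L.A :=
    ((X.toA n j hj).toRingHom.comp (X.ev n).toRingHom).comp (X.φ n)
  let g : ZSer F.E.R r →+* L.A := L.diamond.toRingHom.comp (zToY F.E.R r)
  have hC : ∀ (c : F.E.R) {τ : Type}, (MvPowerSeries.C c : MvPowerSeries τ F.E.R) =
      algebraMap F.E.R _ c := fun c τ => by simp [MvPowerSeries.algebraMap_apply]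
  have h : f = g := by
    refine Local.ringHom_ext (maximalIdeal L.A) (fun c => ?_) (fun i => ?_) fun i => ?_
    · show X.toA n j hj (X.ev n (X.φ n (MvPowerSeries.C c))) =
        L.diamond (zToY F.E.R r (MvPowerSeries.C c))
      rw [φ, Local.evalHom_C, zToY_C, hC, hC, AlgHom.commutes, AlgHom.commutes, AlgHom.commutes]
    · show X.toA n j hj (X.ev n (X.φ n (MvPowerSeries.X i))) =
        L.diamond (zToY F.E.R r (MvPowerSeries.X i))
      rw [φ, Local.evalHom_X, zToY_X, (X.exists_zLift n i).choose_spec.2, map_sub, X.toA_trace,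
        map_ofNat]
      refine ((isUnit_one_add_X (O := F.E.R) i.down).map L.diamond).mul_right_cancel ?_
      rw [← map_mul L.diamond, zVal_mul, map_pow]
      exact ((X.stage n).diamond_trace j hj i.down).symm
    · have := X.isLocalHom_toA n j hj
      show X.toA n j hj (X.ev n (X.φ n (MvPowerSeries.X i))) ∈ _
      rw [φ, Local.evalHom_X, (X.exists_zLift n i).choose_spec.2]
      exact map_nonunit (X.toA n j hj : (X.D n).R →+* L.A) _ (X.trace_inertia_sub_mem n i.down)
  exact RingHom.congr_fun h s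

theorem act_φ (n j : ℕ) (hj : j ≤ F.k) (s : ZSer F.E.R r)
    (x : ((X.stage n).level j hj).M) :
    X.act n j hj (X.φ n s) x =
      Ideal.Quotient.mk (F.diamondRel r n) (zToY F.E.R r s) • x := by
  rw [act_apply, X.toA_ev_φ, ((X.stage n).level j hj).α_diamond]

end LiftChoice

end LiftFrame

end FLTA.RT

end
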